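/-
Ramification package (S56, leaf (4b)), part 5: lower ramification subgroups, root estimates and
the approximate homomorphism `𝒪_L = 𝒪_{K₀}[α] → 𝒪_Ω`, `α ↦ β`, of the sharp form of Fontaine's
Proposition 1.5(ii).  Abstract: `L` complete ultrametric with finite residue field, `J` a finite
group acting faithfully by isometries trivial on the residue field, `Ω` any ultrametric normed
field extension of `L` with isometric structure map.
-/
import Fermat.Agent.Ram.SharpConst_helper8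

set_option autoImplicit false
set_option linter.unusedSectionVars false

namespace Fermat.Agent.Ram

open Filter Topology Polynomial

section RamSubgroup

variable {L : Type*} [NormedField L] [IsUltrametricDist L]
variable {J : Type*} [Group J] [MulSemiringAction J L] [IsIsometricSMul J L]

lemma norm_mul_smul_sub_le (α : L) (σ τ : J) :
    ‖(σ * τ) • α - α‖ ≤ max ‖σ • α - α‖ ‖τ • α - α‖ := by
  have h : (σ * τ) • α - α = σ • (τ • α - α) + (σ • α - α) := by
    rw [mul_smul, smul_sub]; ring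
  rw [h]
  refine (IsUltrametricDist.norm_add_le_max _ _).trans ?_
  rw [norm_smul_eq, max_comm]

lemma norm_inv_smul_sub (α : L) (σ : J) : ‖σ⁻¹ • α - α‖ = ‖σ • α - α‖ := by
  have h : σ⁻¹ • α - α = -(σ⁻¹ • (σ • α - α)) := by
    rw [smul_sub, inv_smul_smul]; ring
  rw [h, norm_neg, norm_smul_eq]

lemma norm_smul_sub_smul (α : L) (σ τ : J) : ‖σ • α - τ • α‖ = ‖(τ⁻¹ * σ) • α - α‖ := by
  have h : (τ⁻¹ * σ) • α - α = τ⁻¹ • (σ • α - τ • α) := by
    rw [mul_smul, smul_sub, inv_smul_smul]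
  rw [h, norm_smul_eq]

/-- The lower ramification subgroup `{σ | ‖σ α - α‖ ≤ ρ}`. -/
def ramSubgroup (J : Type*) [Group J] [MulSemiringAction J L] [IsIsometricSMul J L]
    (α : L) {ρ : ℝ} (hρ : 0 ≤ ρ) : Subgroup J where
  carrier := {σ | ‖σ • α - α‖ ≤ ρ}
  one_mem' := by simpa using hρ
  mul_mem' := fun {σ τ} hσ hτ => (norm_mul_smul_sub_le α σ τ).trans (max_le hσ hτ)
  inv_mem' := fun {σ} hσ => by
    show ‖σ⁻¹ • α - α‖ ≤ ρ
    rw [norm_inv_smul_sub]; exact hσ

lemma mem_ramSubgroup {α : L} {ρ : ℝ} (hρ : 0 ≤ ρ) {σ : J} :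
    σ ∈ ramSubgroup J α hρ ↔ ‖σ • α - α‖ ≤ ρ := Iff.rfl

end RamSubgroup

section Roots

variable {L : Type*} [NormedField L] [IsUltrametricDist L]
variable {H : Type*} [Group H] [Fintype H] [MulSemiringAction H L] [IsIsometricSMul H L]
variable {Ω : Type*} [NormedField Ω] [IsUltrametricDist Ω] [Algebra L Ω]

/-- **Root estimates.** Let all nontrivial elements of `H` move `α` by exactly `ρ₀` (`H` = last
ramification subgroup) and let `β` be a root of `∏ τ : H, (X - τ α) - c` with `‖c‖ = ρ₀ ^ |H|`.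
Then `‖β - τ α‖ = ρ₀` for every `τ : H`. -/
theorem norm_root_sub_eq (hiso : ∀ x : L, ‖algebraMap L Ω x‖ = ‖x‖) {α : L} {ρ₀ : ℝ} (hρ₀ : 0 < ρ₀)
    (hH : ∀ τ : H, τ ≠ 1 → ‖τ • α - α‖ = ρ₀)
    {c : L} (hc : ‖c‖ = ρ₀ ^ Fintype.card H) {β : Ω}
    (hβ : ∏ τ : H, (β - algebraMap L Ω (τ • α)) = algebraMap L Ω c)
    (τ₁ : H) : ‖β - algebraMap L Ω (τ₁ • α)‖ = ρ₀ := by
  classical
  set ι := algebraMap L Ω with hι
  -- distances between conjugates
  have hdist : ∀ τ τ' : H, τ ≠ τ' → ‖ι (τ • α) - ι (τ' • α)‖ = ρ₀ := by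
    intro τ τ' hne
    rw [← map_sub, hiso, norm_smul_sub_smul]
    apply hH
    intro h
    exact hne (inv_mul_eq_one.mp h).symm
  have hdist_le : ∀ τ τ' : H, ‖ι (τ • α) - ι (τ' • α)‖ ≤ ρ₀ := by
    intro τ τ'
    by_cases h : τ = τ'
    · rw [h, sub_self, norm_zero]; exact hρ₀.le
    · exact (hdist τ τ' h).le
  have hprodnorm : ∏ τ : H, ‖β - ι (τ • α)‖ = ρ₀ ^ Fintype.card H := by
    rw [← norm_prod, hβ, hiso, hc]
  have hcard : Fintype.card H ≠ 0 := Fintype.card_ne_zero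
  -- Step A : none is bigger
  have hA : ∀ τ : H, ‖β - ι (τ • α)‖ ≤ ρ₀ := by
    intro τ₁
    by_contra hcon
    rw [not_le] at hcon
    have hsame : ∀ τ : H, ‖β - ι (τ • α)‖ = ‖β - ι (τ₁ • α)‖ := by
      intro τ
      have : β - ι (τ • α) = (β - ι (τ₁ • α)) + (ι (τ₁ • α) - ι (τ • α)) := by ring
      rw [this]
      exact norm_add_eq_of_lt' ((hdist_le τ₁ τ).trans_lt hcon)
    have h1 : ∏ τ : H, ‖β - ι (τ • α)‖ = ‖β - ι (τ₁ • α)‖ ^ Fintype.card H := by
      simp only [hsame]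
      rw [Finset.prod_const, Finset.card_univ]
    rw [hprodnorm] at h1
    have := pow_lt_pow_left₀ hcon hρ₀.le hcard
    linarith
  -- Step B : none is smaller
  refine le_antisymm (hA τ₁) ?_
  by_contra hcon
  rw [not_le] at hcon
  have hothers : ∀ τ : H, τ ≠ τ₁ → ‖β - ι (τ • α)‖ = ρ₀ := by
    intro τ hne
    have : β - ι (τ • α) = (β - ι (τ₁ • α)) + (ι (τ₁ • α) - ι (τ • α)) := by ring
    rw [this, norm_add_eq_of_lt (by rw [hdist τ₁ τ (Ne.symm hne)]; exact hcon),
      hdist τ₁ τ (Ne.symm hne)]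
  have h1 : ∏ τ : H, ‖β - ι (τ • α)‖ = ‖β - ι (τ₁ • α)‖ * ρ₀ ^ (Fintype.card H - 1) := by
    rw [← Finset.mul_prod_erase Finset.univ _ (Finset.mem_univ τ₁)]
    congr 1
    rw [Finset.prod_congr rfl (fun τ hτ => hothers τ (Finset.ne_of_mem_erase hτ)),
      Finset.prod_const, Finset.card_erase_of_mem (Finset.mem_univ τ₁), Finset.card_univ]
  rw [hprodnorm] at h1
  have h2 : ρ₀ ^ Fintype.card H = ρ₀ * ρ₀ ^ (Fintype.card H - 1) := by
    rw [← pow_succ', Nat.sub_add_cancel (Nat.one_le_iff_ne_zero.mpr hcard)]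
  rw [h2] at h1
  have h3 : 0 < ρ₀ ^ (Fintype.card H - 1) := pow_pos hρ₀ _
  have := mul_lt_mul_of_pos_right hcon h3
  linarith

end Roots

section Key

variable {L : Type*} [NormedField L] [IsUltrametricDist L] [CompleteSpace L] [Finite (Res L)]
variable {J : Type*} [Group J] [Fintype J] [MulSemiringAction J L] [IsIsometricSMul J L]
variable {Ω : Type*} [NormedField Ω] [IsUltrametricDist Ω] [Algebra L Ω]

/-- The integers of the fixed field `L ^ J`, as a subring of `L`. -/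
def fixedInt (J : Type*) (L : Type*) [NormedField L] [IsUltrametricDist L] [Group J]
    [MulSemiringAction J L] : Subring L :=
  (FixedPoints.subfield J L).toSubring ⊓ intRing L

lemma mem_fixedInt {x : L} : x ∈ fixedInt J L ↔ x ∈ FixedPoints.subfield J L ∧ ‖x‖ ≤ 1 := by
  rw [fixedInt, Subring.mem_inf]; rfl

lemma fixedInt_le : fixedInt J L ≤ intRing L := inf_le_right

lemma smul_fixedInt (σ : J) (x : fixedInt J L) : σ • (x : L) = x :=
  (mem_fixedInt.mp x.2).1 σ

/-- Evaluation of a polynomial with fixed coefficients commutes with the action. -/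
lemma smul_eval₂_fixedInt (σ : J) (q : (fixedInt J L)[X]) (x : L) :
    σ • (q.eval₂ (fixedInt J L).subtype x) = q.eval₂ (fixedInt J L).subtype (σ • x) := by
  rw [eval₂_eq_sum_range, eval₂_eq_sum_range, Finset.smul_sum]
  apply Finset.sum_congr rfl
  intro i _
  rw [smul_mul', smul_pow']
  congr 1
  exact smul_fixedInt σ _

/-- Polynomials with integral coefficients take integral values at integral points. -/
lemma norm_eval₂_le_one (hiso : ∀ x : L, ‖algebraMap L Ω x‖ = ‖x‖) (h : (intRing L)[X])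
    {β : Ω} (hβ : ‖β‖ ≤ 1) :
    ‖h.eval₂ ((algebraMap L Ω).comp (intRing L).subtype) β‖ ≤ 1 := by
  rw [eval₂_eq_sum_range]
  apply IsUltrametricDist.norm_sum_le_of_forall_le_of_nonneg zero_le_one
  intro i _
  rw [norm_mul, norm_pow]
  refine mul_le_one₀ ?_ (pow_nonneg (norm_nonneg _) _) (pow_le_one₀ (norm_nonneg _) hβ)
  simp only [RingHom.comp_apply, Subring.coe_subtype, hiso]
  exact (h.coeff i).2

/-- Polynomial form of the structure theorem, with polynomials over `fixedInt`. -/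
theorem TR.exists_poly' {α : L} (hα : IsUnif (⊤ : Subfield L) α)
    (htriv : ∀ (σ : J) (a : L), ‖a‖ ≤ 1 → ‖σ • a - a‖ < 1)
    (M : Subfield L) (hM : FixedPoints.subfield J L ≤ M) {π : L} (hπ : IsUnif M π)
    {a : L} (ha : a ∈ M) (ha1 : ‖a‖ ≤ 1) :
    ∃ g : (fixedInt J L)[X], g.eval₂ (fixedInt J L).subtype π = a := by
  obtain ⟨b, hb, hrep⟩ := TR.exists_repr hα htriv M hM hπ ha ha1
  refine ⟨∑ i ∈ Finset.range (Fintype.card J),
    C (⟨b i, mem_fixedInt.mpr (hb i)⟩ : fixedInt J L) * X ^ i, ?_⟩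
  rw [eval₂_finsetSum, hrep]
  apply Finset.sum_congr rfl
  intro i _
  simp

variable [FaithfulSMul J L]

/-- **Key lemma.**  A polynomial over `𝒪_{K₀}` vanishing at the uniformizer `α` of `L` takes, at
an integral point `β` of `Ω`, a value divisible by `∏ σ, (β - σ α)`. -/
theorem norm_eval₂_le_of_root (hiso : ∀ x : L, ‖algebraMap L Ω x‖ = ‖x‖)
    {α : L} (hα : IsUnif (⊤ : Subfield L) α)
    (htriv : ∀ (σ : J) (a : L), ‖a‖ ≤ 1 → ‖σ • a - a‖ < 1)
    (q : (fixedInt J L)[X]) (hq : q.eval₂ (fixedInt J L).subtype α = 0)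
    {β : Ω} (hβ : ‖β‖ ≤ 1) :
    ‖q.eval₂ ((algebraMap L Ω).comp (fixedInt J L).subtype) β‖
      ≤ ‖∏ σ : J, (β - algebraMap L Ω (σ • α))‖ := by
  classical
  by_cases hq0 : q = 0
  · rw [hq0, eval₂_zero, norm_zero]; exact norm_nonneg _
  set incl : fixedInt J L →+* intRing L := Subring.inclusion fixedInt_le with hincl
  have hincl_inj : Function.Injective incl := Subring.inclusion_injective _
  set q₁ : (intRing L)[X] := q.map incl with hq₁
  have hq₁0 : q₁ ≠ 0 := (Polynomial.map_ne_zero_iff hincl_inj).mpr hq0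
  have hα1 : ‖α‖ ≤ 1 := hα.lt_one.le
  -- the conjugates as integers
  set a : J → intRing L := fun σ => ⟨σ • α, by rw [mem_intRing, norm_smul_eq]; exact hα1⟩ with ha
  have ha_inj : Function.Injective a := by
    intro σ τ h
    have h1 : σ • α = τ • α := congrArg Subtype.val h
    have h2 : (τ⁻¹ * σ) • α = α := by rw [mul_smul, h1, inv_smul_smul]
    have := TR.eq_one_of_smul_unif hα htriv _ h2
    exact (inv_mul_eq_one.mp this).symm
  have hroot : ∀ σ : J, q₁.IsRoot (a σ) := by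
    intro σ
    rw [IsRoot.def, hq₁, eval_map]
    apply Subtype.ext
    have h1 : ((q.eval₂ incl (a σ) : intRing L) : L)
        = q.eval₂ (fixedInt J L).subtype (σ • α) := by
      rw [← Subring.coe_subtype, hom_eval₂]
      rfl
    rw [h1, ← smul_eval₂_fixedInt, hq, smul_zero]
    rfl
  -- divisibility
  set s : Multiset (intRing L) := (Finset.univ : Finset J).val.map a with hs
  have hs_nodup : s.Nodup := Multiset.Nodup.map ha_inj Finset.univ.nodup
  have hs_le : s ≤ q₁.roots := by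
    rw [Multiset.le_iff_subset hs_nodup]
    intro x hx
    rw [hs, Multiset.mem_map] at hx
    obtain ⟨σ, _, rfl⟩ := hx
    exact (mem_roots hq₁0).mpr (hroot σ)
  obtain ⟨h, hh⟩ := (Multiset.prod_X_sub_C_dvd_iff_le_roots hq₁0 s).mpr hs_le
  -- evaluate
  set φ : intRing L →+* Ω := (algebraMap L Ω).comp (intRing L).subtype with hφ
  have hφincl : φ.comp incl = (algebraMap L Ω).comp (fixedInt J L).subtype := by
    ext x; rfl
  have heval : q.eval₂ ((algebraMap L Ω).comp (fixedInt J L).subtype) β = q₁.eval₂ φ β := by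
    rw [hq₁, eval₂_map, hφincl]
  have hprod : (s.map fun x => X - C x).prod.eval₂ φ β
      = ∏ σ : J, (β - algebraMap L Ω (σ • α)) := by
    rw [hs, Multiset.map_map, ← Finset.prod_eq_multiset_prod]
    rw [← coe_eval₂RingHom, map_prod]
    apply Finset.prod_congr rfl
    intro σ _
    simp [hφ, ha]
  rw [heval, hh, eval₂_mul, hprod, norm_mul]
  exact mul_le_of_le_one_right (norm_nonneg _) (norm_eval₂_le_one hiso h hβ)

/-- **The approximate homomorphism.**  For an integral `β : Ω` there is a map `η : L → Ω`,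
integral on integers, with values in every subfield containing `β` and the image of `L ^ J`,
which is a ring homomorphism modulo `∏ σ, (β - σ α)`. -/
theorem exists_approx_hom (hiso : ∀ x : L, ‖algebraMap L Ω x‖ = ‖x‖)
    {α : L} (hα : IsUnif (⊤ : Subfield L) α)
    (htriv : ∀ (σ : J) (a : L), ‖a‖ ≤ 1 → ‖σ • a - a‖ < 1) {β : Ω} (hβ : ‖β‖ ≤ 1) :
    ∃ η : L → Ω,
      (∀ a : L, ‖a‖ ≤ 1 → ‖η a‖ ≤ 1) ∧
      (∀ a : L, ‖a‖ ≤ 1 → ∀ E : Subfield Ω, β ∈ E →
        (∀ x ∈ FixedPoints.subfield J L, algebraMap L Ω x ∈ E) → η a ∈ E) ∧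
      ‖η 1 - 1‖ ≤ ‖∏ σ : J, (β - algebraMap L Ω (σ • α))‖ ∧
      (∀ a b : L, ‖a‖ ≤ 1 → ‖b‖ ≤ 1 →
        ‖η (a + b) - (η a + η b)‖ ≤ ‖∏ σ : J, (β - algebraMap L Ω (σ • α))‖) ∧
      (∀ a b : L, ‖a‖ ≤ 1 → ‖b‖ ≤ 1 →
        ‖η (a * b) - η a * η b‖ ≤ ‖∏ σ : J, (β - algebraMap L Ω (σ • α))‖) := by
  classical
  have hex : ∀ a : L, ∃ g : (fixedInt J L)[X], ‖a‖ ≤ 1 →
      g.eval₂ (fixedInt J L).subtype α = a := by
    intro a
    by_cases ha : ‖a‖ ≤ 1
    · obtain ⟨g, hg⟩ := TR.exists_poly' (J := J) hα htriv ⊤ le_top hα (Subfield.mem_top a) ha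
      exact ⟨g, fun _ => hg⟩
    · exact ⟨0, fun h => absurd h ha⟩
  choose g hg using hex
  set φ₀ : fixedInt J L →+* Ω := (algebraMap L Ω).comp (fixedInt J L).subtype with hφ₀
  refine ⟨fun a => (g a).eval₂ φ₀ β, ?_, ?_, ?_, ?_, ?_⟩
  · intro a _
    show ‖(g a).eval₂ φ₀ β‖ ≤ 1
    have : (g a).eval₂ φ₀ β
        = ((g a).map (Subring.inclusion fixedInt_le)).eval₂
          ((algebraMap L Ω).comp (intRing L).subtype) β := by
      rw [eval₂_map]; rfl
    rw [this]
    exact norm_eval₂_le_one hiso _ hβ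
  · intro a _ E hβE hE
    show (g a).eval₂ φ₀ β ∈ E
    rw [eval₂_eq_sum_range]
    apply Subfield.sum_mem
    intro i _
    refine Subfield.mul_mem _ ?_ (Subfield.pow_mem _ hβE _)
    exact hE _ (mem_fixedInt.mp ((g a).coeff i).2).1
  · have h1 : (g 1 - 1).eval₂ (fixedInt J L).subtype α = 0 := by
      rw [eval₂_sub, hg 1 (by simp), eval₂_one, sub_self]
    have := norm_eval₂_le_of_root hiso hα htriv (g 1 - 1) h1 hβ
    rwa [eval₂_sub, eval₂_one] at this
  · intro a b ha hb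
    have hab : ‖a + b‖ ≤ 1 := norm_add_le_of_le ha hb
    have h1 : (g (a + b) - (g a + g b)).eval₂ (fixedInt J L).subtype α = 0 := by
      rw [eval₂_sub, eval₂_add, hg _ hab, hg _ ha, hg _ hb, sub_self]
    have := norm_eval₂_le_of_root hiso hα htriv _ h1 hβ
    rwa [eval₂_sub, eval₂_add] at this
  · intro a b ha hb
    have hab : ‖a * b‖ ≤ 1 := by
      rw [norm_mul]; exact mul_le_one₀ ha (norm_nonneg _) hb
    have h1 : (g (a * b) - g a * g b).eval₂ (fixedInt J L).subtype α = 0 := by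
      rw [eval₂_sub, eval₂_mul, hg _ hab, hg _ ha, hg _ hb, sub_self]
    have := norm_eval₂_le_of_root hiso hα htriv _ h1 hβ
    rwa [eval₂_sub, eval₂_mul] at this

end Key

end Fermat.Agent.Ram
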