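/-
Ramification package (S56, leaf (4b)), part 6: Fontaine's function `i` in norm language
(`iFun L σ = sup_{‖a‖ ≤ 1} ‖σ a - a‖ = p ^ (-i(σ))`), the inertia subgroup, and the function
`Ufun σ = ∏ τ, max (iFun L τ) (iFun L σ) = p ^ (-u(σ))`.
-/
import Fermat.Agent.Ram.SharpHom_helper8

set_option autoImplicit false
set_option linter.unusedSectionVars false

namespace Fermat.Agent.Ram

open Filter Topology

section IFun

variable {L : Type*} [NormedField L] [IsUltrametricDist L]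
variable {G : Type*} [Group G] [MulSemiringAction G L] [IsIsometricSMul G L]

/-- `iFun L σ = sup { ‖σ a - a‖ : ‖a‖ ≤ 1 }`. -/
noncomputable def iFun (L : Type*) [NormedField L] {G : Type*} [Group G] [MulSemiringAction G L]
    (σ : G) : ℝ := sSup {r : ℝ | ∃ a : L, ‖a‖ ≤ 1 ∧ r = ‖σ • a - a‖}

lemma norm_smul_sub_le_one (σ : G) {a : L} (ha : ‖a‖ ≤ 1) : ‖σ • a - a‖ ≤ 1 :=
  norm_sub_le_of_le (by rw [norm_smul_eq]; exact ha) ha

lemma iFun_bddAbove (σ : G) : BddAbove {r : ℝ | ∃ a : L, ‖a‖ ≤ 1 ∧ r = ‖σ • a - a‖} :=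
  ⟨1, by rintro r ⟨a, ha, rfl⟩; exact norm_smul_sub_le_one σ ha⟩

lemma norm_smul_sub_le_iFun (σ : G) {a : L} (ha : ‖a‖ ≤ 1) : ‖σ • a - a‖ ≤ iFun L σ :=
  le_csSup (iFun_bddAbove σ) ⟨a, ha, rfl⟩

lemma iFun_le {σ : G} {c : ℝ} (h : ∀ a : L, ‖a‖ ≤ 1 → ‖σ • a - a‖ ≤ c) : iFun L σ ≤ c := by
  unfold iFun
  refine csSup_le ⟨‖σ • (0 : L) - 0‖, 0, by simp, rfl⟩ ?_
  rintro r ⟨a, ha, rfl⟩
  exact h a ha

lemma iFun_nonneg (σ : G) : 0 ≤ iFun L σ :=
  (norm_nonneg _).trans (norm_smul_sub_le_iFun σ (a := (0 : L)) (by simp))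

lemma iFun_le_one (σ : G) : iFun L σ ≤ 1 := iFun_le fun _ ha => norm_smul_sub_le_one σ ha

lemma iFun_one : iFun L (1 : G) = 0 :=
  le_antisymm (iFun_le fun a _ => by simp) (iFun_nonneg _)

lemma iFun_mul_le (σ τ : G) : iFun L (σ * τ) ≤ max (iFun L σ) (iFun L τ) := by
  apply iFun_le
  intro a ha
  have h : (σ * τ) • a - a = σ • (τ • a - a) + (σ • a - a) := by
    rw [mul_smul, smul_sub]; ring
  rw [h]
  refine (IsUltrametricDist.norm_add_le_max _ _).trans ?_
  rw [norm_smul_eq, max_comm]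
  exact max_le_max (norm_smul_sub_le_iFun σ ha) (norm_smul_sub_le_iFun τ ha)

lemma iFun_inv (σ : G) : iFun L σ⁻¹ = iFun L σ := by
  have key : ∀ ρ : G, iFun L ρ⁻¹ ≤ iFun L ρ := by
    intro ρ
    apply iFun_le
    intro a ha
    have h : ρ⁻¹ • a - a = -(ρ⁻¹ • (ρ • a - a)) := by
      rw [smul_sub, inv_smul_smul]; ring
    rw [h, norm_neg, norm_smul_eq]
    exact norm_smul_sub_le_iFun ρ ha
  refine le_antisymm (key σ) ?_
  have := key σ⁻¹
  rwa [inv_inv] at this

lemma iFun_conj (σ τ : G) : iFun L (τ * σ * τ⁻¹) = iFun L σ := by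
  have key : ∀ ρ ν : G, iFun L (ν * ρ * ν⁻¹) ≤ iFun L ρ := by
    intro ρ ν
    apply iFun_le
    intro a ha
    have h : (ν * ρ * ν⁻¹) • a - a = ν • (ρ • (ν⁻¹ • a) - ν⁻¹ • a) := by
      rw [mul_smul, mul_smul, smul_sub, smul_inv_smul]
    rw [h, norm_smul_eq]
    exact norm_smul_sub_le_iFun ρ (by rw [norm_smul_eq]; exact ha)
  refine le_antisymm (key σ τ) ?_
  have := key (τ * σ * τ⁻¹) τ⁻¹
  simpa [mul_assoc] using this

/-- Equality case of the ultrametric inequality. -/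
lemma iFun_mul_eq_of_lt {σ τ : G} (h : iFun L σ < iFun L τ) :
    iFun L (σ * τ) = iFun L τ := by
  refine le_antisymm ((iFun_mul_le σ τ).trans (max_le h.le le_rfl)) ?_
  -- τ = σ⁻¹ * (σ τ)
  have h1 : iFun L τ ≤ max (iFun L σ⁻¹) (iFun L (σ * τ)) := by
    have := iFun_mul_le (L := L) σ⁻¹ (σ * τ)
    rwa [inv_mul_cancel_left] at this
  rw [iFun_inv] at h1
  rcases le_max_iff.mp h1 with h2 | h2
  · exact absurd h2 (not_le.mpr h)
  · exact h2

/-- The inertia subgroup: elements acting trivially on the residue field. -/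
def inertia (G : Type*) (L : Type*) [NormedField L] [IsUltrametricDist L] [Group G]
    [MulSemiringAction G L] [IsIsometricSMul G L] : Subgroup G where
  carrier := {σ | ∀ a : L, ‖a‖ ≤ 1 → ‖σ • a - a‖ < 1}
  one_mem' := fun a _ => by simp
  mul_mem' := fun {σ τ} hσ hτ a ha => by
    have h : (σ * τ) • a - a = σ • (τ • a - a) + (σ • a - a) := by
      rw [mul_smul, smul_sub]; ring
    rw [h]
    exact norm_add_lt_of_lt (by rw [norm_smul_eq]; exact hτ a ha) (hσ a ha)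
  inv_mem' := fun {σ} hσ a ha => by
    have h : σ⁻¹ • a - a = -(σ⁻¹ • (σ • a - a)) := by
      rw [smul_sub, inv_smul_smul]; ring
    rw [h, norm_neg, norm_smul_eq]
    exact hσ a ha

lemma mem_inertia {σ : G} : σ ∈ inertia G L ↔ ∀ a : L, ‖a‖ ≤ 1 → ‖σ • a - a‖ < 1 := Iff.rfl

instance inertia_normal : (inertia G L).Normal := by
  refine ⟨fun σ hσ τ a ha => ?_⟩
  have h : (τ * σ * τ⁻¹) • a - a = τ • (σ • (τ⁻¹ • a) - τ⁻¹ • a) := by
    rw [mul_smul, mul_smul, smul_sub, smul_inv_smul]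
  rw [h, norm_smul_eq]
  exact hσ _ (by rw [norm_smul_eq]; exact ha)

lemma iFun_eq_one_of_not_mem_inertia {σ : G} (hσ : σ ∉ inertia G L) : iFun L σ = 1 := by
  refine le_antisymm (iFun_le_one σ) ?_
  rw [mem_inertia] at hσ
  push Not at hσ
  obtain ⟨a, ha, h1⟩ := hσ
  exact h1.trans (norm_smul_sub_le_iFun σ ha)

lemma inertia_triv (σ : inertia G L) (a : L) (ha : ‖a‖ ≤ 1) : ‖σ • a - a‖ < 1 := σ.2 a ha

end IFun

section IFunTR

variable {L : Type*} [NormedField L] [IsUltrametricDist L] [CompleteSpace L] [Finite (Res L)]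
variable {G : Type*} [Group G] [Fintype G] [MulSemiringAction G L] [IsIsometricSMul G L]

/-- On the inertia subgroup `iFun` is computed by a uniformizer. -/
theorem iFun_eq_of_mem_inertia {α : L} (hα : IsUnif (⊤ : Subfield L) α) {σ : G}
    (hσ : σ ∈ inertia G L) : iFun L σ = ‖σ • α - α‖ := by
  classical
  refine le_antisymm (iFun_le fun a ha => ?_) (norm_smul_sub_le_iFun σ hα.lt_one.le)
  exact TR.norm_smul_sub_le (J := inertia G L) hα inertia_triv ⊤ le_top hα ⟨σ, hσ⟩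
    (Subfield.mem_top a) ha

lemma iFun_lt_one_iff {α : L} (hα : IsUnif (⊤ : Subfield L) α) {σ : G} :
    iFun L σ < 1 ↔ σ ∈ inertia G L := by
  constructor
  · intro h
    by_contra hσ
    rw [iFun_eq_one_of_not_mem_inertia hσ] at h
    exact lt_irrefl _ h
  · intro hσ
    rw [iFun_eq_of_mem_inertia hα hσ]
    exact hσ α hα.lt_one.le

/-- `Ufun σ = ∏ τ, max (iFun L τ) (iFun L σ)`; this is `p ^ (-u(σ))` in Fontaine's notation. -/
noncomputable def Ufun (L : Type*) [NormedField L] [IsUltrametricDist L] {G : Type*} [Group G]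
    [Fintype G] [MulSemiringAction G L] [IsIsometricSMul G L] (σ : G) : ℝ :=
  ∏ τ : G, max (iFun L τ) (iFun L σ)

lemma Ufun_nonneg (σ : G) : 0 ≤ Ufun L σ :=
  Finset.prod_nonneg fun τ _ => le_max_of_le_left (iFun_nonneg τ)

lemma Ufun_le_one (σ : G) : Ufun L σ ≤ 1 :=
  Finset.prod_le_one (fun τ _ => le_max_of_le_left (iFun_nonneg τ))
    (fun τ _ => max_le (iFun_le_one τ) (iFun_le_one σ))

lemma Ufun_eq_one_of_not_mem_inertia {σ : G} (hσ : σ ∉ inertia G L) : Ufun L σ = 1 := by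
  rw [Ufun, iFun_eq_one_of_not_mem_inertia hσ]
  apply Finset.prod_eq_one
  intro τ _
  exact max_eq_right (iFun_le_one τ)

lemma Ufun_mono {σ σ' : G} (h : iFun L σ ≤ iFun L σ') : Ufun L σ ≤ Ufun L σ' :=
  Finset.prod_le_prod (fun τ _ => le_max_of_le_left (iFun_nonneg τ))
    (fun _ _ => max_le_max le_rfl h)

/-- The product defining `Ufun` only involves the inertia subgroup. -/
lemma Ufun_eq_prod_inertia [Fintype (inertia G L)] {σ : G} :
    Ufun L σ = ∏ τ : inertia G L, max (iFun L (τ : G)) (iFun L σ) := by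
  classical
  rw [Ufun]
  rw [← Finset.prod_subtype (Finset.univ.filter (· ∈ inertia G L)) (by simp)
    (fun τ => max (iFun L τ) (iFun L σ))]
  symm
  apply Finset.prod_subset (Finset.filter_subset _ _)
  intro τ _ hτ
  rw [Finset.mem_filter] at hτ
  push Not at hτ
  rw [iFun_eq_one_of_not_mem_inertia (hτ (Finset.mem_univ τ))]
  exact max_eq_left (iFun_le_one σ)

end IFunTR

end Fermat.Agent.Ram
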