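/-
Ramification package (S56, leaf (4b)), part 7: finite extensions of `ℚ_p` inside
`PadicAlgCl p` satisfy the hypotheses of the abstract theory: the Galois group acts by
isometries, the valuation is discrete (a uniformizer exists) and the residue field is finite.
-/
import Fermat.Agent.Ram.IFun_helper8

set_option autoImplicit false
set_option linter.unusedSectionVars false

namespace Fermat.Agent.Ram

open Filter Topology

variable {p : ℕ} [Fact p.Prime]

section Isometry

variable (L : IntermediateField ℚ_[p] (PadicAlgCl p))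

lemma norm_eq_spectralNorm (x : L) : ‖x‖ = spectralNorm ℚ_[p] L x := by
  rw [spectralNorm.eq_of_tower (K := ℚ_[p]) (L := PadicAlgCl p) (E := L) x]
  rfl

/-- Embeddings into `PadicAlgCl p` preserve the norm. -/
lemma norm_algHom_eq (φ : L →ₐ[ℚ_[p]] PadicAlgCl p) (x : L) : ‖φ x‖ = ‖x‖ := by
  have h1 : ‖φ x‖ = spectralNorm ℚ_[p] (PadicAlgCl p) (φ x) := rfl
  have h2 : ‖x‖ = spectralNorm ℚ_[p] (PadicAlgCl p) ((x : L) : PadicAlgCl p) := rfl
  rw [h1, h2, spectralNorm, spectralNorm, minpoly.algHom_eq φ φ.injective,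
    ← minpoly.algebraMap_eq (algebraMap L (PadicAlgCl p)).injective]
  rfl

lemma norm_algEquiv_eq (σ : L ≃ₐ[ℚ_[p]] L) (x : L) : ‖σ x‖ = ‖x‖ := by
  rw [norm_eq_spectralNorm, norm_eq_spectralNorm]
  exact (spectralNorm_eq_of_equiv σ x).symm

instance isIsometricSMul_algEquiv : IsIsometricSMul (L ≃ₐ[ℚ_[p]] L) L :=
  ⟨fun σ => AddMonoidHomClass.isometry_of_norm (MulSemiringAction.toRingHom (L ≃ₐ[ℚ_[p]] L) L σ)
    (fun x => norm_algEquiv_eq L σ x)⟩

end Isometry

section Discrete

variable (L : IntermediateField ℚ_[p] (PadicAlgCl p)) [FiniteDimensional ℚ_[p] L]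

instance completeSpace_intermediateField : CompleteSpace L := FiniteDimensional.complete ℚ_[p] L

instance properSpace_intermediateField : ProperSpace L := FiniteDimensional.proper ℚ_[p] L

lemma norm_p_intermediateField : ‖(p : L)‖ = (p : ℝ)⁻¹ := by
  have h : ‖(p : L)‖ = ‖((p : L) : PadicAlgCl p)‖ := rfl
  rw [h]
  have h2 : (((p : L) : PadicAlgCl p)) = algebraMap ℚ_[p] (PadicAlgCl p) (p : ℚ_[p]) := by
    simp
  rw [h2, PadicAlgCl.norm_extends, Padic.norm_p]

/-- A uniformizer exists. -/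
theorem exists_isUnif_top : ∃ α : L, IsUnif (⊤ : Subfield L) α := by
  have hcomp : IsCompact (Metric.ball (0 : L) 1) :=
    Metric.isCompact_of_isClosed_isBounded (IsUltrametricDist.isClosed_ball _ _)
      Metric.isBounded_ball
  have hne : (Metric.ball (0 : L) 1).Nonempty := ⟨0, by simp⟩
  obtain ⟨α, hα, hmax⟩ := hcomp.exists_isMaxOn hne continuous_norm.continuousOn
  have hp1 : 1 < (p : ℝ) := by exact_mod_cast (Fact.out : p.Prime).one_lt
  have hpball : (p : L) ∈ Metric.ball (0 : L) 1 := by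
    rw [mem_ball_zero_iff, norm_p_intermediateField]
    exact inv_lt_one_of_one_lt₀ hp1
  refine ⟨α, Subfield.mem_top _, ?_, mem_ball_zero_iff.mp hα, fun x _ hx => ?_⟩
  · have h1 : ‖(p : L)‖ ≤ ‖α‖ := hmax hpball
    rw [norm_p_intermediateField] at h1
    exact lt_of_lt_of_le (inv_pos.mpr (by linarith)) h1
  · exact hmax (mem_ball_zero_iff.mpr hx)

/-- The residue field is finite. -/
instance finite_res : Finite (Res L) := by
  have hcomp : IsCompact (Metric.closedBall (0 : L) 1) := isCompact_closedBall 0 1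
  obtain ⟨t, hts, htfin, hcov⟩ := hcomp.finite_cover_balls (e := 1) one_pos
  have : Finite t := htfin
  have hmem : ∀ x : t, ‖(x : L)‖ ≤ 1 := fun x => mem_closedBall_zero_iff.mp (hts x.2)
  apply Finite.of_surjective (fun x : t => res L ⟨(x : L), hmem x⟩)
  intro y
  obtain ⟨a, rfl⟩ := res_surjective y
  have ha : (a : L) ∈ Metric.closedBall (0 : L) 1 := mem_closedBall_zero_iff.mpr a.2
  have := hcov ha
  simp only [Set.mem_iUnion, Metric.mem_ball, exists_prop] at this
  obtain ⟨x, hx, hdist⟩ := this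
  refine ⟨⟨x, hx⟩, ?_⟩
  rw [res_eq_iff]
  rw [dist_eq_norm] at hdist
  rw [← norm_neg, neg_sub]
  exact hdist

end Discrete

end Fermat.Agent.Ram
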