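/-
Ramification package (S56, leaf (4b)), part 8: the degree argument of the sharp Fontaine
proposition.  `H` a finite group acting faithfully on a field `L`, `K' = L ^ H`, `Ω ⊇ L`,
`β ∈ Ω` a root of `∏ τ : H, (X - τ α) - c` with `c ∈ K'`.  If the subfield of `Ω` generated by
`K'` and `β` contains `L`, then `β ∈ L`.
-/
import Mathlib

set_option autoImplicit false
set_option linter.unusedSectionVars false

namespace Fermat.Agent.Ram

open Polynomial

section Deg

variable {L : Type*} [Field L] {H : Type*} [Group H] [Fintype H] [MulSemiringAction H L]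

/-- The polynomial `∏ τ : H, (X - τ α)`. -/
noncomputable def orbitPoly (H : Type*) [Group H] [Fintype H] [MulSemiringAction H L] (α : L) :
    L[X] := ∏ τ : H, (X - C (τ • α))

lemma orbitPoly_monic (α : L) : (orbitPoly H α).Monic :=
  monic_prod_of_monic _ _ fun τ _ => monic_X_sub_C (τ • α)

lemma orbitPoly_natDegree (α : L) : (orbitPoly H α).natDegree = Fintype.card H := by
  rw [orbitPoly, natDegree_prod_of_monic _ _ fun τ _ => monic_X_sub_C (τ • α)]
  simp

lemma smul_orbitPoly (g : H) (α : L) : g • orbitPoly H α = orbitPoly H α := by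
  rw [orbitPoly, Finset.smul_prod']
  simp only [smul_sub, Polynomial.smul_X, Polynomial.smul_C, smul_smul]
  exact Fintype.prod_equiv (Equiv.mulLeft g) _ _ (fun τ => rfl)

lemma orbitPoly_coeff_mem (α : L) (n : ℕ) :
    (orbitPoly H α).coeff n ∈ FixedPoints.subfield H L := by
  intro g
  rw [← Polynomial.coeff_smul, smul_orbitPoly]

lemma orbitPoly_eval (α x : L) : (orbitPoly H α).eval x = ∏ τ : H, (x - τ • α) := by
  rw [orbitPoly, eval_prod]
  simp

variable {Ω : Type*} [Field Ω] [Algebra L Ω] [FaithfulSMul H L]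

/-- **Degree argument.** -/
theorem exists_preimage_root (α c : L) (hc : c ∈ FixedPoints.subfield H L) {β : Ω}
    (hβ : ∏ τ : H, (β - algebraMap L Ω (τ • α)) = algebraMap L Ω c) (E : Subfield Ω)
    (hEgen : ∀ S : Subfield Ω, β ∈ S →
      (∀ x ∈ FixedPoints.subfield H L, algebraMap L Ω x ∈ S) → E ≤ S)
    (hLE : ∀ x : L, algebraMap L Ω x ∈ E) : ∃ b : L, algebraMap L Ω b = β := by
  classical
  set K' := FixedPoints.subfield H L with hK'
  -- the polynomial over `K'`
  set Q : L[X] := orbitPoly H α - C c with hQ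
  have hQcoeff : ∀ n, Q.coeff n ∈ K' := by
    intro n
    rw [hQ, coeff_sub]
    refine Subfield.sub_mem _ (orbitPoly_coeff_mem α n) ?_
    rw [coeff_C]
    split_ifs
    · exact hc
    · exact Subfield.zero_mem _
  have hcard : 0 < Fintype.card H := Fintype.card_pos
  have hQdeg : Q.natDegree = Fintype.card H := by
    rw [hQ, natDegree_sub_C, orbitPoly_natDegree]
  have hQ0 : Q ≠ 0 := by
    intro h
    rw [h, natDegree_zero] at hQdeg
    omega
  have hsub : (↑Q.coeffs : Set L) ⊆ K'.toSubring := by
    intro x hx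
    rw [Finset.mem_coe, mem_coeffs_iff] at hx
    obtain ⟨n, _, rfl⟩ := hx
    exact hQcoeff n
  set q : K'[X] := Q.toSubring K'.toSubring hsub with hq
  have hqmap : q.map K'.subtype = Q := map_toSubring Q K'.toSubring hsub
  have hq0 : q ≠ 0 := by
    intro h
    rw [h, Polynomial.map_zero] at hqmap
    exact hQ0 hqmap.symm
  have hqdeg : q.natDegree = Fintype.card H := by
    rw [hq, natDegree_toSubring, hQdeg]
  -- algebra structure of `Ω` over `K'`
  have hβroot : aeval β q = 0 := by
    rw [aeval_def, show algebraMap K' Ω = (algebraMap L Ω).comp K'.subtype from rfl, ← eval₂_map,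
      hqmap, hQ, eval₂_sub, eval₂_C, orbitPoly, eval₂_finsetProd]
    simp only [eval₂_sub, eval₂_X, eval₂_C]
    rw [hβ, sub_self]
  have hβint : IsIntegral K' β := by
    refine ⟨q * C (q.leadingCoeff)⁻¹, monic_mul_leadingCoeff_inv hq0, ?_⟩
    rw [← aeval_def, map_mul, hβroot, zero_mul]
  set A : IntermediateField K' Ω := IntermediateField.adjoin K' {β} with hA
  have hAfin : FiniteDimensional K' A := IntermediateField.adjoin.finiteDimensional hβint
  have hAdeg : Module.finrank K' A ≤ Fintype.card H := by
    rw [IntermediateField.adjoin.finrank hβint, ← hqdeg]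
    exact natDegree_le_of_dvd (minpoly.dvd K' β hβroot) hq0
  -- `E ≤ A`
  have hEA : E ≤ A.toSubfield := by
    apply hEgen
    · exact IntermediateField.mem_adjoin_simple_self K' β
    · intro x hx
      exact A.algebraMap_mem ⟨x, hx⟩
  -- the range of `L`
  set R : IntermediateField K' Ω := (IsScalarTower.toAlgHom K' L Ω).fieldRange with hR
  have hRA : R ≤ A := by
    intro y hy
    obtain ⟨x, rfl⟩ := hy
    exact hEA (hLE x)
  have hRdeg : Module.finrank K' R = Fintype.card H := by
    have e : L ≃ₐ[K'] R := AlgEquiv.ofInjectiveField (IsScalarTower.toAlgHom K' L Ω)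
    rw [← e.toLinearEquiv.finrank_eq]
    exact FixedPoints.finrank_eq_card H L
  have hRAeq : R = A := by
    apply IntermediateField.eq_of_le_of_finrank_le hRA
    rw [hRdeg]
    exact hAdeg
  have hβR : β ∈ R := by
    rw [hRAeq]
    exact IntermediateField.mem_adjoin_simple_self K' β
  obtain ⟨b, hb⟩ := hβR
  exact ⟨b, hb⟩

end Deg

end Fermat.Agent.Ram
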