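/-
Ramification package (S56, leaf (4b)), part 10: the half of Herbrand's quotient theorem that is
needed (Serre, Corps locaux IV §1 Prop. 3, inequality `b ∣ a`), in norm language.

* `exists_generator` : there is an integer `x` with `iFun L τ = ‖τ x - x‖` for ALL `τ`
  (`x = α + ω`, `α` a uniformizer and `ω` an inertia-fixed lift of a generator of the
  multiplicative group of the residue field).
* `iSub M σ = sup { ‖σ a - a‖ : a ∈ M, ‖a‖ ≤ 1 }` for a subfield `M`.
* `prod_iFun_le_iSub` : `∏ t : N', iFun L (σ t) ≤ iSub (L ^ N') σ`.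
-/
import Fermat.Agent.Ram.IFun_helper8
import Fermat.Agent.Ram.SharpDeg_helper8

set_option autoImplicit false
set_option linter.unusedSectionVars false

namespace Fermat.Agent.Ram

open Filter Topology Polynomial

section Generator

variable {L : Type*} [NormedField L] [IsUltrametricDist L] [CompleteSpace L] [Finite (Res L)]
variable {G : Type*} [Group G] [Fintype G] [MulSemiringAction G L] [IsIsometricSMul G L]

/-- **Generator lemma.** -/
theorem exists_generator {α : L} (hα : IsUnif (⊤ : Subfield L) α) :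
    ∃ x : L, ‖x‖ ≤ 1 ∧ ∀ τ : G, iFun L τ = ‖τ • x - x‖ := by
  classical
  have hρ : ∀ x : L, ‖x‖ < 1 → ‖x‖ ≤ ‖α‖ := fun x hx => hα.le x (Subfield.mem_top x) hx
  have : Fintype (Res L) := Fintype.ofFinite _
  obtain ⟨g, hg⟩ := IsCyclic.exists_generator (α := (Res L)ˣ)
  obtain ⟨a₀, ha₀⟩ := res_surjective (L := L) (g : Res L)
  obtain ⟨ω, hωmem, hωa⟩ := exists_fixed_approx (J := inertia G L) hα.lt_one hρ inertia_triv a₀.2
  have hω1 : ‖ω‖ ≤ 1 := by
    have : ω = (a₀ : L) - ((a₀ : L) - ω) := by ring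
    rw [this]
    exact norm_sub_le_of_le a₀.2 hωa.le
  have hωres : res L ⟨ω, hω1⟩ = (g : Res L) := by
    rw [← ha₀, eq_comm, res_eq_iff]; exact hωa
  have hα1 : ‖α‖ ≤ 1 := hα.lt_one.le
  refine ⟨α + ω, norm_add_le_of_le hα1 hω1, fun τ => ?_⟩
  by_cases hτ : τ ∈ inertia G L
  · rw [iFun_eq_of_mem_inertia hα hτ]
    have hfix : τ • ω = ω := hωmem ⟨τ, hτ⟩
    rw [smul_add, hfix]
    congr 1
    ring
  · rw [iFun_eq_one_of_not_mem_inertia hτ]
    have h1 : ‖τ • α - α‖ < 1 :=
      norm_sub_lt_of_lt (by rw [norm_smul_eq]; exact hα.lt_one) hα.lt_one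
    have h2 : ‖τ • ω - ω‖ = 1 := by
      refine le_antisymm (norm_smul_sub_le_one τ hω1) ?_
      by_contra hcon
      rw [not_le] at hcon
      apply hτ
      rw [mem_inertia, ← resHom_eq_id_iff]
      have hfixg : resHom τ (g : Res L) = (g : Res L) := by
        rw [← hωres, resHom_res, res_eq_iff]
        exact hcon
      refine RingHom.ext fun y => ?_
      rw [RingHom.id_apply]
      by_cases hy : y = 0
      · rw [hy, map_zero]
      · obtain ⟨k, hk⟩ := Subgroup.mem_zpowers_iff.mp (hg (Units.mk0 y hy))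
        have hy' : y = (g : Res L) ^ k := by
          have := congrArg Units.val hk
          rw [Units.val_zpow_eq_zpow_val, Units.val_mk0] at this
          exact this.symm
        rw [hy', map_zpow₀, hfixg]
    have h3 : τ • (α + ω) - (α + ω) = (τ • α - α) + (τ • ω - ω) := by
      rw [smul_add]; ring
    rw [h3, norm_add_eq_of_lt (by rw [h2]; exact h1), h2]

end Generator

section ISub

variable {L : Type*} [NormedField L] [IsUltrametricDist L]
variable {G : Type*} [Group G] [MulSemiringAction G L] [IsIsometricSMul G L]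

/-- `iSub M σ = sup { ‖σ a - a‖ : a ∈ M, ‖a‖ ≤ 1 }`. -/
noncomputable def iSub (M : Subfield L) (σ : G) : ℝ :=
  sSup {r : ℝ | ∃ a ∈ M, ‖a‖ ≤ 1 ∧ r = ‖σ • a - a‖}

lemma iSub_bddAbove (M : Subfield L) (σ : G) :
    BddAbove {r : ℝ | ∃ a ∈ M, ‖a‖ ≤ 1 ∧ r = ‖σ • a - a‖} :=
  ⟨1, by rintro r ⟨a, _, ha, rfl⟩; exact norm_smul_sub_le_one σ ha⟩

lemma norm_smul_sub_le_iSub (M : Subfield L) (σ : G) {a : L} (haM : a ∈ M) (ha : ‖a‖ ≤ 1) :
    ‖σ • a - a‖ ≤ iSub M σ :=
  le_csSup (iSub_bddAbove M σ) ⟨a, haM, ha, rfl⟩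

lemma iSub_le {M : Subfield L} {σ : G} {c : ℝ}
    (h : ∀ a ∈ M, ‖a‖ ≤ 1 → ‖σ • a - a‖ ≤ c) : iSub M σ ≤ c := by
  unfold iSub
  refine csSup_le ⟨‖σ • (0 : L) - 0‖, 0, M.zero_mem, by simp, rfl⟩ ?_
  rintro r ⟨a, haM, ha, rfl⟩
  exact h a haM ha

lemma iSub_nonneg (M : Subfield L) (σ : G) : 0 ≤ iSub M σ :=
  (norm_nonneg _).trans (norm_smul_sub_le_iSub M σ M.zero_mem (by simp))

lemma iSub_le_one (M : Subfield L) (σ : G) : iSub M σ ≤ 1 :=
  iSub_le fun _ _ ha => norm_smul_sub_le_one σ ha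

lemma norm_sub_inv_smul_le_iSub (M : Subfield L) (σ : G) {a : L} (haM : a ∈ M) (ha : ‖a‖ ≤ 1) :
    ‖a - σ⁻¹ • a‖ ≤ iSub M σ := by
  have h : a - σ⁻¹ • a = σ⁻¹ • (σ • a - a) := by rw [smul_sub, inv_smul_smul]
  rw [h, norm_smul_eq]
  exact norm_smul_sub_le_iSub M σ haM ha

end ISub

section Half

variable {L : Type*} [NormedField L] [IsUltrametricDist L]
variable {G : Type*} [Group G] [MulSemiringAction G L] [IsIsometricSMul G L]

/-- Coefficients of `∏ (X - t x)` are integral if `x` is. -/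
lemma norm_orbitPoly_coeff_le {H : Type*} [Group H] [Fintype H] [MulSemiringAction H L]
    [IsIsometricSMul H L] {x : L} (hx : ‖x‖ ≤ 1) (n : ℕ) : ‖(orbitPoly H x).coeff n‖ ≤ 1 := by
  classical
  set f' : (intRing L)[X] :=
    ∏ t : H, (X - C (⟨t • x, by rw [mem_intRing, norm_smul_eq]; exact hx⟩ : intRing L)) with hf'
  have hmap : f'.map (intRing L).subtype = orbitPoly H x := by
    rw [hf', orbitPoly, Polynomial.map_prod]
    apply Finset.prod_congr rfl
    intro t _
    simp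
  rw [← hmap, coeff_map]
  exact (f'.coeff n).2

/-- **Half of Herbrand's quotient theorem.** -/
theorem prod_norm_le_iSub (N' : Subgroup G) [Fintype N'] {x : L} (hx : ‖x‖ ≤ 1) (σ : G) :
    ∏ t : N', ‖(σ * (t : G)) • x - x‖ ≤ iSub (FixedPoints.subfield N' L) σ := by
  classical
  set M := FixedPoints.subfield N' L with hM
  set f : L[X] := orbitPoly N' x with hf
  have hcM : ∀ n, f.coeff n ∈ M := fun n => orbitPoly_coeff_mem x n
  have hc1 : ∀ n, ‖f.coeff n‖ ≤ 1 := fun n => norm_orbitPoly_coeff_le hx n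
  have hfx : f.eval x = 0 := by
    rw [hf, orbitPoly_eval]
    apply Finset.prod_eq_zero (Finset.mem_univ (1 : N'))
    simp
  set z : L := σ⁻¹ • x with hz
  have hz1 : ‖z‖ ≤ 1 := by rw [hz, norm_smul_eq]; exact hx
  -- the value of `f` at `σ⁻¹ x`
  have hval : f.eval z = ∏ t : N', (z - t • x) := orbitPoly_eval x z
  have hnorm : ‖f.eval z‖ = ∏ t : N', ‖(σ * (t : G)) • x - x‖ := by
    rw [hval, norm_prod]
    apply Finset.prod_congr rfl
    intro t _
    have h1 : z - t • x = -(σ⁻¹ • ((σ * (t : G)) • x - x)) := by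
      rw [hz, smul_sub, mul_smul, inv_smul_smul]
      simp only [neg_sub]
      rfl
    rw [h1, norm_neg, norm_smul_eq]
  -- rewrite the value as a sum of differences
  have hsum : f.eval z = ∑ n ∈ Finset.range (f.natDegree + 1),
      (f.coeff n - σ⁻¹ • f.coeff n) * z ^ n := by
    have h1 : f.eval z = ∑ n ∈ Finset.range (f.natDegree + 1), f.coeff n * z ^ n :=
      eval_eq_sum_range z
    have h2 : (0 : L) = ∑ n ∈ Finset.range (f.natDegree + 1), σ⁻¹ • f.coeff n * z ^ n := by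
      have h3 : σ⁻¹ • f.eval x = 0 := by rw [hfx, smul_zero]
      rw [eval_eq_sum_range, Finset.smul_sum] at h3
      rw [← h3]
      apply Finset.sum_congr rfl
      intro n _
      rw [smul_mul', smul_pow']
    rw [h1, ← sub_zero (∑ n ∈ Finset.range (f.natDegree + 1), f.coeff n * z ^ n), h2,
      ← Finset.sum_sub_distrib]
    apply Finset.sum_congr rfl
    intro n _
    ring
  rw [← hnorm, hsum]
  apply IsUltrametricDist.norm_sum_le_of_forall_le_of_nonneg (iSub_nonneg M σ)
  intro n _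
  rw [norm_mul, norm_pow]
  calc ‖f.coeff n - σ⁻¹ • f.coeff n‖ * ‖z‖ ^ n ≤ iSub M σ * 1 :=
        mul_le_mul (norm_sub_inv_smul_le_iSub M σ (hcM n) (hc1 n))
          (pow_le_one₀ (norm_nonneg _) hz1) (pow_nonneg (norm_nonneg _) _) (iSub_nonneg M σ)
    _ = iSub M σ := mul_one _

end Half

section Combined

variable {L : Type*} [NormedField L] [IsUltrametricDist L] [CompleteSpace L] [Finite (Res L)]
variable {G : Type*} [Group G] [Fintype G] [MulSemiringAction G L] [IsIsometricSMul G L]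

/-- `∏ t : N', iFun L (σ t) ≤ iSub (L ^ N') σ`. -/
theorem prod_iFun_le_iSub {α : L} (hα : IsUnif (⊤ : Subfield L) α) (N' : Subgroup G) [Fintype N']
    (σ : G) : ∏ t : N', iFun L (σ * (t : G)) ≤ iSub (FixedPoints.subfield N' L) σ := by
  obtain ⟨x, hx, hgen⟩ := exists_generator (G := G) hα
  simp only [hgen]
  exact prod_norm_le_iSub N' hx σ

end Combined

end Fermat.Agent.Ram
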