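/-
Ramification package (S56, leaf (4b)), part 15: arithmetic preliminaries for the Kummer jump.

* `norm_one_add_pow_sub_le` : `‖(1 + t) ^ p - 1 - t ^ p‖ ≤ ‖p‖ * ‖t‖` for `‖t‖ ≤ 1`.
* `norm_sub_one_eq_of_isPrimitiveRoot`, `norm_sub_one_pow_eq` : `‖μ - 1‖ = ‖ζ - 1‖` for all
  nontrivial `p`-th roots of unity, and `‖ζ - 1‖ ^ (p - 1) = ‖p‖`.
* `exists_pow_pow_sub_lt_one` : the residue field is perfect, with an explicit inverse Frobenius
  `a ↦ a ^ m`.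
* `norm_smul_sub_pow_le_of_repr` : the "orthogonal basis" estimate.
-/
import Fermat.Agent.Ram.Herbrand_helper8

set_option autoImplicit false
set_option linter.unusedSectionVars false

namespace Fermat.Agent.Ram

open Filter Topology

section Binomial

variable {L : Type*} [NormedField L] [IsUltrametricDist L]

lemma norm_one_add_pow_sub_le {p : ℕ} (hpp : p.Prime) {t : L} (ht : ‖t‖ ≤ 1) :
    ‖(1 + t) ^ p - 1 - t ^ p‖ ≤ ‖(p : L)‖ * ‖t‖ := by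
  rw [add_pow_prime_eq' hpp]
  have h1 : (1 : L) ^ p + t ^ p + (p : L) * ∑ k ∈ Finset.Ioo 0 p,
        (1 : L) ^ k * t ^ (p - k) * ((p.choose k / p : ℕ) : L) - 1 - t ^ p
      = (p : L) * ∑ k ∈ Finset.Ioo 0 p,
        (1 : L) ^ k * t ^ (p - k) * ((p.choose k / p : ℕ) : L) := by
    rw [one_pow]; ring
  rw [h1, norm_mul]
  gcongr
  apply IsUltrametricDist.norm_sum_le_of_forall_le_of_nonneg (norm_nonneg _)
  intro k hk
  rw [Finset.mem_Ioo] at hk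
  rw [one_pow, one_mul, norm_mul, norm_pow]
  have h2 : ‖t‖ ^ (p - k) ≤ ‖t‖ := by
    calc ‖t‖ ^ (p - k) ≤ ‖t‖ ^ 1 :=
          pow_le_pow_of_le_one (norm_nonneg _) ht (by omega)
      _ = ‖t‖ := pow_one _
  calc ‖t‖ ^ (p - k) * ‖((p.choose k / p : ℕ) : L)‖ ≤ ‖t‖ * 1 :=
        mul_le_mul h2 (IsUltrametricDist.norm_natCast_le_one L _) (norm_nonneg _) (norm_nonneg _)
    _ = ‖t‖ := mul_one _

end Binomial

section PrimRoot

variable {L : Type*} [NormedField L] [IsUltrametricDist L]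

lemma norm_eq_one_of_pow_eq_one {μ : L} {n : ℕ} (hn : n ≠ 0) (h : μ ^ n = 1) : ‖μ‖ = 1 := by
  have h1 : ‖μ‖ ^ n = 1 := by rw [← norm_pow, h, norm_one]
  exact (pow_eq_one_iff_of_nonneg (norm_nonneg _) hn).mp h1

lemma norm_pow_sub_one_le {ζ : L} (hζ : ‖ζ‖ ≤ 1) (j : ℕ) : ‖ζ ^ j - 1‖ ≤ ‖ζ - 1‖ := by
  rw [← geom_sum_mul, norm_mul]
  have h1 : ‖∑ i ∈ Finset.range j, ζ ^ i‖ ≤ 1 := by
    apply IsUltrametricDist.norm_sum_le_of_forall_le_of_nonneg zero_le_one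
    intro i _
    rw [norm_pow]
    exact pow_le_one₀ (norm_nonneg _) hζ
  calc ‖∑ i ∈ Finset.range j, ζ ^ i‖ * ‖ζ - 1‖ ≤ 1 * ‖ζ - 1‖ :=
        mul_le_mul_of_nonneg_right h1 (norm_nonneg _)
    _ = ‖ζ - 1‖ := one_mul _

lemma isPrimitiveRoot_of_pow_eq_one {p : ℕ} (hpp : p.Prime) {μ : L} (hμ : μ ^ p = 1)
    (hμ1 : μ ≠ 1) : IsPrimitiveRoot μ p := by
  have : Fact p.Prime := ⟨hpp⟩
  have := IsPrimitiveRoot.orderOf μ
  rwa [orderOf_eq_prime hμ hμ1] at this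

lemma norm_sub_one_eq_of_isPrimitiveRoot {p : ℕ} (hpp : p.Prime) {ζ μ : L}
    (hζ : IsPrimitiveRoot ζ p) (hμ : μ ^ p = 1) (hμ1 : μ ≠ 1) : ‖μ - 1‖ = ‖ζ - 1‖ := by
  have hμp : IsPrimitiveRoot μ p := isPrimitiveRoot_of_pow_eq_one hpp hμ hμ1
  have hp0 : p ≠ 0 := hpp.ne_zero
  have : NeZero p := ⟨hp0⟩
  obtain ⟨i, _, hi⟩ := hζ.eq_pow_of_pow_eq_one hμ
  obtain ⟨j, _, hj⟩ := hμp.eq_pow_of_pow_eq_one hζ.pow_eq_one
  apply le_antisymm
  · rw [← hi]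
    exact norm_pow_sub_one_le (norm_eq_one_of_pow_eq_one hp0 hζ.pow_eq_one).le i
  · rw [← hj]
    exact norm_pow_sub_one_le (norm_eq_one_of_pow_eq_one hp0 hμ).le j

lemma norm_sub_one_pow_eq {p : ℕ} (hpp : p.Prime) {ζ : L} (hζ : IsPrimitiveRoot ζ p) :
    ‖ζ - 1‖ ^ (p - 1) = ‖(p : L)‖ := by
  have hp1 : p - 1 + 1 = p := Nat.sub_add_cancel hpp.one_le
  have hζ' : IsPrimitiveRoot ζ (p - 1 + 1) := by rwa [hp1]
  have h := hζ'.prod_one_sub_pow_eq_order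
  have h2 : ((p - 1 : ℕ) : L) + 1 = (p : L) := by
    rw [← Nat.cast_one (R := L), ← Nat.cast_add, hp1]
  rw [h2] at h
  have h3 : ‖ζ - 1‖ ^ (p - 1) = ∏ _k ∈ Finset.range (p - 1), ‖ζ - 1‖ := by
    rw [Finset.prod_const, Finset.card_range]
  rw [← h, norm_prod, h3]
  apply Finset.prod_congr rfl
  intro k hk
  rw [Finset.mem_range] at hk
  rw [norm_sub_rev (1 : L) (ζ ^ (k + 1))]
  symm
  apply norm_sub_one_eq_of_isPrimitiveRoot hpp hζ
  · rw [← pow_mul, mul_comm, pow_mul, hζ.pow_eq_one, one_pow]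
  · exact hζ.pow_ne_one_of_pos_of_lt (Nat.succ_ne_zero k) (by omega)

lemma norm_sub_one_pos {p : ℕ} (hpp : p.Prime) {ζ : L} (hζ : IsPrimitiveRoot ζ p) :
    0 < ‖ζ - 1‖ := by
  rw [norm_pos_iff, sub_ne_zero]
  exact hζ.ne_one hpp.one_lt

lemma norm_sub_one_lt_one {p : ℕ} (hpp : p.Prime) (hp : ‖(p : L)‖ < 1) {ζ : L}
    (hζ : IsPrimitiveRoot ζ p) : ‖ζ - 1‖ < 1 := by
  by_contra h
  rw [not_lt] at h
  have := one_le_pow₀ (n := p - 1) h
  rw [norm_sub_one_pow_eq hpp hζ] at this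
  exact absurd hp (not_lt.mpr this)

end PrimRoot

section Perfect

variable {L : Type*} [NormedField L] [IsUltrametricDist L] [Finite (Res L)]

/-- The residue field is perfect, with an explicit inverse Frobenius `a ↦ a ^ m`. -/
lemma exists_pow_pow_sub_lt_one {p : ℕ} (hpp : p.Prime) (hp : ‖(p : L)‖ < 1) :
    ∃ m : ℕ, ∀ a : L, ‖a‖ ≤ 1 → ‖(a ^ m) ^ p - a‖ < 1 := by
  classical
  have : Fintype (Res L) := Fintype.ofFinite _
  have hp0 : ((p : ℕ) : Res L) = 0 := by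
    have h1 : ((p : ℕ) : Res L) = res L ((p : ℕ) : intRing L) := (map_natCast (res L) p).symm
    rw [h1, res_eq_zero_iff]
    simpa using hp
  have hfact : Fact p.Prime := ⟨hpp⟩
  have : CharP (Res L) p := ringChar.of_eq (CharP.ringChar_of_prime_eq_zero hpp hp0)
  obtain ⟨n, _, hn⟩ := FiniteField.card (Res L) p
  refine ⟨p ^ ((n : ℕ) - 1), fun a ha => ?_⟩
  have hq : p ^ ((n : ℕ) - 1) * p = Fintype.card (Res L) := by
    rw [hn, ← pow_succ, Nat.sub_add_cancel n.pos]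
  have h1 := FiniteField.pow_card (res L ⟨a, ha⟩)
  rw [← hq, ← map_pow, res_eq_iff, Subring.coe_pow] at h1
  rw [← pow_mul]
  exact h1

end Perfect

section Orth

variable {L : Type*} [NormedField L] [IsUltrametricDist L]
variable {G : Type*} [Group G] [MulSemiringAction G L] [IsIsometricSMul G L]

lemma norm_smul_pow_sub_pow_le (σ : G) (z : L) (k : ℕ) :
    ‖σ • z ^ k - z ^ k‖ ≤ ‖σ • z - z‖ * ‖z‖ ^ (k - 1) := by
  rw [smul_pow', ← geom_sum₂_mul, norm_mul, mul_comm]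
  apply mul_le_mul_of_nonneg_left _ (norm_nonneg _)
  apply IsUltrametricDist.norm_sum_le_of_forall_le_of_nonneg (pow_nonneg (norm_nonneg _) _)
  intro i hi
  rw [Finset.mem_range] at hi
  rw [norm_mul, norm_pow, norm_pow, norm_smul_eq, ← pow_add]
  have h1 : i + (k - 1 - i) = k - 1 := by omega
  rw [h1]

/-- The "orthogonal basis" estimate: if `‖z‖ ^ p = ‖π₀‖ ^ i` with `p ∤ i`, then the norm of
`∑ k < p, c k * z ^ k` (`c k ∈ K₀`) is the maximum of the norms of the terms; if moreover `σ`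
fixes `K₀` and `‖σ z - z‖ ≤ θ ‖z‖` then `‖σ a - a‖ ^ p ≤ ‖π₀‖ θ ^ p` for integral `a`. -/
theorem norm_smul_sub_pow_le_of_repr (K₀ : Subfield L) {π₀ : L} (hπ₀ : IsUnif K₀ π₀)
    {p : ℕ} (hpp : p.Prime) {z : L} {i : ℤ} (hz : ‖z‖ ^ p = ‖π₀‖ ^ i) (hi : ¬ (p : ℤ) ∣ i)
    (σ : G) (hσ : ∀ c ∈ K₀, σ • c = c) {θ : ℝ} (hθ0 : 0 ≤ θ) (hθ : ‖σ • z - z‖ ≤ θ * ‖z‖)
    (c : ℕ → L) (hc : ∀ k, c k ∈ K₀) {a : L}
    (ha : a = ∑ k ∈ Finset.range p, c k * z ^ k) (ha1 : ‖a‖ ≤ 1) :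
    ‖σ • a - a‖ ^ p ≤ ‖π₀‖ * θ ^ p := by
  classical
  have hπpos := hπ₀.pos
  have hπlt := hπ₀.lt_one
  have hp0 : p ≠ 0 := hpp.ne_zero
  have hpz : Prime (p : ℤ) := Nat.prime_iff_prime_int.mp hpp
  set f : ℕ → L := fun k => c k * z ^ k with hf
  -- exponents of the nonzero terms
  have hexp : ∀ k, c k ≠ 0 → ∃ m : ℤ, ‖f k‖ ^ p = ‖π₀‖ ^ ((p : ℤ) * m + i * k) := by
    intro k hk
    obtain ⟨m, hm⟩ := hπ₀.exists_zpow (hc k) hk
    refine ⟨m, ?_⟩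
    have h1 : ‖z ^ k‖ ^ p = ‖π₀‖ ^ (i * k) := by
      rw [norm_pow, ← pow_mul, mul_comm k p, pow_mul, hz, zpow_mul, zpow_natCast]
    have h2 : ‖c k‖ ^ p = ‖π₀‖ ^ ((p : ℤ) * m) := by
      rw [hm, mul_comm (p : ℤ) m, zpow_mul, zpow_natCast]
    rw [hf]
    simp only
    rw [norm_mul, mul_pow, h1, h2, zpow_add₀ hπpos.ne']
  -- the support
  set S : Finset ℕ := (Finset.range p).filter (fun k => c k ≠ 0) with hS
  have hsum : a = ∑ k ∈ S, f k := by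
    rw [ha, hS, Finset.sum_filter]
    apply Finset.sum_congr rfl
    intro k _
    by_cases h : c k = 0
    · simp [h, hf]
    · simp [h, hf]
  have hpair : Set.Pairwise (S : Set ℕ) (fun k k' => ‖f k‖ ≠ ‖f k'‖) := by
    intro k hk k' hk' hne heq
    rw [Finset.mem_coe, hS, Finset.mem_filter, Finset.mem_range] at hk hk'
    obtain ⟨m, hm⟩ := hexp k hk.2
    obtain ⟨m', hm'⟩ := hexp k' hk'.2
    have h1 : ‖π₀‖ ^ ((p : ℤ) * m + i * k) = ‖π₀‖ ^ ((p : ℤ) * m' + i * k') := by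
      rw [← hm, ← hm', heq]
    have h2 := zpow_right_injective₀ hπpos hπlt.ne h1
    have h3 : (p : ℤ) ∣ i * ((k : ℤ) - k') := ⟨m' - m, by linarith⟩
    rcases hpz.dvd_or_dvd h3 with h4 | h4
    · exact hi h4
    · have h5 : (k : ℤ) - k' = 0 :=
        Int.eq_zero_of_abs_lt_dvd h4 (by rw [abs_lt]; constructor <;> omega)
      exact hne (by omega)
  -- each term has norm at most one
  have hterm : ∀ k, k < p → ‖f k‖ ≤ 1 := by
    intro k hkp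
    by_cases hk : c k = 0
    · simp [hf, hk]
    · have hkS : k ∈ S := by
        rw [hS, Finset.mem_filter, Finset.mem_range]; exact ⟨hkp, hk⟩
      have hne : S.Nonempty := ⟨k, hkS⟩
      have h1 := IsUltrametricDist.norm_sum_eq_sup'_of_pairwise_ne hne hpair
      rw [← hsum] at h1
      calc ‖f k‖ ≤ S.sup' hne (fun k => ‖f k‖) := Finset.le_sup' (fun k => ‖f k‖) hkS
        _ = ‖a‖ := h1.symm
        _ ≤ 1 := ha1
  -- the terms with `k ≥ 1` are in the maximal ideal, with a margin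
  have hterm' : ∀ k, k < p → k ≠ 0 → ‖f k‖ ^ p ≤ ‖π₀‖ := by
    intro k hkp hk0
    by_cases hck : c k = 0
    · simp [hf, hck, zero_pow hp0, hπpos.le]
    · obtain ⟨m, hm⟩ := hexp k hck
      rw [hm]
      have h1 : ‖π₀‖ ^ ((p : ℤ) * m + i * k) ≤ 1 := by
        rw [← hm]; exact pow_le_one₀ (norm_nonneg _) (hterm k hkp)
      have h2 : 0 ≤ (p : ℤ) * m + i * k :=
        (zpow_le_one_iff_right_of_lt_one₀ hπpos hπlt).mp h1
      have h3 : (p : ℤ) * m + i * k ≠ 0 := by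
        intro h0
        have h4 : (p : ℤ) ∣ i * k := ⟨-m, by linarith⟩
        rcases hpz.dvd_or_dvd h4 with h5 | h5
        · exact hi h5
        · have h6 := Int.le_of_dvd (by omega) h5
          omega
      have h5 : 1 ≤ (p : ℤ) * m + i * k := by omega
      calc ‖π₀‖ ^ ((p : ℤ) * m + i * k) ≤ ‖π₀‖ ^ (1 : ℤ) :=
            zpow_le_zpow_right_of_le_one₀ hπpos hπlt.le h5
        _ = ‖π₀‖ := zpow_one _
  -- the difference
  have hdiff : σ • a - a = ∑ k ∈ Finset.range p, c k * (σ • z ^ k - z ^ k) := by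
    rw [ha, Finset.smul_sum, ← Finset.sum_sub_distrib]
    apply Finset.sum_congr rfl
    intro k _
    rw [smul_mul', hσ _ (hc k), mul_sub]
  rw [hdiff]
  have hne : (Finset.range p).Nonempty := ⟨0, Finset.mem_range.mpr hpp.pos⟩
  obtain ⟨k, hk, hle⟩ := IsUltrametricDist.exists_norm_finsetSum_le_of_nonempty hne
    (fun k => c k * (σ • z ^ k - z ^ k))
  rw [Finset.mem_range] at hk
  have hθp : 0 ≤ ‖π₀‖ * θ ^ p := mul_nonneg hπpos.le (pow_nonneg hθ0 _)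
  by_cases hk0 : k = 0
  · subst hk0
    simp only [pow_zero, smul_one, sub_self, mul_zero, norm_zero] at hle
    have h0 : ‖∑ k ∈ Finset.range p, c k * (σ • z ^ k - z ^ k)‖ = 0 :=
      le_antisymm hle (norm_nonneg _)
    rw [h0, zero_pow hp0]
    exact hθp
  · have h1 : ‖c k * (σ • z ^ k - z ^ k)‖ ≤ θ * ‖f k‖ := by
      rw [norm_mul, hf]
      simp only
      rw [norm_mul, norm_pow]
      have h2 : ‖z‖ ^ k = ‖z‖ * ‖z‖ ^ (k - 1) := by
        rw [← pow_succ', Nat.sub_add_cancel (Nat.pos_of_ne_zero hk0)]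
      calc ‖c k‖ * ‖σ • z ^ k - z ^ k‖ ≤ ‖c k‖ * (‖σ • z - z‖ * ‖z‖ ^ (k - 1)) :=
            mul_le_mul_of_nonneg_left (norm_smul_pow_sub_pow_le σ z k) (norm_nonneg _)
        _ ≤ ‖c k‖ * (θ * ‖z‖ * ‖z‖ ^ (k - 1)) := by
            apply mul_le_mul_of_nonneg_left _ (norm_nonneg _)
            exact mul_le_mul_of_nonneg_right hθ (pow_nonneg (norm_nonneg _) _)
        _ = θ * (‖c k‖ * ‖z‖ ^ k) := by rw [h2]; ring
    calc ‖∑ k ∈ Finset.range p, c k * (σ • z ^ k - z ^ k)‖ ^ p ≤ (θ * ‖f k‖) ^ p :=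
          pow_le_pow_left₀ (norm_nonneg _) (hle.trans h1) p
      _ = θ ^ p * ‖f k‖ ^ p := mul_pow _ _ _
      _ ≤ θ ^ p * ‖π₀‖ := mul_le_mul_of_nonneg_left (hterm' k hk hk0) (pow_nonneg hθ0 _)
      _ = ‖π₀‖ * θ ^ p := mul_comm _ _

end Orth

end Fermat.Agent.Ram
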