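/-
F2 (flat local condition at p), WP-D: the numerics of the supersingular case.

Pure arithmetic lemmas (`numerics_core`, `level_eq_of_modEq`, `not_modEq_level`) and the abstract
numerics theorem `tame_numerics`: from the tame structure (helper2's WP-C), the determinant
(`σ₀ ζ = ζ^d`, `det r(σ₀) = d`) and the Raynaud-lite relation bound, one gets
`‖ζ - 1‖ = ‖π‖^(p+1)`, `e₀ = p² - 1` and `ϑ² + t' ϑ + d = 0` in the residue field.
-/
import Mathlib
import Fermat.Agent.Ram.TameStr_helper2_Eigen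
import Fermat.Agent.TW.UnrArith1_helper6
import Fermat.Agent.Ram.Kummer1_helper8

set_option autoImplicit false
set_option linter.unusedSectionVars false

namespace Fermat.Agent.Ram

section Arith

/-- the arithmetic heart: `c₀ = p + 1` and `n ∈ {1, p}`. -/
lemma numerics_core {p n c₀ : ℕ} (hp : p.Prime) (hp2 : p ≠ 2) (hn1 : 1 ≤ n) (hn : n ≤ c₀)
    (hdvd : c₀ * (p - 1) ∣ p ^ 2 - 1) (hmod : n * (p + 1) ≡ c₀ [MOD c₀ * (p - 1)]) :
    c₀ = p + 1 ∧ (n = 1 ∨ n = p) := by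
  have hp3 : 3 ≤ p := by have := hp.two_le; omega
  have hc₀ : 0 < c₀ := by omega
  have hsq : p ^ 2 - 1 = (p + 1) * (p - 1) := by
    obtain ⟨m, rfl⟩ : ∃ m, p = m + 1 := ⟨p - 1, by omega⟩
    simp only [Nat.add_sub_cancel]
    have : (m + 1) ^ 2 = (m + 1 + 1) * m + 1 := by ring
    omega
  rw [hsq] at hdvd
  have hdvd' : c₀ ∣ p + 1 := Nat.dvd_of_mul_dvd_mul_right (by omega) hdvd
  obtain ⟨q, hq⟩ := hdvd'
  have hq0 : 0 < q := by
    rcases Nat.eq_zero_or_pos q with h | h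
    · rw [h, mul_zero] at hq; omega
    · exact h
  have hmod' : c₀ * (n * q) ≡ c₀ * 1 [MOD c₀ * (p - 1)] := by
    have h1 : c₀ * (n * q) = n * (p + 1) := by rw [hq]; ring
    rw [h1, mul_one]
    exact hmod
  have hmod'' : n * q ≡ 1 [MOD p - 1] := Nat.ModEq.mul_left_cancel' hc₀.ne' hmod'
  have hle : n * q ≤ p + 1 := by
    calc n * q ≤ c₀ * q := Nat.mul_le_mul_right q hn
      _ = p + 1 := hq.symm
  have hge : 1 ≤ n * q := Nat.mul_pos (by omega) hq0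
  have hd : p - 1 ∣ n * q - 1 := (Nat.modEq_iff_dvd' hge).mp hmod''.symm
  obtain ⟨m, hm⟩ := hd
  have hm2 : m = 0 ∨ m = 1 := by
    by_contra hcon
    have hm2 : 2 ≤ m := by omega
    have : 2 * (p - 1) ≤ (p - 1) * m := by
      calc 2 * (p - 1) = (p - 1) * 2 := by ring
        _ ≤ (p - 1) * m := Nat.mul_le_mul_left _ hm2
    omega
  rcases hm2 with rfl | rfl
  · -- `n q = 1`
    have hnq : n * q = 1 := by omega
    have hn1' : n = 1 := Nat.eq_one_of_mul_eq_one_right hnq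
    have hq1 : q = 1 := Nat.eq_one_of_mul_eq_one_left hnq
    rw [hq1, mul_one] at hq
    exact ⟨hq.symm, Or.inl hn1'⟩
  · -- `n q = p`
    have hnq : n * q = p := by omega
    have hndvd : n ∣ p := ⟨q, hnq.symm⟩
    rcases (Nat.dvd_prime hp).mp hndvd with h1 | h1
    · exfalso
      rw [h1, one_mul] at hnq
      rw [hnq] at hq
      have : p ∣ 1 := by
        have h2 : p ∣ p + 1 := ⟨c₀, by rw [hq]; ring⟩
        exact (Nat.dvd_add_right (dvd_refl p)).mp h2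
      exact hp.one_lt.ne' (Nat.dvd_one.mp this)
    · have hq1 : q = 1 := by
        rw [h1] at hnq
        have : p * q = p * 1 := by rw [hnq, mul_one]
        exact Nat.eq_of_mul_eq_mul_left hp.pos this
      rw [hq1, mul_one] at hq
      exact ⟨hq.symm, Or.inr h1⟩

/-- the only level `p + 1 < j < p (p + 1)`, `p ∤ j`, with `j ≡ 2` or `j ≡ 2p` modulo `p² - 1`. -/
lemma level_eq_of_modEq {p j : ℕ} (hp : p.Prime) (hp2 : p ≠ 2) (hj1 : p + 1 < j)
    (hj2 : j < p * (p + 1)) (hpj : ¬ p ∣ j)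
    (h : j ≡ 2 [MOD p ^ 2 - 1] ∨ j ≡ 2 * p [MOD p ^ 2 - 1]) : j = p ^ 2 + 1 := by
  have hp3 : 3 ≤ p := by have := hp.two_le; omega
  have h4 : p * (p + 1) = p ^ 2 + p := by ring
  rw [h4] at hj2
  obtain ⟨s, hs⟩ : ∃ s, s = p ^ 2 := ⟨_, rfl⟩
  have hs9 : 3 * p ≤ s := by rw [hs, sq]; exact Nat.mul_le_mul_right p hp3
  rw [← hs] at hj2 h ⊢
  rcases h with h | h
  · have h2 : 2 ≤ j := by omega
    obtain ⟨m, hm⟩ := (Nat.modEq_iff_dvd' h2).mp h.symm
    rcases Nat.lt_or_ge m 1 with hm0 | hm1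
    · have : m = 0 := by omega
      rw [this, mul_zero] at hm
      omega
    · rcases Nat.lt_or_ge m 2 with hm1' | hm2
      · have : m = 1 := by omega
        rw [this, mul_one] at hm
        omega
      · exfalso
        have h3 : (s - 1) * 2 ≤ (s - 1) * m := Nat.mul_le_mul_left _ hm2
        omega
  · exfalso
    rcases Nat.lt_or_ge j (2 * p) with hlt | h2
    · obtain ⟨m, hm⟩ := (Nat.modEq_iff_dvd' hlt.le).mp h
      rcases Nat.eq_zero_or_pos m with hm0 | hm1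
      · rw [hm0, mul_zero] at hm
        omega
      · have h3 : (s - 1) * 1 ≤ (s - 1) * m := Nat.mul_le_mul_left _ hm1
        omega
    · obtain ⟨m, hm⟩ := (Nat.modEq_iff_dvd' h2).mp h.symm
      rcases Nat.eq_zero_or_pos m with hm0 | hm1
      · rw [hm0, mul_zero] at hm
        have : j = 2 * p := by omega
        exact hpj ⟨2, by rw [this]; ring⟩
      · have h3 : (s - 1) * 1 ≤ (s - 1) * m := Nat.mul_le_mul_left _ hm1
        omega

/-- no level `p + 1 < j < p (p + 1)` is `≡ p + 1` modulo `p² - 1`. -/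
lemma not_modEq_level {p j : ℕ} (hp : p.Prime) (hj1 : p + 1 < j) (hj2 : j < p * (p + 1))
    (h : j ≡ p + 1 [MOD p ^ 2 - 1]) : False := by
  have hp2 : 2 ≤ p := hp.two_le
  have h4 : p * (p + 1) = p ^ 2 + p := by ring
  rw [h4] at hj2
  obtain ⟨s, hs⟩ : ∃ s, s = p ^ 2 := ⟨_, rfl⟩
  have hs9 : 2 * p ≤ s := by rw [hs, sq]; exact Nat.mul_le_mul_right p hp2
  rw [← hs] at hj2 h
  obtain ⟨m, hm⟩ := (Nat.modEq_iff_dvd' hj1.le).mp h.symm
  rcases Nat.eq_zero_or_pos m with hm0 | hm1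
  · rw [hm0, mul_zero] at hm
    omega
  · have h3 : (s - 1) * 1 ≤ (s - 1) * m := Nat.mul_le_mul_left _ hm1
    omega

end Arith

section Quot

variable {L : Type*} [NormedField L] [IsUltrametricDist L]
variable {G : Type*} [Group G] [MulSemiringAction G L] [IsIsometricSMul G L]

/-- `θ` computed on an element of valuation `n`: `σ x / x ≡ (σ π / π)^n`. -/
lemma res_quotInt_eq_pow {π x : L} (hπ0 : π ≠ 0) {n : ℕ} (hx : ‖x‖ = ‖π‖ ^ n)
    {σ : G} (hσ : σ ∈ inertia G L) :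
    res L (quotInt x σ) = res L (quotInt π σ) ^ n := by
  rw [← map_pow, res_eq_iff, Subring.coe_pow, coe_quotInt, coe_quotInt]
  have hπn0 : π ^ n ≠ 0 := pow_ne_zero n hπ0
  obtain ⟨u, hu⟩ : ∃ u : L, u = x / π ^ n := ⟨_, rfl⟩
  have hu1 : ‖u‖ = 1 := by
    rw [hu, norm_div, norm_pow, hx, div_self (pow_ne_zero n (norm_ne_zero_iff.mpr hπ0))]
  have hu0 : u ≠ 0 := by rw [← norm_pos_iff, hu1]; exact one_pos
  have hxu : x = u * π ^ n := by rw [hu, div_mul_cancel₀ _ hπn0]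
  have hσπ0 : σ • π ≠ 0 := by
    rw [← norm_pos_iff, norm_smul_eq]; exact norm_pos_iff.mpr hπ0
  have hσx : σ • x = σ • u * (σ • π) ^ n := by rw [hxu, smul_mul', smul_pow']
  have hid : σ • x / x - (σ • π / π) ^ n = (σ • u - u) / u * (σ • π / π) ^ n := by
    rw [hσx, hxu, div_pow]
    field_simp
  rw [hid, norm_mul, norm_div, hu1, div_one, norm_pow, norm_div, norm_smul_eq,
    div_self (norm_ne_zero_iff.mpr hπ0), one_pow, mul_one]
  exact hσ u hu1.le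

/-- the cyclotomic character computed on the uniformizer `ζ - 1` of `ℚ_p(ζ)`. -/
lemma res_quotInt_sub_one {ζ : L} (hζ : ‖ζ‖ ≤ 1) (hζ1 : ‖ζ - 1‖ < 1) (hζ0 : ζ - 1 ≠ 0) {σ : G}
    {a : ℕ} (ha : σ • ζ = ζ ^ a) : res L (quotInt (ζ - 1) σ) = (a : Res L) := by
  rw [← map_natCast (res L) a, res_eq_iff, coe_quotInt, Subring.coe_natCast]
  have h1 : σ • (ζ - 1) = (∑ i ∈ Finset.range a, ζ ^ i) * (ζ - 1) := by
    rw [smul_sub, smul_one, ha, geom_sum_mul]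
  rw [h1, mul_div_assoc, div_self hζ0, mul_one]
  have h2 : (∑ i ∈ Finset.range a, ζ ^ i) - (a : L) = ∑ i ∈ Finset.range a, (ζ ^ i - 1) := by
    rw [Finset.sum_sub_distrib, Finset.sum_const, Finset.card_range, nsmul_eq_mul, mul_one]
  rw [h2]
  refine lt_of_le_of_lt ?_ hζ1
  apply IsUltrametricDist.norm_sum_le_of_forall_le_of_nonneg (norm_nonneg _)
  intro i _
  exact norm_pow_sub_one_le hζ i

/-- a relation `d z + t' σ z + σ² z ≡ 0` modulo `z²` gives a root of `T² + t' T + d` in the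
residue field. -/
lemma root_of_relation {z : L} (hz0 : z ≠ 0) (hz1 : ‖z‖ < 1) {σ : G} (hσ : σ ∈ inertia G L)
    {t' d : ℕ} (h : ‖(d : L) * z + (t' : L) * σ • z + (σ ^ 2) • z‖ ≤ ‖z‖ ^ 2) :
    res L (quotInt z σ) ^ 2 + (t' : Res L) * res L (quotInt z σ) + (d : Res L) = 0 := by
  rw [← map_natCast (res L) t', ← map_natCast (res L) d, ← map_pow, ← map_mul, ← map_add,
    ← map_add, res_eq_zero_iff]
  simp only [Subring.coe_add, Subring.coe_mul, Subring.coe_pow, Subring.coe_natCast, coe_quotInt]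
  obtain ⟨q, hq⟩ : ∃ q : L, q = σ • z / z := ⟨_, rfl⟩
  rw [← hq]
  have hzpos : 0 < ‖z‖ := norm_pos_iff.mpr hz0
  have hq1 : ‖q‖ = 1 := by rw [hq, norm_div, norm_smul_eq, div_self hzpos.ne']
  have hσz : σ • z = q * z := by rw [hq, div_mul_cancel₀ _ hz0]
  have hσ2z : (σ ^ 2) • z = σ • q * q * z := by
    rw [sq, mul_smul, hσz, smul_mul', hσz]; ring
  have hfac : (d : L) * z + (t' : L) * σ • z + (σ ^ 2) • z
      = z * ((d : L) + (t' : L) * q + σ • q * q) := by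
    rw [hσ2z, hσz]; ring
  rw [hfac, norm_mul, sq] at h
  have h1 : ‖(d : L) + (t' : L) * q + σ • q * q‖ ≤ ‖z‖ := le_of_mul_le_mul_left h hzpos
  have h2 : ‖(σ • q - q) * q‖ < 1 := by
    rw [norm_mul, hq1, mul_one]
    exact hσ q hq1.le
  have h3 : q ^ 2 + (t' : L) * q + (d : L)
      = ((d : L) + (t' : L) * q + σ • q * q) - (σ • q - q) * q := by ring
  rw [h3]
  exact norm_sub_lt_of_lt (h1.trans_lt hz1) h2

end Quot

section FieldLemmas

/-- Vieta for two distinct roots of a monic quadratic. -/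
lemma vieta_of_two_roots {K : Type*} [Field K] {x y b c : K} (hxy : x ≠ y)
    (hx : x ^ 2 + b * x + c = 0) (hy : y ^ 2 + b * y + c = 0) : x * y = c ∧ x + y = -b := by
  have h1 : (x - y) * (x + y + b) = 0 := by linear_combination hx - hy
  have h2 : x + y + b = 0 := by
    rcases mul_eq_zero.mp h1 with h | h
    · exact absurd (sub_eq_zero.mp h) hxy
    · exact h
  refine ⟨?_, by linear_combination h2⟩
  linear_combination x * h2 - hx

/-- a Frobenius-fixed root in one field of characteristic `p` gives a root in the prime field of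
any other. -/
lemma exists_nat_root_of_frobenius_fixed {K k : Type*} [Field K] [Field k] {p : ℕ}
    [hp : Fact p.Prime] [CharP K p] [CharP k p] {a : K} {t' d : ℕ} (ha : a ^ p = a)
    (hroot : a ^ 2 + (t' : K) * a + (d : K) = 0) :
    ∃ c : ℕ, (c : k) ^ 2 + (t' : k) * (c : k) + (d : k) = 0 := by
  obtain ⟨c, rfl⟩ := Fermat.Agent.TW.exists_natCast_eq_of_pow_eq (q := p) ha
  refine ⟨c, ?_⟩
  have h1 : ((c ^ 2 + t' * c + d : ℕ) : K) = 0 := by push_cast; exact hroot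
  have h2 : p ∣ c ^ 2 + t' * c + d := (CharP.cast_eq_zero_iff K p _).mp h1
  have h3 : ((c ^ 2 + t' * c + d : ℕ) : k) = 0 := (CharP.cast_eq_zero_iff k p _).mpr h2
  push_cast at h3
  exact h3

end FieldLemmas

section MatrixPart

open Matrix Polynomial

variable {k : Type*} [Field k] {G : Type*} [Group G]

/-- Cayley–Hamilton as a relation with natural coefficients between `m`, `r(σ) m`, `r(σ²) m`. -/
lemma cayley_hamilton_relation (r : G →* Matrix (Fin 2) (Fin 2) k) (σ : G) {α β : k}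
    (hchar : (r σ).charpoly = (X - C α) * (X - C β)) {t' d : ℕ} (ht' : (t' : k) = -(α + β))
    (hd : (d : k) = α * β) (m : Fin 2 → k) :
    (∑ i ∈ Finset.range 3,
      (if i = 0 then d else if i = 1 then t' else 1) • (r (σ ^ i) *ᵥ m)) = 0 := by
  obtain ⟨A, hA⟩ : ∃ A : Matrix (Fin 2) (Fin 2) k, A = r σ := ⟨_, rfl⟩
  have hCH : A * A - (α + β) • A + (α * β) • (1 : Matrix (Fin 2) (Fin 2) k) = 0 := by
    have h := Matrix.aeval_self_charpoly (r σ)
    rw [hchar, ← hA, map_mul, map_sub, map_sub, aeval_X, aeval_C, aeval_C,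
      Algebra.algebraMap_eq_smul_one, Algebra.algebraMap_eq_smul_one] at h
    rw [← h]
    simp only [sub_mul, mul_sub, smul_mul_assoc, mul_smul_comm, mul_one, one_mul, smul_sub,
      smul_smul, add_smul]
    rw [mul_comm β α]
    abel
  have hsum : (∑ i ∈ Finset.range 3,
      (if i = 0 then d else if i = 1 then t' else 1) • (r (σ ^ i) *ᵥ m))
      = d • m + t' • (A *ᵥ m) + (A * A) *ᵥ m := by
    rw [Finset.sum_range_succ, Finset.sum_range_succ, Finset.sum_range_one]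
    simp only [pow_zero, map_one, Matrix.one_mulVec, pow_one, one_ne_zero, if_true, if_false,
      OfNat.ofNat_ne_zero, OfNat.ofNat_ne_one, one_smul, ← hA]
    rw [sq, map_mul, ← hA]
  rw [hsum, ← Nat.cast_smul_eq_nsmul k d, ← Nat.cast_smul_eq_nsmul k t', ht', hd]
  have h2 : (α * β) • m + -(α + β) • (A *ᵥ m) + (A * A) *ᵥ m
      = (A * A - (α + β) • A + (α * β) • (1 : Matrix (Fin 2) (Fin 2) k)) *ᵥ m := by
    rw [Matrix.add_mulVec, Matrix.sub_mulVec, Matrix.smul_mulVec, Matrix.smul_mulVec,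
      Matrix.one_mulVec, neg_smul]
    abel
  rw [h2, hCH, Matrix.zero_mulVec]

/-- if `F σ F⁻¹ = σ^p` and `r(F²)` is scalar then `σ^(p²) = σ`. -/
lemma pow_sq_eq_self_of_conj (r : G →* Matrix (Fin 2) (Fin 2) k) (hr : Function.Injective r)
    {F σ : G} {p : ℕ} (hconj : F * σ * F⁻¹ = σ ^ p)
    (hFsq : ∃ c : k, r (F * F) = c • (1 : Matrix (Fin 2) (Fin 2) k)) : σ ^ (p ^ 2) = σ := by
  obtain ⟨c, hc⟩ := hFsq
  have h1 : F * F * σ * (F * F)⁻¹ = σ ^ (p ^ 2) := by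
    have h2 : F * F * σ * (F * F)⁻¹ = F * (F * σ * F⁻¹) * F⁻¹ := by group
    rw [h2, hconj, ← conj_pow, hconj, ← pow_mul, sq]
  have h3 : r (F * F) * r (F * F)⁻¹ = 1 := by rw [← map_mul, mul_inv_cancel, map_one]
  have h4 : r (F * F * σ * (F * F)⁻¹) = r σ := by
    rw [map_mul, map_mul, hc, smul_mul_assoc, one_mul, smul_mul_assoc, ← mul_smul_comm]
    rw [hc, smul_mul_assoc, one_mul] at h3
    rw [h3, mul_one]
  rw [← h1]
  exact hr h4

end MatrixPart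

section ResLevels

variable {K : Type*} [Field K] {p : ℕ} [Fact p.Prime] [CharP K p]

/-- the two roots `ϑ, ϑ^p` of `T² + t' T + d`. -/
lemma vieta_theta {ϑ : Kˣ} (hord : orderOf ϑ = p ^ 2 - 1) {t' d : ℕ}
    (hroot : (ϑ : K) ^ 2 + (t' : K) * (ϑ : K) + (d : K) = 0) :
    (ϑ : K) * (ϑ : K) ^ p = (d : K) ∧ (ϑ : K) + (ϑ : K) ^ p = -(t' : K) := by
  have hpp : p.Prime := Fact.out
  have hp2 : 2 ≤ p := hpp.two_le
  have hroot_p : ((ϑ : K) ^ p) ^ 2 + (t' : K) * (ϑ : K) ^ p + (d : K) = 0 := by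
    have h1 := congrArg (frobenius K p) hroot
    rw [map_add, map_add, map_mul, map_pow, map_natCast, map_natCast, map_zero,
      frobenius_def] at h1
    exact h1
  have hne : (ϑ : K) ≠ (ϑ : K) ^ p := by
    intro h
    have h1 : ϑ ^ p = ϑ := by
      apply Units.ext
      rw [Units.val_pow_eq_pow_val]; exact h.symm
    have h2 : ϑ ^ (p - 1) = 1 := by
      have h3 : ϑ ^ p = ϑ ^ (p - 1) * ϑ := by rw [← pow_succ, Nat.sub_add_cancel hpp.one_le]
      rw [h3] at h1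
      exact mul_eq_right.mp h1
    have h4 := orderOf_dvd_of_pow_eq_one h2
    rw [hord] at h4
    have h5 : p ^ 2 - 1 ≤ p - 1 := Nat.le_of_dvd (by omega) h4
    have h6 : 2 * p ≤ p ^ 2 := by rw [sq]; exact Nat.mul_le_mul_right p hp2
    omega
  exact vieta_of_two_roots hne hroot hroot_p

/-- **(LVL-A)** in the residue field. -/
lemma level_A_res (hp2 : p ≠ 2) {ϑ : Kˣ} (hord : orderOf ϑ = p ^ 2 - 1) {t' d : ℕ}
    (hroot : (ϑ : K) ^ 2 + (t' : K) * (ϑ : K) + (d : K) = 0) {j : ℕ} (hj1 : p + 1 < j)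
    (hj2 : j < p * (p + 1)) (hpj : ¬ p ∣ j)
    (h : ((ϑ : K) ^ j) ^ 2 + (((p - 1) * t' ^ 2 + 2 * d : ℕ) : K) * (ϑ : K) ^ j
      + ((d ^ 2 : ℕ) : K) = 0) : j = p ^ 2 + 1 := by
  have hpp : p.Prime := Fact.out
  obtain ⟨hprod, hsum⟩ := vieta_theta hord hroot
  have hc : (((p - 1) * t' ^ 2 + 2 * d : ℕ) : K) = -(t' : K) ^ 2 + 2 * (d : K) := by
    rw [Nat.cast_add, Nat.cast_mul, Nat.cast_sub hpp.one_le, CharP.cast_eq_zero, Nat.cast_one,
      zero_sub, neg_one_mul]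
    push_cast
    ring
  rw [hc] at h
  have hfac : ((ϑ : K) ^ j - (ϑ : K) ^ 2) * ((ϑ : K) ^ j - ((ϑ : K) ^ p) ^ 2) = 0 := by
    have ht : (t' : K) = -((ϑ : K) + (ϑ : K) ^ p) := by rw [hsum, neg_neg]
    push_cast at h
    rw [ht, ← hprod] at h
    linear_combination h
  apply level_eq_of_modEq hpp hp2 hj1 hj2 hpj
  rw [← hord]
  rcases mul_eq_zero.mp hfac with h1 | h1
  · left
    apply pow_eq_pow_iff_modEq.mp
    apply Units.ext
    rw [Units.val_pow_eq_pow_val, Units.val_pow_eq_pow_val]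
    exact sub_eq_zero.mp h1
  · right
    apply pow_eq_pow_iff_modEq.mp
    apply Units.ext
    rw [Units.val_pow_eq_pow_val, Units.val_pow_eq_pow_val, mul_comm 2 p, pow_mul]
    exact sub_eq_zero.mp h1

/-- **(LVL-B)** in the residue field. -/
lemma level_B_res {ϑ : Kˣ} (hord : orderOf ϑ = p ^ 2 - 1) {t' d : ℕ}
    (hroot : (ϑ : K) ^ 2 + (t' : K) * (ϑ : K) + (d : K) = 0) {j : ℕ} (hj1 : p + 1 < j)
    (hj2 : j < p * (p + 1)) (h : (ϑ : K) ^ j = (d : K)) : False := by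
  have hpp : p.Prime := Fact.out
  obtain ⟨hprod, -⟩ := vieta_theta hord hroot
  apply not_modEq_level hpp hj1 hj2
  rw [← hord]
  apply pow_eq_pow_iff_modEq.mp
  apply Units.ext
  rw [Units.val_pow_eq_pow_val, Units.val_pow_eq_pow_val, h, ← hprod, pow_succ']

end ResLevels

section Main

open Matrix Polynomial

variable {L : Type*} [NormedField L] [IsUltrametricDist L] [CompleteSpace L] [Finite (Res L)]
variable {G : Type*} [Group G] [Fintype G] [MulSemiringAction G L] [IsIsometricSMul G L]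
  [FaithfulSMul G L]
variable {k : Type*} [Field k] [Finite k] {p : ℕ} [Fact p.Prime] [CharP k p]

/-- **WP-D numerics.** -/
theorem tame_numerics {π : L} (hπ : IsUnif (⊤ : Subfield L) π) (hp : ‖(p : L)‖ < 1) (hp2 : p ≠ 2)
    (r : G →* Matrix (Fin 2) (Fin 2) k) (hr : Function.Injective r)
    {F σ₀ : G} (hσ₀ : σ₀ ∈ inertia G L)
    (hordσ : orderOf σ₀ = Nat.card ↥(inertia G L))
    (hordθ : orderOf (theta (G := G) hπ.ne_zero ⟨σ₀, hσ₀⟩) = Nat.card ↥(inertia G L))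
    (hnorm : ‖π‖ ^ Nat.card ↥(inertia G L) = ‖(p : L)‖)
    (hconj : F * σ₀ * F⁻¹ = σ₀ ^ p)
    (hFsq : ∃ c : k, r (F * F) = c • (1 : Matrix (Fin 2) (Fin 2) k))
    {α β : k} (hαβ : α ≠ β) (hα : α ^ p = β) (hβ : β ^ p = α)
    (hchar : (r σ₀).charpoly = (X - C α) * (X - C β))
    {ζ : L} (hζ : IsPrimitiveRoot ζ p) {d : ℕ} (hd : σ₀ • ζ = ζ ^ d)
    (hdet : (r σ₀).det = (d : k))
    {z : L} (hz : ‖ζ - 1‖ ≤ ‖z‖) (hz1 : ‖z‖ < 1) {m : Fin 2 → k}
    (hRL : ∀ (s : Finset ℕ) (c : ℕ → ℕ), (∑ i ∈ s, c i • (r (σ₀ ^ i) *ᵥ m)) = 0 →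
      ‖∑ i ∈ s, (c i : L) * (σ₀ ^ i • z)‖ ≤ ‖z‖ ^ 2) :
    ‖ζ - 1‖ = ‖π‖ ^ (p + 1) ∧ Nat.card ↥(inertia G L) = p ^ 2 - 1 ∧
    ∃ t' : ℕ, (t' : k) = -(α + β) ∧
      ((theta (G := G) hπ.ne_zero ⟨σ₀, hσ₀⟩ : (Res L)ˣ) : Res L) ^ 2 +
        (t' : Res L) * ((theta (G := G) hπ.ne_zero ⟨σ₀, hσ₀⟩ : (Res L)ˣ) : Res L)
        + (d : Res L) = 0 := by
  classical
  have hpp : p.Prime := Fact.out
  have hp1 : 1 ≤ p := hpp.one_le
  have : CharP (Res L) p := charP_res hpp hp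
  have hρ0 := hπ.pos
  have hρ1 := hπ.lt_one
  have hlam0 : 0 < ‖ζ - 1‖ := norm_sub_one_pos hpp hζ
  have hlam1 : ‖ζ - 1‖ < 1 := norm_sub_one_lt_one hpp hp hζ
  have hlamp : ‖ζ - 1‖ ^ (p - 1) = ‖(p : L)‖ := norm_sub_one_pow_eq hpp hζ
  have hζ0 : ζ - 1 ≠ 0 := norm_pos_iff.mp hlam0
  have hζn : ‖ζ‖ ≤ 1 := (norm_eq_one_of_pow_eq_one hpp.ne_zero hζ.pow_eq_one).le
  -- `c₀` and `n`
  obtain ⟨c₀, hc₀⟩ := hπ.exists_pow (Subfield.mem_top _) hζ0 hlam1.le
  have hz0 : z ≠ 0 := norm_pos_iff.mp (hlam0.trans_le hz)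
  obtain ⟨n, hn⟩ := hπ.exists_pow (Subfield.mem_top _) hz0 hz1.le
  have hn1 : 1 ≤ n := by
    by_contra hcon
    have h0 : n = 0 := by omega
    rw [h0, pow_zero] at hn
    rw [hn] at hz1
    exact lt_irrefl _ hz1
  have hnc : n ≤ c₀ := by
    rw [hc₀, hn] at hz
    exact (pow_le_pow_iff_right_of_lt_one₀ hρ0 hρ1).mp hz
  -- `e₀ = c₀ (p - 1)`
  obtain ⟨e₀, he₀⟩ : ∃ e₀ : ℕ, e₀ = Nat.card ↥(inertia G L) := ⟨_, rfl⟩
  rw [← he₀] at hordσ hordθ hnorm ⊢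
  have he₀c : e₀ = c₀ * (p - 1) := by
    apply pow_right_injective₀ hρ0 hρ1.ne
    show ‖π‖ ^ e₀ = ‖π‖ ^ (c₀ * (p - 1))
    rw [hnorm, ← hlamp, hc₀, ← pow_mul]
  -- `ϑ`
  obtain ⟨ϑ, hϑ⟩ : ∃ ϑ : (Res L)ˣ, ϑ = theta (G := G) hπ.ne_zero ⟨σ₀, hσ₀⟩ := ⟨_, rfl⟩
  rw [← hϑ] at hordθ ⊢
  have hϑc : (ϑ : Res L) = res L (quotInt π σ₀) := by rw [hϑ]; rfl
  -- `t'`
  have hfix : (α + β) ^ p = α + β := by rw [add_pow_char, hα, hβ, add_comm]
  obtain ⟨n₀, hn₀⟩ := Fermat.Agent.TW.exists_natCast_eq_of_pow_eq (q := p) hfix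
  obtain ⟨t', ht'def⟩ : ∃ t' : ℕ, t' = (p - 1) * n₀ := ⟨_, rfl⟩
  have ht' : (t' : k) = -(α + β) := by
    rw [ht'def, Nat.cast_mul, Nat.cast_sub hp1, CharP.cast_eq_zero, Nat.cast_one, zero_sub,
      neg_one_mul, hn₀]
  have hdk : (d : k) = α * β := by rw [← hdet]; exact (trace_det_of_charpoly hchar).2
  -- the relation
  have hrel := hRL (Finset.range 3) (fun i => if i = 0 then d else if i = 1 then t' else 1)
    (cayley_hamilton_relation r σ₀ hchar ht' hdk m)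
  have hrel' : ‖(d : L) * z + (t' : L) * σ₀ • z + (σ₀ ^ 2) • z‖ ≤ ‖z‖ ^ 2 := by
    refine le_of_eq_of_le (congrArg norm ?_) hrel
    rw [Finset.sum_range_succ, Finset.sum_range_succ, Finset.sum_range_one]
    simp only [pow_zero, one_smul, pow_one, one_ne_zero, if_true, if_false,
      OfNat.ofNat_ne_zero, OfNat.ofNat_ne_one, Nat.cast_one, one_mul]
  have hroot := root_of_relation hz0 hz1 hσ₀ hrel'
  obtain ⟨a₁, ha₁⟩ : ∃ a₁ : Res L, a₁ = res L (quotInt z σ₀) := ⟨_, rfl⟩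
  rw [← ha₁] at hroot
  have ha₁ϑ : a₁ = (ϑ : Res L) ^ n := by
    rw [ha₁, hϑc]; exact res_quotInt_eq_pow hπ.ne_zero hn hσ₀
  -- `a₁^p` is a root as well
  have hfrob : ∀ a : Res L, a ^ 2 + (t' : Res L) * a + (d : Res L) = 0 →
      (a ^ p) ^ 2 + (t' : Res L) * a ^ p + (d : Res L) = 0 := by
    intro a ha
    have h1 := congrArg (frobenius (Res L) p) ha
    rw [map_add, map_add, map_mul, map_pow, map_natCast, map_natCast, map_zero,
      frobenius_def] at h1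
    exact h1
  have hroot_p := hfrob a₁ hroot
  -- `a₁` is not Frobenius-fixed
  have hne : a₁ ^ p ≠ a₁ := by
    intro hfixed
    obtain ⟨c, hc⟩ := exists_nat_root_of_frobenius_fixed (K := Res L) (k := k) hfixed hroot
    have hcp : ((c : k)) ^ p = c := by
      have := map_natCast (frobenius k p) c
      rwa [frobenius_def] at this
    have h1 : ((c : k) - α) * ((c : k) - β) = 0 := by
      linear_combination hc - (c : k) * ht' - hdk
    rcases mul_eq_zero.mp h1 with h | h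
    · have h2 : (c : k) = α := sub_eq_zero.mp h
      rw [h2, hα] at hcp
      exact hαβ hcp.symm
    · have h2 : (c : k) = β := sub_eq_zero.mp h
      rw [h2, hβ] at hcp
      exact hαβ hcp
  obtain ⟨hprod, -⟩ := vieta_of_two_roots hne.symm hroot hroot_p
  -- `ϑ^(n (p + 1)) = d = ϑ^c₀`
  have h1 : (ϑ : Res L) ^ (n * (p + 1)) = (d : Res L) := by
    rw [← hprod, ha₁ϑ, ← pow_mul, ← pow_add]
    congr 1
    ring
  have h2 : (ϑ : Res L) ^ c₀ = (d : Res L) := by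
    rw [hϑc, ← res_quotInt_eq_pow hπ.ne_zero hc₀ hσ₀]
    exact res_quotInt_sub_one hζn hlam1 hζ0 hd
  have h3 : ϑ ^ (n * (p + 1)) = ϑ ^ c₀ := by
    apply Units.ext
    rw [Units.val_pow_eq_pow_val, Units.val_pow_eq_pow_val, h1, h2]
  have hmod : n * (p + 1) ≡ c₀ [MOD c₀ * (p - 1)] := by
    rw [← he₀c, ← hordθ]
    exact pow_eq_pow_iff_modEq.mp h3
  -- `e₀ ∣ p² - 1`
  have hsq1 : 1 ≤ p ^ 2 := Nat.one_le_pow _ _ hpp.pos
  have hdvd : c₀ * (p - 1) ∣ p ^ 2 - 1 := by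
    rw [← he₀c, ← hordσ]
    apply orderOf_dvd_of_pow_eq_one
    have h4 := pow_sq_eq_self_of_conj r hr hconj hFsq
    have h5 : σ₀ ^ (p ^ 2) = σ₀ ^ (p ^ 2 - 1) * σ₀ := by
      rw [← pow_succ, Nat.sub_add_cancel hsq1]
    rw [h5] at h4
    exact mul_eq_right.mp h4
  obtain ⟨hc₀eq, hn1p⟩ := numerics_core hpp hp2 hn1 hnc hdvd hmod
  have he₀eq : e₀ = p ^ 2 - 1 := by
    rw [he₀c, hc₀eq]
    obtain ⟨q, rfl⟩ : ∃ q, p = q + 1 := ⟨p - 1, by omega⟩
    simp only [Nat.add_sub_cancel]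
    have : (q + 1) ^ 2 = (q + 1 + 1) * q + 1 := by ring
    omega
  refine ⟨by rw [hc₀, hc₀eq], he₀eq, t', ht', ?_⟩
  rcases hn1p with h | h
  · rw [h, pow_one] at ha₁ϑ
    rw [← ha₁ϑ]
    exact hroot
  · have h6 : a₁ ^ p = (ϑ : Res L) := by
      rw [ha₁ϑ, h, ← pow_mul, ← sq]
      have h7 : ϑ ^ (p ^ 2) = ϑ := by
        have h8 : ϑ ^ (p ^ 2) = ϑ ^ (p ^ 2 - 1) * ϑ := by
          rw [← pow_succ, Nat.sub_add_cancel hsq1]
        rw [h8, ← he₀eq, ← hordθ, pow_orderOf_eq_one, one_mul]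
      rw [← Units.val_pow_eq_pow_val, h7]
    rw [← h6]
    exact hroot_p

/-- **WP-D, norm form**: the level constraints used by the count. -/
theorem tame_levels {π : L} (hπ : IsUnif (⊤ : Subfield L) π) (hp : ‖(p : L)‖ < 1) (hp2 : p ≠ 2)
    (r : G →* Matrix (Fin 2) (Fin 2) k) (hr : Function.Injective r)
    {F σ₀ : G} (hσ₀ : σ₀ ∈ inertia G L)
    (hordσ : orderOf σ₀ = Nat.card ↥(inertia G L))
    (hordθ : orderOf (theta (G := G) hπ.ne_zero ⟨σ₀, hσ₀⟩) = Nat.card ↥(inertia G L))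
    (hnorm : ‖π‖ ^ Nat.card ↥(inertia G L) = ‖(p : L)‖)
    (hconj : F * σ₀ * F⁻¹ = σ₀ ^ p)
    (hFsq : ∃ c : k, r (F * F) = c • (1 : Matrix (Fin 2) (Fin 2) k))
    {α β : k} (hαβ : α ≠ β) (hα : α ^ p = β) (hβ : β ^ p = α)
    (hchar : (r σ₀).charpoly = (X - C α) * (X - C β))
    {ζ : L} (hζ : IsPrimitiveRoot ζ p) {d : ℕ} (hd : σ₀ • ζ = ζ ^ d)
    (hdet : (r σ₀).det = (d : k))
    {z : L} (hz : ‖ζ - 1‖ ≤ ‖z‖) (hz1 : ‖z‖ < 1) {m : Fin 2 → k}
    (hRL : ∀ (s : Finset ℕ) (c : ℕ → ℕ), (∑ i ∈ s, c i • (r (σ₀ ^ i) *ᵥ m)) = 0 →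
      ‖∑ i ∈ s, (c i : L) * (σ₀ ^ i • z)‖ ≤ ‖z‖ ^ 2) :
    ‖ζ - 1‖ = ‖π‖ ^ (p + 1) ∧
    ∃ t' : ℕ, (t' : k) = -(α + β) ∧
      (∀ j : ℕ, p + 1 < j → j < p * (p + 1) → ¬ p ∣ j →
        ‖((σ₀ • π / π) ^ j) ^ 2 + (((p - 1) * t' ^ 2 + 2 * d : ℕ) : L) * (σ₀ • π / π) ^ j
          + ((d ^ 2 : ℕ) : L)‖ < 1 → j = p ^ 2 + 1) ∧
      (∀ j : ℕ, p + 1 < j → j < p * (p + 1) → ‖(σ₀ • π / π) ^ j - (d : L)‖ < 1 → False) := by
  have hpp : p.Prime := Fact.out
  have : CharP (Res L) p := charP_res hpp hp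
  obtain ⟨h1, h2, t', ht', hroot⟩ := tame_numerics hπ hp hp2 r hr hσ₀ hordσ hordθ hnorm hconj hFsq
    hαβ hα hβ hchar hζ hd hdet hz hz1 hRL
  rw [h2] at hordθ
  obtain ⟨ϑ, hϑ⟩ : ∃ ϑ : (Res L)ˣ, ϑ = theta (G := G) hπ.ne_zero ⟨σ₀, hσ₀⟩ := ⟨_, rfl⟩
  rw [← hϑ] at hordθ hroot
  have hϑc : (ϑ : Res L) = res L (quotInt π σ₀) := by rw [hϑ]; rfl
  refine ⟨h1, t', ht', ?_, ?_⟩
  · intro j hj1 hj2 hpj hnorm'
    apply level_A_res hp2 hordθ hroot hj1 hj2 hpj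
    have h3 : res L ((quotInt π σ₀ ^ j) ^ 2
        + (((p - 1) * t' ^ 2 + 2 * d : ℕ) : intRing L) * quotInt π σ₀ ^ j
        + ((d ^ 2 : ℕ) : intRing L)) = 0 := by
      rw [res_eq_zero_iff]
      simp only [Subring.coe_add, Subring.coe_mul, Subring.coe_pow, Subring.coe_natCast,
        coe_quotInt]
      exact hnorm'
    rw [map_add, map_add, map_mul, map_pow, map_pow, map_natCast, map_natCast, ← hϑc] at h3
    exact h3
  · intro j hj1 hj2 hnorm'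
    apply level_B_res hordθ hroot hj1 hj2
    have h3 : res L (quotInt π σ₀ ^ j) = res L ((d : ℕ) : intRing L) := by
      rw [res_eq_iff]
      simp only [Subring.coe_pow, Subring.coe_natCast, coe_quotInt]
      exact hnorm'
    rw [map_pow, map_natCast, ← hϑc] at h3
    exact h3

end Main

end Fermat.Agent.Ram
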