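/-
F2 (flat local condition at p), WP-D, complement: in the supersingular case the trace
`α + β` of the generator of the tame inertia is nonzero.
-/
import Mathlib
import Fermat.Agent.Ram.TameNum_helper7

set_option autoImplicit false
set_option linter.unusedSectionVars false

namespace Fermat.Agent.Ram

open Matrix Polynomial

section TraceAbs

variable {k : Type*} [Field k] {G : Type*} [Group G]

/-- if `r σ₀` has eigenvalues `α`, `α^p = β ≠ α` and `σ₀` has order `p² - 1`, then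
`α + β ≠ 0`. -/
theorem trace_ne_zero_of_orderOf {p : ℕ} (hp : p.Prime)
    (r : G →* Matrix (Fin 2) (Fin 2) k) (hr : Function.Injective r) {σ₀ : G}
    (hord : orderOf σ₀ = p ^ 2 - 1) {α β : k} (hα : α ^ p = β) (hαβ : α ≠ β)
    (hchar : (r σ₀).charpoly = (X - C α) * (X - C β)) : α + β ≠ 0 := by
  intro hsum
  have hp2le : 2 ≤ p := hp.two_le
  have hβ : β = -α := eq_neg_of_add_eq_zero_right hsum
  have hα0 : α ≠ 0 := by
    intro h
    apply hαβ
    rw [hβ, h, neg_zero]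
  obtain ⟨A, hA⟩ : ∃ A : Matrix (Fin 2) (Fin 2) k, A = r σ₀ := ⟨_, rfl⟩
  have hCH : A * A = (α ^ 2) • (1 : Matrix (Fin 2) (Fin 2) k) := by
    have h := Matrix.aeval_self_charpoly (r σ₀)
    rw [hchar, ← hA, map_mul, map_sub, map_sub, aeval_X, aeval_C, aeval_C,
      Algebra.algebraMap_eq_smul_one, Algebra.algebraMap_eq_smul_one, hβ] at h
    have h2 : (A - α • (1 : Matrix (Fin 2) (Fin 2) k)) * (A - (-α) • (1 : Matrix (Fin 2) (Fin 2) k))
        = A * A - (α ^ 2) • (1 : Matrix (Fin 2) (Fin 2) k) := by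
      rw [neg_smul, sub_neg_eq_add, sub_mul, mul_add, mul_add, Matrix.mul_smul, Matrix.mul_one,
        Matrix.smul_mul, Matrix.one_mul, Matrix.smul_mul, Matrix.one_mul, smul_smul, sq]
      abel
    rw [h2] at h
    exact sub_eq_zero.mp h
  -- `α^(p-1) = -1`
  have hαp : α ^ (p - 1) = -1 := by
    have h1 : α ^ (p - 1) * α = -1 * α := by
      rw [← pow_succ, Nat.sub_add_cancel hp.one_le, hα, hβ, neg_one_mul]
    exact mul_right_cancel₀ hα0 h1
  have hα2 : (α ^ 2) ^ (p - 1) = 1 := by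
    rw [← pow_mul, mul_comm, pow_mul, hαp]
    norm_num
  have hApow : A ^ (2 * (p - 1)) = 1 := by
    rw [pow_mul, sq, hCH, _root_.smul_pow, one_pow, hα2, one_smul]
  have hσpow : σ₀ ^ (2 * (p - 1)) = 1 := by
    apply hr
    rw [map_pow, ← hA, hApow, map_one]
  have hdvd : p ^ 2 - 1 ∣ 2 * (p - 1) := hord ▸ orderOf_dvd_of_pow_eq_one hσpow
  have hle : p ^ 2 - 1 ≤ 2 * (p - 1) := Nat.le_of_dvd (by omega) hdvd
  obtain ⟨m, rfl⟩ : ∃ m, p = m + 2 := ⟨p - 2, by omega⟩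
  have h3 : (m + 2) ^ 2 = m * m + 4 * m + 4 := by ring
  have h4 : (m + 2) ^ 2 - 1 = m * m + 4 * m + 3 := by omega
  rw [h4] at hle
  have h5 : m + 2 - 1 = m + 1 := by omega
  rw [h5] at hle
  nlinarith

end TraceAbs

section TraceMain

variable {L : Type*} [NormedField L] [IsUltrametricDist L] [CompleteSpace L] [Finite (Res L)]
variable {G : Type*} [Group G] [Fintype G] [MulSemiringAction G L] [IsIsometricSMul G L]
  [FaithfulSMul G L]
variable {k : Type*} [Field k] [Finite k] {p : ℕ} [Fact p.Prime] [CharP k p]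

/-- **WP-D, complement**: under the hypotheses of `tame_numerics`, `α + β ≠ 0`. -/
theorem tame_trace_ne_zero {π : L} (hπ : IsUnif (⊤ : Subfield L) π) (hp : ‖(p : L)‖ < 1)
    (hp2 : p ≠ 2)
    (r : G →* Matrix (Fin 2) (Fin 2) k) (hr : Function.Injective r)
    {F σ₀ : G} (hσ₀ : σ₀ ∈ inertia G L)
    (hordσ : orderOf σ₀ = Nat.card ↥(inertia G L))
    (hordθ : orderOf (theta (G := G) hπ.ne_zero ⟨σ₀, hσ₀⟩) = Nat.card ↥(inertia G L))
    (hnorm : ‖π‖ ^ Nat.card ↥(inertia G L) = ‖(p : L)‖)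
    (hconj : F * σ₀ * F⁻¹ = σ₀ ^ p)
    (hFsq : ∃ c : k, r (F * F) = c • (1 : Matrix (Fin 2) (Fin 2) k))
    {α β : k} (hαβ : α ≠ β) (hα : α ^ p = β) (hβ : β ^ p = α)
    (hchar : (r σ₀).charpoly = (X - C α) * (X - C β))
    {ζ : L} (hζ : IsPrimitiveRoot ζ p) {d : ℕ} (hd : σ₀ • ζ = ζ ^ d)
    (hdet : (r σ₀).det = (d : k))
    {z : L} (hz : ‖ζ - 1‖ ≤ ‖z‖) (hz1 : ‖z‖ < 1) {m : Fin 2 → k}
    (hRL : ∀ (s : Finset ℕ) (c : ℕ → ℕ), (∑ i ∈ s, c i • (r (σ₀ ^ i) *ᵥ m)) = 0 →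
      ‖∑ i ∈ s, (c i : L) * (σ₀ ^ i • z)‖ ≤ ‖z‖ ^ 2) :
    α + β ≠ 0 := by
  obtain ⟨-, h2, -⟩ := tame_numerics hπ hp hp2 r hr hσ₀ hordσ hordθ hnorm hconj hFsq
    hαβ hα hβ hchar hζ hd hdet hz hz1 hRL
  rw [h2] at hordσ
  exact trace_ne_zero_of_orderOf (Fact.out : p.Prime) r hr hordσ hα hαβ hchar

end TraceMain

end Fermat.Agent.Ram
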