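/-
Ramification package (S56, leaf (4b)), part 1: ultrametric normed fields with a discrete
valuation, in NORM language.

* `IsUnif S π` : `π` is a uniformizer of the subfield `S` of the ambient normed field.
* `IsUnif.exists_zpow` : the value group of `S` is generated by `‖π‖`.
* `exists_repr` : the structure theorem.  If `K ≤ M` are subfields of a complete ultrametric
  normed field, `K` is closed, `M / K` has residue degree one (every integer of `M` is congruent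
  to an element of `K` modulo the maximal ideal) and `‖π_K‖ = ‖π_M‖ ^ e`, then every integer of
  `M` is an `𝒪_K`-combination of `1, π_M, …, π_M ^ (e-1)`.
-/
import Mathlib

set_option autoImplicit false

namespace Fermat.Agent.Ram

open Filter Topology

set_option linter.unusedSectionVars false

variable {L : Type*} [NormedField L] [IsUltrametricDist L]

/-! ### Ultrametric helpers -/

lemma norm_sub_le_max' (x y : L) : ‖x - y‖ ≤ max ‖x‖ ‖y‖ := by
  rw [sub_eq_add_neg]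
  simpa using IsUltrametricDist.norm_add_le_max x (-y)

lemma norm_add_eq_of_lt {x y : L} (h : ‖x‖ < ‖y‖) : ‖x + y‖ = ‖y‖ := by
  rw [IsUltrametricDist.norm_add_eq_max_of_norm_ne_norm h.ne, max_eq_right h.le]

lemma norm_add_eq_of_lt' {x y : L} (h : ‖y‖ < ‖x‖) : ‖x + y‖ = ‖x‖ := by
  rw [add_comm]; exact norm_add_eq_of_lt h

lemma norm_sub_eq_of_lt {x y : L} (h : ‖x‖ < ‖y‖) : ‖x - y‖ = ‖y‖ := by
  rw [sub_eq_add_neg, norm_add_eq_of_lt (by simpa using h), norm_neg]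

lemma norm_sub_eq_of_lt' {x y : L} (h : ‖y‖ < ‖x‖) : ‖x - y‖ = ‖x‖ := by
  rw [sub_eq_add_neg, norm_add_eq_of_lt' (by simpa using h)]

lemma norm_add_le_of_le {x y : L} {c : ℝ} (hx : ‖x‖ ≤ c) (hy : ‖y‖ ≤ c) : ‖x + y‖ ≤ c :=
  (IsUltrametricDist.norm_add_le_max x y).trans (max_le hx hy)

lemma norm_sub_le_of_le {x y : L} {c : ℝ} (hx : ‖x‖ ≤ c) (hy : ‖y‖ ≤ c) : ‖x - y‖ ≤ c :=
  (norm_sub_le_max' x y).trans (max_le hx hy)

lemma norm_add_lt_of_lt {x y : L} {c : ℝ} (hx : ‖x‖ < c) (hy : ‖y‖ < c) : ‖x + y‖ < c :=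
  (IsUltrametricDist.norm_add_le_max x y).trans_lt (max_lt hx hy)

lemma norm_sub_lt_of_lt {x y : L} {c : ℝ} (hx : ‖x‖ < c) (hy : ‖y‖ < c) : ‖x - y‖ < c :=
  (norm_sub_le_max' x y).trans_lt (max_lt hx hy)

/-- `π` is a uniformizer of the subfield `S` with respect to the ambient norm. -/
structure IsUnif (S : Subfield L) (π : L) : Prop where
  mem : π ∈ S
  pos : 0 < ‖π‖
  lt_one : ‖π‖ < 1
  le : ∀ x ∈ S, ‖x‖ < 1 → ‖x‖ ≤ ‖π‖

namespace IsUnif

variable {S : Subfield L} {π : L}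

lemma ne_zero (h : IsUnif S π) : π ≠ 0 := norm_pos_iff.mp h.pos

/-- The value group of `S` is generated by `‖π‖`. -/
lemma exists_zpow (h : IsUnif S π) {x : L} (hx : x ∈ S) (hx0 : x ≠ 0) :
    ∃ k : ℤ, ‖x‖ = ‖π‖ ^ k := by
  have hρ0 := h.pos
  have hρ1 := h.lt_one
  have hy : 1 < ‖π‖⁻¹ := (one_lt_inv₀ hρ0).mpr hρ1
  obtain ⟨n, hn1, hn2⟩ := exists_mem_Ioc_zpow (norm_pos_iff.mpr hx0) hy
  refine ⟨-(n + 1), ?_⟩
  -- `y = x / π ^ (-(n+1))` has norm in `(‖π‖, 1]`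
  set y : L := x * π ^ (n + 1) with hy_def
  have hyS : y ∈ S := S.mul_mem hx (S.zpow_mem h.mem _)
  have hynorm : ‖y‖ = ‖x‖ * ‖π‖ ^ (n + 1) := by rw [hy_def, norm_mul, norm_zpow]
  have hpow_pos : 0 < ‖π‖ ^ (n + 1) := zpow_pos hρ0 _
  have h1 : ‖y‖ ≤ 1 := by
    rw [hynorm]
    have : ‖x‖ ≤ (‖π‖ ^ (n + 1))⁻¹ := by rwa [← inv_zpow]
    calc ‖x‖ * ‖π‖ ^ (n + 1) ≤ (‖π‖ ^ (n + 1))⁻¹ * ‖π‖ ^ (n + 1) := by gcongr
      _ = 1 := inv_mul_cancel₀ hpow_pos.ne'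
  have h2 : ‖π‖ < ‖y‖ := by
    rw [hynorm]
    have h3 : (‖π‖ ^ n)⁻¹ < ‖x‖ := by rwa [← inv_zpow]
    have h4 : ‖π‖ ^ (n + 1) = ‖π‖ ^ n * ‖π‖ := zpow_add_one₀ hρ0.ne' n
    have hn_pos : 0 < ‖π‖ ^ n := zpow_pos hρ0 _
    calc ‖π‖ = (‖π‖ ^ n)⁻¹ * ‖π‖ ^ (n + 1) := by
          rw [h4, ← mul_assoc, inv_mul_cancel₀ hn_pos.ne', one_mul]
      _ < ‖x‖ * ‖π‖ ^ (n + 1) := by gcongr
  have h5 : ‖y‖ = 1 := by
    rcases lt_or_eq_of_le h1 with h6 | h6
    · exact absurd (h.le y hyS h6) (not_le.mpr h2)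
    · exact h6
  rw [hynorm] at h5
  rw [zpow_neg]
  exact eq_inv_of_mul_eq_one_left h5

/-- A natural-number version for elements of norm at most one. -/
lemma exists_pow (h : IsUnif S π) {x : L} (hx : x ∈ S) (hx0 : x ≠ 0) (hx1 : ‖x‖ ≤ 1) :
    ∃ k : ℕ, ‖x‖ = ‖π‖ ^ k := by
  obtain ⟨k, hk⟩ := h.exists_zpow hx hx0
  have hk0 : 0 ≤ k := by
    by_contra hneg
    rw [not_le] at hneg
    have : 1 < ‖π‖ ^ k := by
      have h1 : ‖π‖ ^ k = (‖π‖⁻¹) ^ (-k) := by rw [inv_zpow, zpow_neg, inv_inv]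
      rw [h1]
      exact one_lt_zpow₀ ((one_lt_inv₀ h.pos).mpr h.lt_one) (by omega)
    linarith [hk ▸ hx1]
  lift k to ℕ using hk0
  exact ⟨k, by simpa using hk⟩

end IsUnif

/-! ### The structure theorem -/

section Structure

variable [CompleteSpace L]

/-- One approximation step: an integer of `M` is `b + π * a'` with `b` an integer of `K` and
`a'` an integer of `M`. -/
lemma exists_step (K M : Subfield L) {π : L} (hπ : IsUnif M π)
    (hres : ∀ a ∈ M, ‖a‖ ≤ 1 → ∃ b ∈ K, ‖a - b‖ < 1) (hKM : K ≤ M)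
    {a : L} (ha : a ∈ M) (ha1 : ‖a‖ ≤ 1) :
    ∃ b ∈ K, ‖b‖ ≤ 1 ∧ ∃ a' ∈ M, ‖a'‖ ≤ 1 ∧ a = b + π * a' := by
  obtain ⟨b, hbK, hb⟩ := hres a ha ha1
  have hb1 : ‖b‖ ≤ 1 := by
    have : b = a - (a - b) := by ring
    rw [this]
    exact norm_sub_le_of_le ha1 hb.le
  have habM : a - b ∈ M := M.sub_mem ha (hKM hbK)
  refine ⟨b, hbK, hb1, (a - b) / π, M.div_mem habM hπ.mem, ?_, ?_⟩
  · rw [norm_div, div_le_one hπ.pos]
    exact hπ.le _ habM hb
  · rw [mul_div_cancel₀ _ hπ.ne_zero]; ring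

/-- `n` approximation steps. -/
lemma exists_steps (K M : Subfield L) {π : L} (hπ : IsUnif M π)
    (hres : ∀ a ∈ M, ‖a‖ ≤ 1 → ∃ b ∈ K, ‖a - b‖ < 1) (hKM : K ≤ M) (n : ℕ)
    {a : L} (ha : a ∈ M) (ha1 : ‖a‖ ≤ 1) :
    ∃ b : ℕ → L, (∀ i, b i ∈ K ∧ ‖b i‖ ≤ 1) ∧ ∃ a' ∈ M, ‖a'‖ ≤ 1 ∧
      a = ∑ i ∈ Finset.range n, b i * π ^ i + π ^ n * a' := by
  induction n with
  | zero => exact ⟨fun _ => 0, fun _ => ⟨K.zero_mem, by simp⟩, a, ha, ha1, by simp⟩
  | succ n ih =>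
    obtain ⟨b, hb, a', ha', ha'1, hrep⟩ := ih
    obtain ⟨b', hb'K, hb'1, a'', ha'', ha''1, hrep'⟩ := exists_step K M hπ hres hKM ha' ha'1
    refine ⟨fun i => if i = n then b' else b i, fun i => ?_, a'', ha'', ha''1, ?_⟩
    · by_cases hi : i = n
      · simp only [hi, if_true]; exact ⟨hb'K, hb'1⟩
      · simp only [hi, if_false]; exact hb i
    · rw [Finset.sum_range_succ]
      have h1 : ∑ i ∈ Finset.range n, (if i = n then b' else b i) * π ^ i
          = ∑ i ∈ Finset.range n, b i * π ^ i := by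
        apply Finset.sum_congr rfl
        intro i hi
        have : i ≠ n := (Finset.mem_range.mp hi).ne
        simp [this]
      rw [h1]
      simp only [if_true]
      rw [hrep, hrep']
      ring

/-- One full round: modulo `π_K`. -/
lemma exists_round (K M : Subfield L) {π πK : L} (hπ : IsUnif M π)
    (hres : ∀ a ∈ M, ‖a‖ ≤ 1 → ∃ b ∈ K, ‖a - b‖ < 1) (hKM : K ≤ M)
    (hπK : πK ∈ K) {e : ℕ} (he : ‖πK‖ = ‖π‖ ^ e)
    {a : L} (ha : a ∈ M) (ha1 : ‖a‖ ≤ 1) :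
    ∃ b : ℕ → L, (∀ i, b i ∈ K ∧ ‖b i‖ ≤ 1) ∧ ∃ a' ∈ M, ‖a'‖ ≤ 1 ∧
      a = ∑ i ∈ Finset.range e, b i * π ^ i + πK * a' := by
  obtain ⟨b, hb, a', ha', ha'1, hrep⟩ := exists_steps K M hπ hres hKM e ha ha1
  have hπK0 : πK ≠ 0 := by
    rw [← norm_pos_iff, he]; exact pow_pos hπ.pos _
  refine ⟨b, hb, π ^ e / πK * a', M.mul_mem (M.div_mem (M.pow_mem hπ.mem _) (hKM hπK)) ha', ?_, ?_⟩
  · rw [norm_mul, norm_div, norm_pow, he, div_self (pow_pos hπ.pos _).ne', one_mul]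
    exact ha'1
  · rw [hrep, ← mul_assoc, mul_div_cancel₀ _ hπK0]

/-- **Structure theorem.**  Every integer of `M` is an `𝒪_K`-combination of
`1, π, …, π ^ (e-1)`. -/
theorem exists_repr (K M : Subfield L) (hKM : K ≤ M) (hKc : IsClosed (K : Set L))
    {π πK : L} (hπ : IsUnif M π) (hπK : πK ∈ K) (hπK1 : ‖πK‖ < 1) {e : ℕ} (he : ‖πK‖ = ‖π‖ ^ e)
    (hres : ∀ a ∈ M, ‖a‖ ≤ 1 → ∃ b ∈ K, ‖a - b‖ < 1)
    {a : L} (ha : a ∈ M) (ha1 : ‖a‖ ≤ 1) :
    ∃ b : ℕ → L, (∀ i, b i ∈ K ∧ ‖b i‖ ≤ 1) ∧ a = ∑ i ∈ Finset.range e, b i * π ^ i := by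
  classical
  -- choose the round functions
  have hround : ∀ x : L, ∃ (b : ℕ → L) (a' : L), x ∈ M → ‖x‖ ≤ 1 →
      (∀ i, b i ∈ K ∧ ‖b i‖ ≤ 1) ∧ a' ∈ M ∧ ‖a'‖ ≤ 1 ∧
        x = ∑ i ∈ Finset.range e, b i * π ^ i + πK * a' := by
    intro x
    by_cases hx : x ∈ M ∧ ‖x‖ ≤ 1
    · obtain ⟨b, hb, a', ha', ha'1, hrep⟩ := exists_round K M hπ hres hKM hπK he hx.1 hx.2
      exact ⟨b, a', fun _ _ => ⟨hb, ha', ha'1, hrep⟩⟩
    · exact ⟨fun _ => 0, 0, fun h1 h2 => absurd ⟨h1, h2⟩ hx⟩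
  choose bf af hspec using hround
  -- the sequence of remainders
  set A : ℕ → L := fun k => af^[k] a with hA
  have hAmem : ∀ k, A k ∈ M ∧ ‖A k‖ ≤ 1 := by
    intro k
    induction k with
    | zero => exact ⟨ha, ha1⟩
    | succ k ih =>
      have := hspec (A k) ih.1 ih.2
      have hstep : A (k + 1) = af (A k) := by
        simp only [hA, Function.iterate_succ_apply']
      rw [hstep]
      exact ⟨this.2.1, this.2.2.1⟩
  have hAsucc : ∀ k, A (k + 1) = af (A k) := fun k => by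
    simp only [hA, Function.iterate_succ_apply']
  have hb : ∀ k i, bf (A k) i ∈ K ∧ ‖bf (A k) i‖ ≤ 1 := fun k i =>
    (hspec (A k) (hAmem k).1 (hAmem k).2).1 i
  have hrec : ∀ k, A k = ∑ i ∈ Finset.range e, bf (A k) i * π ^ i + πK * A (k + 1) := fun k => by
    rw [hAsucc]
    exact (hspec (A k) (hAmem k).1 (hAmem k).2).2.2.2
  -- the partial sum identity
  have hpart : ∀ n, a = ∑ k ∈ Finset.range n, πK ^ k * ∑ i ∈ Finset.range e, bf (A k) i * π ^ i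
      + πK ^ n * A n := by
    intro n
    induction n with
    | zero => simp [hA]
    | succ n ih =>
      rw [Finset.sum_range_succ, add_assoc]
      conv_lhs => rw [ih]
      congr 1
      rw [pow_succ, mul_assoc, ← mul_add, ← hrec]
  have hρ : ‖πK‖ < 1 := hπK1
  have hpow0 : Tendsto (fun k : ℕ => ‖πK‖ ^ k) atTop (𝓝 0) :=
    tendsto_pow_atTop_nhds_zero_of_lt_one (norm_nonneg _) hρ
  -- summability of the coefficient series
  have hsumm : ∀ i, Summable (fun k : ℕ => πK ^ k * bf (A k) i) := by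
    intro i
    apply NonarchimedeanAddGroup.summable_of_tendsto_cofinite_zero
    rw [Nat.cofinite_eq_atTop]
    apply squeeze_zero_norm _ hpow0
    intro k
    rw [norm_mul, norm_pow]
    exact mul_le_of_le_one_right (pow_nonneg (norm_nonneg _) _) (hb k i).2
  -- the limit coefficients
  set B : ℕ → L := fun i => ∑' k, πK ^ k * bf (A k) i with hB
  have hBsum : ∀ i, HasSum (fun k : ℕ => πK ^ k * bf (A k) i) (B i) := fun i => (hsumm i).hasSum
  have hclosed : IsClosed ((K : Set L) ∩ Metric.closedBall 0 1) :=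
    hKc.inter Metric.isClosed_closedBall
  have hBmem : ∀ i, B i ∈ K ∧ ‖B i‖ ≤ 1 := by
    intro i
    have hmem : B i ∈ (K : Set L) ∩ Metric.closedBall 0 1 := by
      apply hclosed.mem_of_tendsto (hBsum i).tendsto_sum_nat
      apply Filter.Eventually.of_forall
      intro n
      refine ⟨K.sum_mem fun k _ => K.mul_mem (K.pow_mem hπK _) (hb k i).1, ?_⟩
      rw [mem_closedBall_zero_iff]
      apply IsUltrametricDist.norm_sum_le_of_forall_le_of_nonneg zero_le_one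
      intro k _
      rw [norm_mul, norm_pow]
      exact mul_le_one₀ (pow_le_one₀ (norm_nonneg _) hρ.le) (norm_nonneg _) (hb k i).2
    exact ⟨hmem.1, mem_closedBall_zero_iff.mp hmem.2⟩
  refine ⟨B, hBmem, ?_⟩
  -- both sides are sums of the same series
  have h1 : HasSum (fun k : ℕ => πK ^ k * ∑ i ∈ Finset.range e, bf (A k) i * π ^ i)
      (∑ i ∈ Finset.range e, B i * π ^ i) := by
    have h2 : ∀ i ∈ Finset.range e,
        HasSum (fun k : ℕ => πK ^ k * bf (A k) i * π ^ i) (B i * π ^ i) :=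
      fun i _ => (hBsum i).mul_right _
    have h3 := hasSum_sum h2
    convert h3 using 2 with k
    rw [Finset.mul_sum]
    apply Finset.sum_congr rfl
    intro i _
    ring
  have h4 : Tendsto (fun n : ℕ => ∑ k ∈ Finset.range n,
      πK ^ k * ∑ i ∈ Finset.range e, bf (A k) i * π ^ i) atTop (𝓝 a) := by
    have h5 : Tendsto (fun n : ℕ => a - πK ^ n * A n) atTop (𝓝 (a - 0)) := by
      apply Tendsto.sub tendsto_const_nhds
      apply squeeze_zero_norm _ hpow0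
      intro n
      rw [norm_mul, norm_pow]
      exact mul_le_of_le_one_right (pow_nonneg (norm_nonneg _) _) (hAmem n).2
    rw [sub_zero] at h5
    convert h5 using 2 with n
    have := hpart n
    linear_combination -this
  exact tendsto_nhds_unique h4 h1.tendsto_sum_nat

end Structure

end Fermat.Agent.Ram
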