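/-
F2 (flat local condition at p): leading-term calculus for principal units of an ultrametric
normed field.  `Lead ϖ u x` means `u ≡ 1 + x ϖ` modulo elements of norm `< ‖ϖ‖`.
-/
import Mathlib
import Fermat.Agent.Ram.Basic_helper8

set_option autoImplicit false
set_option linter.unusedSectionVars false

namespace Fermat.Agent.Ram

variable {L : Type*} [NormedField L] [IsUltrametricDist L]

/-- `u = 1 + x ϖ + (terms of norm < ‖ϖ‖)`. -/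
def Lead (ϖ u x : L) : Prop := ‖u - 1 - x * ϖ‖ < ‖ϖ‖

namespace Lead

variable {ϖ u u' x x' : L}

lemma norm_sub_one_le (h : Lead ϖ u x) (hx : ‖x‖ ≤ 1) : ‖u - 1‖ ≤ ‖ϖ‖ := by
  have h1 : u - 1 = (u - 1 - x * ϖ) + x * ϖ := by ring
  rw [h1]
  refine norm_add_le_of_le h.le ?_
  rw [norm_mul]
  calc ‖x‖ * ‖ϖ‖ ≤ 1 * ‖ϖ‖ := mul_le_mul_of_nonneg_right hx (norm_nonneg _)
    _ = ‖ϖ‖ := one_mul _

lemma norm_sub_one_lt (h : Lead ϖ u x) (hx : ‖x‖ < 1) (hϖ : ϖ ≠ 0) : ‖u - 1‖ < ‖ϖ‖ := by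
  have h1 : u - 1 = (u - 1 - x * ϖ) + x * ϖ := by ring
  rw [h1]
  refine norm_add_lt_of_lt h ?_
  rw [norm_mul]
  calc ‖x‖ * ‖ϖ‖ < 1 * ‖ϖ‖ := mul_lt_mul_of_pos_right hx (norm_pos_iff.mpr hϖ)
    _ = ‖ϖ‖ := one_mul _

lemma of_norm_lt (h : ‖u - 1‖ < ‖ϖ‖) : Lead ϖ u 0 := by
  unfold Lead
  rwa [zero_mul, sub_zero]

lemma congr (h : Lead ϖ u x) (hxx : ‖x - x'‖ < 1) (hϖ : ϖ ≠ 0) : Lead ϖ u x' := by
  unfold Lead at h ⊢
  have h1 : u - 1 - x' * ϖ = (u - 1 - x * ϖ) + (x - x') * ϖ := by ring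
  rw [h1]
  refine norm_add_lt_of_lt h ?_
  rw [norm_mul]
  calc ‖x - x'‖ * ‖ϖ‖ < 1 * ‖ϖ‖ := mul_lt_mul_of_pos_right hxx (norm_pos_iff.mpr hϖ)
    _ = ‖ϖ‖ := one_mul _

lemma unique (h : Lead ϖ u x) (h' : Lead ϖ u x') (hϖ : ϖ ≠ 0) : ‖x - x'‖ < 1 := by
  unfold Lead at h h'
  have h1 : (x - x') * ϖ = (u - 1 - x' * ϖ) - (u - 1 - x * ϖ) := by ring
  have h2 : ‖(x - x') * ϖ‖ < ‖ϖ‖ := by
    rw [h1]
    exact norm_sub_lt_of_lt h' h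
  rw [norm_mul] at h2
  have hpos : 0 < ‖ϖ‖ := norm_pos_iff.mpr hϖ
  by_contra hcon
  rw [not_lt] at hcon
  have : ‖ϖ‖ ≤ ‖x - x'‖ * ‖ϖ‖ := by
    calc ‖ϖ‖ = 1 * ‖ϖ‖ := (one_mul _).symm
      _ ≤ ‖x - x'‖ * ‖ϖ‖ := mul_le_mul_of_nonneg_right hcon hpos.le
  linarith

lemma one (ϖ : L) (hϖ : ϖ ≠ 0) : Lead ϖ 1 0 := by
  unfold Lead
  rw [sub_self, zero_mul, sub_zero, norm_zero]
  exact norm_pos_iff.mpr hϖ

/-- products: leading coefficients add. -/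
lemma mul (h : Lead ϖ u x) (h' : Lead ϖ u' x') (hx : ‖x‖ ≤ 1) (hx' : ‖x'‖ ≤ 1)
    (hϖ0 : ϖ ≠ 0) (hϖ1 : ‖ϖ‖ < 1) : Lead ϖ (u * u') (x + x') := by
  have hpos : 0 < ‖ϖ‖ := norm_pos_iff.mpr hϖ0
  have hu := h.norm_sub_one_le hx
  have hu' := h'.norm_sub_one_le hx'
  unfold Lead at h h' ⊢
  have h1 : u * u' - 1 - (x + x') * ϖ
      = (u - 1 - x * ϖ) + (u' - 1 - x' * ϖ) + (u - 1) * (u' - 1) := by ring
  rw [h1]
  refine norm_add_lt_of_lt (norm_add_lt_of_lt h h') ?_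
  rw [norm_mul]
  calc ‖u - 1‖ * ‖u' - 1‖ ≤ ‖ϖ‖ * ‖ϖ‖ := mul_le_mul hu hu' (norm_nonneg _) hpos.le
    _ < ‖ϖ‖ * 1 := mul_lt_mul_of_pos_left hϖ1 hpos
    _ = ‖ϖ‖ := mul_one _

/-- powers: the leading coefficient is multiplied by the exponent. -/
lemma pow (h : Lead ϖ u x) (hx : ‖x‖ ≤ 1) (hϖ0 : ϖ ≠ 0) (hϖ1 : ‖ϖ‖ < 1) (n : ℕ) :
    Lead ϖ (u ^ n) ((n : L) * x) := by
  induction n with
  | zero =>
    rw [pow_zero, Nat.cast_zero, zero_mul]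
    exact one ϖ hϖ0
  | succ n ih =>
    rw [pow_succ, Nat.cast_succ, add_mul, one_mul]
    refine ih.mul h ?_ hx hϖ0 hϖ1
    rw [norm_mul]
    calc ‖(n : L)‖ * ‖x‖ ≤ 1 * 1 :=
          mul_le_mul (IsUltrametricDist.norm_natCast_le_one L n) hx (norm_nonneg _) zero_le_one
      _ = 1 := one_mul _

/-- finite products. -/
lemma prod {ι : Type*} (s : Finset ι) (U X : ι → L) (h : ∀ i ∈ s, Lead ϖ (U i) (X i))
    (hX : ∀ i ∈ s, ‖X i‖ ≤ 1) (hϖ0 : ϖ ≠ 0) (hϖ1 : ‖ϖ‖ < 1) :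
    Lead ϖ (∏ i ∈ s, U i) (∑ i ∈ s, X i) := by
  classical
  induction s using Finset.induction_on with
  | empty =>
    rw [Finset.prod_empty, Finset.sum_empty]
    exact one ϖ hϖ0
  | insert a s ha ih =>
    rw [Finset.prod_insert ha, Finset.sum_insert ha]
    refine (h a (Finset.mem_insert_self a s)).mul
      (ih (fun i hi => h i (Finset.mem_insert_of_mem hi))
        (fun i hi => hX i (Finset.mem_insert_of_mem hi)))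
      (hX a (Finset.mem_insert_self a s)) ?_ hϖ0 hϖ1
    exact IsUltrametricDist.norm_sum_le_of_forall_le_of_nonneg zero_le_one
      (fun i hi => hX i (Finset.mem_insert_of_mem hi))

/-- transport by an isometric ring homomorphism `g` with `g ϖ = t ϖ`. -/
lemma map {g : L →+* L} (hg : ∀ a : L, ‖g a‖ = ‖a‖) (h : Lead ϖ u x) {t : L}
    (ht : g ϖ = t * ϖ) : Lead ϖ (g u) (g x * t) := by
  unfold Lead at h ⊢
  have h1 : g u - 1 - g x * t * ϖ = g (u - 1 - x * ϖ) := by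
    rw [map_sub, map_sub, map_one, map_mul, ht]
    ring
  rw [h1, hg]
  exact h

/-- inverse: the leading coefficient changes sign. -/
lemma inv (h : Lead ϖ u x) (hx : ‖x‖ ≤ 1) (hϖ0 : ϖ ≠ 0) (hϖ1 : ‖ϖ‖ < 1) (hu0 : u ≠ 0) :
    Lead ϖ u⁻¹ (-x) := by
  have hpos : 0 < ‖ϖ‖ := norm_pos_iff.mpr hϖ0
  have hu := h.norm_sub_one_le hx
  have hu1 : ‖u‖ = 1 := by
    have h1 : u = 1 + (u - 1) := by ring
    rw [h1, norm_add_eq_of_lt' (by rw [norm_one]; exact hu.trans_lt hϖ1), norm_one]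
  unfold Lead at h ⊢
  have h1 : u⁻¹ - 1 - -x * ϖ = -(u⁻¹ * ((u - 1 - x * ϖ) - (u - 1) * (x * ϖ))) := by
    field_simp
    ring
  rw [h1, norm_neg, norm_mul, norm_inv, hu1, inv_one, one_mul]
  refine norm_sub_lt_of_lt h ?_
  rw [norm_mul, norm_mul]
  calc ‖u - 1‖ * (‖x‖ * ‖ϖ‖) ≤ ‖ϖ‖ * (1 * ‖ϖ‖) :=
        mul_le_mul hu (mul_le_mul_of_nonneg_right hx hpos.le)
          (mul_nonneg (norm_nonneg _) hpos.le) hpos.le
    _ = ‖ϖ‖ * ‖ϖ‖ := by rw [one_mul]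
    _ < ‖ϖ‖ * 1 := mul_lt_mul_of_pos_left hϖ1 hpos
    _ = ‖ϖ‖ := mul_one _

end Lead

end Fermat.Agent.Ram
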