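/-
F2 (flat local condition at p): congruences modulo the maximal ideal in an ultrametric normed
field with `‖p‖ < 1` (norm language): natural numbers, Fermat's little theorem, inverses modulo
`p`, and the Artin–Schreier operator `℘(t) = t^p - t`.
-/
import Mathlib
import Fermat.Agent.Ram.Kummer1_helper8

set_option autoImplicit false
set_option linter.unusedSectionVars false

namespace Fermat.Agent.Ram

section ModCalc

variable {L : Type*} [NormedField L] [IsUltrametricDist L]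

lemma norm_natCast_lt_one_of_dvd {p : ℕ} (hp : ‖(p : L)‖ < 1) {n : ℕ} (h : p ∣ n) :
    ‖(n : L)‖ < 1 := by
  obtain ⟨m, rfl⟩ := h
  rw [Nat.cast_mul, norm_mul]
  calc ‖(p : L)‖ * ‖(m : L)‖ ≤ ‖(p : L)‖ * 1 :=
        mul_le_mul_of_nonneg_left (IsUltrametricDist.norm_natCast_le_one L m) (norm_nonneg _)
    _ = ‖(p : L)‖ := mul_one _
    _ < 1 := hp

lemma norm_natCast_sub_lt_one_of_modEq {p : ℕ} (hp : ‖(p : L)‖ < 1) {a b : ℕ}
    (h : a ≡ b [MOD p]) : ‖(a : L) - (b : L)‖ < 1 := by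
  rcases le_total b a with hba | hab
  · have h1 : p ∣ a - b := (Nat.modEq_iff_dvd' hba).mp h.symm
    have h2 := norm_natCast_lt_one_of_dvd hp h1
    rwa [Nat.cast_sub hba] at h2
  · have h1 : p ∣ b - a := (Nat.modEq_iff_dvd' hab).mp h
    have h2 := norm_natCast_lt_one_of_dvd hp h1
    rwa [Nat.cast_sub hab, ← norm_neg, neg_sub] at h2

/-- Fermat's little theorem modulo the maximal ideal. -/
lemma norm_natCast_pow_sub_lt {p : ℕ} (hpp : p.Prime) (hp : ‖(p : L)‖ < 1) (n : ℕ) :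
    ‖(n : L) ^ p - (n : L)‖ < 1 := by
  have : Fact p.Prime := ⟨hpp⟩
  have h1 : n ^ p ≡ n [MOD p] := by
    rw [← ZMod.natCast_eq_natCast_iff, Nat.cast_pow, ZMod.pow_card]
  have h2 := norm_natCast_sub_lt_one_of_modEq hp h1
  rwa [Nat.cast_pow] at h2

/-- inverses modulo `p`. -/
lemma exists_natCast_mul_sub_one_lt {p : ℕ} (hpp : p.Prime) (hp : ‖(p : L)‖ < 1) {N : ℕ}
    (hN : ¬ p ∣ N) : ∃ q : ℕ, ‖(q : L) * (N : L) - 1‖ < 1 := by
  have : Fact p.Prime := ⟨hpp⟩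
  have hN0 : (N : ZMod p) ≠ 0 := by
    rwa [Ne, ZMod.natCast_eq_zero_iff]
  refine ⟨((N : ZMod p)⁻¹).val, ?_⟩
  have h1 : ((N : ZMod p)⁻¹).val * N ≡ 1 [MOD p] := by
    rw [← ZMod.natCast_eq_natCast_iff, Nat.cast_mul, ZMod.natCast_val, ZMod.cast_id,
      Nat.cast_one, inv_mul_cancel₀ hN0]
  have h2 := norm_natCast_sub_lt_one_of_modEq hp h1
  rwa [Nat.cast_mul, Nat.cast_one] at h2

/-- powers preserve congruences between integral elements. -/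
lemma norm_pow_sub_pow_le_of_le_one {x y : L} (hx : ‖x‖ ≤ 1) (hy : ‖y‖ ≤ 1) (n : ℕ) :
    ‖x ^ n - y ^ n‖ ≤ ‖x - y‖ := by
  have h : x ^ n - y ^ n = (∑ i ∈ Finset.range n, x ^ i * y ^ (n - 1 - i)) * (x - y) :=
    (Commute.all x y).geom_sum₂_mul n |>.symm
  rw [h, norm_mul]
  have h1 : ‖∑ i ∈ Finset.range n, x ^ i * y ^ (n - 1 - i)‖ ≤ 1 := by
    apply IsUltrametricDist.norm_sum_le_of_forall_le_of_nonneg zero_le_one
    intro i _
    rw [norm_mul, norm_pow, norm_pow]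
    exact mul_le_one₀ (pow_le_one₀ (norm_nonneg _) hx) (pow_nonneg (norm_nonneg _) _)
      (pow_le_one₀ (norm_nonneg _) hy)
  calc ‖∑ i ∈ Finset.range n, x ^ i * y ^ (n - 1 - i)‖ * ‖x - y‖ ≤ 1 * ‖x - y‖ :=
        mul_le_mul_of_nonneg_right h1 (norm_nonneg _)
    _ = ‖x - y‖ := one_mul _

/-- the Frobenius is additive modulo `p`. -/
lemma norm_sub_pow_sub_lt {p : ℕ} (hpp : p.Prime) (hp : ‖(p : L)‖ < 1) (hodd : Odd p) {a b : L}
    (ha : ‖a‖ ≤ 1) (hb : ‖b‖ ≤ 1) : ‖(a - b) ^ p - (a ^ p - b ^ p)‖ < 1 := by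
  have h := add_pow_prime_eq' hpp a (-b)
  have h1 : (a - b) ^ p - (a ^ p - b ^ p) = (p : L) * ∑ k ∈ Finset.Ioo 0 p,
      a ^ k * (-b) ^ (p - k) * ((p.choose k / p : ℕ) : L) := by
    rw [sub_eq_add_neg a b, h, hodd.neg_pow]; ring
  rw [h1, norm_mul]
  have h2 : ‖∑ k ∈ Finset.Ioo 0 p, a ^ k * (-b) ^ (p - k) * ((p.choose k / p : ℕ) : L)‖ ≤ 1 := by
    apply IsUltrametricDist.norm_sum_le_of_forall_le_of_nonneg zero_le_one
    intro i _
    rw [norm_mul, norm_mul, norm_pow, norm_pow, norm_neg]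
    exact mul_le_one₀ (mul_le_one₀ (pow_le_one₀ (norm_nonneg _) ha)
      (pow_nonneg (norm_nonneg _) _) (pow_le_one₀ (norm_nonneg _) hb)) (norm_nonneg _)
      (IsUltrametricDist.norm_natCast_le_one L _)
  calc ‖(p : L)‖ * ‖∑ k ∈ Finset.Ioo 0 p, a ^ k * (-b) ^ (p - k) * ((p.choose k / p : ℕ) : L)‖
      ≤ ‖(p : L)‖ * 1 := mul_le_mul_of_nonneg_left h2 (norm_nonneg _)
    _ = ‖(p : L)‖ := mul_one _
    _ < 1 := hp

/-- the Artin–Schreier operator. -/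
def AS (p : ℕ) (t : L) : L := t ^ p - t

lemma norm_AS_le_one {p : ℕ} {t : L} (ht : ‖t‖ ≤ 1) : ‖AS p t‖ ≤ 1 := by
  unfold AS
  refine norm_sub_le_of_le ?_ ht
  rw [norm_pow]
  exact pow_le_one₀ (norm_nonneg _) ht

/-- `℘` is additive modulo the maximal ideal. -/
lemma norm_AS_sub_sub_lt {p : ℕ} (hpp : p.Prime) (hp : ‖(p : L)‖ < 1) (hodd : Odd p) {a b : L}
    (ha : ‖a‖ ≤ 1) (hb : ‖b‖ ≤ 1) : ‖AS p a - AS p b - AS p (a - b)‖ < 1 := by
  unfold AS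
  have h1 : a ^ p - a - (b ^ p - b) - ((a - b) ^ p - (a - b))
      = -((a - b) ^ p - (a ^ p - b ^ p)) := by ring
  rw [h1, norm_neg]
  exact norm_sub_pow_sub_lt hpp hp hodd ha hb

/-- `℘` commutes with multiplication by natural numbers modulo the maximal ideal. -/
lemma norm_natCast_mul_AS_sub_lt {p : ℕ} (hpp : p.Prime) (hp : ‖(p : L)‖ < 1) (n : ℕ) {a : L}
    (ha : ‖a‖ ≤ 1) : ‖(n : L) * AS p a - AS p ((n : L) * a)‖ < 1 := by
  unfold AS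
  have h1 : (n : L) * (a ^ p - a) - (((n : L) * a) ^ p - (n : L) * a)
      = -(((n : L) ^ p - (n : L)) * a ^ p) := by ring
  rw [h1, norm_neg, norm_mul]
  calc ‖(n : L) ^ p - (n : L)‖ * ‖a ^ p‖ ≤ ‖(n : L) ^ p - (n : L)‖ * 1 := by
        apply mul_le_mul_of_nonneg_left _ (norm_nonneg _)
        rw [norm_pow]; exact pow_le_one₀ (norm_nonneg _) ha
    _ = ‖(n : L) ^ p - (n : L)‖ := mul_one _
    _ < 1 := norm_natCast_pow_sub_lt hpp hp n

/-- `℘` respects congruences. -/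
lemma norm_AS_sub_AS_lt {p : ℕ} {a b : L} (ha : ‖a‖ ≤ 1) (hb : ‖b‖ ≤ 1) (h : ‖a - b‖ < 1) :
    ‖AS p a - AS p b‖ < 1 := by
  unfold AS
  have h1 : a ^ p - a - (b ^ p - b) = (a ^ p - b ^ p) - (a - b) := by ring
  rw [h1]
  exact norm_sub_lt_of_lt ((norm_pow_sub_pow_le_of_le_one ha hb p).trans_lt h) h

/-- the geometric sum `1 + ζ + ⋯ + ζ^(n-1) ≡ n`. -/
lemma norm_geom_sum_sub_natCast_lt {ζ : L} (hζ : ‖ζ‖ ≤ 1) (hζ1 : ‖ζ - 1‖ < 1) (n : ℕ) :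
    ‖(∑ i ∈ Finset.range n, ζ ^ i) - (n : L)‖ < 1 := by
  have h2 : (∑ i ∈ Finset.range n, ζ ^ i) - (n : L) = ∑ i ∈ Finset.range n, (ζ ^ i - 1) := by
    rw [Finset.sum_sub_distrib, Finset.sum_const, Finset.card_range, nsmul_eq_mul, mul_one]
  rw [h2]
  refine lt_of_le_of_lt ?_ hζ1
  apply IsUltrametricDist.norm_sum_le_of_forall_le_of_nonneg (norm_nonneg _)
  intro i _
  exact norm_pow_sub_one_le hζ i

/-- congruence modulo the maximal ideal. -/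
def Cg (a b : L) : Prop := ‖a - b‖ < 1

namespace Cg

variable {a b c a' b' : L}

lemma rfl' (a : L) : Cg a a := by unfold Cg; rw [sub_self, norm_zero]; exact one_pos

lemma symm (h : Cg a b) : Cg b a := by unfold Cg at h ⊢; rwa [norm_sub_rev]

lemma trans (h : Cg a b) (h' : Cg b c) : Cg a c := by
  unfold Cg at h h' ⊢
  have h1 : a - c = (a - b) + (b - c) := by ring
  rw [h1]
  exact norm_add_lt_of_lt h h'

lemma add (h : Cg a b) (h' : Cg a' b') : Cg (a + a') (b + b') := by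
  unfold Cg at h h' ⊢
  have h1 : a + a' - (b + b') = (a - b) + (a' - b') := by ring
  rw [h1]
  exact norm_add_lt_of_lt h h'

lemma sub (h : Cg a b) (h' : Cg a' b') : Cg (a - a') (b - b') := by
  unfold Cg at h h' ⊢
  have h1 : a - a' - (b - b') = (a - b) - (a' - b') := by ring
  rw [h1]
  exact norm_sub_lt_of_lt h h'

lemma mul_left (hc : ‖c‖ ≤ 1) (h : Cg a b) : Cg (c * a) (c * b) := by
  unfold Cg at h ⊢
  rw [← mul_sub, norm_mul]
  calc ‖c‖ * ‖a - b‖ ≤ 1 * ‖a - b‖ := mul_le_mul_of_nonneg_right hc (norm_nonneg _)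
    _ = ‖a - b‖ := one_mul _
    _ < 1 := h

lemma mul_right (hc : ‖c‖ ≤ 1) (h : Cg a b) : Cg (a * c) (b * c) := by
  rw [mul_comm a c, mul_comm b c]; exact h.mul_left hc

lemma mul (h : Cg a b) (h' : Cg a' b') (ha' : ‖a'‖ ≤ 1) (hb : ‖b‖ ≤ 1) :
    Cg (a * a') (b * b') :=
  (h.mul_right ha').trans (h'.mul_left hb)

lemma pow (h : Cg a b) (ha : ‖a‖ ≤ 1) (hb : ‖b‖ ≤ 1) (n : ℕ) : Cg (a ^ n) (b ^ n) :=
  (norm_pow_sub_pow_le_of_le_one ha hb n).trans_lt h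

/-- a congruence `x c ≡ 0` with `‖x‖ = 1` gives `c ≡ 0`. -/
lemma of_mul_left (hx : ‖c‖ = 1) (h : Cg (c * a) 0) : Cg a 0 := by
  unfold Cg at h ⊢
  rwa [sub_zero, norm_mul, hx, one_mul, ← sub_zero a] at h

lemma norm_le_one (h : Cg a b) (hb : ‖b‖ ≤ 1) : ‖a‖ ≤ 1 := by
  unfold Cg at h
  have h1 : a = (a - b) + b := by ring
  rw [h1]
  exact norm_add_le_of_le h.le hb

end Cg

lemma Cg.natCast_of_modEq {p : ℕ} (hp : ‖(p : L)‖ < 1) {a b : ℕ} (h : a ≡ b [MOD p]) :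
    Cg (a : L) (b : L) := norm_natCast_sub_lt_one_of_modEq hp h

lemma Cg.natCast_of_dvd {p : ℕ} (hp : ‖(p : L)‖ < 1) {n : ℕ} (h : p ∣ n) : Cg (n : L) 0 := by
  unfold Cg; rw [sub_zero]; exact norm_natCast_lt_one_of_dvd hp h

lemma Cg.AS_congr {p : ℕ} {a b : L} (ha : ‖a‖ ≤ 1) (hb : ‖b‖ ≤ 1) (h : Cg a b) :
    Cg (AS p a) (AS p b) := norm_AS_sub_AS_lt ha hb h

lemma Cg.AS_sub {p : ℕ} (hpp : p.Prime) (hp : ‖(p : L)‖ < 1) (hodd : Odd p) {a b : L}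
    (ha : ‖a‖ ≤ 1) (hb : ‖b‖ ≤ 1) : Cg (AS p a - AS p b) (AS p (a - b)) :=
  norm_AS_sub_sub_lt hpp hp hodd ha hb

lemma Cg.natCast_mul_AS {p : ℕ} (hpp : p.Prime) (hp : ‖(p : L)‖ < 1) (n : ℕ) {a : L}
    (ha : ‖a‖ ≤ 1) : Cg ((n : L) * AS p a) (AS p ((n : L) * a)) :=
  norm_natCast_mul_AS_sub_lt hpp hp n ha

end ModCalc

end Fermat.Agent.Ram
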