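/-
Shared definitions for the ramification package of S56 (F2, flat local condition at `p`).

Carrier: finite extensions of `ℚ_[p]` are `IntermediateField ℚ_[p] (PadicAlgCl p)` with the
(spectral) norm of `PadicAlgCl p`; `v_p(x) = -log_p ‖x‖`, so `𝔞^m = {‖x‖ ≤ p^(-m)}`.

* `integerRing p E : Subring E`  — the valuation ring `𝓞_E`;
* `idealA p E m : Ideal (integerRing p E)` — `𝔞_E^m = {x : v_p x ≥ m}` (`m : ℝ`);
* `PropertyPm p L m` — Fontaine's property `(P_m)` for `L/ℚ_p`;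
* `FontaineBdd p L` — `(P_m)` for all `m > p/(p-1)`.
-/
import Mathlib

set_option autoImplicit false

namespace Fermat.Agent.Ram

variable (p : ℕ) [Fact p.Prime]

/-- the valuation ring of an intermediate field `E` of `PadicAlgCl p / ℚ_[p]`. -/
def integerRing (E : IntermediateField ℚ_[p] (PadicAlgCl p)) : Subring E where
  carrier := {x | ‖(x : PadicAlgCl p)‖ ≤ 1}
  mul_mem' {a b} ha hb := by
    show ‖((a * b : E) : PadicAlgCl p)‖ ≤ 1
    rw [MulMemClass.coe_mul, norm_mul]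
    exact mul_le_one₀ ha (norm_nonneg _) hb
  one_mem' := by
    show ‖((1 : E) : PadicAlgCl p)‖ ≤ 1
    rw [OneMemClass.coe_one, norm_one]
  add_mem' {a b} ha hb := by
    show ‖((a + b : E) : PadicAlgCl p)‖ ≤ 1
    rw [AddMemClass.coe_add]
    exact (IsUltrametricDist.norm_add_le_max _ _).trans (max_le ha hb)
  zero_mem' := by
    show ‖((0 : E) : PadicAlgCl p)‖ ≤ 1
    rw [ZeroMemClass.coe_zero, norm_zero]
    exact zero_le_one
  neg_mem' {a} ha := by
    show ‖((-a : E) : PadicAlgCl p)‖ ≤ 1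
    rw [NegMemClass.coe_neg, norm_neg]
    exact ha

variable {p}

lemma mem_integerRing {E : IntermediateField ℚ_[p] (PadicAlgCl p)} {x : E} :
    x ∈ integerRing p E ↔ ‖(x : PadicAlgCl p)‖ ≤ 1 := Iff.rfl

lemma norm_le_one_of_mem_integerRing {E : IntermediateField ℚ_[p] (PadicAlgCl p)}
    (x : integerRing p E) : ‖((x : E) : PadicAlgCl p)‖ ≤ 1 := x.2

variable (p)

/-- the ideal `𝔞_E^m = {x ∈ 𝓞_E : v_p(x) ≥ m}`, `m` real. -/
def idealA (E : IntermediateField ℚ_[p] (PadicAlgCl p)) (m : ℝ) : Ideal (integerRing p E) where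
  carrier := {x | ‖((x : E) : PadicAlgCl p)‖ ≤ (p : ℝ) ^ (-m)}
  add_mem' {a b} ha hb := by
    show ‖(((a + b : integerRing p E) : E) : PadicAlgCl p)‖ ≤ _
    rw [Subring.coe_add, AddMemClass.coe_add]
    exact (IsUltrametricDist.norm_add_le_max _ _).trans (max_le ha hb)
  zero_mem' := by
    show ‖(((0 : integerRing p E) : E) : PadicAlgCl p)‖ ≤ _
    rw [Subring.coe_zero, ZeroMemClass.coe_zero, norm_zero]
    positivity
  smul_mem' c x hx := by
    show ‖(((c * x : integerRing p E) : E) : PadicAlgCl p)‖ ≤ _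
    rw [Subring.coe_mul, MulMemClass.coe_mul, norm_mul]
    calc ‖((c : E) : PadicAlgCl p)‖ * ‖((x : E) : PadicAlgCl p)‖
        ≤ 1 * (p : ℝ) ^ (-m) := mul_le_mul c.2 hx (norm_nonneg _) zero_le_one
      _ = (p : ℝ) ^ (-m) := one_mul _

variable {p}

lemma mem_idealA {E : IntermediateField ℚ_[p] (PadicAlgCl p)} {m : ℝ} {x : integerRing p E} :
    x ∈ idealA p E m ↔ ‖((x : E) : PadicAlgCl p)‖ ≤ (p : ℝ) ^ (-m) := Iff.rfl

variable (p)

/-- Fontaine's property `(P_m)` for `L/ℚ_p`: every finite `E/ℚ_p` admitting a ring homomorphism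
`𝓞_L → 𝓞_E/𝔞_E^m` contains `L`. -/
def PropertyPm (L : IntermediateField ℚ_[p] (PadicAlgCl p)) (m : ℝ) : Prop :=
  ∀ E : IntermediateField ℚ_[p] (PadicAlgCl p), FiniteDimensional ℚ_[p] E →
    Nonempty (integerRing p L →+* integerRing p E ⧸ idealA p E m) → L ≤ E

/-- Fontaine's ramification bound, in the form `(P_m)` for all `m > p/(p-1)`. -/
def FontaineBdd (L : IntermediateField ℚ_[p] (PadicAlgCl p)) : Prop :=
  ∀ m : ℝ, (p : ℝ) / ((p : ℝ) - 1) < m → PropertyPm p L m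

variable {p}

/-- `(P_m)` is closed under compositum. -/
theorem PropertyPm.sup {L₁ L₂ : IntermediateField ℚ_[p] (PadicAlgCl p)} {m : ℝ}
    (h₁ : PropertyPm p L₁ m) (h₂ : PropertyPm p L₂ m) : PropertyPm p (L₁ ⊔ L₂) m := by
  intro E hE ⟨η⟩
  have key : ∀ (L : IntermediateField ℚ_[p] (PadicAlgCl p)) (hL : L ≤ L₁ ⊔ L₂),
      Nonempty (integerRing p L →+* integerRing p E ⧸ idealA p E m) := by
    intro L hL
    let ι : integerRing p L →+* integerRing p (L₁ ⊔ L₂) :=
      { toFun := fun x => ⟨⟨((x : L) : PadicAlgCl p), hL (x : L).2⟩, x.2⟩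
        map_one' := rfl
        map_mul' := fun _ _ => rfl
        map_zero' := rfl
        map_add' := fun _ _ => rfl }
    exact ⟨η.comp ι⟩
  exact sup_le (h₁ E hE (key L₁ le_sup_left)) (h₂ E hE (key L₂ le_sup_right))

theorem FontaineBdd.sup {L₁ L₂ : IntermediateField ℚ_[p] (PadicAlgCl p)}
    (h₁ : FontaineBdd p L₁) (h₂ : FontaineBdd p L₂) : FontaineBdd p (L₁ ⊔ L₂) :=
  fun m hm => (h₁ m hm).sup (h₂ m hm)

end Fermat.Agent.Ram
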