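/-
Ramification package (S56, leaf (4b)), part 9: the sharp form of Fontaine's Proposition 1.5(ii)
for finite Galois extensions `L` of `ℚ_p` inside `PadicAlgCl p`:
`(P)(r)` (in approximate-homomorphism form) implies `r < Ufun L σ` for every `σ ≠ 1`, i.e.
`m > u_{L/ℚ_p}` when `r = p ^ (-m)`.
-/
import Fermat.Agent.Ram.Padic_helper8
import Fermat.Agent.Ram.SharpDeg_helper8

set_option autoImplicit false
set_option linter.unusedSectionVars false

namespace Fermat.Agent.Ram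

open Filter Topology Polynomial IntermediateField

variable {p : ℕ} [Fact p.Prime]

/-- Fontaine's property `(P_m)` for `L / ℚ_p`, in approximate-homomorphism form, for the ideal
`{x | ‖x‖ ≤ r}` (`r = p ^ (-m)`). -/
def FontaineP (L : IntermediateField ℚ_[p] (PadicAlgCl p)) (r : ℝ) : Prop :=
  ∀ E : IntermediateField ℚ_[p] (PadicAlgCl p), FiniteDimensional ℚ_[p] E →
    ∀ η : L → PadicAlgCl p,
      (∀ x : L, ‖x‖ ≤ 1 → η x ∈ E ∧ ‖η x‖ ≤ 1) → ‖η 1 - 1‖ ≤ r →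
      (∀ x y : L, ‖x‖ ≤ 1 → ‖y‖ ≤ 1 → ‖η (x + y) - (η x + η y)‖ ≤ r) →
      (∀ x y : L, ‖x‖ ≤ 1 → ‖y‖ ≤ 1 → ‖η (x * y) - η x * η y‖ ≤ r) → L ≤ E

lemma FontaineP.mono {L : IntermediateField ℚ_[p] (PadicAlgCl p)} {r r' : ℝ} (h : r' ≤ r)
    (hP : FontaineP L r) : FontaineP L r' :=
  fun E hE η h1 h2 h3 h4 => hP E hE η h1 (h2.trans h)
    (fun x y hx hy => (h3 x y hx hy).trans h) (fun x y hx hy => (h4 x y hx hy).trans h)

variable (L : IntermediateField ℚ_[p] (PadicAlgCl p)) [FiniteDimensional ℚ_[p] L]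

/-- For a nontrivial element of the inertia group there is a radius `R' ≤ Ufun L σ` at which
`(P)` fails. -/
theorem exists_not_fontaineP [IsGalois ℚ_[p] L] (σ : L ≃ₐ[ℚ_[p]] L)
    (hσI : σ ∈ inertia (L ≃ₐ[ℚ_[p]] L) L) (hσ : σ ≠ 1) :
    ∃ R' : ℝ, R' ≤ Ufun L σ ∧ ¬ FontaineP L R' := by
  classical
  obtain ⟨α, hα⟩ := exists_isUnif_top L
  have hα1 : ‖α‖ ≤ 1 := hα.lt_one.le
  have htrivI : ∀ (τ : inertia (L ≃ₐ[ℚ_[p]] L) L) (a : L), ‖a‖ ≤ 1 → ‖τ • a - a‖ < 1 :=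
    inertia_triv
  -- the minimal break
  set S : Finset (L ≃ₐ[ℚ_[p]] L) :=
    Finset.univ.filter (fun τ => τ ∈ inertia (L ≃ₐ[ℚ_[p]] L) L ∧ τ ≠ 1) with hS
  have hSne : S.Nonempty := ⟨σ, by simp [hS, hσI, hσ]⟩
  obtain ⟨τ₀, hτ₀S, hτ₀min⟩ := Finset.exists_min_image S (fun τ => ‖τ • α - α‖) hSne
  have hτ₀I : τ₀ ∈ inertia (L ≃ₐ[ℚ_[p]] L) L := by
    rw [hS, Finset.mem_filter] at hτ₀S; exact hτ₀S.2.1
  have hτ₀1 : τ₀ ≠ 1 := by
    rw [hS, Finset.mem_filter] at hτ₀S; exact hτ₀S.2.2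
  set ρ₀ : ℝ := ‖τ₀ • α - α‖ with hρ₀def
  have hρ₀ : 0 < ρ₀ := by
    rw [hρ₀def, norm_pos_iff, sub_ne_zero]
    intro h
    have h1 := TR.eq_one_of_smul_unif (J := inertia (L ≃ₐ[ℚ_[p]] L) L) hα htrivI ⟨τ₀, hτ₀I⟩ h
    exact hτ₀1 (congrArg Subtype.val h1)
  have hρ₀1 : ρ₀ < 1 := hτ₀I α hα1
  have hmin : ∀ τ : L ≃ₐ[ℚ_[p]] L, τ ∈ inertia (L ≃ₐ[ℚ_[p]] L) L → τ ≠ 1 →
      ρ₀ ≤ ‖τ • α - α‖ := by
    intro τ hτI hτ1
    exact hτ₀min τ (by rw [hS, Finset.mem_filter]; exact ⟨Finset.mem_univ _, hτI, hτ1⟩)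
  -- the last ramification subgroup
  set H : Subgroup (L ≃ₐ[ℚ_[p]] L) :=
    ramSubgroup (L ≃ₐ[ℚ_[p]] L) α hρ₀.le ⊓ inertia (L ≃ₐ[ℚ_[p]] L) L with hH
  have hHtriv : ∀ (τ : H) (a : L), ‖a‖ ≤ 1 → ‖τ • a - a‖ < 1 := fun τ => τ.2.2
  have hHdist : ∀ τ : H, τ ≠ 1 → ‖τ • α - α‖ = ρ₀ := by
    intro τ hτ
    refine le_antisymm τ.2.1 (hmin τ τ.2.2 ?_)
    intro h
    exact hτ (Subtype.ext h)
  have hHnt : ∃ τ : H, τ ≠ 1 :=
    ⟨⟨τ₀, le_refl ρ₀, hτ₀I⟩, fun h => hτ₀1 (congrArg Subtype.val h)⟩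
  obtain ⟨c, hcmem, hcnorm, hcbad⟩ := exists_bad_const (H := H) hα hHtriv hρ₀ hHdist hHnt
  -- the root β
  have hiso : ∀ x : L, ‖algebraMap L (PadicAlgCl p) x‖ = ‖x‖ := fun x => rfl
  obtain ⟨β, hβ⟩ : ∃ β : PadicAlgCl p,
      ∏ τ : H, (β - algebraMap L (PadicAlgCl p) (τ • α)) = algebraMap L (PadicAlgCl p) c := by
    set P : (PadicAlgCl p)[X] :=
      ∏ τ : H, (X - C (algebraMap L (PadicAlgCl p) (τ • α)))
        - C (algebraMap L (PadicAlgCl p) c) with hP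
    have hmonic : (∏ τ : H, (X - C (algebraMap L (PadicAlgCl p) (τ • α)))).Monic :=
      monic_prod_of_monic _ _ fun τ _ => monic_X_sub_C _
    have hnd : (∏ τ : H, (X - C (algebraMap L (PadicAlgCl p) (τ • α)))).natDegree
        = Fintype.card H := by
      rw [natDegree_prod_of_monic _ _ fun τ _ => monic_X_sub_C _]
      simp
    have hcard : 0 < Fintype.card H := Fintype.card_pos
    have hdeg : P.degree ≠ 0 := by
      have h1 : P.natDegree = Fintype.card H := by rw [hP, natDegree_sub_C, hnd]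
      intro h0
      have := natDegree_eq_zero_iff_degree_le_zero.mpr h0.le
      omega
    obtain ⟨β, hβ⟩ := IsAlgClosed.exists_root P hdeg
    refine ⟨β, ?_⟩
    rw [IsRoot.def, hP, eval_sub, eval_C, eval_prod, sub_eq_zero] at hβ
    simpa using hβ
  have hβH : ∀ τ : H, ‖β - algebraMap L (PadicAlgCl p) (τ • α)‖ = ρ₀ :=
    norm_root_sub_eq hiso hρ₀ hHdist hcnorm hβ
  have hβα : ‖β - algebraMap L (PadicAlgCl p) α‖ = ρ₀ := by
    have := hβH 1
    simpa using this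
  have hβ1 : ‖β‖ ≤ 1 := by
    have : β = (β - algebraMap L (PadicAlgCl p) α) + algebraMap L (PadicAlgCl p) α := by ring
    rw [this]
    exact norm_add_le_of_le (hβα.le.trans hρ₀1.le) ((hiso α).le.trans hα1)
  have hβI : ∀ τ : inertia (L ≃ₐ[ℚ_[p]] L) L,
      ‖β - algebraMap L (PadicAlgCl p) (τ • α)‖ = max ‖(τ : L ≃ₐ[ℚ_[p]] L) • α - α‖ ρ₀ := by
    intro τ
    by_cases hτ : ‖(τ : L ≃ₐ[ℚ_[p]] L) • α - α‖ ≤ ρ₀
    · rw [max_eq_right hτ]
      exact hβH ⟨(τ : L ≃ₐ[ℚ_[p]] L), hτ, τ.2⟩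
    · rw [not_le] at hτ
      rw [max_eq_left hτ.le]
      have : β - algebraMap L (PadicAlgCl p) (τ • α)
          = (β - algebraMap L (PadicAlgCl p) α)
            + algebraMap L (PadicAlgCl p) (α - (τ : L ≃ₐ[ℚ_[p]] L) • α) := by
        rw [map_sub]; ring_nf; rfl
      rw [this, norm_add_eq_of_lt (by rw [hβα, hiso, ← norm_neg, neg_sub]; exact hτ), hiso,
        ← norm_neg, neg_sub]
  -- the radius
  refine ⟨‖∏ τ : inertia (L ≃ₐ[ℚ_[p]] L) L, (β - algebraMap L (PadicAlgCl p) (τ • α))‖, ?_, ?_⟩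
  · rw [Ufun_eq_prod_inertia, norm_prod]
    apply Finset.prod_le_prod (fun τ _ => norm_nonneg _)
    intro τ _
    rw [hβI τ, iFun_eq_of_mem_inertia hα τ.2, iFun_eq_of_mem_inertia hα hσI]
    exact max_le_max le_rfl (hmin σ hσI hσ)
  · intro hP
    obtain ⟨η, hη1, hηE, hηone, hηadd, hηmul⟩ :=
      exists_approx_hom (J := inertia (L ≃ₐ[ℚ_[p]] L) L) hiso hα htrivI hβ1
    -- the field `E`
    set L' : IntermediateField ℚ_[p] L := IntermediateField.fixedField H with hL'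
    set E : IntermediateField ℚ_[p] (PadicAlgCl p) := L'.map L.val ⊔ ℚ_[p]⟮β⟯ with hE
    have hβalg : IsIntegral ℚ_[p] β := (PadicAlgCl.isAlgebraic p).isIntegral.isIntegral β
    have hfin1 : FiniteDimensional ℚ_[p] (L'.map L.val) :=
      (IntermediateField.equivMap L' L.val).toLinearEquiv.finiteDimensional
    have hfin2 : FiniteDimensional ℚ_[p] ℚ_[p]⟮β⟯ := adjoin.finiteDimensional hβalg
    have hEfin : FiniteDimensional ℚ_[p] E := IntermediateField.finiteDimensional_sup _ _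
    have hβE : β ∈ E := (le_sup_right : ℚ_[p]⟮β⟯ ≤ E) (mem_adjoin_simple_self ℚ_[p] β)
    have hfixE : ∀ x ∈ FixedPoints.subfield H L, algebraMap L (PadicAlgCl p) x ∈ E := by
      intro x hx
      apply (le_sup_left : L'.map L.val ≤ E)
      refine ⟨x, ?_, rfl⟩
      intro τ
      exact hx τ
    have hLE : L ≤ E := by
      refine hP E hEfin η (fun x hx => ⟨hηE x hx E.toSubfield hβE ?_, hη1 x hx⟩) hηone hηadd hηmul
      intro y hy
      apply hfixE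
      intro τ
      exact hy ⟨(τ : L ≃ₐ[ℚ_[p]] L), τ.2.2⟩
    have hEgen : ∀ S : Subfield (PadicAlgCl p), β ∈ S →
        (∀ x ∈ FixedPoints.subfield H L, algebraMap L (PadicAlgCl p) x ∈ S) → E.toSubfield ≤ S := by
      intro S hβS hS
      have hQp : ∀ x : ℚ_[p], algebraMap ℚ_[p] (PadicAlgCl p) x ∈ S := by
        intro x
        have : algebraMap ℚ_[p] (PadicAlgCl p) x
            = algebraMap L (PadicAlgCl p) (algebraMap ℚ_[p] L x) := rfl
        rw [this]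
        apply hS
        intro τ
        exact (τ : L ≃ₐ[ℚ_[p]] L).commutes x
      set S' : IntermediateField ℚ_[p] (PadicAlgCl p) := Subfield.toIntermediateField S hQp
      have hES' : E ≤ S' := by
        rw [hE]
        apply sup_le
        · rintro y ⟨x, hx, rfl⟩
          apply hS
          intro τ
          exact hx τ
        · rw [adjoin_simple_le_iff]
          exact hβS
      intro y hy
      exact hES' hy
    obtain ⟨b, hb⟩ := exists_preimage_root (H := H) α c hcmem hβ E.toSubfield hEgen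
      (fun x => hLE x.2)
    apply hcbad b
    apply (algebraMap L (PadicAlgCl p)).injective
    rw [map_prod, ← hβ, ← hb]
    simp

/-- **Sharp Fontaine 1.5(ii)** for `K = ℚ_p`: `(P)(r)` with `r < 1` forces `r < Ufun L σ`
for every nontrivial `σ`. -/
theorem lt_Ufun_of_fontaineP [IsGalois ℚ_[p] L] {r : ℝ} (hr : r < 1) (hP : FontaineP L r)
    (σ : L ≃ₐ[ℚ_[p]] L) (hσ : σ ≠ 1) : r < Ufun L σ := by
  by_cases hσI : σ ∈ inertia (L ≃ₐ[ℚ_[p]] L) L
  · obtain ⟨R', hR', hnot⟩ := exists_not_fontaineP L σ hσI hσ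
    by_contra hcon
    rw [not_lt] at hcon
    exact hnot (hP.mono (hR'.trans hcon))
  · rw [Ufun_eq_one_of_not_mem_inertia hσI]
    exact hr

end Fermat.Agent.Ram
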