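/-
Ramification package (S56, leaf (4b)), part 18: the bounded-Kummer theorem for finite Galois
extensions of `ℚ_p` inside `PadicAlgCl p`.

`bddKummer` : let `L₀ ≤ L` be finite Galois extensions of `ℚ_p`, `L₀` tame and containing `ζ_p`,
and assume Fontaine's property `(P)(p ^ (-2))` for `L` (`p` odd).  If `u ∈ L₀ˣ` has a `p`-th
root in `L`, then `u * y ^ p ≡ 1` modulo more than `ζ - 1` for some `y ∈ L₀ˣ`.
-/
import Fermat.Agent.Ram.Kummer3_helper8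
import Fermat.Agent.Ram.Sharp_helper8

set_option autoImplicit false
set_option linter.unusedSectionVars false

namespace Fermat.Agent.Ram

open IntermediateField

variable {p : ℕ} [Fact p.Prime]

section Layer2

variable (L : IntermediateField ℚ_[p] (PadicAlgCl p))

lemma norm_algebraMap_intermediateField (c : ℚ_[p]) : ‖algebraMap ℚ_[p] L c‖ = ‖c‖ := by
  have h1 : ‖algebraMap ℚ_[p] L c‖ = ‖((algebraMap ℚ_[p] L c : L) : PadicAlgCl p)‖ := rfl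
  have h2 : ((algebraMap ℚ_[p] L c : L) : PadicAlgCl p) = algebraMap ℚ_[p] (PadicAlgCl p) c := rfl
  rw [h1, h2]
  exact PadicAlgCl.norm_extends p c

lemma norm_le_norm_p_of_fixed [FiniteDimensional ℚ_[p] L] [IsGalois ℚ_[p] L] {y : L}
    (hy : y ∈ FixedPoints.subfield (L ≃ₐ[ℚ_[p]] L) L) (hy1 : ‖y‖ < 1) : ‖y‖ ≤ ‖(p : L)‖ := by
  have h1 : y ∈ Set.range (algebraMap ℚ_[p] L) :=
    (IsGalois.mem_range_algebraMap_iff_fixed y).mpr (fun f => hy f)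
  obtain ⟨c, rfl⟩ := h1
  rw [norm_algebraMap_intermediateField] at hy1 ⊢
  rw [norm_p_intermediateField]
  have h2 := (Padic.norm_le_pow_iff_norm_lt_pow_add_one c (-1)).mpr (by simpa using hy1)
  simpa [zpow_neg] using h2

end Layer2

/-- **Bounded Kummer theorem.** -/
theorem bddKummer (L₀ L : IntermediateField ℚ_[p] (PadicAlgCl p))
    [FiniteDimensional ℚ_[p] L₀] [IsGalois ℚ_[p] L₀] [FiniteDimensional ℚ_[p] L]
    [IsGalois ℚ_[p] L] (h : L₀ ≤ L) (htame : ¬ p ∣ Module.finrank ℚ_[p] L₀) (hp2 : p ≠ 2)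
    {ζ : PadicAlgCl p} (hζ : IsPrimitiveRoot ζ p) (hζL₀ : ζ ∈ L₀)
    (hP : FontaineP L ((p : ℝ) ^ (-(2 : ℝ))))
    {u w : PadicAlgCl p} (hu : u ∈ L₀) (hu0 : u ≠ 0) (hw : w ∈ L) (hwu : w ^ p = u) :
    ∃ y ∈ L₀, y ≠ 0 ∧ ‖u * y ^ p - 1‖ < ‖ζ - 1‖ := by
  classical
  have hpp : p.Prime := Fact.out
  have hp1 : (1 : ℝ) < p := by exact_mod_cast hpp.one_lt
  have hp0 : (0 : ℝ) < p := by linarith
  -- the Galois group and the subgroup fixing `L₀`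
  have hGal : IsGalois ℚ_[p] (IntermediateField.restrict h) :=
    IsGalois.of_algEquiv (IntermediateField.restrictAlgEquiv h)
  obtain ⟨N, hNdef⟩ : ∃ N : Subgroup (L ≃ₐ[ℚ_[p]] L),
      N = (IntermediateField.restrict h).fixingSubgroup := ⟨_, rfl⟩
  have hNnormal : N.Normal := hNdef ▸ IsGalois.fixingSubgroup_normal_of_isGalois (IntermediateField.restrict h)
  have hNidx : N.index = Module.finrank ℚ_[p] L₀ := by
    rw [hNdef, ← IntermediateField.finrank_eq_fixingSubgroup_index L (IntermediateField.restrict h)]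
    exact (IntermediateField.restrictAlgEquiv h).toLinearEquiv.finrank_eq.symm
  have hfix : ∀ x : L, x ∈ FixedPoints.subfield N L ↔ (x : PadicAlgCl p) ∈ L₀ := by
    intro x
    rw [← IntermediateField.mem_restrict h]
    have h1 : IntermediateField.fixedField N = IntermediateField.restrict h := by
      rw [hNdef]; exact IsGalois.fixedField_fixingSubgroup _
    rw [← h1]
    rfl
  -- uniformizers
  obtain ⟨α, hα⟩ := exists_isUnif_top L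
  obtain ⟨α₀, hα₀⟩ := exists_isUnif_top L₀
  obtain ⟨π₀, hπ₀def⟩ : ∃ π₀ : L, π₀ = ⟨(α₀ : PadicAlgCl p), h α₀.2⟩ := ⟨_, rfl⟩
  have hπ₀n : ‖π₀‖ = ‖α₀‖ := by rw [hπ₀def]; rfl
  have hπ₀ : IsUnif (FixedPoints.subfield N L) π₀ := by
    refine ⟨(hfix π₀).mpr (by rw [hπ₀def]; exact α₀.2), hπ₀n ▸ hα₀.pos, hπ₀n ▸ hα₀.lt_one,
      fun x hx hx1 => ?_⟩
    have hx₀ : (x : PadicAlgCl p) ∈ L₀ := (hfix x).mp hx
    rw [hπ₀n]
    exact hα₀.le ⟨(x : PadicAlgCl p), hx₀⟩ (Subfield.mem_top _) hx1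
  -- the constants
  have hnp : ‖(p : L)‖ = (p : ℝ)⁻¹ := norm_p_intermediateField L
  have hnp1 : ‖(p : L)‖ < 1 := by rw [hnp]; exact inv_lt_one_of_one_lt₀ hp1
  have hr : (p : ℝ) ^ (-(2 : ℝ)) = ‖(p : L)‖ * ‖(p : L)‖ := by
    rw [hnp, Real.rpow_neg hp0.le, Real.rpow_two, ← mul_inv, sq]
  have hr0 : (0 : ℝ) ≤ (p : ℝ) ^ (-(2 : ℝ)) := (Real.rpow_pos_of_pos hp0 _).le
  have hr1 : (p : ℝ) ^ (-(2 : ℝ)) < 1 := by
    rw [hr]
    calc ‖(p : L)‖ * ‖(p : L)‖ < 1 * 1 :=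
          mul_lt_mul'' hnp1 hnp1 (norm_nonneg _) (norm_nonneg _)
      _ = 1 := one_mul 1
  have hU : ∀ τ : L ≃ₐ[ℚ_[p]] L, τ ≠ 1 → (p : ℝ) ^ (-(2 : ℝ)) < Ufun L τ :=
    fun τ hτ => lt_Ufun_of_fontaineP L hr1 hP τ hτ
  have hr' : (p : ℝ) ^ (-(2 : ℝ)) * ‖π₀‖ < ‖(p : L)‖ := by
    rw [hr]
    have hpos : 0 < ‖(p : L)‖ := by rw [hnp]; exact inv_pos.mpr hp0
    calc ‖(p : L)‖ * ‖(p : L)‖ * ‖π₀‖ < ‖(p : L)‖ * 1 * 1 := by
          apply mul_lt_mul'' _ hπ₀.lt_one (mul_nonneg hpos.le hpos.le) (norm_nonneg _)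
          exact mul_lt_mul_of_pos_left hnp1 hpos
      _ = ‖(p : L)‖ := by rw [mul_one, mul_one]
  have hrp : ‖(p : L)‖ * ‖(p : L)‖ ≤ (p : ℝ) ^ (-(2 : ℝ)) := hr.ge
  have hN : ¬ p ∣ N.index := by rw [hNidx]; exact htame
  -- the elements
  have hζ' : IsPrimitiveRoot (⟨ζ, h hζL₀⟩ : L) p :=
    IsPrimitiveRoot.of_map_of_injective (f := L.val) hζ L.val.injective
  have hζN : (⟨ζ, h hζL₀⟩ : L) ∈ FixedPoints.subfield N L := (hfix _).mpr hζL₀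
  have hu' : (⟨u, h hu⟩ : L) ∈ FixedPoints.subfield N L := (hfix _).mpr hu
  have hu0' : (⟨u, h hu⟩ : L) ≠ 0 := fun h0 => hu0 (congrArg Subtype.val h0)
  have hwu' : (⟨w, hw⟩ : L) ^ p = ⟨u, h hu⟩ := Subtype.ext hwu
  obtain ⟨y, hyK, hy0, hylt⟩ := exists_mul_pow_sub_one_lt (L := L) (G := L ≃ₐ[ℚ_[p]] L) hα hpp hp2
    hnp1 N hN (πK := (p : L)) (fun y hy hy1 => norm_le_norm_p_of_fixed L hy hy1) hπ₀ hr0 hU hr' hrp
    hζ' hζN hu' hu0' hwu'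
  refine ⟨(y : PadicAlgCl p), (hfix y).mp hyK, fun h0 => hy0 (Subtype.ext h0), ?_⟩
  exact hylt

end Fermat.Agent.Ram
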