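/-
Ramification package (S56, leaf (4b)), part 16: algebra of a Kummer extension of prime degree.

`N` acts on a field `L`, fixing a primitive `p`-th root of unity `ζ` and `u = w ^ p`.
* `KummerData.char` : the Kummer character `n ↦ n • w / w`.
* `kSub N w` : the subgroup of `N` fixing `w`; it is normalised by `N`, and of index `p` in `N`
  as soon as `w` is moved by `N` (`KummerData.relIndex_kSub`).
* `KummerData.exists_repr` : every element fixed by `kSub N w` is `∑ k < p, c k * w ^ k` with
  `c k` fixed by `N`  (isotypic decomposition; characteristic zero).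
* `exists_repr_shift` : change of the generator `w ↦ w * y - 1`.
-/
import Fermat.Agent.Ram.Kummer1_helper8

set_option autoImplicit false
set_option linter.unusedSectionVars false

namespace Fermat.Agent.Ram

section KummerAlg

variable {L : Type*} [Field L] {G : Type*} [Group G] [MulSemiringAction G L]

/-- The data of a Kummer generator `w` over the fixed field of `N`. -/
structure KummerData (N : Subgroup G) (p : ℕ) (ζ w : L) : Prop where
  prime : p.Prime
  prim : IsPrimitiveRoot ζ p
  fix_zeta : ∀ n ∈ N, n • ζ = ζ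
  ne_zero : w ≠ 0
  fix_pow : ∀ n ∈ N, n • (w ^ p) = w ^ p

/-- The subgroup of `N` fixing `w`. -/
def kSub (N : Subgroup G) (w : L) : Subgroup G := N ⊓ MulAction.stabilizer G w

lemma mem_kSub {N : Subgroup G} {w : L} {g : G} : g ∈ kSub N w ↔ g ∈ N ∧ g • w = w := by
  rw [kSub, Subgroup.mem_inf, MulAction.mem_stabilizer_iff]

lemma kSub_le (N : Subgroup G) (w : L) : kSub N w ≤ N := inf_le_left

namespace KummerData

variable {N : Subgroup G} {p : ℕ} {ζ w : L} (D : KummerData N p ζ w)

include D

lemma smul_root {n : G} (hn : n ∈ N) {μ : L} (hμ : μ ^ p = 1) : n • μ = μ := by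
  have : NeZero p := ⟨D.prime.ne_zero⟩
  obtain ⟨i, _, rfl⟩ := D.prim.eq_pow_of_pow_eq_one hμ
  rw [smul_pow', D.fix_zeta n hn]

lemma quot_pow {n : G} (hn : n ∈ N) : (n • w / w) ^ p = 1 := by
  rw [div_pow, ← smul_pow', D.fix_pow n hn, div_self (pow_ne_zero _ D.ne_zero)]

lemma smul_w (n : G) : n • w = (n • w / w) * w := by
  rw [div_mul_cancel₀ _ D.ne_zero]

lemma smul_w_ne_zero (n : G) : n • w ≠ 0 := by
  rw [Ne, smul_eq_zero_iff_eq]; exact D.ne_zero

/-- The Kummer character. -/
noncomputable def char : N →* Lˣ :=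
  MonoidHom.mk' (fun n => Units.mk0 ((n : G) • w / w) (div_ne_zero (D.smul_w_ne_zero _) D.ne_zero))
    (by
      intro n m
      ext
      simp only [Units.val_mk0, Units.val_mul, Subgroup.coe_mul]
      rw [mul_smul]
      conv_lhs => rw [D.smul_w (m : G), smul_mul', D.smul_root n.2 (D.quot_pow m.2)]
      have := D.ne_zero
      field_simp)

lemma char_apply (n : N) : ((D.char n : Lˣ) : L) = (n : G) • w / w := rfl

lemma ker_char : D.char.ker = (kSub N w).subgroupOf N := by
  ext n
  rw [MonoidHom.mem_ker, Subgroup.mem_subgroupOf, mem_kSub, Units.ext_iff, D.char_apply,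
    Units.val_one, div_eq_one_iff_eq D.ne_zero]
  exact ⟨fun h => ⟨n.2, h⟩, fun h => h.2⟩

lemma kSub_conj {n : G} (hn : n ∈ N) {x : G} (hx : x ∈ kSub N w) : n * x * n⁻¹ ∈ kSub N w := by
  have hnorm : ((kSub N w).subgroupOf N).Normal := by
    rw [← D.ker_char]; infer_instance
  have hxN : x ∈ N := kSub_le N w hx
  have h1 : (⟨x, hxN⟩ : N) ∈ (kSub N w).subgroupOf N := by
    rw [Subgroup.mem_subgroupOf]; exact hx
  have h2 := hnorm.conj_mem _ h1 ⟨n, hn⟩
  rw [Subgroup.mem_subgroupOf] at h2
  simpa using h2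

lemma relIndex_kSub (hw : ∃ n ∈ N, n • w ≠ w) : (kSub N w).relIndex N = p := by
  rw [Subgroup.relIndex, ← D.ker_char, Subgroup.index_ker]
  have hp0 : NeZero p := ⟨D.prime.ne_zero⟩
  have hle : D.char.range ≤ rootsOfUnity p L := by
    rintro _ ⟨n, rfl⟩
    rw [mem_rootsOfUnity, Units.ext_iff, Units.val_pow_eq_pow_val, D.char_apply, Units.val_one]
    exact D.quot_pow n.2
  have hcard : Nat.card (rootsOfUnity p L) = p := D.prim.card_rootsOfUnity
  have hdvd := Subgroup.card_dvd_of_le hle
  rw [hcard] at hdvd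
  rcases (Nat.dvd_prime D.prime).mp hdvd with h1 | h1
  · exfalso
    obtain ⟨n, hn, hnw⟩ := hw
    have h2 : D.char.range = ⊥ := Subgroup.card_eq_one.mp h1
    have h3 : D.char ⟨n, hn⟩ ∈ D.char.range := ⟨_, rfl⟩
    rw [h2, Subgroup.mem_bot, Units.ext_iff, D.char_apply, Units.val_one,
      div_eq_one_iff_eq D.ne_zero] at h3
    exact hnw h3
  · exact h1

end KummerData

end KummerAlg

section Repr

variable {L : Type*} [Field L] [CharZero L] {G : Type*} [Group G] [Finite G]
  [MulSemiringAction G L]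

lemma geom_sum_eq_zero_of_pow_eq_one {μ : L} {p : ℕ} (h : μ ^ p = 1) (h1 : μ ≠ 1) :
    ∑ k ∈ Finset.range p, μ ^ k = 0 := by
  have h2 := geom_sum_mul μ p
  rw [h, sub_self] at h2
  exact (mul_eq_zero.mp h2).resolve_right (sub_ne_zero.mpr h1)

lemma smul_natCast_eq (g : G) (k : ℕ) : g • ((k : ℕ) : L) = (k : L) := by
  exact map_natCast (MulSemiringAction.toRingHom G L g) k

/-- Isotypic decomposition: every element fixed by `kSub N w` is a polynomial of degree `< p`
in `w` with `N`-fixed coefficients. -/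
theorem KummerData.exists_repr {N : Subgroup G} {p : ℕ} {ζ w : L} (D : KummerData N p ζ w)
    (hidx : (kSub N w).relIndex N = p) {a : L} (ha : ∀ g ∈ kSub N w, g • a = a) :
    ∃ c : ℕ → L, (∀ k, ∀ n ∈ N, n • c k = c k) ∧ a = ∑ k ∈ Finset.range p, c k * w ^ k := by
  classical
  have : Fintype N := Fintype.ofFinite _
  set cN : L := ((Fintype.card N : ℕ) : L) with hcN
  have hcN0 : cN ≠ 0 := by
    rw [hcN, Nat.cast_ne_zero]; exact Fintype.card_ne_zero
  refine ⟨fun k => cN⁻¹ * ∑ n : N, (n : G) • (a / w ^ k), ?_, ?_⟩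
  · intro k m hm
    simp only
    rw [smul_mul', smul_inv'', hcN, smul_natCast_eq, Finset.smul_sum]
    congr 1
    simp_rw [← mul_smul]
    exact Fintype.sum_equiv (Equiv.mulLeft (⟨m, hm⟩ : N)) _ _ (fun n => by simp)
  · have hterm : ∀ n : N, ∑ k ∈ Finset.range p, ((n : G) • (a / w ^ k)) * w ^ k
        = if (n : G) • w = w then (p : L) * a else 0 := by
      intro n
      have h1 : ∀ k, ((n : G) • (a / w ^ k)) * w ^ k
          = ((n : G) • a) * (w / (n : G) • w) ^ k := by
        intro k
        rw [smul_div₀', smul_pow', div_pow]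
        have h2 := D.smul_w_ne_zero (n : G)
        have h3 := D.ne_zero
        field_simp
      simp_rw [h1, ← Finset.mul_sum]
      split_ifs with h
      · have hn : (n : G) ∈ kSub N w := mem_kSub.mpr ⟨n.2, h⟩
        rw [ha _ hn, h, div_self D.ne_zero]
        simp [mul_comm]
      · have hμ : (w / (n : G) • w) ^ p = 1 := by
          have h2 := D.quot_pow n.2
          rw [← inv_div, inv_pow, h2, inv_one]
        have hμ1 : w / (n : G) • w ≠ 1 := by
          rw [Ne, div_eq_one_iff_eq (D.smul_w_ne_zero _)]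
          exact fun h' => h h'.symm
        rw [geom_sum_eq_zero_of_pow_eq_one hμ hμ1, mul_zero]
    have hsum : ∑ k ∈ Finset.range p, (cN⁻¹ * ∑ n : N, (n : G) • (a / w ^ k)) * w ^ k
        = cN⁻¹ * ∑ n : N, (if (n : G) • w = w then (p : L) * a else 0) := by
      simp_rw [mul_assoc, ← Finset.mul_sum, Finset.sum_mul]
      rw [Finset.sum_comm]
      congr 1
      exact Finset.sum_congr rfl (fun n _ => hterm n)
    simp only
    rw [hsum, Finset.sum_ite, Finset.sum_const_zero, add_zero, Finset.sum_const, nsmul_eq_mul]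
    have hcard : (Finset.univ.filter (fun n : N => (n : G) • w = w)).card * p
        = Fintype.card N := by
      have h1 : (Finset.univ.filter (fun n : N => (n : G) • w = w)).card
          = Nat.card ((kSub N w).subgroupOf N) := by
        rw [Nat.card_eq_fintype_card, Fintype.card_subtype]
        congr 1
        ext n
        simp [Subgroup.mem_subgroupOf, mem_kSub]
      rw [h1, ← hidx, Subgroup.relIndex, mul_comm, Subgroup.index_mul_card,
        Nat.card_eq_fintype_card]
    have hcN' : cN = ((Finset.univ.filter (fun n : N => (n : G) • w = w)).card : L) * (p : L) := by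
      rw [hcN, ← hcard, Nat.cast_mul]
    have hne1 : ((Finset.univ.filter (fun n : N => (n : G) • w = w)).card : L) ≠ 0 := by
      intro h0; rw [hcN', h0, zero_mul] at hcN0; exact hcN0 rfl
    have hne2 : (p : L) ≠ 0 := by
      intro h0; rw [hcN', h0, mul_zero] at hcN0; exact hcN0 rfl
    rw [hcN']
    field_simp

/-- Change of generator `w ↦ w * y - 1`. -/
lemma exists_repr_shift (K₀ : Subfield L) {p : ℕ} {w y : L} (hy : y ∈ K₀) (hy0 : y ≠ 0) {a : L}
    (c : ℕ → L) (hc : ∀ k, c k ∈ K₀) (ha : a = ∑ k ∈ Finset.range p, c k * w ^ k) :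
    ∃ c' : ℕ → L, (∀ k, c' k ∈ K₀) ∧ a = ∑ k ∈ Finset.range p, c' k * (w * y - 1) ^ k := by
  set z : L := w * y - 1 with hz
  have hw : w = (z + 1) * y⁻¹ := by
    rw [hz, sub_add_cancel, mul_assoc, mul_inv_cancel₀ hy0, mul_one]
  refine ⟨fun j => ∑ k ∈ Finset.range p, c k * y⁻¹ ^ k * ((k.choose j : ℕ) : L), ?_, ?_⟩
  · intro j
    apply Subfield.sum_mem
    intro k _
    exact K₀.mul_mem (K₀.mul_mem (hc k) (K₀.pow_mem (K₀.inv_mem hy) _)) (natCast_mem K₀ _)
  · have h1 : ∀ k ∈ Finset.range p, c k * w ^ k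
        = ∑ j ∈ Finset.range p, c k * y⁻¹ ^ k * ((k.choose j : ℕ) : L) * z ^ j := by
      intro k hk
      rw [Finset.mem_range] at hk
      rw [hw, mul_pow, add_pow]
      have h2 : ∑ m ∈ Finset.range (k + 1), z ^ m * 1 ^ (k - m) * ((k.choose m : ℕ) : L)
          = ∑ m ∈ Finset.range p, z ^ m * 1 ^ (k - m) * ((k.choose m : ℕ) : L) := by
        apply Finset.sum_subset (Finset.range_subset_range.mpr (by omega))
        intro m _ hm
        rw [Finset.mem_range, not_lt] at hm
        rw [Nat.choose_eq_zero_of_lt (by omega), Nat.cast_zero, mul_zero]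
      rw [h2, Finset.sum_mul, Finset.mul_sum]
      apply Finset.sum_congr rfl
      intro m _
      rw [one_pow]; ring
    rw [ha, Finset.sum_congr rfl h1, Finset.sum_comm]
    apply Finset.sum_congr rfl
    intro j _
    rw [Finset.sum_mul]

end Repr

end Fermat.Agent.Ram
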