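/-
Ramification package (S56, leaf (4b)), part 11: the combinatorial half of Herbrand's theorem
(Serre, Corps locaux IV §1 Lemme 4 + Prop. 15 in multiplicative form), for a normal subgroup of
prime index.  Pure group theory plus an "ultrametric" function `j : N → ℝ`.
-/
import Mathlib

set_option autoImplicit false
set_option linter.unusedSectionVars false

namespace Fermat.Agent.Ram

section Comb

variable {N : Type*} [Group N] [Fintype N]

/-- The map `(k, ν) ↦ τ₀ ^ k * ν` from `Fin ℓ × N'` to `N` is bijective when `N'` is normal of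
prime index `ℓ` and `τ₀ ∉ N'`. -/
lemma bijective_pow_mul (N' : Subgroup N) [N'.Normal] [Fintype N'] {ℓ : ℕ} (hℓ : ℓ.Prime)
    (hidx : N'.index = ℓ) (τ₀ : N) (hτ₀ : τ₀ ∉ N') :
    Function.Bijective (fun x : Fin ℓ × N' => τ₀ ^ (x.1 : ℕ) * (x.2 : N)) := by
  classical
  haveI : Fact ℓ.Prime := ⟨hℓ⟩
  set t : N ⧸ N' := QuotientGroup.mk τ₀ with ht
  have ht1 : t ≠ 1 := by
    intro h
    exact hτ₀ ((QuotientGroup.eq_one_iff τ₀).mp h)
  have hcardQ : Nat.card (N ⧸ N') = ℓ := by rw [← Subgroup.index_eq_card]; exact hidx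
  have htℓ : t ^ ℓ = 1 := by rw [← hcardQ]; exact pow_card_eq_one'
  have hord : orderOf t = ℓ := orderOf_eq_prime htℓ ht1
  rw [Fintype.bijective_iff_injective_and_card]
  constructor
  · rintro ⟨k, ν⟩ ⟨k', ν'⟩ h
    simp only at h
    have h1 : t ^ (k : ℕ) = t ^ (k' : ℕ) := by
      have h2 := congrArg (QuotientGroup.mk (s := N')) h
      simp only [QuotientGroup.mk_mul, QuotientGroup.mk_pow] at h2
      have h3 : ∀ x : N', (QuotientGroup.mk (x : N) : N ⧸ N') = 1 :=
        fun x => (QuotientGroup.eq_one_iff _).mpr x.2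
      rw [h3, h3, mul_one, mul_one] at h2
      exact h2
    have hk : (k : ℕ) = (k' : ℕ) := by
      apply pow_injOn_Iio_orderOf (x := t)
      · rw [Set.mem_Iio, hord]; exact k.2
      · rw [Set.mem_Iio, hord]; exact k'.2
      · exact h1
    have hkk : k = k' := Fin.ext hk
    subst hkk
    have hν : (ν : N) = ν' := mul_left_cancel h
    rw [Prod.mk.injEq]
    exact ⟨rfl, Subtype.ext hν⟩
  · rw [Fintype.card_prod, Fintype.card_fin]
    have h1 := Subgroup.index_mul_card N'
    rw [hidx, Nat.card_eq_fintype_card, Nat.card_eq_fintype_card] at h1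
    exact h1

/-- **Combinatorial half of Herbrand's theorem**, prime index case. -/
theorem prod_max_le_pow (N' : Subgroup N) [N'.Normal] [Fintype N'] {ℓ : ℕ} (hℓ : ℓ.Prime)
    (hidx : N'.index = ℓ) (j : N → ℝ) (hj0 : ∀ ρ, 0 ≤ j ρ)
    (hjmul : ∀ ρ τ, j (ρ * τ) ≤ max (j ρ) (j τ)) (hjinv : ∀ ρ, j ρ⁻¹ = j ρ)
    (τ₀ : N) (hτ₀ : τ₀ ∉ N') (hmin : ∀ ν : N', j τ₀ ≤ j (τ₀ * ν)) :
    ∏ ρ : N, max (j ρ) (j τ₀) ≤ (∏ ν : N', j (τ₀ * ν)) ^ ℓ := by
  classical
  set m₀ := j τ₀ with hm₀
  -- (C1)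
  have hC1 : ∀ ν : N', j (τ₀ * ν) = max (j (ν : N)) m₀ := by
    intro ν
    refine le_antisymm ((hjmul τ₀ ν).trans (le_of_eq (max_comm _ _))) ?_
    rcases le_or_gt (j (ν : N)) m₀ with h | h
    · rw [max_eq_right h]; exact hmin ν
    · rw [max_eq_left h.le]
      have h1 : j (ν : N) ≤ max (j τ₀⁻¹) (j (τ₀ * ν)) := by
        have := hjmul τ₀⁻¹ (τ₀ * ν)
        rwa [inv_mul_cancel_left] at this
      rw [hjinv] at h1
      rcases le_max_iff.mp h1 with h2 | h2
      · exact absurd h2 (not_le.mpr h)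
      · exact h2
  -- powers of τ₀
  have hone : j 1 ≤ m₀ := by
    have := hjmul τ₀ τ₀⁻¹
    rw [mul_inv_cancel, hjinv, max_self] at this
    exact this
  have hpow : ∀ k : ℕ, j (τ₀ ^ k) ≤ m₀ := by
    intro k
    induction k with
    | zero => rw [pow_zero]; exact hone
    | succ k ih =>
      rw [pow_succ]
      exact (hjmul _ _).trans (max_le ih le_rfl)
  -- (C3)
  have hC3 : ∀ (k : ℕ) (ν : N'), max (j (τ₀ ^ k * ν)) m₀ ≤ max (j (ν : N)) m₀ := by
    intro k ν
    apply max_le _ (le_max_right _ _)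
    exact (hjmul _ _).trans (max_le ((hpow k).trans (le_max_right _ _)) (le_max_left _ _))
  -- reindex
  have hbij := bijective_pow_mul N' hℓ hidx τ₀ hτ₀
  have hreindex : ∏ ρ : N, max (j ρ) m₀
      = ∏ x : Fin ℓ × N', max (j (τ₀ ^ (x.1 : ℕ) * (x.2 : N))) m₀ :=
    (Fintype.prod_bijective _ hbij _ _ (fun _ => rfl)).symm
  rw [hreindex, Fintype.prod_prod_type]
  calc ∏ k : Fin ℓ, ∏ ν : N', max (j (τ₀ ^ (k : ℕ) * (ν : N))) m₀
      ≤ ∏ _k : Fin ℓ, ∏ ν : N', max (j (ν : N)) m₀ := by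
        apply Finset.prod_le_prod
        · intro k _
          exact Finset.prod_nonneg fun ν _ => le_max_of_le_left (hj0 _)
        · intro k _
          apply Finset.prod_le_prod
          · intro ν _
            exact le_max_of_le_left (hj0 _)
          · intro ν _
            exact hC3 k ν
    _ = (∏ ν : N', max (j (ν : N)) m₀) ^ ℓ := by
        rw [Finset.prod_const, Finset.card_univ, Fintype.card_fin]
    _ = (∏ ν : N', j (τ₀ * ν)) ^ ℓ := by
        congr 1
        apply Finset.prod_congr rfl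
        intro ν _
        exact (hC1 ν).symm

end Comb

end Fermat.Agent.Ram
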