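/-
Ramification package (S56, leaf (4b)), part 13: wild inertia is a `p`-group, and the tame lemma:
if `N` is a normal subgroup of index prime to the residue characteristic `p`, then every element
of the inertia group outside `N` moves the uniformizer `α` by exactly `‖α‖`.
-/
import Fermat.Agent.Ram.IFun_helper8

set_option autoImplicit false
set_option linter.unusedSectionVars false

namespace Fermat.Agent.Ram

open Filter Topology

section ProdLemma

variable {L : Type*} [NormedField L] [IsUltrametricDist L]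

/-- Products of integral elements which are termwise close are close. -/
lemma norm_prod_sub_prod_le {ι : Type*} (s : Finset ι) (x y : ι → L) {c : ℝ} (hc : 0 ≤ c)
    (hx : ∀ i ∈ s, ‖x i‖ ≤ 1) (hy : ∀ i ∈ s, ‖y i‖ ≤ 1) (hxy : ∀ i ∈ s, ‖x i - y i‖ ≤ c) :
    ‖∏ i ∈ s, x i - ∏ i ∈ s, y i‖ ≤ c := by
  classical
  induction s using Finset.induction_on with
  | empty => simpa using hc
  | insert i s hi ih =>
    rw [Finset.prod_insert hi, Finset.prod_insert hi]
    have h1 : x i * ∏ k ∈ s, x k - y i * ∏ k ∈ s, y k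
        = x i * (∏ k ∈ s, x k - ∏ k ∈ s, y k) + (x i - y i) * ∏ k ∈ s, y k := by ring
    rw [h1]
    apply norm_add_le_of_le
    · rw [norm_mul]
      have := ih (fun k hk => hx k (Finset.mem_insert_of_mem hk))
        (fun k hk => hy k (Finset.mem_insert_of_mem hk))
        (fun k hk => hxy k (Finset.mem_insert_of_mem hk))
      calc ‖x i‖ * ‖∏ k ∈ s, x k - ∏ k ∈ s, y k‖ ≤ 1 * c :=
            mul_le_mul (hx i (Finset.mem_insert_self i s)) this (norm_nonneg _) zero_le_one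
        _ = c := one_mul c
    · rw [norm_mul, norm_prod]
      have h2 : ∏ k ∈ s, ‖y k‖ ≤ 1 :=
        Finset.prod_le_one (fun k _ => norm_nonneg _)
          (fun k hk => hy k (Finset.mem_insert_of_mem hk))
      calc ‖x i - y i‖ * ∏ k ∈ s, ‖y k‖ ≤ c * 1 :=
            mul_le_mul (hxy i (Finset.mem_insert_self i s)) h2
              (Finset.prod_nonneg fun k _ => norm_nonneg _) hc
        _ = c := mul_one c

end ProdLemma

section Wild

variable {L : Type*} [NormedField L] [IsUltrametricDist L] [CompleteSpace L] [Finite (Res L)]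
variable {G : Type*} [Group G] [Fintype G] [MulSemiringAction G L] [IsIsometricSMul G L]

lemma iFun_pow_le (ρ : G) (n : ℕ) (hn : 0 < n) : iFun L (ρ ^ n) ≤ iFun L ρ := by
  induction n with
  | zero => exact absurd hn (lt_irrefl 0)
  | succ n ih =>
    rcases Nat.eq_zero_or_pos n with h0 | hpos
    · rw [h0, zero_add, pow_one]
    · rw [pow_succ]
      exact (iFun_mul_le _ _).trans (max_le (ih hpos) le_rfl)

/-- `ρ ^ n (α) / α = ∏_{k < n} ρ ^ k (ρ α / α)`. -/
lemma pow_smul_div (α : L) (hα0 : α ≠ 0) (ρ : G) (n : ℕ) :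
    (ρ ^ n) • α / α = ∏ k ∈ Finset.range n, (ρ ^ k) • (ρ • α / α) := by
  induction n with
  | zero => simp [hα0]
  | succ n ih =>
    rw [Finset.prod_range_succ, ← ih, pow_succ, mul_smul]
    have h1 : (ρ ^ n) • (ρ • α / α) = (ρ ^ n) • ρ • α / (ρ ^ n) • α := by
      rw [div_eq_mul_inv, smul_mul', smul_inv'', ← div_eq_mul_inv]
    rw [h1]
    have h2 : (ρ ^ n) • α ≠ 0 := by
      intro h
      apply hα0
      have := congrArg (fun z => (ρ ^ n)⁻¹ • z) h
      simpa using this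
    field_simp

/-- **Wild step**: if `ρ` is in the inertia group and moves `α` by less than `‖α‖`, then
`ρ ^ p` moves `α` by at most `‖ρ α - α‖ * ‖α‖`. -/
theorem norm_pow_smul_sub_le {α : L} (hα : IsUnif (⊤ : Subfield L) α) {p : ℕ}
    (hp : ‖(p : L)‖ < 1) {ρ : G} (hρ : ρ ∈ inertia G L) (hwild : ‖ρ • α - α‖ < ‖α‖) :
    ‖(ρ ^ p) • α - α‖ ≤ ‖ρ • α - α‖ * ‖α‖ := by
  classical
  have hα0 : α ≠ 0 := hα.ne_zero
  have hα1 : ‖α‖ ≤ 1 := hα.lt_one.le
  have hρle : ∀ x : L, ‖x‖ < 1 → ‖x‖ ≤ ‖α‖ := fun x hx => hα.le x (Subfield.mem_top x) hx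
  have hnα : ‖α‖ ≠ 0 := norm_ne_zero_iff.mpr hα0
  -- θ = ρ α / α
  set θ : L := ρ • α / α with hθ
  have hθ1 : ‖θ‖ ≤ 1 := by
    rw [hθ, norm_div, norm_smul_eq, div_self hnα]
  have hθsub : θ - 1 = (ρ • α - α) / α := by
    rw [hθ]; field_simp
  have hθsubn : ‖θ - 1‖ = ‖ρ • α - α‖ / ‖α‖ := by rw [hθsub, norm_div]
  have hθlt : ‖θ - 1‖ < 1 := by
    rw [hθsubn, div_lt_one hα.pos]; exact hwild
  set c : ℝ := ‖ρ • α - α‖ with hc
  have hc0 : 0 ≤ c := norm_nonneg _
  have hiFun : iFun L ρ = c := iFun_eq_of_mem_inertia hα hρ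
  -- the twisted factors are close to θ
  have hclose : ∀ k ∈ Finset.range p, ‖(ρ ^ k) • θ - θ‖ ≤ c := by
    intro k _
    rcases Nat.eq_zero_or_pos k with h0 | hpos
    · rw [h0, pow_zero, one_smul, sub_self, norm_zero]; exact hc0
    · exact (norm_smul_sub_le_iFun (ρ ^ k) hθ1).trans ((iFun_pow_le ρ k hpos).trans hiFun.le)
  have h1 : ‖∏ k ∈ Finset.range p, (ρ ^ k) • θ - ∏ _k ∈ Finset.range p, θ‖ ≤ c :=
    norm_prod_sub_prod_le _ _ _ hc0 (fun k _ => by rw [norm_smul_eq]; exact hθ1)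
      (fun _ _ => hθ1) hclose
  rw [Finset.prod_const, Finset.card_range, ← pow_smul_div α hα0 ρ p] at h1
  -- θ ^ p is close to 1
  have hpres : ((p : ℕ) : Res L) = 0 := by
    have : (p : Res L) = res L (⟨(p : L), hp.le⟩ : intRing L) := by
      rw [← map_natCast (res L)]
      congr 1
    rw [this, res_eq_zero_iff]
    exact hp
  have h2 : ‖θ ^ p - 1‖ ≤ ‖α‖ * ‖θ - 1‖ := by
    have hres : res L (⟨θ, hθ1⟩ : intRing L) = res L (1 : intRing L) := by
      rw [res_eq_iff]; exact hθlt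
    have := norm_pow_sub_pow_le hρle (⟨θ, hθ1⟩ : intRing L) 1 hres p hpres
    simpa using this
  have h2' : ‖θ ^ p - 1‖ ≤ c := by
    rw [hθsubn, mul_div_cancel₀ _ hnα] at h2
    exact h2
  have h3 : ‖(ρ ^ p) • α / α - 1‖ ≤ c := by
    have : (ρ ^ p) • α / α - 1 = ((ρ ^ p) • α / α - θ ^ p) + (θ ^ p - 1) := by ring
    rw [this]
    exact norm_add_le_of_le h1 h2'
  have h4 : (ρ ^ p) • α - α = ((ρ ^ p) • α / α - 1) * α := by field_simp
  rw [h4, norm_mul]
  exact mul_le_mul_of_nonneg_right h3 (norm_nonneg _)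

variable [FaithfulSMul G L]

/-- **Wild inertia is a `p`-group.** -/
theorem exists_pow_pow_eq_one {α : L} (hα : IsUnif (⊤ : Subfield L) α) {p : ℕ}
    (hp : ‖(p : L)‖ < 1) {ρ : G} (hρ : ρ ∈ inertia G L) (hwild : ‖ρ • α - α‖ < ‖α‖) :
    ∃ n : ℕ, ρ ^ (p ^ n) = 1 := by
  classical
  by_cases hp0 : p = 0
  · exact ⟨1, by rw [hp0, pow_one, pow_zero]⟩
  -- the decay
  have hdecay : ∀ n : ℕ, ‖(ρ ^ (p ^ n)) • α - α‖ ≤ ‖ρ • α - α‖ * ‖α‖ ^ n := by
    intro n
    induction n with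
    | zero => simp
    | succ n ih =>
      have hmem : ρ ^ (p ^ n) ∈ inertia G L := Subgroup.pow_mem _ hρ _
      have hw : ‖(ρ ^ (p ^ n)) • α - α‖ < ‖α‖ := by
        have h1 : ‖(ρ ^ (p ^ n)) • α - α‖ ≤ ‖ρ • α - α‖ := by
          rw [← iFun_eq_of_mem_inertia hα hmem, ← iFun_eq_of_mem_inertia hα hρ]
          exact iFun_pow_le ρ _ (pow_pos (Nat.pos_of_ne_zero hp0) n)
        exact h1.trans_lt hwild
      have := norm_pow_smul_sub_le hα hp hmem hw
      rw [← pow_mul, ← pow_succ] at this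
      refine this.trans ?_
      rw [pow_succ, ← mul_assoc]
      exact mul_le_mul_of_nonneg_right ih (norm_nonneg _)
  -- lower bound for nonzero movements
  set S : Finset G := Finset.univ.filter (fun τ => τ • α ≠ α) with hS
  by_cases hSne : S.Nonempty
  · obtain ⟨τ₁, hτ₁S, hτ₁min⟩ := Finset.exists_min_image S (fun τ => ‖τ • α - α‖) hSne
    have hε : 0 < ‖τ₁ • α - α‖ := by
      rw [norm_pos_iff, sub_ne_zero]
      rw [hS, Finset.mem_filter] at hτ₁S
      exact hτ₁S.2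
    obtain ⟨n, hn⟩ := exists_pow_lt_of_lt_one hε hα.lt_one
    refine ⟨n, ?_⟩
    by_contra hne
    have hmem : ρ ^ (p ^ n) ∈ inertia G L := Subgroup.pow_mem _ hρ _
    have hmove : (ρ ^ (p ^ n)) • α ≠ α := by
      intro h
      have h1 := TR.eq_one_of_smul_unif (J := inertia G L) hα inertia_triv ⟨_, hmem⟩ h
      exact hne (congrArg Subtype.val h1)
    have h2 := hτ₁min (ρ ^ (p ^ n)) (by rw [hS, Finset.mem_filter]; exact ⟨Finset.mem_univ _, hmove⟩)
    have h3 : ‖ρ • α - α‖ * ‖α‖ ^ n ≤ ‖α‖ ^ n := by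
      have : ‖ρ • α - α‖ ≤ 1 := (hwild.trans hα.lt_one).le
      calc ‖ρ • α - α‖ * ‖α‖ ^ n ≤ 1 * ‖α‖ ^ n :=
            mul_le_mul_of_nonneg_right this (pow_nonneg (norm_nonneg _) _)
        _ = ‖α‖ ^ n := one_mul _
    have := (h2.trans (hdecay n)).trans h3
    linarith
  · refine ⟨0, ?_⟩
    rw [pow_zero, pow_one]
    rw [Finset.not_nonempty_iff_eq_empty] at hSne
    have hfix : ρ • α = α := by
      by_contra h
      have : ρ ∈ S := by rw [hS, Finset.mem_filter]; exact ⟨Finset.mem_univ _, h⟩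
      rw [hSne] at this
      exact absurd this (Finset.notMem_empty _)
    have h1 := TR.eq_one_of_smul_unif (J := inertia G L) hα inertia_triv ⟨ρ, hρ⟩ hfix
    exact congrArg Subtype.val h1

/-- **Tame lemma.** -/
theorem norm_smul_sub_eq_of_tame {α : L} (hα : IsUnif (⊤ : Subfield L) α) {p : ℕ}
    (hpp : p.Prime) (hp : ‖(p : L)‖ < 1) (N : Subgroup G) [N.Normal] (hN : ¬ p ∣ N.index)
    {ρ : G} (hρ : ρ ∈ inertia G L) (hρN : ρ ∉ N) : ‖ρ • α - α‖ = ‖α‖ := by
  have hle : ‖ρ • α - α‖ ≤ ‖α‖ :=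
    hα.le _ (Subfield.mem_top _) (hρ α hα.lt_one.le)
  refine le_antisymm hle ?_
  by_contra hcon
  rw [not_le] at hcon
  obtain ⟨n, hn⟩ := exists_pow_pow_eq_one hα hp hρ hcon
  apply hρN
  rw [← QuotientGroup.eq_one_iff]
  set t : G ⧸ N := QuotientGroup.mk ρ with ht
  have h1 : t ^ (p ^ n) = 1 := by
    rw [ht, ← QuotientGroup.mk_pow, hn, QuotientGroup.mk_one]
  have h2 : orderOf t ∣ p ^ n := orderOf_dvd_of_pow_eq_one h1
  have h3 : orderOf t ∣ N.index := by
    rw [Subgroup.index_eq_card]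
    exact orderOf_dvd_natCard t
  have h4 : Nat.Coprime (p ^ n) N.index :=
    Nat.Coprime.pow_left n ((Nat.Prime.coprime_iff_not_dvd hpp).mpr hN)
  have h5 : orderOf t = 1 := Nat.eq_one_of_dvd_coprimes h4 h2 h3
  exact orderOf_eq_one_iff.mp h5

end Wild

end Fermat.Agent.Ram
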