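/-
Ramification package (S56, leaf (4b)), part 12: ramification index = order of the inertia group.

* `card_le_of_norm_eq_pow` : in the totally ramified setting (group `J`), an element of `L ^ J`
  of norm `‖α‖ ^ k`, `k ≥ 1`, forces `|J| ≤ k` (the value group of `L ^ J` is generated by
  `‖α‖ ^ |J|`).
* `exists_fixed_norm_eq` (trace trick): for any group `G` acting with inertia subgroup `I`,
  every nonzero element of `L ^ I` has the same norm as some element of `L ^ G`
  (`L ^ I / L ^ G` is unramified).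
-/
import Fermat.Agent.Ram.IFun_helper8

set_option autoImplicit false
set_option linter.unusedSectionVars false

namespace Fermat.Agent.Ram

open Filter Topology

section ValueGroup

variable {L : Type*} [NormedField L] [IsUltrametricDist L] [CompleteSpace L] [Finite (Res L)]
variable {J : Type*} [Group J] [Fintype J] [MulSemiringAction J L] [IsIsometricSMul J L]
  [FaithfulSMul J L]

theorem card_le_of_norm_eq_pow {α : L} (hα : IsUnif (⊤ : Subfield L) α)
    (htriv : ∀ (σ : J) (a : L), ‖a‖ ≤ 1 → ‖σ • a - a‖ < 1) {y : L}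
    (hy : y ∈ FixedPoints.subfield J L) {k : ℕ} (hk : 0 < k) (hyk : ‖y‖ = ‖α‖ ^ k) :
    Fintype.card J ≤ k := by
  classical
  set K₀ := FixedPoints.subfield J L with hK₀
  have hρ : ∀ x : L, ‖x‖ < 1 → ‖x‖ ≤ ‖α‖ := fun x hx => hα.le x (Subfield.mem_top x) hx
  have hy1 : ‖y‖ < 1 := by rw [hyk]; exact pow_lt_one₀ (norm_nonneg _) hα.lt_one hk.ne'
  have hy0 : y ≠ 0 := by
    rw [← norm_pos_iff, hyk]; exact pow_pos hα.pos _
  have hrepr : ∀ a : L, ‖a‖ ≤ 1 → ∃ b : ℕ → L, (∀ i, b i ∈ K₀ ∧ ‖b i‖ ≤ 1) ∧
      a = ∑ i ∈ Finset.range k, b i * α ^ i := by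
    intro a ha
    exact exists_repr K₀ ⊤ le_top isClosed_fixedPoints hα hy hy1 hyk
      (fun a _ ha1 => exists_fixed_approx hα.lt_one hρ htriv ha1) (Subfield.mem_top a) ha
  -- spanning
  set s : Finset L := (Finset.range k).image (fun i => α ^ i) with hs
  have hspan : Submodule.span K₀ (s : Set L) = ⊤ := by
    rw [eq_top_iff]
    intro z _
    obtain ⟨m, hm⟩ : ∃ m : ℕ, ‖z‖ * ‖y‖ ^ m ≤ 1 := by
      by_cases hz : ‖z‖ ≤ 1
      · exact ⟨0, by simpa using hz⟩
      · rw [not_le] at hz
        obtain ⟨m, hm⟩ := exists_pow_lt_of_lt_one (inv_pos.mpr (lt_trans zero_lt_one hz)) hy1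
        refine ⟨m, ?_⟩
        have : ‖z‖ * ‖y‖ ^ m ≤ ‖z‖ * ‖z‖⁻¹ := by gcongr
        rwa [mul_inv_cancel₀ (lt_trans zero_lt_one hz).ne'] at this
    obtain ⟨b, hb, hrep⟩ := hrepr (z * y ^ m) (by rw [norm_mul, norm_pow]; exact hm)
    have hym : y ^ m ≠ 0 := pow_ne_zero _ hy0
    have hz : z = ∑ i ∈ Finset.range k, (b i / y ^ m) * α ^ i := by
      have h1 : z = (z * y ^ m) / y ^ m := by rw [mul_div_assoc, div_self hym, mul_one]
      rw [h1, hrep, Finset.sum_div]
      apply Finset.sum_congr rfl
      intro i _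
      ring
    rw [hz]
    apply Submodule.sum_mem
    intro i hi
    have hc : b i / y ^ m ∈ K₀ := Subfield.div_mem _ (hb i).1 (Subfield.pow_mem _ hy _)
    have hmem : α ^ i ∈ (s : Set L) := by
      rw [hs, Finset.coe_image]
      exact ⟨i, hi, rfl⟩
    have := Submodule.smul_mem (Submodule.span K₀ (s : Set L)) (⟨b i / y ^ m, hc⟩ : K₀)
      (Submodule.subset_span hmem)
    exact this
  have h1 : Module.finrank K₀ L = Fintype.card J := FixedPoints.finrank_eq_card J L
  have h2 : Module.finrank K₀ L ≤ s.card := by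
    rw [← finrank_top K₀ L, ← hspan]
    exact finrank_span_finset_le_card s
  have h3 : s.card ≤ k := by
    rw [hs]
    exact Finset.card_image_le.trans (by simp)
  omega

end ValueGroup

section TraceTrick

variable {L : Type*} [NormedField L] [IsUltrametricDist L] [CompleteSpace L] [Finite (Res L)]
variable {G : Type*} [Group G] [Fintype G] [MulSemiringAction G L] [IsIsometricSMul G L]

lemma resHom_inv_comp (g : G) : (resHom (L := L) g⁻¹).comp (resHom g) = RingHom.id _ := by
  rw [← resHom_mul, inv_mul_cancel, resHom_one]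

/-- The residue automorphisms of two elements agree iff they are congruent modulo inertia. -/
lemma resHom_eq_iff (g h : G) : resHom (L := L) g = resHom h ↔ g⁻¹ * h ∈ inertia G L := by
  rw [mem_inertia, ← resHom_eq_id_iff, resHom_mul]
  constructor
  · intro hgh
    rw [← hgh, resHom_inv_comp]
  · intro hgh
    have h1 : (resHom (L := L) g).comp ((resHom g⁻¹).comp (resHom h)) = resHom g := by
      rw [hgh, RingHom.comp_id]
    rw [← RingHom.comp_assoc, ← resHom_mul, mul_inv_cancel, resHom_one, RingHom.id_comp] at h1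
    exact h1.symm

/-- Elements of `L ^ I` are moved in the same way by congruent group elements. -/
lemma out_smul_eq {z : L} (hz : z ∈ FixedPoints.subfield (inertia G L) L) (g : G) :
    (QuotientGroup.mk g : G ⧸ inertia G L).out • z = g • z := by
  obtain ⟨h, hh⟩ := QuotientGroup.mk_out_eq_mul (inertia G L) g
  rw [hh, mul_smul]
  congr 1
  exact hz h

/-- **Trace trick**: `L ^ I / L ^ G` is unramified. -/
theorem exists_fixed_norm_eq {α : L} (hα : IsUnif (⊤ : Subfield L) α) {x : L}
    (hx : x ∈ FixedPoints.subfield (inertia G L) L) (hx0 : x ≠ 0) :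
    ∃ y ∈ FixedPoints.subfield G L, ‖y‖ = ‖x‖ := by
  classical
  set I := inertia G L with hI
  have hρ : ∀ x : L, ‖x‖ < 1 → ‖x‖ ≤ ‖α‖ := fun x hx => hα.le x (Subfield.mem_top x) hx
  -- the units `w q`
  have hw1 : ∀ q : G ⧸ I, ‖q.out • x / x‖ ≤ 1 := by
    intro q
    rw [norm_div, norm_smul_eq, div_self (norm_ne_zero_iff.mpr hx0)]
  set w : G ⧸ I → intRing L := fun q => ⟨q.out • x / x, hw1 q⟩ with hw
  have hwres : ∀ q, res L (w q) ≠ 0 := by
    intro q
    rw [res_ne_zero_iff]
    show ‖q.out • x / x‖ = 1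
    rw [norm_div, norm_smul_eq, div_self (norm_ne_zero_iff.mpr hx0)]
  -- Dedekind independence
  set φ : G ⧸ I → (Res L →* Res L) := fun q => (resHom (L := L) q.out : Res L →* Res L) with hφ
  have hφinj : Function.Injective φ := by
    intro q q' h
    have h1 : resHom (L := L) q.out = resHom q'.out := by
      ext y
      have := congrArg (fun f : Res L →* Res L => f y) h
      exact this
    rw [resHom_eq_iff] at h1
    have h2 : (QuotientGroup.mk q.out : G ⧸ I) = QuotientGroup.mk q'.out :=
      QuotientGroup.eq.mpr h1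
    rwa [QuotientGroup.out_eq', QuotientGroup.out_eq'] at h2
  have hli : LinearIndependent (Res L) (fun q : G ⧸ I => (φ q : Res L → Res L)) :=
    (linearIndependent_monoidHom (Res L) (Res L)).comp φ hφinj
  obtain ⟨ū, hū⟩ : ∃ ū : Res L, ∑ q : G ⧸ I, res L (w q) * φ q ū ≠ 0 := by
    by_contra hcon
    push Not at hcon
    have h0 : ∑ q : G ⧸ I, res L (w q) • (φ q : Res L → Res L) = 0 := by
      funext ū
      rw [Finset.sum_apply]
      simpa using hcon ū
    have := Fintype.linearIndependent_iff.mp hli (fun q => res L (w q)) h0 1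
    exact hwres 1 this
  -- lift `ū` to `L ^ I`
  obtain ⟨u₀, hu₀⟩ := res_surjective (L := L) ū
  obtain ⟨u, humem, huu⟩ := exists_fixed_approx (J := I) hα.lt_one hρ inertia_triv u₀.2
  have hu1 : ‖u‖ ≤ 1 := by
    have : u = (u₀ : L) - ((u₀ : L) - u) := by ring
    rw [this]
    exact norm_sub_le_of_le u₀.2 huu.le
  have hures : res L ⟨u, hu1⟩ = ū := by
    rw [← hu₀, eq_comm, res_eq_iff]; exact huu
  -- the trace element
  have huxmem : u * x ∈ FixedPoints.subfield I L := Subfield.mul_mem _ humem hx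
  refine ⟨∑ q : G ⧸ I, q.out • (u * x), ?_, ?_⟩
  · intro h
    rw [Finset.smul_sum]
    have h1 : ∀ q : G ⧸ I, h • q.out • (u * x)
        = ((QuotientGroup.mk h : G ⧸ I) * q).out • (u * x) := by
      intro q
      rw [← mul_smul, ← out_smul_eq huxmem (h * q.out), QuotientGroup.mk_mul,
        QuotientGroup.out_eq']
    simp only [h1]
    exact Fintype.sum_equiv (Equiv.mulLeft (QuotientGroup.mk h : G ⧸ I)) _ _ (fun q => rfl)
  · have h1 : ∑ q : G ⧸ I, q.out • (u * x)
        = x * ∑ q : G ⧸ I, (q.out • u) * (q.out • x / x) := by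
      rw [Finset.mul_sum]
      apply Finset.sum_congr rfl
      intro q _
      rw [smul_mul']
      field_simp
    rw [h1, norm_mul]
    have h2 : ‖∑ q : G ⧸ I, (q.out • u) * (q.out • x / x)‖ = 1 := by
      set s : intRing L := ∑ q : G ⧸ I, smulInt q.out ⟨u, hu1⟩ * w q with hs
      have hs' : (s : L) = ∑ q : G ⧸ I, (q.out • u) * (q.out • x / x) := by
        rw [hs]
        simp [hw]
      rw [← hs', ← res_ne_zero_iff, hs, map_sum]
      have h3 : ∑ q : G ⧸ I, res L (smulInt q.out ⟨u, hu1⟩ * w q)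
          = ∑ q : G ⧸ I, res L (w q) * φ q ū := by
        apply Finset.sum_congr rfl
        intro q _
        rw [map_mul, mul_comm, ← resHom_res, hures]
        rfl
      rw [h3]
      exact hū
    rw [h2, mul_one]

/-- The ramification index equals the order of the inertia group: there is an element of
`L ^ G` of norm `‖α‖ ^ |I|`. -/
theorem exists_fixed_norm_eq_pow [Fintype (inertia G L)] {α : L}
    (hα : IsUnif (⊤ : Subfield L) α) :
    ∃ y ∈ FixedPoints.subfield G L, ‖y‖ = ‖α‖ ^ Fintype.card (inertia G L) := by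
  have h1 : normElt (inertia G L) α ∈ FixedPoints.subfield (inertia G L) L := normElt_mem α
  have h2 : ‖normElt (inertia G L) α‖ = ‖α‖ ^ Fintype.card (inertia G L) := norm_normElt α
  have h0 : normElt (inertia G L) α ≠ 0 := by
    rw [← norm_pos_iff, h2]; exact pow_pos hα.pos _
  obtain ⟨y, hy, hyn⟩ := exists_fixed_norm_eq hα h1 h0
  exact ⟨y, hy, hyn.trans h2⟩

end TraceTrick

end Fermat.Agent.Ram
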