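/-
Ramification package (S56, leaf (4b)), part 14: the abstract form of (R4).

`G` acts on `L` with `Ufun L τ > r` for all `τ ≠ 1` (Fontaine bound for `L / L ^ G`).
`N` normal in `G` of index prime to the residue characteristic (tame base `L₀ = L ^ N`),
`N' ≤ N` normal in `N` of prime index `ℓ` (`M = L ^ N'` cyclic of degree `ℓ` over `L₀`).
Then for `σ ∈ N ∖ N'`:  `r * ‖π₀‖ < ‖π_K‖ * (iSub M σ) ^ ℓ`.
-/
import Fermat.Agent.Ram.Herbrand_helper8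
import Fermat.Agent.Ram.HerbrandComb_helper8
import Fermat.Agent.Ram.Unram_helper8
import Fermat.Agent.Ram.Tame_helper8

set_option autoImplicit false
set_option linter.unusedSectionVars false

namespace Fermat.Agent.Ram

open Filter Topology

section R4

variable {L : Type*} [NormedField L] [IsUltrametricDist L] [CompleteSpace L] [Finite (Res L)]
variable {G : Type*} [Group G] [Fintype G] [MulSemiringAction G L] [IsIsometricSMul G L]
  [FaithfulSMul G L]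

lemma prod_ite_mem_eq_pow (S : Subgroup G) [DecidablePred (· ∈ S)] [Fintype S] (a : ℝ) :
    ∏ ρ : G, (if ρ ∈ S then a else 1) = a ^ Fintype.card S := by
  rw [Finset.prod_ite, Finset.prod_const_one, mul_one, Finset.prod_const, Fintype.card_subtype]

theorem lt_iSub_pow {α : L} (hα : IsUnif (⊤ : Subfield L) α) {p : ℕ} (hpp : p.Prime)
    (hp : ‖(p : L)‖ < 1) (N : Subgroup G) [N.Normal] (hN : ¬ p ∣ N.index)
    (N' : Subgroup G) (hN'N : N' ≤ N) (hnorm : ∀ n ∈ N, ∀ x ∈ N', n * x * n⁻¹ ∈ N')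
    {ℓ : ℕ} (hℓ : ℓ.Prime) (hidx : N'.relIndex N = ℓ) {πK π₀ : L}
    (hπK : ∀ y ∈ FixedPoints.subfield G L, ‖y‖ < 1 → ‖y‖ ≤ ‖πK‖)
    (hπ₀ : π₀ ∈ FixedPoints.subfield N L) (hπ₀0 : π₀ ≠ 0) (hπ₀1 : ‖π₀‖ < 1)
    {r : ℝ} (hr0 : 0 ≤ r) (hU : ∀ τ : G, τ ≠ 1 → r < Ufun L τ) (hr' : r * ‖π₀‖ < ‖πK‖)
    {σ : G} (hσN : σ ∈ N) (hσN' : σ ∉ N') :
    r * ‖π₀‖ < ‖πK‖ * (iSub (FixedPoints.subfield N' L) σ) ^ ℓ := by
  classical
  set M := FixedPoints.subfield N' L with hM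
  set I := inertia G L with hI
  have hα1 : ‖α‖ ≤ 1 := hα.lt_one.le
  have hπK0 : 0 ≤ ‖πK‖ := norm_nonneg _
  -- the minimal element of the coset
  obtain ⟨ν₀, _, hν₀min⟩ := Finset.exists_min_image (Finset.univ : Finset N')
    (fun ν => iFun L (σ * (ν : G))) ⟨1, Finset.mem_univ _⟩
  set τ₀ : G := σ * (ν₀ : G) with hτ₀
  have hτ₀N : τ₀ ∈ N := N.mul_mem hσN (hN'N ν₀.2)
  have hτ₀N' : τ₀ ∉ N' := by
    intro h
    apply hσN'
    have : σ = τ₀ * (ν₀ : G)⁻¹ := by rw [hτ₀, mul_inv_cancel_right]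
    rw [this]
    exact N'.mul_mem h (N'.inv_mem ν₀.2)
  have hτ₀1 : τ₀ ≠ 1 := fun h => hτ₀N' (h ▸ N'.one_mem)
  have hmin : ∀ ν : N', iFun L τ₀ ≤ iFun L (τ₀ * (ν : G)) := by
    intro ν
    have h1 := hν₀min (ν₀ * ν) (Finset.mem_univ _)
    have h2 : σ * ((ν₀ * ν : N') : G) = τ₀ * (ν : G) := by
      rw [hτ₀, Subgroup.coe_mul, mul_assoc]
    rw [h2] at h1
    exact h1
  -- the product P
  set P : ℝ := ∏ ν : N', iFun L (τ₀ * (ν : G)) with hPdef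
  have hP0 : 0 ≤ P := Finset.prod_nonneg fun ν _ => iFun_nonneg _
  have hPσ : P = ∏ ν : N', iFun L (σ * (ν : G)) := by
    rw [hPdef]
    apply Fintype.prod_equiv (Equiv.mulLeft ν₀)
    intro ν
    rw [hτ₀, Equiv.coe_mulLeft, Subgroup.coe_mul, mul_assoc]
  have hPle : P ≤ iSub M σ := by
    rw [hPσ]
    exact prod_iFun_le_iSub hα N' σ
  have hpow : P ^ ℓ ≤ (iSub M σ) ^ ℓ := pow_le_pow_left₀ hP0 hPle ℓ
  by_cases hτ₀I : τ₀ ∈ I
  swap
  · -- unramified case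
    have hm1 : iFun L τ₀ = 1 := iFun_eq_one_of_not_mem_inertia hτ₀I
    have hP1 : P = 1 := by
      rw [hPdef]
      apply Finset.prod_eq_one
      intro ν _
      exact le_antisymm (iFun_le_one _) (hm1 ▸ hmin ν)
    have h1 : 1 ≤ (iSub M σ) ^ ℓ := by
      rw [hP1, one_pow] at hpow
      exact hpow
    calc r * ‖π₀‖ < ‖πK‖ := hr'
      _ = ‖πK‖ * 1 := (mul_one _).symm
      _ ≤ ‖πK‖ * (iSub M σ) ^ ℓ := mul_le_mul_of_nonneg_left h1 hπK0
  -- ramified case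
  set m₀ : ℝ := iFun L τ₀ with hm₀
  have hm₀eq : m₀ = ‖τ₀ • α - α‖ := iFun_eq_of_mem_inertia hα hτ₀I
  have hm₀α : m₀ ≤ ‖α‖ := by
    rw [hm₀eq]
    exact hα.le _ (Subfield.mem_top _) (hτ₀I α hα1)
  have hm₀1 : m₀ ≤ 1 := iFun_le_one _
  -- the combinatorial inequality on `N`
  have hcomb : ∏ ρ : N, max (iFun L (ρ : G)) m₀ ≤ P ^ ℓ := by
    haveI : (N'.subgroupOf N).Normal := by
      refine ⟨fun x hx n => ?_⟩
      rw [Subgroup.mem_subgroupOf] at hx ⊢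
      have := hnorm n n.2 x hx
      simpa using this
    have hτ₀' : (⟨τ₀, hτ₀N⟩ : N) ∉ N'.subgroupOf N := by
      rw [Subgroup.mem_subgroupOf]; exact hτ₀N'
    have hmin' : ∀ ν : N'.subgroupOf N,
        iFun L (((⟨τ₀, hτ₀N⟩ : N) : N) : G) ≤ iFun L (((⟨τ₀, hτ₀N⟩ * (ν : N) : N)) : G) := by
      intro ν
      have := hmin ⟨((ν : N) : G), Subgroup.mem_subgroupOf.mp ν.2⟩
      simpa using this
    have h1 := prod_max_le_pow (N'.subgroupOf N) hℓ hidx (fun ρ : N => iFun L (ρ : G))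
      (fun ρ => iFun_nonneg _) (fun ρ τ => by simpa using iFun_mul_le (L := L) (ρ : G) (τ : G))
      (fun ρ => by simpa using iFun_inv (L := L) (ρ : G)) ⟨τ₀, hτ₀N⟩ hτ₀' hmin'
    have h2 : ∏ ν : N'.subgroupOf N, iFun L (((⟨τ₀, hτ₀N⟩ * (ν : N) : N)) : G) = P := by
      rw [hPdef]
      apply Fintype.prod_equiv (Subgroup.subgroupOfEquivOfLe hN'N).toEquiv
      intro ν
      simp
    rw [h2] at h1
    exact h1
  -- the tame part
  set F : G → ℝ := fun ρ => max (iFun L ρ) m₀ with hF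
  set g : G → ℝ := fun ρ => if ρ ∈ I then ‖α‖ else 1 with hg
  have hFg : ∀ ρ : G, ρ ∉ N → F ρ = g ρ := by
    intro ρ hρN
    rw [hF, hg]
    simp only
    by_cases hρI : ρ ∈ I
    · rw [if_pos hρI, iFun_eq_of_mem_inertia hα hρI,
        norm_smul_sub_eq_of_tame hα hpp hp N hN hρI hρN, max_eq_left hm₀α]
    · rw [if_neg hρI, iFun_eq_one_of_not_mem_inertia hρI, max_eq_left hm₀1]
  have hUeq : Ufun L τ₀ = ∏ ρ : G, F ρ := rfl
  have hsplit : (∏ ρ : G, F ρ) * ‖α‖ ^ Fintype.card (N ⊓ I : Subgroup G)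
      = (∏ ρ : N, max (iFun L (ρ : G)) m₀) * ‖α‖ ^ Fintype.card I := by
    have h1 : ∏ ρ : G, F ρ
        = (∏ ρ : G, if ρ ∈ N then F ρ else 1) * ∏ ρ : G, if ρ ∈ N then 1 else g ρ := by
      rw [← Finset.prod_mul_distrib]
      apply Finset.prod_congr rfl
      intro ρ _
      by_cases hρ : ρ ∈ N
      · rw [if_pos hρ, if_pos hρ, mul_one]
      · rw [if_neg hρ, if_neg hρ, one_mul, hFg ρ hρ]
    have h2 : ‖α‖ ^ Fintype.card (N ⊓ I : Subgroup G)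
        = ∏ ρ : G, if ρ ∈ N then g ρ else 1 := by
      rw [← prod_ite_mem_eq_pow (N ⊓ I : Subgroup G) ‖α‖]
      apply Finset.prod_congr rfl
      intro ρ _
      rw [hg]
      simp only [Subgroup.mem_inf]
      by_cases hρ : ρ ∈ N <;> by_cases hρI : ρ ∈ I <;> simp [hρ, hρI]
    have h3 : (∏ ρ : G, if ρ ∈ N then 1 else g ρ) * (∏ ρ : G, if ρ ∈ N then g ρ else 1)
        = ‖α‖ ^ Fintype.card I := by
      rw [← Finset.prod_mul_distrib, ← prod_ite_mem_eq_pow I ‖α‖]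
      apply Finset.prod_congr rfl
      intro ρ _
      by_cases hρ : ρ ∈ N
      · rw [if_pos hρ, if_pos hρ, one_mul]
      · rw [if_neg hρ, if_neg hρ, mul_one]
    have h4 : (∏ ρ : G, if ρ ∈ N then F ρ else 1) = ∏ ρ : N, max (iFun L (ρ : G)) m₀ := by
      rw [← Finset.prod_filter, ← Finset.prod_subtype (Finset.univ.filter (· ∈ N)) (by simp)
        (fun ρ => F ρ)]
    rw [h1, h2, mul_assoc, h3, h4]
  -- value groups
  have hvalN : ‖π₀‖ ≤ ‖α‖ ^ Fintype.card (N ⊓ I : Subgroup G) := by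
    obtain ⟨k, hk⟩ := hα.exists_pow (Subfield.mem_top π₀) hπ₀0 hπ₀1.le
    have hk0 : 0 < k := by
      rcases Nat.eq_zero_or_pos k with h0 | hpos
      · rw [h0, pow_zero] at hk
        rw [hk] at hπ₀1
        exact absurd hπ₀1 (lt_irrefl 1)
      · exact hpos
    have hmem : π₀ ∈ FixedPoints.subfield (N ⊓ I : Subgroup G) L := by
      intro τ
      exact hπ₀ ⟨(τ : G), τ.2.1⟩
    have htriv : ∀ (τ : (N ⊓ I : Subgroup G)) (a : L), ‖a‖ ≤ 1 → ‖τ • a - a‖ < 1 :=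
      fun τ => τ.2.2
    have hle := card_le_of_norm_eq_pow (J := (N ⊓ I : Subgroup G)) hα htriv hmem hk0 hk
    rw [hk]
    exact pow_le_pow_of_le_one (norm_nonneg _) hα1 hle
  have hvalG : ‖α‖ ^ Fintype.card I ≤ ‖πK‖ := by
    obtain ⟨y, hy, hyn⟩ := exists_fixed_norm_eq_pow (G := G) hα
    have hcard : Fintype.card I ≠ 0 := Fintype.card_ne_zero
    have hy1 : ‖y‖ < 1 := by
      rw [hyn]; exact pow_lt_one₀ (norm_nonneg _) hα.lt_one hcard
    rw [← hyn]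
    exact hπK y hy hy1
  -- the chain
  have hαpos : 0 < ‖α‖ ^ Fintype.card (N ⊓ I : Subgroup G) := pow_pos hα.pos _
  have hprodN0 : 0 ≤ ∏ ρ : N, max (iFun L (ρ : G)) m₀ :=
    Finset.prod_nonneg fun ρ _ => le_max_of_le_left (iFun_nonneg _)
  calc r * ‖π₀‖ ≤ r * ‖α‖ ^ Fintype.card (N ⊓ I : Subgroup G) :=
        mul_le_mul_of_nonneg_left hvalN hr0
    _ < Ufun L τ₀ * ‖α‖ ^ Fintype.card (N ⊓ I : Subgroup G) :=
        mul_lt_mul_of_pos_right (hU τ₀ hτ₀1) hαpos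
    _ = (∏ ρ : N, max (iFun L (ρ : G)) m₀) * ‖α‖ ^ Fintype.card I := by rw [hUeq, hsplit]
    _ ≤ P ^ ℓ * ‖πK‖ := mul_le_mul hcomb hvalG (pow_nonneg hα.pos.le _) (pow_nonneg hP0 _)
    _ ≤ (iSub M σ) ^ ℓ * ‖πK‖ := mul_le_mul_of_nonneg_right hpow hπK0
    _ = ‖πK‖ * (iSub M σ) ^ ℓ := mul_comm _ _

end R4

end Fermat.Agent.Ram
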