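/-
Ramification package (S56, leaf (4b)), part 17: the abstract Kummer jump.

`exists_mul_pow_sub_one_lt` : if `L / L ^ G` satisfies the Fontaine bound `r` with
`‖π_K‖ ‖p‖ ≤ r`, `L ^ N` is tame over `L ^ G` and contains `ζ_p`, and `u ∈ L ^ N` has a `p`-th
root in `L`, then `u` is a `p`-th power times an element `≡ 1` modulo more than `ζ - 1`.
-/
import Fermat.Agent.Ram.Kummer2_helper8
import Fermat.Agent.Ram.R4_helper8

set_option autoImplicit false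
set_option linter.unusedSectionVars false

namespace Fermat.Agent.Ram

open Filter Topology

section Aux

variable {L : Type*} [NormedField L] [IsUltrametricDist L]

lemma IsUnif.norm_le_pow_succ {S : Subfield L} {π : L} (h : IsUnif S π) {x : L} (hx : x ∈ S)
    {k : ℕ} (hlt : ‖x‖ < ‖π‖ ^ k) : ‖x‖ ≤ ‖π‖ ^ (k + 1) := by
  have hpos : 0 < ‖π‖ ^ k := pow_pos h.pos k
  have h1 : ‖x / π ^ k‖ < 1 := by
    rw [norm_div, norm_pow, div_lt_one hpos]; exact hlt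
  have h2 := h.le _ (S.div_mem hx (S.pow_mem h.mem k)) h1
  rw [norm_div, norm_pow, div_le_iff₀ hpos] at h2
  rw [pow_succ']; exact h2

/-- If `(1 + x) ^ p = 1 + t` with `‖ζ - 1‖ ≤ ‖t‖ < 1` then `‖x‖ ^ p = ‖t‖`. -/
lemma norm_pow_eq_of_one_add_pow {p : ℕ} (hpp : p.Prime) {lam : ℝ} (hlam0 : 0 < lam)
    (hlam1 : lam < 1) (hlamp : lam ^ (p - 1) = ‖(p : L)‖) {x t : L}
    (hxt : (1 + x) ^ p = 1 + t) (ht : lam ≤ ‖t‖) (ht1 : ‖t‖ < 1) : ‖x‖ ^ p = ‖t‖ := by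
  have hp0 : p ≠ 0 := hpp.ne_zero
  have hp1 : p - 1 + 1 = p := Nat.sub_add_cancel hpp.one_le
  have hp10 : p - 1 ≠ 0 := by have := hpp.two_le; omega
  have h1t : ‖1 + t‖ = 1 := by
    rw [norm_add_eq_of_lt' (by rwa [norm_one])]; exact norm_one
  have h1x : ‖1 + x‖ = 1 := by
    have h2 : ‖1 + x‖ ^ p = 1 := by rw [← norm_pow, hxt, h1t]
    exact (pow_eq_one_iff_of_nonneg (norm_nonneg _) hp0).mp h2
  have hx1 : ‖x‖ ≤ 1 := by
    have h2 : x = (1 + x) - 1 := by ring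
    rw [h2]; exact norm_sub_le_of_le h1x.le norm_one.le
  obtain ⟨E, hEdef⟩ : ∃ E : L, E = (1 + x) ^ p - 1 - x ^ p := ⟨_, rfl⟩
  have hE : ‖E‖ ≤ ‖(p : L)‖ * ‖x‖ := hEdef ▸ norm_one_add_pow_sub_le hpp hx1
  have hEt : E = t - x ^ p := by rw [hEdef, hxt]; ring
  have hlamle : lam ^ p ≤ lam := pow_le_of_le_one hlam0.le hlam1.le hp0
  rcases lt_trichotomy (‖x‖ ^ p) ‖t‖ with hlt | heq | hgt
  · exfalso
    have hEn : ‖E‖ = ‖t‖ := by
      rw [hEt, norm_sub_eq_of_lt' (by rwa [norm_pow])]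
    have h2 : ‖t‖ ≤ ‖(p : L)‖ * ‖x‖ := hEn ▸ hE
    have hxpos : 0 < ‖x‖ := by
      by_contra h
      have h0 : ‖x‖ = 0 := le_antisymm (not_lt.mp h) (norm_nonneg _)
      rw [h0, mul_zero] at h2
      linarith
    have h3 : ‖x‖ ^ (p - 1) < lam ^ (p - 1) := by
      have h4 : ‖x‖ ^ (p - 1) * ‖x‖ < lam ^ (p - 1) * ‖x‖ := by
        rw [← pow_succ, hp1, hlamp]; exact hlt.trans_le h2
      exact lt_of_mul_lt_mul_right h4 hxpos.le
    have h4 : ‖x‖ < lam := (pow_lt_pow_iff_left₀ (norm_nonneg _) hlam0.le hp10).mp h3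
    have h5 : ‖t‖ < lam := by
      calc ‖t‖ ≤ lam ^ (p - 1) * ‖x‖ := by rw [hlamp]; exact h2
        _ < lam ^ (p - 1) * lam := mul_lt_mul_of_pos_left h4 (pow_pos hlam0 _)
        _ = lam ^ p := by rw [← pow_succ, hp1]
        _ ≤ lam := hlamle
    linarith
  · exact heq
  · exfalso
    have hEn : ‖E‖ = ‖x‖ ^ p := by
      rw [hEt, norm_sub_eq_of_lt (by rwa [norm_pow]), norm_pow]
    have h2 : ‖x‖ ^ p ≤ ‖(p : L)‖ * ‖x‖ := hEn ▸ hE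
    have hxpos : 0 < ‖x‖ := by
      by_contra h
      have h0 : ‖x‖ = 0 := le_antisymm (not_lt.mp h) (norm_nonneg _)
      rw [h0, zero_pow hp0] at hgt
      linarith [norm_nonneg t]
    have h3 : ‖x‖ ^ (p - 1) ≤ lam ^ (p - 1) := by
      have h4 : ‖x‖ ^ (p - 1) * ‖x‖ ≤ lam ^ (p - 1) * ‖x‖ := by
        rw [← pow_succ, hp1, hlamp]; exact h2
      exact le_of_mul_le_mul_right h4 hxpos
    have h4 : ‖x‖ ≤ lam := (pow_le_pow_iff_left₀ (norm_nonneg _) hlam0.le hp10).mp h3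
    have h5 : ‖x‖ ^ p ≤ lam := (pow_le_pow_left₀ (norm_nonneg _) h4 p).trans hlamle
    linarith

/-- The improvement step: if `‖u₁ - 1‖ = ‖π₀‖ ^ (p j)` with `j ≥ 1` (and `‖p‖` is at most that),
then `u₁` can be multiplied by a `p`-th power to get closer to `1`. -/
lemma exists_improve {K₀ : Subfield L} {π₀ : L} (hπ₀ : IsUnif K₀ π₀) {p : ℕ} (hpp : p.Prime)
    (hodd : Odd p) {m : ℕ} (hm : ∀ a : L, ‖a‖ ≤ 1 → ‖(a ^ m) ^ p - a‖ < 1)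
    {u₁ : L} (hu₁ : u₁ ∈ K₀) {j : ℕ} (hj : j ≠ 0) (hδ : ‖u₁ - 1‖ = ‖π₀‖ ^ (p * j))
    (hpδ : ‖(p : L)‖ ≤ ‖π₀‖ ^ (p * j)) :
    ∃ y ∈ K₀, y ≠ 0 ∧ ‖u₁ * y ^ p - 1‖ < ‖π₀‖ ^ (p * j) := by
  have hp0 : p ≠ 0 := hpp.ne_zero
  obtain ⟨t, ht⟩ : ∃ t : L, t = u₁ - 1 := ⟨_, rfl⟩
  obtain ⟨δ, hδdef⟩ : ∃ δ : ℝ, δ = ‖π₀‖ ^ (p * j) := ⟨_, rfl⟩
  obtain ⟨Q, hQ⟩ : ∃ Q : L, Q = π₀ ^ (p * j) := ⟨_, rfl⟩
  have hQK : Q ∈ K₀ := hQ ▸ K₀.pow_mem hπ₀.mem _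
  have hQn : ‖Q‖ = δ := by rw [hQ, hδdef, norm_pow]
  rw [← ht, ← hδdef] at hδ
  rw [← hδdef] at hpδ ⊢
  have hδpos : 0 < δ := hδdef ▸ pow_pos hπ₀.pos _
  have hQ0 : Q ≠ 0 := by rw [← norm_pos_iff, hQn]; exact hδpos
  have htK : t ∈ K₀ := ht ▸ K₀.sub_mem hu₁ K₀.one_mem
  obtain ⟨c, hc⟩ : ∃ c : L, c = t / Q := ⟨_, rfl⟩
  have hcK : c ∈ K₀ := hc ▸ K₀.div_mem htK hQK
  have hc1 : ‖c‖ = 1 := by rw [hc, norm_div, hδ, hQn, div_self hδpos.ne']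
  have htc : c * Q = t := by rw [hc, div_mul_cancel₀ _ hQ0]
  obtain ⟨b, hb⟩ : ∃ b : L, b = c ^ m := ⟨_, rfl⟩
  have hbK : b ∈ K₀ := hb ▸ K₀.pow_mem hcK m
  have hb1 : ‖b‖ = 1 := by rw [hb, norm_pow, hc1, one_pow]
  have hbc : ‖b ^ p - c‖ < 1 := hb ▸ hm c hc1.le
  obtain ⟨s, hs⟩ : ∃ s : L, s = -(b * π₀ ^ j) := ⟨_, rfl⟩
  have hsK : s ∈ K₀ := hs ▸ K₀.neg_mem (K₀.mul_mem hbK (K₀.pow_mem hπ₀.mem j))
  have hsn : ‖s‖ = ‖π₀‖ ^ j := by rw [hs, norm_neg, norm_mul, hb1, one_mul, norm_pow]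
  have hs1 : ‖s‖ < 1 := by rw [hsn]; exact pow_lt_one₀ hπ₀.pos.le hπ₀.lt_one hj
  have hsp : s ^ p = -(b ^ p * Q) := by
    rw [hs, hodd.neg_pow, mul_pow, ← pow_mul, mul_comm j p, hQ]
  obtain ⟨E, hEdef⟩ : ∃ E : L, E = (1 + s) ^ p - 1 - s ^ p := ⟨_, rfl⟩
  have hEn : ‖E‖ ≤ ‖(p : L)‖ * ‖s‖ := hEdef ▸ norm_one_add_pow_sub_le hpp hs1.le
  have hEδ : ‖E‖ < δ := by
    calc ‖E‖ ≤ ‖(p : L)‖ * ‖s‖ := hEn
      _ ≤ δ * ‖s‖ := mul_le_mul_of_nonneg_right hpδ (norm_nonneg _)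
      _ < δ * 1 := mul_lt_mul_of_pos_left hs1 hδpos
      _ = δ := mul_one _
  have hδ1 : δ ≤ 1 := hδdef ▸ pow_le_one₀ hπ₀.pos.le hπ₀.lt_one.le
  refine ⟨1 + s, K₀.add_mem K₀.one_mem hsK, ?_, ?_⟩
  · intro h0
    have h1 : ‖(1 : L) + s‖ = 1 := by
      rw [norm_add_eq_of_lt' (by rwa [norm_one])]; exact norm_one
    rw [h0, norm_zero] at h1
    exact zero_ne_one h1
  · have hu : u₁ = t + 1 := by rw [ht]; ring
    have h1 : (1 + s) ^ p = 1 + s ^ p + E := by rw [hEdef]; ring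
    have hid : u₁ * (1 + s) ^ p - 1 = (c - b ^ p) * Q + E + t * (s ^ p + E) := by
      rw [h1]
      linear_combination (1 + s ^ p + E) * hu - htc + hsp
    rw [hid]
    have hn1 : ‖(c - b ^ p) * Q‖ < δ := by
      rw [norm_mul, hQn, norm_sub_rev]
      calc ‖b ^ p - c‖ * δ < 1 * δ := mul_lt_mul_of_pos_right hbc hδpos
        _ = δ := one_mul _
    have hn2 : ‖s ^ p + E‖ < 1 := by
      apply norm_add_lt_of_lt
      · rw [norm_pow]; exact pow_lt_one₀ (norm_nonneg _) hs1 hp0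
      · exact hEδ.trans_le hδ1
    have hn3 : ‖t * (s ^ p + E)‖ < δ := by
      rw [norm_mul, hδ]
      calc δ * ‖s ^ p + E‖ < δ * 1 := mul_lt_mul_of_pos_left hn2 hδpos
        _ = δ := mul_one _
    exact norm_add_lt_of_lt (norm_add_lt_of_lt hn1 hEδ) hn3

end Aux

section Main

variable {L : Type*} [NormedField L] [IsUltrametricDist L] [CompleteSpace L] [Finite (Res L)]
variable {G : Type*} [Group G] [Fintype G] [MulSemiringAction G L] [IsIsometricSMul G L]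
  [FaithfulSMul G L]

lemma iSub_pow_le {M : Subfield L} {σ : G} {p : ℕ} (hp0 : p ≠ 0) {C : ℝ} (hC : 0 ≤ C)
    (h : ∀ a ∈ M, ‖a‖ ≤ 1 → ‖σ • a - a‖ ^ p ≤ C) : (iSub M σ) ^ p ≤ C := by
  obtain ⟨b, hb⟩ : ∃ b : ℝ, b = C ^ ((p : ℝ)⁻¹) := ⟨_, rfl⟩
  have hb0 : 0 ≤ b := hb ▸ Real.rpow_nonneg hC _
  have hbp : b ^ p = C := hb ▸ Real.rpow_inv_natCast_pow hC hp0
  have hle : iSub M σ ≤ b := by
    apply iSub_le
    intro a haM ha1
    by_contra hlt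
    rw [not_le] at hlt
    have h1 := pow_lt_pow_left₀ hlt hb0 hp0
    rw [hbp] at h1
    exact absurd (h a haM ha1) (not_le.mpr h1)
  calc (iSub M σ) ^ p ≤ b ^ p := pow_le_pow_left₀ (iSub_nonneg M σ) hle p
    _ = C := hbp

/-- **The abstract Kummer jump.** -/
theorem exists_mul_pow_sub_one_lt [CharZero L] {α : L} (hα : IsUnif (⊤ : Subfield L) α) {p : ℕ}
    (hpp : p.Prime) (hp2 : p ≠ 2) (hp : ‖(p : L)‖ < 1) (N : Subgroup G) [N.Normal]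
    (hN : ¬ p ∣ N.index) {πK π₀ : L}
    (hπK : ∀ y ∈ FixedPoints.subfield G L, ‖y‖ < 1 → ‖y‖ ≤ ‖πK‖)
    (hπ₀ : IsUnif (FixedPoints.subfield N L) π₀)
    {r : ℝ} (hr0 : 0 ≤ r) (hU : ∀ τ : G, τ ≠ 1 → r < Ufun L τ) (hr' : r * ‖π₀‖ < ‖πK‖)
    (hrp : ‖πK‖ * ‖(p : L)‖ ≤ r)
    {ζ : L} (hζ : IsPrimitiveRoot ζ p) (hζN : ζ ∈ FixedPoints.subfield N L)
    {u w : L} (hu : u ∈ FixedPoints.subfield N L) (hu0 : u ≠ 0) (hwu : w ^ p = u) :
    ∃ y ∈ FixedPoints.subfield N L, y ≠ 0 ∧ ‖u * y ^ p - 1‖ < ‖ζ - 1‖ := by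
  classical
  by_contra hcon
  push Not at hcon
  have hodd : Odd p := hpp.odd_of_ne_two hp2
  have hp0 : p ≠ 0 := hpp.ne_zero
  have hp1 : p - 1 + 1 = p := Nat.sub_add_cancel hpp.one_le
  have hp10 : p - 1 ≠ 0 := by have := hpp.two_le; omega
  obtain ⟨lam, hlamdef⟩ : ∃ lam : ℝ, lam = ‖ζ - 1‖ := ⟨_, rfl⟩
  rw [← hlamdef] at hcon
  have hlam0 : 0 < lam := hlamdef ▸ norm_sub_one_pos hpp hζ
  have hlam1 : lam < 1 := hlamdef ▸ norm_sub_one_lt_one hpp hp hζ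
  have hlamp : lam ^ (p - 1) = ‖(p : L)‖ := hlamdef ▸ norm_sub_one_pow_eq hpp hζ
  have hlampp : lam ^ p ≤ lam ^ (p - 1) :=
    pow_le_pow_of_le_one hlam0.le hlam1.le (Nat.sub_le _ _)
  have hw0 : w ≠ 0 := by
    rintro rfl
    rw [zero_pow hp0] at hwu
    exact hu0 hwu.symm
  have D : KummerData N p ζ w :=
    ⟨hpp, hζ, fun n hn => hζN ⟨n, hn⟩, hw0, fun n hn => by rw [hwu]; exact hu ⟨n, hn⟩⟩
  -- some `σ ∈ N` moves `w`
  have hmove : ∃ n ∈ N, n • w ≠ w := by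
    by_contra h
    push Not at h
    have hwK : w ∈ FixedPoints.subfield N L := fun n => h n n.2
    have h1 := hcon w⁻¹ (Subfield.inv_mem _ hwK) (inv_ne_zero hw0)
    rw [inv_pow, hwu, mul_inv_cancel₀ hu0, sub_self, norm_zero] at h1
    exact absurd hlam0 (not_lt.mpr h1)
  obtain ⟨σ, hσN, hσw⟩ := hmove
  have hσN' : σ ∉ kSub N w := fun h => hσw (mem_kSub.mp h).2
  have hidx : (kSub N w).relIndex N = p := D.relIndex_kSub ⟨σ, hσN, hσw⟩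
  have hR4 := lt_iSub_pow hα hpp hp N hN (kSub N w) (kSub_le N w)
    (fun n hn x hx => D.kSub_conj hn hx) hpp hidx hπK hπ₀.mem hπ₀.ne_zero hπ₀.lt_one hr0 hU hr'
    hσN hσN'
  have hσfix : ∀ c ∈ FixedPoints.subfield N L, σ • c = c := fun c hc => hc ⟨σ, hσN⟩
  have hrepr : ∀ a ∈ FixedPoints.subfield (kSub N w) L, ∃ c : ℕ → L,
      (∀ k, c k ∈ FixedPoints.subfield N L) ∧ a = ∑ k ∈ Finset.range p, c k * w ^ k := by
    intro a ha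
    obtain ⟨c, hc, hac⟩ := D.exists_repr hidx (fun g hg => ha ⟨g, hg⟩)
    exact ⟨c, fun k n => hc k n n.2, hac⟩
  have hχ : ‖σ • w - w‖ = lam * ‖w‖ := by
    have h1 : σ • w - w = (σ • w / w - 1) * w := by
      rw [sub_mul, div_mul_cancel₀ _ hw0, one_mul]
    rw [h1, norm_mul, hlamdef]
    congr 1
    apply norm_sub_one_eq_of_isPrimitiveRoot hpp hζ (D.quot_pow hσN)
    rw [Ne, div_eq_one_iff_eq hw0]
    exact hσw
  suffices hkey : (iSub (FixedPoints.subfield (kSub N w) L) σ) ^ p ≤ ‖π₀‖ * lam ^ (p - 1) by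
    have h1 : ‖πK‖ * (iSub (FixedPoints.subfield (kSub N w) L) σ) ^ p ≤ r * ‖π₀‖ := by
      calc ‖πK‖ * (iSub (FixedPoints.subfield (kSub N w) L) σ) ^ p
          ≤ ‖πK‖ * (‖π₀‖ * lam ^ (p - 1)) := mul_le_mul_of_nonneg_left hkey (norm_nonneg _)
        _ = (‖πK‖ * ‖(p : L)‖) * ‖π₀‖ := by rw [hlamp]; ring
        _ ≤ r * ‖π₀‖ := mul_le_mul_of_nonneg_right hrp (norm_nonneg _)
    exact absurd hR4 (not_lt.mpr h1)
  obtain ⟨i, hi⟩ := hπ₀.exists_zpow hu hu0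
  by_cases hpi : (p : ℤ) ∣ i
  swap
  · -- Case 1: the valuation of `u` is prime to `p`
    have hz : ‖w‖ ^ p = ‖π₀‖ ^ i := by rw [← norm_pow, hwu, hi]
    have h1 : (iSub (FixedPoints.subfield (kSub N w) L) σ) ^ p ≤ ‖π₀‖ * lam ^ p := by
      apply iSub_pow_le hp0 (mul_nonneg hπ₀.pos.le (pow_nonneg hlam0.le _))
      intro a haM ha1
      obtain ⟨c, hc, hac⟩ := hrepr a haM
      exact norm_smul_sub_pow_le_of_repr _ hπ₀ hpp hz hpi σ hσfix hlam0.le hχ.le c hc hac ha1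
    exact h1.trans (mul_le_mul_of_nonneg_left hlampp hπ₀.pos.le)
  · -- Case 2: the valuation of `u` is divisible by `p`
    obtain ⟨i', rfl⟩ := hpi
    obtain ⟨m, hm⟩ := exists_pow_pow_sub_lt_one (L := L) hpp hp
    obtain ⟨P, hPdef⟩ : ∃ P : ℕ → Prop, P = fun k => ∃ y ∈ FixedPoints.subfield N L,
        y ≠ 0 ∧ ‖u * y ^ p - 1‖ ≤ ‖π₀‖ ^ k := ⟨_, rfl⟩
    have hPanti : ∀ k k', k ≤ k' → P k' → P k := by
      intro k k' hkk' hk'
      rw [hPdef] at hk' ⊢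
      obtain ⟨y, hyK, hy0, hyle⟩ := hk'
      exact ⟨y, hyK, hy0, hyle.trans (pow_le_pow_of_le_one hπ₀.pos.le hπ₀.lt_one.le hkk')⟩
    have hP1 : P 1 := by
      rw [hPdef]
      have hy₀K : π₀ ^ (-i') ∈ FixedPoints.subfield N L := Subfield.zpow_mem _ hπ₀.mem _
      have hy₀0 : π₀ ^ (-i') ≠ 0 := zpow_ne_zero _ hπ₀.ne_zero
      obtain ⟨v, hv⟩ : ∃ v : L, v = u * (π₀ ^ (-i')) ^ p := ⟨_, rfl⟩
      have hvK : v ∈ FixedPoints.subfield N L :=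
        hv ▸ Subfield.mul_mem _ hu (Subfield.pow_mem _ hy₀K p)
      have hv1 : ‖v‖ = 1 := by
        rw [hv, norm_mul, hi, norm_pow, norm_zpow, ← zpow_natCast, ← zpow_mul,
          ← zpow_add₀ hπ₀.pos.ne']
        have h0 : (p : ℤ) * i' + -i' * (p : ℤ) = 0 := by ring
        rw [h0, zpow_zero]
      have hv0 : v ≠ 0 := by
        rw [← norm_pos_iff, hv1]; exact one_pos
      have ha1 : ‖v⁻¹‖ = 1 := by rw [norm_inv, hv1, inv_one]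
      have h1 := hm v⁻¹ ha1.le
      refine ⟨π₀ ^ (-i') * (v⁻¹) ^ m, Subfield.mul_mem _ hy₀K
        (Subfield.pow_mem _ (Subfield.inv_mem _ hvK) m),
        mul_ne_zero hy₀0 (pow_ne_zero _ (inv_ne_zero hv0)), ?_⟩
      have h2 : u * (π₀ ^ (-i') * (v⁻¹) ^ m) ^ p - 1 = v * (((v⁻¹) ^ m) ^ p - v⁻¹) := by
        rw [mul_sub, mul_inv_cancel₀ hv0, hv]; ring
      have h3 : ‖u * (π₀ ^ (-i') * (v⁻¹) ^ m) ^ p - 1‖ < 1 := by
        rw [h2, norm_mul, hv1, one_mul]; exact h1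
      have h4 : u * (π₀ ^ (-i') * (v⁻¹) ^ m) ^ p - 1 ∈ FixedPoints.subfield N L :=
        Subfield.sub_mem _ (Subfield.mul_mem _ hu (Subfield.pow_mem _ (Subfield.mul_mem _ hy₀K
          (Subfield.pow_mem _ (Subfield.inv_mem _ hvK) m)) p)) (Subfield.one_mem _)
      rw [pow_one]
      exact hπ₀.le _ h4 h3
    have hnotP : ∃ k, ¬ P k := by
      obtain ⟨k₀, hk₀⟩ := exists_pow_lt_of_lt_one hlam0 hπ₀.lt_one
      refine ⟨k₀, fun hPk => ?_⟩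
      rw [hPdef] at hPk
      obtain ⟨y, hyK, hy0, hyle⟩ := hPk
      have := hcon y hyK hy0
      linarith
    have hk₁ : ¬ P (Nat.find hnotP) := Nat.find_spec hnotP
    have hmin : ∀ k, k < Nat.find hnotP → P k := fun k hk => not_not.mp (Nat.find_min hnotP hk)
    obtain ⟨k₁, hk₁def⟩ : ∃ k₁ : ℕ, k₁ = Nat.find hnotP := ⟨_, rfl⟩
    rw [← hk₁def] at hk₁ hmin
    have hk₁2 : 2 ≤ k₁ := by
      by_contra h
      have h1 : k₁ ≤ 1 := by omega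
      exact hk₁ (hPanti k₁ 1 h1 hP1)
    obtain ⟨k, rfl⟩ : ∃ k, k₁ = k + 1 := ⟨k₁ - 1, by omega⟩
    have hk1 : 1 ≤ k := by omega
    have hPk := hmin k (Nat.lt_succ_self k)
    rw [hPdef] at hPk
    obtain ⟨y, hyK, hy0, hyle⟩ := hPk
    obtain ⟨u₁, hu₁⟩ : ∃ u₁ : L, u₁ = u * y ^ p := ⟨_, rfl⟩
    have hu₁K : u₁ ∈ FixedPoints.subfield N L :=
      hu₁ ▸ Subfield.mul_mem _ hu (Subfield.pow_mem _ hyK p)
    obtain ⟨t, ht⟩ : ∃ t : L, t = u₁ - 1 := ⟨_, rfl⟩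
    have htK : t ∈ FixedPoints.subfield N L := ht ▸ Subfield.sub_mem _ hu₁K (Subfield.one_mem _)
    have htge : lam ≤ ‖t‖ := by rw [ht, hu₁]; exact hcon y hyK hy0
    have htle : ‖t‖ ≤ ‖π₀‖ ^ k := by rw [ht, hu₁]; exact hyle
    -- no improvement is possible
    have hnoimp : ∀ y' ∈ FixedPoints.subfield N L, y' ≠ 0 → ¬ ‖u₁ * y' ^ p - 1‖ < ‖π₀‖ ^ k := by
      intro y' hy'K hy'0 hlt
      apply hk₁
      rw [hPdef]
      have h1 : u₁ * y' ^ p - 1 ∈ FixedPoints.subfield N L :=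
        Subfield.sub_mem _ (Subfield.mul_mem _ hu₁K (Subfield.pow_mem _ hy'K p))
          (Subfield.one_mem _)
      have h2 := hπ₀.norm_le_pow_succ h1 hlt
      refine ⟨y * y', Subfield.mul_mem _ hyK hy'K, mul_ne_zero hy0 hy'0, ?_⟩
      have h3 : u * (y * y') ^ p - 1 = u₁ * y' ^ p - 1 := by rw [hu₁]; ring
      rw [h3]
      exact h2
    have hteq : ‖t‖ = ‖π₀‖ ^ k := by
      apply le_antisymm htle
      by_contra hlt
      rw [not_le] at hlt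
      apply hnoimp 1 (Subfield.one_mem _) one_ne_zero
      rw [one_pow, mul_one, ← ht]
      exact hlt
    have ht1 : ‖t‖ < 1 := by
      rw [hteq]; exact pow_lt_one₀ hπ₀.pos.le hπ₀.lt_one (by omega)
    have hpk : ¬ p ∣ k := by
      rintro ⟨j, rfl⟩
      have hj : j ≠ 0 := by
        rintro rfl
        omega
      have hpδ : ‖(p : L)‖ ≤ ‖π₀‖ ^ (p * j) := by
        rw [← hteq, ← hlamp]
        exact (pow_le_of_le_one hlam0.le hlam1.le hp10).trans htge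
      obtain ⟨y', hy'K, hy'0, hlt⟩ := exists_improve hπ₀ hpp hodd hm hu₁K hj (ht ▸ hteq) hpδ
      exact hnoimp y' hy'K hy'0 hlt
    -- the new generator
    obtain ⟨z, hzdef⟩ : ∃ z : L, z = w * y - 1 := ⟨_, rfl⟩
    have hxt : (1 + z) ^ p = 1 + t := by
      rw [hzdef, ht, hu₁, ← hwu]; ring
    have hzp : ‖z‖ ^ p = ‖t‖ := norm_pow_eq_of_one_add_pow hpp hlam0 hlam1 hlamp hxt htge ht1
    have hz : ‖z‖ ^ p = ‖π₀‖ ^ ((k : ℕ) : ℤ) := by rw [hzp, hteq, zpow_natCast]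
    have hpk' : ¬ (p : ℤ) ∣ ((k : ℕ) : ℤ) := by
      rw [Int.natCast_dvd_natCast]; exact hpk
    have hzpos : 0 < ‖z‖ := by
      by_contra h
      have h0 : ‖z‖ = 0 := le_antisymm (not_lt.mp h) (norm_nonneg _)
      rw [h0, zero_pow hp0] at hzp
      linarith
    have hwy1 : ‖w * y‖ = 1 := by
      have h1 : ‖w * y‖ ^ p = 1 := by
        rw [← norm_pow, mul_pow, hwu, ← hu₁]
        have h2 : u₁ = 1 + t := by rw [ht]; ring
        rw [h2, norm_add_eq_of_lt' (by rwa [norm_one])]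
        exact norm_one
      exact (pow_eq_one_iff_of_nonneg (norm_nonneg _) hp0).mp h1
    have hσz : ‖σ • z - z‖ = lam := by
      have h1 : σ • z - z = (σ • w - w) * y := by
        rw [hzdef, smul_sub, smul_mul', smul_one, hσfix y hyK]; ring
      rw [h1, norm_mul, hχ, mul_assoc, ← norm_mul, hwy1, mul_one]
    obtain ⟨θ, hθdef⟩ : ∃ θ : ℝ, θ = lam / ‖z‖ := ⟨_, rfl⟩
    have hθ0 : 0 ≤ θ := hθdef ▸ div_nonneg hlam0.le hzpos.le
    have hθ : ‖σ • z - z‖ ≤ θ * ‖z‖ := by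
      rw [hσz, hθdef, div_mul_cancel₀ _ hzpos.ne']
    have hθp : θ ^ p ≤ lam ^ (p - 1) := by
      have htpos : 0 < ‖t‖ := hlam0.trans_le htge
      rw [hθdef, div_pow, hzp, div_le_iff₀ htpos]
      calc lam ^ p = lam ^ (p - 1) * lam := by rw [← pow_succ, hp1]
        _ ≤ lam ^ (p - 1) * ‖t‖ := mul_le_mul_of_nonneg_left htge (pow_nonneg hlam0.le _)
    have h1 : (iSub (FixedPoints.subfield (kSub N w) L) σ) ^ p ≤ ‖π₀‖ * θ ^ p := by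
      apply iSub_pow_le hp0 (mul_nonneg hπ₀.pos.le (pow_nonneg hθ0 _))
      intro a haM ha1
      obtain ⟨c, hc, hac⟩ := hrepr a haM
      obtain ⟨c', hc', hac'⟩ := exists_repr_shift (FixedPoints.subfield N L) hyK hy0 c hc hac
      rw [← hzdef] at hac'
      exact norm_smul_sub_pow_le_of_repr _ hπ₀ hpp hz hpk' σ hσfix hθ0 hθ c' hc' hac' ha1
    exact h1.trans (mul_le_mul_of_nonneg_left hθp hπ₀.pos.le)

end Main

end Fermat.Agent.Ram
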