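/-
F2 (flat local condition at p): the filtration of `Lˣ / (Lˣ)^p` by levels, for a complete
discretely valued field `L ∋ ζ_p` with finite residue field (norm language).

`ρ = ‖π‖`, `λ = ‖ζ - 1‖ = ρ^c₀`, `‖p‖ = λ^(p-1)`.
* `norm_pow_sub_one_lt_of_not_dvd` (G4): a `p`-th power has no exact level `j` with `p ∤ j < p c₀`;
* `exists_improve_of_dvd` (G2): a unit of exact level `p i`, `i < c₀`, can be improved;
* `exists_lead_top_of_pow` / `exists_improve_top` (G3): the top level `p c₀` and `℘(t) = t^p - t`;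
* `exists_max_level` (N): normal form of a bounded class which is not a `p`-th power.
-/
import Mathlib
import Fermat.Agent.Ram.Kummer3_helper8
import Fermat.Agent.Ram.Lead_helper7

set_option autoImplicit false
set_option linter.unusedSectionVars false

namespace Fermat.Agent.Ram

section Binomial2

variable {L : Type*} [NormedField L] [IsUltrametricDist L]

/-- second order binomial expansion: `(1+t)^p = 1 + p t + t^p + O(p t²)`. -/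
lemma norm_one_add_pow_sub_sub_le {p : ℕ} (hpp : p.Prime) {t : L} (ht : ‖t‖ ≤ 1) :
    ‖(1 + t) ^ p - 1 - (p : L) * t - t ^ p‖ ≤ ‖(p : L)‖ * ‖t‖ ^ 2 := by
  have hp2 : 2 ≤ p := hpp.two_le
  have hmem : p - 1 ∈ Finset.Ioo 0 p := by
    rw [Finset.mem_Ioo]; omega
  rw [add_pow_prime_eq' hpp]
  have hterm : (1 : L) ^ (p - 1) * t ^ (p - (p - 1)) * ((p.choose (p - 1) / p : ℕ) : L) = t := by
    have h1 : p - (p - 1) = 1 := by omega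
    have h2 : p.choose (p - 1) = p := by
      rw [Nat.choose_symm hpp.one_le, Nat.choose_one_right]
    rw [h1, h2, Nat.div_self hpp.pos, one_pow, pow_one, Nat.cast_one, one_mul, mul_one]
  have hsplit := Finset.add_sum_erase (Finset.Ioo 0 p)
    (fun k => (1 : L) ^ k * t ^ (p - k) * ((p.choose k / p : ℕ) : L)) hmem
  have h1 : (1 : L) ^ p + t ^ p + (p : L) * ∑ k ∈ Finset.Ioo 0 p,
        (1 : L) ^ k * t ^ (p - k) * ((p.choose k / p : ℕ) : L) - 1 - (p : L) * t - t ^ p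
      = (p : L) * ∑ k ∈ (Finset.Ioo 0 p).erase (p - 1),
        (1 : L) ^ k * t ^ (p - k) * ((p.choose k / p : ℕ) : L) := by
    rw [← hsplit]
    simp only [hterm]
    rw [one_pow]; ring
  rw [h1, norm_mul]
  gcongr
  apply IsUltrametricDist.norm_sum_le_of_forall_le_of_nonneg (by positivity)
  intro k hk
  rw [Finset.mem_erase, Finset.mem_Ioo] at hk
  rw [one_pow, one_mul, norm_mul, norm_pow]
  have h2 : ‖t‖ ^ (p - k) ≤ ‖t‖ ^ 2 :=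
    pow_le_pow_of_le_one (norm_nonneg _) ht (by omega)
  calc ‖t‖ ^ (p - k) * ‖((p.choose k / p : ℕ) : L)‖ ≤ ‖t‖ ^ 2 * 1 :=
        mul_le_mul h2 (IsUltrametricDist.norm_natCast_le_one L _) (norm_nonneg _) (by positivity)
    _ = ‖t‖ ^ 2 := mul_one _

end Binomial2


section Levels

variable {L : Type*} [NormedField L] [IsUltrametricDist L]

lemma norm_eq_one_of_norm_sub_one_lt {v : L} (h : ‖v - 1‖ < 1) : ‖v‖ = 1 := by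
  have h1 : v = 1 + (v - 1) := by ring
  rw [h1, norm_add_eq_of_lt' (by rwa [norm_one]), norm_one]

/-- if `z^p ≡ 1` modulo the maximal ideal then `z ≡ 1`. -/
lemma norm_sub_one_lt_one_of_pow {p : ℕ} (hpp : p.Prime) (hp : ‖(p : L)‖ < 1) {z : L}
    (h : ‖z ^ p - 1‖ < 1) : ‖z - 1‖ < 1 := by
  have hz1 : ‖z‖ = 1 := by
    have h2 : ‖z‖ ^ p = 1 := by rw [← norm_pow]; exact norm_eq_one_of_norm_sub_one_lt h
    exact (pow_eq_one_iff_of_nonneg (norm_nonneg _) hpp.ne_zero).mp h2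
  have hs1 : ‖z - 1‖ ≤ 1 := norm_sub_le_of_le hz1.le norm_one.le
  by_contra hcon
  have hs : ‖z - 1‖ = 1 := le_antisymm hs1 (not_lt.mp hcon)
  have hE := norm_one_add_pow_sub_le hpp hs1
  rw [hs, mul_one, add_sub_cancel] at hE
  have h3 : z ^ p - 1 = (z - 1) ^ p + (z ^ p - 1 - (z - 1) ^ p) := by ring
  have h4 : ‖z ^ p - 1‖ = 1 := by
    rw [h3, norm_add_eq_of_lt' (by rw [norm_pow, hs, one_pow]; exact hE.trans_lt hp), norm_pow, hs,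
      one_pow]
  rw [h4] at h
  exact lt_irrefl _ h

/-- the level of `(1+s)^p` for `‖s‖ > λ`. -/
lemma norm_one_add_pow_sub_one_eq {p : ℕ} (hpp : p.Prime) {lam : ℝ} (hlam0 : 0 < lam)
    (hlamp : lam ^ (p - 1) = ‖(p : L)‖) {s : L} (hs1 : ‖s‖ ≤ 1) (hs : lam < ‖s‖) :
    ‖(1 + s) ^ p - 1‖ = ‖s‖ ^ p := by
  have hp1 : p - 1 + 1 = p := Nat.sub_add_cancel hpp.one_le
  have hp10 : p - 1 ≠ 0 := by have := hpp.two_le; omega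
  have hE := norm_one_add_pow_sub_le hpp hs1
  have hspos : 0 < ‖s‖ := hlam0.trans hs
  have hlt : ‖(1 + s) ^ p - 1 - s ^ p‖ < ‖s ^ p‖ := by
    rw [norm_pow]
    calc ‖(1 + s) ^ p - 1 - s ^ p‖ ≤ lam ^ (p - 1) * ‖s‖ := by rw [hlamp]; exact hE
      _ < ‖s‖ ^ (p - 1) * ‖s‖ :=
          mul_lt_mul_of_pos_right (pow_lt_pow_left₀ hs hlam0.le hp10) hspos
      _ = ‖s‖ ^ p := by rw [← pow_succ, hp1]
  have h3 : (1 + s) ^ p - 1 = s ^ p + ((1 + s) ^ p - 1 - s ^ p) := by ring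
  rw [h3, norm_add_eq_of_lt' hlt, norm_pow]

/-- the level of `(1+s)^p` for `‖s‖ ≤ λ`. -/
lemma norm_one_add_pow_sub_one_le {p : ℕ} (hpp : p.Prime) {lam : ℝ} (hlam0 : 0 < lam)
    (hlam1 : lam ≤ 1) (hlamp : lam ^ (p - 1) = ‖(p : L)‖) {s : L} (hs : ‖s‖ ≤ lam) :
    ‖(1 + s) ^ p - 1‖ ≤ lam ^ p := by
  have hp1 : p - 1 + 1 = p := Nat.sub_add_cancel hpp.one_le
  have hs1 : ‖s‖ ≤ 1 := hs.trans hlam1
  have hE := norm_one_add_pow_sub_le hpp hs1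
  have h3 : (1 + s) ^ p - 1 = s ^ p + ((1 + s) ^ p - 1 - s ^ p) := by ring
  rw [h3]
  refine norm_add_le_of_le ?_ ?_
  · rw [norm_pow]
    exact pow_le_pow_left₀ (norm_nonneg _) hs p
  · calc ‖(1 + s) ^ p - 1 - s ^ p‖ ≤ lam ^ (p - 1) * ‖s‖ := by rw [hlamp]; exact hE
      _ ≤ lam ^ (p - 1) * lam := mul_le_mul_of_nonneg_left hs (pow_nonneg hlam0.le _)
      _ = lam ^ p := by rw [← pow_succ, hp1]

/-- **(G4)** a `p`-th power has no exact level `j` with `p ∤ j < p c₀`. -/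
theorem norm_pow_sub_one_lt_of_not_dvd {K₀ : Subfield L} {π : L} (hπ : IsUnif K₀ π) {p : ℕ}
    (hpp : p.Prime) (hp : ‖(p : L)‖ < 1) {c₀ : ℕ} (hc₀ : (‖π‖ ^ c₀) ^ (p - 1) = ‖(p : L)‖)
    {j : ℕ} (hj : ¬ p ∣ j) (hjc : j < p * c₀) {z : L} (hzK : z ∈ K₀)
    (hz : ‖z ^ p - 1‖ ≤ ‖π‖ ^ j) :
    ‖z ^ p - 1‖ < ‖π‖ ^ j := by
  have hρ0 := hπ.pos
  have hρ1 := hπ.lt_one
  have hj0 : j ≠ 0 := by rintro rfl; exact hj (dvd_zero p)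
  have hlt1 : ‖z ^ p - 1‖ < 1 := hz.trans_lt (pow_lt_one₀ hρ0.le hρ1 hj0)
  have hs1 := norm_sub_one_lt_one_of_pow hpp hp hlt1
  obtain ⟨s, hs⟩ : ∃ s : L, s = z - 1 := ⟨_, rfl⟩
  have hsK : s ∈ K₀ := hs ▸ K₀.sub_mem hzK K₀.one_mem
  have hzs : z = 1 + s := by rw [hs]; ring
  rw [← hs] at hs1
  rw [hzs] at hz ⊢
  have hlam0 : 0 < ‖π‖ ^ c₀ := pow_pos hρ0 _
  have hlam1 : ‖π‖ ^ c₀ ≤ 1 := pow_le_one₀ hρ0.le hρ1.le
  rcases le_or_gt ‖s‖ (‖π‖ ^ c₀) with hle | hgt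
  · calc ‖(1 + s) ^ p - 1‖ ≤ (‖π‖ ^ c₀) ^ p :=
          norm_one_add_pow_sub_one_le hpp hlam0 hlam1 hc₀ hle
      _ = ‖π‖ ^ (p * c₀) := by rw [← pow_mul, mul_comm]
      _ < ‖π‖ ^ j := pow_lt_pow_right_of_lt_one₀ hρ0 hρ1 hjc
  · have heq := norm_one_add_pow_sub_one_eq hpp hlam0 hc₀ hs1.le hgt
    have hs0 : s ≠ 0 := by
      rintro rfl
      rw [norm_zero] at hgt
      exact absurd hgt (not_lt.mpr hlam0.le)
    obtain ⟨i, hi⟩ := hπ.exists_pow hsK hs0 hs1.le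
    rw [heq, hi, ← pow_mul] at hz ⊢
    have h1 : j ≤ i * p := (pow_le_pow_iff_right_of_lt_one₀ hρ0 hρ1).mp hz
    have h2 : j ≠ i * p := by
      rintro rfl
      exact hj (dvd_mul_left p i)
    exact pow_lt_pow_right_of_lt_one₀ hρ0 hρ1 (lt_of_le_of_ne h1 h2)

/-- **(G2)** a unit of exact level `p i`, `1 ≤ i < c₀`, can be improved by a `p`-th power. -/
theorem exists_improve_of_dvd {K₀ : Subfield L} {π : L} (hπ : IsUnif K₀ π) {p : ℕ}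
    (hpp : p.Prime) (hodd : Odd p) {m : ℕ}
    (hm : ∀ a ∈ K₀, ‖a‖ ≤ 1 → ‖(a ^ m) ^ p - a‖ < 1)
    {c₀ : ℕ} (hc₀ : (‖π‖ ^ c₀) ^ (p - 1) = ‖(p : L)‖)
    {u : L} (hu : u ∈ K₀) {i : ℕ} (hi : i ≠ 0) (hic : i < c₀)
    (hδ : ‖u - 1‖ = ‖π‖ ^ (p * i)) :
    ∃ y ∈ K₀, y ≠ 0 ∧ ‖u * y ^ p - 1‖ < ‖π‖ ^ (p * i) := by
  have hp0 : p ≠ 0 := hpp.ne_zero
  have hp2 := hpp.two_le
  obtain ⟨t, ht⟩ : ∃ t : L, t = u - 1 := ⟨_, rfl⟩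
  obtain ⟨δ, hδdef⟩ : ∃ δ : ℝ, δ = ‖π‖ ^ (p * i) := ⟨_, rfl⟩
  obtain ⟨Q, hQ⟩ : ∃ Q : L, Q = π ^ (p * i) := ⟨_, rfl⟩
  have hQK : Q ∈ K₀ := hQ ▸ K₀.pow_mem hπ.mem _
  have hQn : ‖Q‖ = δ := by rw [hQ, hδdef, norm_pow]
  rw [← ht, ← hδdef] at hδ
  have hδpos : 0 < δ := hδdef ▸ pow_pos hπ.pos _
  have hQ0 : Q ≠ 0 := by rw [← norm_pos_iff, hQn]; exact hδpos
  have htK : t ∈ K₀ := ht ▸ K₀.sub_mem hu K₀.one_mem
  obtain ⟨c, hc⟩ : ∃ c : L, c = t / Q := ⟨_, rfl⟩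
  have hcK : c ∈ K₀ := hc ▸ K₀.div_mem htK hQK
  have hc1 : ‖c‖ = 1 := by rw [hc, norm_div, hδ, hQn, div_self hδpos.ne']
  have htc : c * Q = t := by rw [hc, div_mul_cancel₀ _ hQ0]
  obtain ⟨b, hb⟩ : ∃ b : L, b = c ^ m := ⟨_, rfl⟩
  have hbK : b ∈ K₀ := hb ▸ K₀.pow_mem hcK m
  have hb1 : ‖b‖ = 1 := by rw [hb, norm_pow, hc1, one_pow]
  have hbc : ‖b ^ p - c‖ < 1 := hb ▸ hm c hcK hc1.le
  obtain ⟨s, hs⟩ : ∃ s : L, s = -(b * π ^ i) := ⟨_, rfl⟩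
  have hsK : s ∈ K₀ := hs ▸ K₀.neg_mem (K₀.mul_mem hbK (K₀.pow_mem hπ.mem i))
  have hsn : ‖s‖ = ‖π‖ ^ i := by rw [hs, norm_neg, norm_mul, hb1, one_mul, norm_pow]
  have hs1 : ‖s‖ < 1 := by rw [hsn]; exact pow_lt_one₀ hπ.pos.le hπ.lt_one hi
  have hsp : s ^ p = -(b ^ p * Q) := by
    rw [hs, hodd.neg_pow, mul_pow, ← pow_mul, mul_comm i p, hQ]
  obtain ⟨E, hEdef⟩ : ∃ E : L, E = (1 + s) ^ p - 1 - s ^ p := ⟨_, rfl⟩
  have hEn : ‖E‖ ≤ ‖(p : L)‖ * ‖s‖ := hEdef ▸ norm_one_add_pow_sub_le hpp hs1.le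
  have hEδ : ‖E‖ < δ := by
    have hexp : p * i < c₀ * (p - 1) + i := by
      have h1 : i * (p - 1) < c₀ * (p - 1) :=
        Nat.mul_lt_mul_of_pos_right hic (by omega)
      have h2 : p * i = i * (p - 1) + i := by
        have h3 : p = (p - 1) + 1 := by omega
        calc p * i = ((p - 1) + 1) * i := by rw [← h3]
          _ = i * (p - 1) + i := by ring
      omega
    calc ‖E‖ ≤ ‖(p : L)‖ * ‖s‖ := hEn
      _ = ‖π‖ ^ (c₀ * (p - 1) + i) := by rw [← hc₀, hsn, ← pow_mul, ← pow_add]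
      _ < ‖π‖ ^ (p * i) := pow_lt_pow_right_of_lt_one₀ hπ.pos hπ.lt_one hexp
      _ = δ := hδdef.symm
  have hδ1 : δ ≤ 1 := hδdef ▸ pow_le_one₀ hπ.pos.le hπ.lt_one.le
  rw [← hδdef]
  refine ⟨1 + s, K₀.add_mem K₀.one_mem hsK, ?_, ?_⟩
  · intro h0
    have h1 : ‖(1 : L) + s‖ = 1 := by
      rw [norm_add_eq_of_lt' (by rwa [norm_one])]; exact norm_one
    rw [h0, norm_zero] at h1
    exact zero_ne_one h1
  · have hu' : u = t + 1 := by rw [ht]; ring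
    have h1 : (1 + s) ^ p = 1 + s ^ p + E := by rw [hEdef]; ring
    have hid : u * (1 + s) ^ p - 1 = (c - b ^ p) * Q + E + t * (s ^ p + E) := by
      rw [h1]
      linear_combination (1 + s ^ p + E) * hu' - htc + hsp
    rw [hid]
    have hn1 : ‖(c - b ^ p) * Q‖ < δ := by
      rw [norm_mul, hQn, norm_sub_rev]
      calc ‖b ^ p - c‖ * δ < 1 * δ := mul_lt_mul_of_pos_right hbc hδpos
        _ = δ := one_mul _
    have hn2 : ‖s ^ p + E‖ < 1 := by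
      apply norm_add_lt_of_lt
      · rw [norm_pow]; exact pow_lt_one₀ (norm_nonneg _) hs1 hp0
      · exact hEδ.trans_le hδ1
    have hn3 : ‖t * (s ^ p + E)‖ < δ := by
      rw [norm_mul, hδ]
      calc δ * ‖s ^ p + E‖ < δ * 1 := mul_lt_mul_of_pos_left hn2 hδpos
        _ = δ := mul_one _
    exact norm_add_lt_of_lt (norm_add_lt_of_lt hn1 hEδ) hn3

/-- **(G3-core)** the `p`-th power of `1 + t (ζ - 1)` has leading term `(ζ-1)^p (t^p - t)`. -/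
theorem norm_one_add_mul_pow_sub_le {p : ℕ} (hpp : p.Prime) (hp : ‖(p : L)‖ < 1) {ζ : L}
    (hζ : IsPrimitiveRoot ζ p) {t : L} (ht : ‖t‖ ≤ 1) :
    ‖(1 + t * (ζ - 1)) ^ p - 1 - (ζ - 1) ^ p * (t ^ p - t)‖ ≤ ‖ζ - 1‖ ^ (p + 1) := by
  have hp1 : p - 1 + 1 = p := Nat.sub_add_cancel hpp.one_le
  obtain ⟨z₀, hz₀⟩ : ∃ z₀ : L, z₀ = ζ - 1 := ⟨_, rfl⟩
  rw [← hz₀]
  have hlam1 : ‖z₀‖ < 1 := hz₀ ▸ norm_sub_one_lt_one hpp hp hζ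
  have hlamp : ‖z₀‖ ^ (p - 1) = ‖(p : L)‖ := hz₀ ▸ norm_sub_one_pow_eq hpp hζ
  have hpow : ‖(p : L)‖ * ‖z₀‖ ^ 2 = ‖z₀‖ ^ (p + 1) := by
    rw [← hlamp, ← pow_add]
    congr 1
    omega
  -- expansion for `z₀`
  have hζ1 : (1 + z₀) ^ p = 1 := by rw [hz₀, add_sub_cancel, hζ.pow_eq_one]
  obtain ⟨E₀, hE₀⟩ : ∃ E₀ : L, E₀ = (1 + z₀) ^ p - 1 - (p : L) * z₀ - z₀ ^ p := ⟨_, rfl⟩
  have hE₀n : ‖E₀‖ ≤ ‖z₀‖ ^ (p + 1) := by
    rw [hE₀, ← hpow]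
    exact norm_one_add_pow_sub_sub_le hpp hlam1.le
  have hpz : (p : L) * z₀ = -z₀ ^ p - E₀ := by rw [hE₀, hζ1]; ring
  -- expansion for `s = t z₀`
  have hs1 : ‖t * z₀‖ ≤ 1 := by
    rw [norm_mul]
    exact mul_le_one₀ ht (norm_nonneg _) hlam1.le
  obtain ⟨E, hE⟩ : ∃ E : L, E = (1 + t * z₀) ^ p - 1 - (p : L) * (t * z₀) - (t * z₀) ^ p :=
    ⟨_, rfl⟩
  have hEn : ‖E‖ ≤ ‖z₀‖ ^ (p + 1) := by
    rw [hE, ← hpow]
    refine (norm_one_add_pow_sub_sub_le hpp hs1).trans ?_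
    apply mul_le_mul_of_nonneg_left _ (norm_nonneg _)
    rw [norm_mul, mul_pow]
    calc ‖t‖ ^ 2 * ‖z₀‖ ^ 2 ≤ 1 * ‖z₀‖ ^ 2 :=
          mul_le_mul_of_nonneg_right (pow_le_one₀ (norm_nonneg _) ht) (by positivity)
      _ = ‖z₀‖ ^ 2 := one_mul _
  have hid : (1 + t * z₀) ^ p - 1 - z₀ ^ p * (t ^ p - t) = E - t * E₀ := by
    rw [hE]
    linear_combination t * hpz
  rw [hid]
  refine norm_sub_le_of_le hEn ?_
  rw [norm_mul]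
  calc ‖t‖ * ‖E₀‖ ≤ 1 * ‖z₀‖ ^ (p + 1) := mul_le_mul ht hE₀n (norm_nonneg _) zero_le_one
    _ = ‖z₀‖ ^ (p + 1) := one_mul _

/-- **(N)** normal form of a bounded class which is not a `p`-th power. -/
theorem exists_max_level {K₀ : Subfield L} {π : L} (hπ : IsUnif K₀ π) {p : ℕ}
    (hpp : p.Prime) (hodd : Odd p) (hp : ‖(p : L)‖ < 1) {m : ℕ}
    (hm : ∀ a ∈ K₀, ‖a‖ ≤ 1 → ‖(a ^ m) ^ p - a‖ < 1)
    {c₀ : ℕ} (hc₀ : (‖π‖ ^ c₀) ^ (p - 1) = ‖(p : L)‖)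
    (hNewton : ∀ v ∈ K₀, ‖v - 1‖ < ‖π‖ ^ (p * c₀) → ∃ y ∈ K₀, y ^ p = v)
    {u : L} (hu : u ∈ K₀) (hbdd : ∃ y ∈ K₀, y ≠ 0 ∧ ‖u * y ^ p - 1‖ < ‖π‖ ^ c₀)
    (hnp : ∀ y ∈ K₀, y ^ p ≠ u) :
    ∃ j : ℕ, ∃ y ∈ K₀, y ≠ 0 ∧ c₀ < j ∧ j ≤ p * c₀ ∧ ‖u * y ^ p - 1‖ = ‖π‖ ^ j ∧
      (¬ p ∣ j ∨ j = p * c₀) ∧ ∀ y' ∈ K₀, y' ≠ 0 → ‖π‖ ^ j ≤ ‖u * y' ^ p - 1‖ := by
  classical
  have hρ0 := hπ.pos
  have hρ1 := hπ.lt_one
  have hp2 := hpp.two_le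
  have hc₀0 : c₀ ≠ 0 := by
    rintro rfl
    rw [pow_zero, one_pow] at hc₀
    rw [← hc₀] at hp
    exact lt_irrefl _ hp
  have hmemK : ∀ y ∈ K₀, u * y ^ p - 1 ∈ K₀ := fun y hy =>
    K₀.sub_mem (K₀.mul_mem hu (K₀.pow_mem hy p)) K₀.one_mem
  -- the floor
  have hfloor : ∀ y ∈ K₀, y ≠ 0 → ‖π‖ ^ (p * c₀) ≤ ‖u * y ^ p - 1‖ := by
    intro y hy hy0
    by_contra hlt
    obtain ⟨y₁, hy₁K, hy₁⟩ := hNewton (u * y ^ p) (K₀.mul_mem hu (K₀.pow_mem hy p)) (not_le.mp hlt)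
    refine hnp (y₁ / y) (K₀.div_mem hy₁K hy) ?_
    rw [div_pow, hy₁, mul_div_assoc, div_self (pow_ne_zero p hy0), mul_one]
  obtain ⟨P, hP⟩ : ∃ P : ℕ → Prop, P = fun n => ∃ y ∈ K₀, y ≠ 0 ∧ ‖u * y ^ p - 1‖ ≤ ‖π‖ ^ n :=
    ⟨_, rfl⟩
  have hPiff : ∀ n, P n ↔ ∃ y ∈ K₀, y ≠ 0 ∧ ‖u * y ^ p - 1‖ ≤ ‖π‖ ^ n := fun n => by rw [hP]
  have hPstart : P (c₀ + 1) := by
    obtain ⟨y, hyK, hy0, hy⟩ := hbdd
    exact (hPiff _).mpr ⟨y, hyK, hy0, hπ.norm_le_pow_succ (hmemK y hyK) hy⟩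
  have hle1 : c₀ + 1 ≤ p * c₀ := by
    have h1 : 2 * c₀ ≤ p * c₀ := Nat.mul_le_mul_right c₀ hp2
    omega
  obtain ⟨j, hj⟩ : ∃ j, j = Nat.findGreatest P (p * c₀) := ⟨_, rfl⟩
  have hPj : P j := hj ▸ Nat.findGreatest_spec hle1 hPstart
  have hjlo : c₀ + 1 ≤ j := hj ▸ Nat.le_findGreatest hle1 hPstart
  have hjhi : j ≤ p * c₀ := hj ▸ Nat.findGreatest_le (p * c₀)
  have hnotsucc : ¬ P (j + 1) := by
    intro hPs
    by_cases hcase : j + 1 ≤ p * c₀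
    · exact Nat.findGreatest_is_greatest (hj ▸ Nat.lt_succ_self j) hcase hPs
    · have hjeq : j = p * c₀ := by omega
      obtain ⟨y, hyK, hy0, hy⟩ := (hPiff _).mp hPs
      have h1 := hfloor y hyK hy0
      rw [hjeq] at hy
      have h2 : ‖π‖ ^ (p * c₀ + 1) < ‖π‖ ^ (p * c₀) :=
        pow_lt_pow_right_of_lt_one₀ hρ0 hρ1 (Nat.lt_succ_self _)
      exact absurd (h1.trans hy) (not_le.mpr h2)
  have hmax : ∀ y' ∈ K₀, y' ≠ 0 → ‖π‖ ^ j ≤ ‖u * y' ^ p - 1‖ := by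
    intro y' hy'K hy'0
    by_contra hlt
    exact hnotsucc ((hPiff _).mpr
      ⟨y', hy'K, hy'0, hπ.norm_le_pow_succ (hmemK y' hy'K) (not_le.mp hlt)⟩)
  obtain ⟨y, hyK, hy0, hy⟩ := (hPiff _).mp hPj
  have heq : ‖u * y ^ p - 1‖ = ‖π‖ ^ j := le_antisymm hy (hmax y hyK hy0)
  refine ⟨j, y, hyK, hy0, by omega, hjhi, heq, ?_, hmax⟩
  by_contra hcon
  rw [not_or, not_not] at hcon
  obtain ⟨⟨i, hi⟩, hne⟩ := hcon
  have hic : i < c₀ := by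
    have h1 : p * i < p * c₀ := by rw [← hi]; exact lt_of_le_of_ne hjhi hne
    exact lt_of_mul_lt_mul_left h1 (Nat.zero_le p)
  have hi0 : i ≠ 0 := by
    rintro rfl
    rw [mul_zero] at hi
    omega
  rw [hi] at heq
  obtain ⟨y'', hy''K, hy''0, hy''⟩ := exists_improve_of_dvd hπ hpp hodd hm hc₀
    (K₀.mul_mem hu (K₀.pow_mem hyK p)) hi0 hic heq
  have h1 := hmax (y * y'') (K₀.mul_mem hyK hy''K) (mul_ne_zero hy0 hy''0)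
  rw [mul_pow, ← mul_assoc, hi] at h1
  exact absurd h1 (not_le.mpr hy'')

end Levels

section LeadLevels

variable {L : Type*} [NormedField L] [IsUltrametricDist L]

/-- **(G4')** the leading coefficient at a level `p ∤ j < p c₀` of a `p`-th power vanishes in the
residue field. -/
theorem Lead.norm_lt_one_of_pow {K₀ : Subfield L} {π : L} (hπ : IsUnif K₀ π) {p : ℕ}
    (hpp : p.Prime) (hp : ‖(p : L)‖ < 1) {c₀ : ℕ} (hc₀ : (‖π‖ ^ c₀) ^ (p - 1) = ‖(p : L)‖)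
    {j : ℕ} (hj : ¬ p ∣ j) (hjc : j < p * c₀) {z x : L} (hzK : z ∈ K₀) (hx : ‖x‖ ≤ 1)
    (h : Lead (π ^ j) (z ^ p) x) : ‖x‖ < 1 := by
  have hϖ0 : π ^ j ≠ 0 := pow_ne_zero j hπ.ne_zero
  have hpos : 0 < ‖π ^ j‖ := norm_pos_iff.mpr hϖ0
  have h1 := h.norm_sub_one_le hx
  rw [norm_pow] at h1
  have h2 := norm_pow_sub_one_lt_of_not_dvd hπ hpp hp hc₀ hj hjc hzK h1
  have h3 : x * π ^ j = (z ^ p - 1) - (z ^ p - 1 - x * π ^ j) := by ring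
  have h4 : ‖x * π ^ j‖ < ‖π ^ j‖ := by
    rw [h3]
    refine norm_sub_lt_of_lt ?_ h
    rwa [norm_pow]
  rw [norm_mul] at h4
  by_contra hcon
  have h5 : 1 * ‖π ^ j‖ ≤ ‖x‖ * ‖π ^ j‖ :=
    mul_le_mul_of_nonneg_right (not_lt.mp hcon) hpos.le
  rw [one_mul] at h5
  exact absurd h5 (not_le.mpr h4)

/-- **(G3a')** the leading coefficient at the top level of a `p`-th power is in `℘(κ)`. -/
theorem Lead.exists_artinSchreier_of_pow {K₀ : Subfield L} {p : ℕ} (hpp : p.Prime)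
    (hp : ‖(p : L)‖ < 1) {ζ : L} (hζ : IsPrimitiveRoot ζ p) (hζK : ζ ∈ K₀) {z x : L}
    (hzK : z ∈ K₀) (hx : ‖x‖ ≤ 1) (h : Lead ((ζ - 1) ^ p) (z ^ p) x) :
    ∃ t ∈ K₀, ‖t‖ ≤ 1 ∧ ‖x - (t ^ p - t)‖ < 1 := by
  have hp0 : p ≠ 0 := hpp.ne_zero
  have hlam0 : 0 < ‖ζ - 1‖ := norm_sub_one_pos hpp hζ
  have hlam1 : ‖ζ - 1‖ < 1 := norm_sub_one_lt_one hpp hp hζ
  have hlamp : ‖ζ - 1‖ ^ (p - 1) = ‖(p : L)‖ := norm_sub_one_pow_eq hpp hζ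
  have hz₀0 : ζ - 1 ≠ 0 := norm_pos_iff.mp hlam0
  have hϖ0 : (ζ - 1) ^ p ≠ 0 := pow_ne_zero p hz₀0
  have h1 := h.norm_sub_one_le hx
  rw [norm_pow] at h1
  have hlt1 : ‖z ^ p - 1‖ < 1 := h1.trans_lt (pow_lt_one₀ hlam0.le hlam1 hp0)
  have hs1 := norm_sub_one_lt_one_of_pow hpp hp hlt1
  -- `‖z - 1‖ ≤ λ`
  have hsle : ‖z - 1‖ ≤ ‖ζ - 1‖ := by
    by_contra hgt
    have heq := norm_one_add_pow_sub_one_eq hpp hlam0 hlamp hs1.le (not_le.mp hgt)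
    rw [add_sub_cancel] at heq
    rw [heq] at h1
    exact absurd h1 (not_le.mpr (pow_lt_pow_left₀ (not_le.mp hgt) hlam0.le hp0))
  obtain ⟨t, ht⟩ : ∃ t : L, t = (z - 1) / (ζ - 1) := ⟨_, rfl⟩
  have htK : t ∈ K₀ := ht ▸ K₀.div_mem (K₀.sub_mem hzK K₀.one_mem) (K₀.sub_mem hζK K₀.one_mem)
  have ht1 : ‖t‖ ≤ 1 := by
    rw [ht, norm_div]
    exact div_le_one_of_le₀ hsle hlam0.le
  have hzt : z = 1 + t * (ζ - 1) := by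
    rw [ht, div_mul_cancel₀ _ hz₀0]; ring
  refine ⟨t, htK, ht1, ?_⟩
  have hcore := norm_one_add_mul_pow_sub_le hpp hp hζ ht1
  rw [← hzt] at hcore
  have hcore' : Lead ((ζ - 1) ^ p) (z ^ p) (t ^ p - t) := by
    unfold Lead
    rw [mul_comm (t ^ p - t), norm_pow]
    refine hcore.trans_lt ?_
    exact pow_lt_pow_right_of_lt_one₀ hlam0 hlam1 (Nat.lt_succ_self p)
  exact h.unique hcore' hϖ0

/-- **(G3b')** a unit whose leading coefficient at the top level is in `℘(κ)` can be improved. -/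
theorem Lead.exists_improve_top {K₀ : Subfield L} {p : ℕ} (hpp : p.Prime)
    (hp : ‖(p : L)‖ < 1) {ζ : L} (hζ : IsPrimitiveRoot ζ p) (hζK : ζ ∈ K₀) {u t : L}
    (htK : t ∈ K₀) (ht : ‖t‖ ≤ 1) (h : Lead ((ζ - 1) ^ p) u (t ^ p - t)) :
    ∃ y ∈ K₀, y ≠ 0 ∧ ‖u * y ^ p - 1‖ < ‖ζ - 1‖ ^ p := by
  have hp0 : p ≠ 0 := hpp.ne_zero
  have hlam0 : 0 < ‖ζ - 1‖ := norm_sub_one_pos hpp hζ
  have hlam1 : ‖ζ - 1‖ < 1 := norm_sub_one_lt_one hpp hp hζ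
  obtain ⟨z, hz⟩ : ∃ z : L, z = 1 + t * (ζ - 1) := ⟨_, rfl⟩
  have hzK : z ∈ K₀ := hz ▸ K₀.add_mem K₀.one_mem (K₀.mul_mem htK (K₀.sub_mem hζK K₀.one_mem))
  have hz1 : ‖z‖ = 1 := by
    have h1 : ‖t * (ζ - 1)‖ < ‖(1 : L)‖ := by
      rw [norm_mul, norm_one]
      calc ‖t‖ * ‖ζ - 1‖ ≤ 1 * ‖ζ - 1‖ := mul_le_mul_of_nonneg_right ht hlam0.le
        _ = ‖ζ - 1‖ := one_mul _
        _ < 1 := hlam1
    rw [hz, norm_add_eq_of_lt' h1, norm_one]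
  have hz0 : z ≠ 0 := by
    rw [← norm_pos_iff, hz1]; exact one_pos
  have hcore := norm_one_add_mul_pow_sub_le hpp hp hζ ht
  rw [← hz] at hcore
  have hcore' : ‖z ^ p - 1 - (t ^ p - t) * (ζ - 1) ^ p‖ < ‖ζ - 1‖ ^ p := by
    rw [mul_comm (t ^ p - t)]
    exact hcore.trans_lt (pow_lt_pow_right_of_lt_one₀ hlam0 hlam1 (Nat.lt_succ_self p))
  unfold Lead at h
  rw [norm_pow] at h
  refine ⟨z⁻¹, K₀.inv_mem hzK, inv_ne_zero hz0, ?_⟩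
  have hid : u * z⁻¹ ^ p - 1 = (u - z ^ p) * (z ^ p)⁻¹ := by
    rw [inv_pow, sub_mul, mul_inv_cancel₀ (pow_ne_zero p hz0)]
  rw [hid, norm_mul, norm_inv, norm_pow, hz1, one_pow, inv_one, mul_one]
  have h2 : u - z ^ p = (u - 1 - (t ^ p - t) * (ζ - 1) ^ p)
      - (z ^ p - 1 - (t ^ p - t) * (ζ - 1) ^ p) := by ring
  rw [h2]
  exact norm_sub_lt_of_lt h hcore'

end LeadLevels



end Fermat.Agent.Ram
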