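/-
F2 (flat local condition at p), reducible case — abstract "function picture" of a finite flat
group scheme, part 1.

A `FunModel` of a finite abelian group `V` with an action of a group `𝒢`, with values in an
ultrametric normed field `B` on which `𝒢` acts by field automorphisms, is a `B`-basis `(h_i)` of the
space of functions `V → B` consisting of `𝒢`-equivariant functions with integral values, such that
`h_i (x + y) = ∑ c_ijk h_j x * h_k y` with integral `𝒢`-fixed structure constants.  (For the points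
of a finite flat bialgebra `H` over `ℤ_(p)`: the functions `x ↦ x(e_i)`, `e_i` a basis of the
image of `H` in the functions.)

This file: the differences `D_i x = h_i x - h_i 0`, their second order additivity, the ultrametric
"distance to the origin" `∀ i, ‖D_i x‖ ≤ r`, and the fact that inertia moves points only inside the
"connected part" `{x | ∀ i, ‖D_i x‖ < 1}`.
-/
import Mathlib
import Fermat.Agent.Ram.Basic_helper8

set_option autoImplicit false
set_option linter.unusedSectionVars false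

namespace Fermat.Agent.Ram

open Finset

section Ultra

variable {B : Type*} [NormedField B] [IsUltrametricDist B]

lemma norm_sum_lt_of_forall_lt {ι : Type*} (s : Finset ι) (f : ι → B) {c : ℝ} (hc : 0 < c)
    (h : ∀ i ∈ s, ‖f i‖ < c) : ‖∑ i ∈ s, f i‖ < c := by
  rcases s.eq_empty_or_nonempty with rfl | hs
  · simpa using hc
  · obtain ⟨i, hi, hle⟩ := IsUltrametricDist.exists_norm_finsetSum_le_of_nonempty hs f
    exact hle.trans_lt (h i hi)

lemma norm_sum_le_of_forall_le' {ι : Type*} (s : Finset ι) (f : ι → B) {c : ℝ} (hc : 0 ≤ c)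
    (h : ∀ i ∈ s, ‖f i‖ ≤ c) : ‖∑ i ∈ s, f i‖ ≤ c :=
  IsUltrametricDist.norm_sum_le_of_forall_le_of_nonneg hc h

end Ultra

/-- An abstract model of the points of a finite flat group scheme: see the file header. -/
structure FunModel (𝒢 : Type*) [Group 𝒢] (B : Type*) [NormedField B] [MulSemiringAction 𝒢 B]
    (V : Type*) [AddCommGroup V] [DistribMulAction 𝒢 V] (ι : Type*) [Fintype ι] where
  /-- the basis of functions -/
  b : Module.Basis ι B (V → B)
  /-- the structure constants of the comultiplication -/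
  c : ι → ι → ι → B
  h_le : ∀ i y, ‖b i y‖ ≤ 1
  c_le : ∀ i j k, ‖c i j k‖ ≤ 1
  c_fix : ∀ (g : 𝒢) i j k, g • c i j k = c i j k
  equiv : ∀ (g : 𝒢) i y, b i (g • y) = g • b i y
  comul : ∀ i x y, b i (x + y) = ∑ j, ∑ k, c i j k * b j x * b k y

namespace FunModel

variable {𝒢 : Type*} [Group 𝒢] {B : Type*} [NormedField B] [IsUltrametricDist B]
  [MulSemiringAction 𝒢 B] {V : Type*} [AddCommGroup V] [DistribMulAction 𝒢 V]
  {ι : Type*} [Fintype ι] (m : FunModel 𝒢 B V ι)

/-- the `i`-th basis function -/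
noncomputable def h (i : ι) (y : V) : B := m.b i y

lemma h_def (i : ι) (y : V) : m.h i y = m.b i y := rfl

/-- the difference `h_i x - h_i 0` -/
noncomputable def D (i : ι) (x : V) : B := m.h i x - m.h i 0

lemma D_def (i : ι) (x : V) : m.D i x = m.h i x - m.h i 0 := rfl

@[simp] lemma D_zero (i : ι) : m.D i 0 = 0 := sub_self _

lemma norm_h_le (i : ι) (y : V) : ‖m.h i y‖ ≤ 1 := m.h_le i y

lemma h_smul (g : 𝒢) (i : ι) (y : V) : m.h i (g • y) = g • m.h i y := m.equiv g i y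

lemma h_add (i : ι) (x y : V) :
    m.h i (x + y) = ∑ j, ∑ k, m.c i j k * m.h j x * m.h k y := m.comul i x y

lemma D_smul (g : 𝒢) (i : ι) (x : V) : m.D i (g • x) = g • m.D i x := by
  rw [D_def, D_def, smul_sub, ← h_smul, ← h_smul, smul_zero]

lemma norm_D_le_one (i : ι) (x : V) : ‖m.D i x‖ ≤ 1 := by
  rw [D_def]
  exact (norm_sub_le_max' _ _).trans (max_le (m.norm_h_le i x) (m.norm_h_le i 0))

/-- the difference of the values at two points, in terms of the comultiplication -/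
lemma h_add_sub_h_add (i : ι) (x x' y : V) :
    m.h i (x + y) - m.h i (x' + y) = ∑ j, ∑ k, m.c i j k * (m.h j x - m.h j x') * m.h k y := by
  rw [h_add, h_add, ← Finset.sum_sub_distrib]
  refine Finset.sum_congr rfl fun j _ => ?_
  rw [← Finset.sum_sub_distrib]
  refine Finset.sum_congr rfl fun k _ => ?_
  ring

/-- **second order additivity** of `x ↦ h_i x - h_i 0`. -/
lemma D_add (i : ι) (x y : V) :
    m.D i (x + y) - m.D i x - m.D i y = ∑ j, ∑ k, m.c i j k * m.D j x * m.D k y := by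
  have h1 := m.h_add i x y
  have h2 : m.h i x = ∑ j, ∑ k, m.c i j k * m.h j x * m.h k 0 := by
    have := m.h_add i x 0
    rwa [add_zero] at this
  have h3 : m.h i y = ∑ j, ∑ k, m.c i j k * m.h j 0 * m.h k y := by
    have := m.h_add i 0 y
    rwa [zero_add] at this
  have h4 : m.h i 0 = ∑ j, ∑ k, m.c i j k * m.h j 0 * m.h k 0 := by
    have := m.h_add i 0 0
    rwa [add_zero] at this
  have h5 : m.D i (x + y) - m.D i x - m.D i y = m.h i (x + y) - m.h i x - m.h i y + m.h i 0 := by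
    simp only [D_def]; ring
  rw [h5, h1]
  nth_rewrite 1 [h2]
  nth_rewrite 1 [h3]
  nth_rewrite 1 [h4]
  rw [← Finset.sum_sub_distrib, ← Finset.sum_sub_distrib, ← Finset.sum_add_distrib]
  refine Finset.sum_congr rfl fun j _ => ?_
  rw [← Finset.sum_sub_distrib, ← Finset.sum_sub_distrib, ← Finset.sum_add_distrib]
  refine Finset.sum_congr rfl fun k _ => ?_
  simp only [D_def]
  ring

lemma norm_D_add_sub_le (i : ι) (x y : V) {r s : ℝ} (hr : 0 ≤ r) (hs : 0 ≤ s)
    (hx : ∀ j, ‖m.D j x‖ ≤ r) (hy : ∀ k, ‖m.D k y‖ ≤ s) :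
    ‖m.D i (x + y) - m.D i x - m.D i y‖ ≤ r * s := by
  rw [D_add]
  refine norm_sum_le_of_forall_le' _ _ (mul_nonneg hr hs) fun j _ => ?_
  refine norm_sum_le_of_forall_le' _ _ (mul_nonneg hr hs) fun k _ => ?_
  rw [norm_mul, norm_mul]
  calc ‖m.c i j k‖ * ‖m.D j x‖ * ‖m.D k y‖ ≤ 1 * r * s := by
        gcongr
        · exact m.c_le i j k
        · exact hx j
        · exact hy k
    _ = r * s := by ring

/-- `x ↦ (D_i x)_i` is ultrametric-subadditive. -/
lemma norm_D_add_le (i : ι) (x y : V) {r : ℝ} (hr : 0 ≤ r)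
    (hx : ∀ j, ‖m.D j x‖ ≤ r) (hy : ∀ k, ‖m.D k y‖ ≤ r) : ‖m.D i (x + y)‖ ≤ r := by
  have h1 := m.norm_D_add_sub_le i x y hr zero_le_one hx (fun k => m.norm_D_le_one k y)
  rw [mul_one] at h1
  have h2 : m.D i (x + y) = (m.D i (x + y) - m.D i x - m.D i y) + m.D i x + m.D i y := by ring
  rw [h2]
  refine (IsUltrametricDist.norm_add_le_max _ _).trans (max_le ?_ (hy i))
  exact (IsUltrametricDist.norm_add_le_max _ _).trans (max_le h1 (hx i))

lemma norm_D_add_lt (i : ι) (x y : V) {r : ℝ} (hr : 0 < r)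
    (hx : ∀ j, ‖m.D j x‖ < r) (hy : ∀ k, ‖m.D k y‖ < r) : ‖m.D i (x + y)‖ < r := by
  classical
  -- the maximum of finitely many numbers `< r` is `< r`
  obtain ⟨r', hr'0, hr'r, hx', hy'⟩ : ∃ r' : ℝ, 0 ≤ r' ∧ r' < r ∧ (∀ j, ‖m.D j x‖ ≤ r') ∧
      ∀ k, ‖m.D k y‖ ≤ r' := by
    by_cases hne : Nonempty ι
    · obtain ⟨j₀, -, hj₀⟩ := Finset.exists_max_image Finset.univ (fun j => ‖m.D j x‖)
        Finset.univ_nonempty
      obtain ⟨k₀, -, hk₀⟩ := Finset.exists_max_image Finset.univ (fun k => ‖m.D k y‖)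
        Finset.univ_nonempty
      refine ⟨max ‖m.D j₀ x‖ ‖m.D k₀ y‖, le_max_of_le_left (norm_nonneg _),
        max_lt (hx j₀) (hy k₀), fun j => (hj₀ j (Finset.mem_univ j)).trans (le_max_left _ _),
        fun k => (hk₀ k (Finset.mem_univ k)).trans (le_max_right _ _)⟩
    · exact ⟨0, le_rfl, hr, fun j => (hne ⟨j⟩).elim, fun k => (hne ⟨k⟩).elim⟩
  exact (m.norm_D_add_le i x y hr'0 hx' hy').trans_lt hr'r

lemma norm_D_neg_le (i : ι) (x : V) {r : ℝ} (hr : 0 ≤ r) (hx : ∀ j, ‖m.D j x‖ ≤ r) :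
    ‖m.D i (-x)‖ ≤ r := by
  have h1 := m.norm_D_add_sub_le i x (-x) hr zero_le_one hx (fun k => m.norm_D_le_one k (-x))
  rw [mul_one, add_neg_cancel, D_zero, zero_sub, ← norm_neg] at h1
  have h2 : m.D i (-x) = -(-m.D i x - m.D i (-x)) - m.D i x := by ring
  rw [h2]
  refine (norm_sub_le_max' _ _).trans (max_le h1 (hx i))

lemma norm_D_neg_lt (i : ι) (x : V) {r : ℝ} (hr : 0 < r) (hx : ∀ j, ‖m.D j x‖ < r) :
    ‖m.D i (-x)‖ < r := by
  classical
  obtain ⟨r', hr'0, hr'r, hx'⟩ : ∃ r' : ℝ, 0 ≤ r' ∧ r' < r ∧ ∀ j, ‖m.D j x‖ ≤ r' := by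
    by_cases hne : Nonempty ι
    · obtain ⟨j₀, -, hj₀⟩ := Finset.exists_max_image Finset.univ (fun j => ‖m.D j x‖)
        Finset.univ_nonempty
      exact ⟨‖m.D j₀ x‖, norm_nonneg _, hx j₀, fun j => hj₀ j (Finset.mem_univ j)⟩
    · exact ⟨0, le_rfl, hr, fun j => (hne ⟨j⟩).elim⟩
  exact (m.norm_D_neg_le i x hr'0 hx').trans_lt hr'r

/-- `D_i (n • x) ≡ n * D_i x` modulo second order terms. -/
lemma norm_D_nsmul_sub_le (x : V) {r : ℝ} (hr : 0 ≤ r) (hx : ∀ j, ‖m.D j x‖ ≤ r)
    (n : ℕ) : ∀ i, ‖m.D i (n • x) - n * m.D i x‖ ≤ r * r ∧ ‖m.D i (n • x)‖ ≤ r := by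
  induction n with
  | zero =>
    intro i
    simp only [zero_smul, D_zero, Nat.cast_zero, zero_mul, sub_zero, norm_zero]
    exact ⟨mul_nonneg hr hr, hr⟩
  | succ n ih =>
    intro i
    have h1 := m.norm_D_add_sub_le i (n • x) x hr hr (fun j => (ih j).2) hx
    have h2 : m.D i ((n + 1) • x) - ((n + 1 : ℕ) : B) * m.D i x
        = (m.D i (n • x + x) - m.D i (n • x) - m.D i x) + (m.D i (n • x) - n * m.D i x) := by
      rw [succ_nsmul]; push_cast; ring
    refine ⟨?_, ?_⟩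
    · rw [h2]
      exact (IsUltrametricDist.norm_add_le_max _ _).trans (max_le h1 (ih i).1)
    · rw [succ_nsmul]
      exact m.norm_D_add_le i _ _ hr (fun j => (ih j).2) hx

/-- the functions of the model separate the points -/
lemma eq_of_forall_h_eq {x y : V} (hxy : ∀ i, m.h i x = m.h i y) : x = y := by
  classical
  by_contra hne
  -- the indicator function of `y` is a combination of the basis functions
  let f : V → B := fun z => if z = y then 1 else 0
  have hf : f = ∑ i, m.b.repr f i • m.b i := (m.b.sum_repr f).symm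
  have h1 : f x = ∑ i, m.b.repr f i * m.h i x := by
    conv_lhs => rw [hf]
    rw [Finset.sum_apply]
    rfl
  have h2 : f y = ∑ i, m.b.repr f i * m.h i y := by
    conv_lhs => rw [hf]
    rw [Finset.sum_apply]
    rfl
  have h3 : f x = f y := by
    rw [h1, h2]
    exact Finset.sum_congr rfl fun i _ => by rw [hxy i]
  simp only [f, if_neg hne, if_true] at h3
  exact zero_ne_one h3

lemma eq_zero_of_forall_D_eq_zero {x : V} (hx : ∀ i, m.D i x = 0) : x = 0 :=
  m.eq_of_forall_h_eq fun i => sub_eq_zero.mp (hx i)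

/-- hypotheses on an "inertia subgroup" `I` of `𝒢`, relative to the norm of `B`. -/
structure InertiaHyp (B : Type*) [NormedField B] [MulSemiringAction 𝒢 B] (I : Subgroup 𝒢)
    (p : ℕ) : Prop where
  iso : ∀ σ ∈ I, ∀ z : B, ‖σ • z‖ = ‖z‖
  res : ∀ σ ∈ I, ∀ z : B, ‖z‖ ≤ 1 → ‖σ • z - z‖ < 1
  val : ∀ z : B, (∀ σ ∈ I, σ • z = z) → ‖z‖ < 1 → ‖z‖ ≤ ‖(p : B)‖

/-- **(F-i)** inertia moves every point inside the connected part. -/
lemma norm_D_smul_sub_lt {I : Subgroup 𝒢} {p : ℕ} (hI : InertiaHyp (𝒢 := 𝒢) B I p) {σ : 𝒢}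
    (hσ : σ ∈ I) (y : V) (i : ι) : ‖m.D i (σ • y - y)‖ < 1 := by
  have h1 : m.D i (σ • y - y) = m.h i (σ • y + -y) - m.h i (y + -y) := by
    rw [D_def, ← sub_eq_add_neg, add_neg_cancel]
  rw [h1, h_add_sub_h_add]
  refine norm_sum_lt_of_forall_lt _ _ zero_lt_one fun j _ => ?_
  refine norm_sum_lt_of_forall_lt _ _ zero_lt_one fun k _ => ?_
  rw [norm_mul, norm_mul, h_smul]
  have h2 := hI.res σ hσ (m.h j y) (m.norm_h_le j y)
  calc ‖m.c i j k‖ * ‖σ • m.h j y - m.h j y‖ * ‖m.h k (-y)‖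
      ≤ 1 * ‖σ • m.h j y - m.h j y‖ * 1 := by
        gcongr
        · exact m.c_le i j k
        · exact m.norm_h_le k (-y)
    _ = ‖σ • m.h j y - m.h j y‖ := by ring
    _ < 1 := h2

/-- the connected part `{x | ∀ i, ‖D_i x‖ < 1}` as a subgroup. -/
def conn : AddSubgroup V where
  carrier := {x | ∀ i, ‖m.D i x‖ < 1}
  zero_mem' := fun i => by rw [D_zero, norm_zero]; exact zero_lt_one
  add_mem' := fun {x y} hx hy i => m.norm_D_add_lt i x y zero_lt_one hx hy
  neg_mem' := fun {x} hx i => m.norm_D_neg_lt i x zero_lt_one hx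

lemma mem_conn {x : V} : x ∈ m.conn ↔ ∀ i, ‖m.D i x‖ < 1 := Iff.rfl

/-- the augmentation subgroup `I_aug • V` generated by the `σ • y - y`, `σ ∈ I`. -/
def augSub (I : Subgroup 𝒢) (V : Type*) [AddCommGroup V] [DistribMulAction 𝒢 V] : AddSubgroup V :=
  AddSubgroup.closure {x | ∃ σ ∈ I, ∃ y : V, x = σ • y - y}

lemma smul_sub_mem_augSub {I : Subgroup 𝒢} {σ : 𝒢} (hσ : σ ∈ I) (y : V) :
    σ • y - y ∈ augSub I V :=
  AddSubgroup.subset_closure ⟨σ, hσ, y, rfl⟩

lemma augSub_le_conn {I : Subgroup 𝒢} {p : ℕ} (hI : InertiaHyp (𝒢 := 𝒢) B I p) :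
    augSub I V ≤ m.conn := by
  rw [augSub, AddSubgroup.closure_le]
  rintro x ⟨σ, hσ, y, rfl⟩
  exact fun i => m.norm_D_smul_sub_lt hI hσ y i

end FunModel

end Fermat.Agent.Ram
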