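/-
F2 (flat local condition at p), reducible case — abstract "function picture", part 2.

* `eq_of_pow_eq_one_of_close` : rigidity of operators of order `p` close to the identity.
* `FunModel.pow_le_of_ne_zero` : a nonzero point `x` killed by `p` in the connected part has
  `‖p‖ ≤ r ^ (p - 1)` whenever `∀ i, ‖D_i x‖ ≤ r`.
* `FunModel.mem_of_smul_sub_mem` **(Q'')** : if `x` is in the connected part, `K` is an inertia
  stable subgroup and `σ • x - x ∈ K` for all `σ` in the inertia group, then `x ∈ K`.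
-/
import Mathlib
import Fermat.Agent.Ram.Model1_helper8

set_option autoImplicit false
set_option linter.unusedSectionVars false

namespace Fermat.Agent.Ram

open Finset

section Rigidity

variable {B : Type*} [NormedField B] [IsUltrametricDist B]
  {E : Type*} [AddCommGroup E] [Module B E]

/-- **Rigidity.**  An operator `T` with `T ^ p = 1` on a `T`-stable subgroup `𝓛`, which is
`lam`-close to the identity on `𝓛` for an ultrametric norm `ν` with `lam ^ (p - 1) < ‖p‖`, is the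
identity on `𝓛` (`p` odd). -/
theorem eq_of_pow_eq_one_of_close (ν : E → ℝ) (ν_nonneg : ∀ f, 0 ≤ ν f)
    (ν_add : ∀ f g, ν (f + g) ≤ max (ν f) (ν g)) (ν_smul : ∀ (t : B) f, ν (t • f) = ‖t‖ * ν f)
    (ν_zero : ∀ f, ν f = 0 → f = 0) {p : ℕ} (hp : p.Prime) (hp2 : p ≠ 2)
    (hp0 : (p : B) ≠ 0) (T : E →ₗ[B] E) (𝓛 : AddSubgroup E)
    (hT𝓛 : ∀ f ∈ 𝓛, T f ∈ 𝓛) (hTp : ∀ f ∈ 𝓛, (T ^ p) f = f) {lam : ℝ} (hlam0 : 0 ≤ lam)
    (hlam : lam ^ (p - 1) < ‖(p : B)‖) (hlam1 : lam < 1)
    (hN : ∀ f ∈ 𝓛, ν (T f - f) ≤ lam * ν f) : ∀ f ∈ 𝓛, T f = f := by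
  have hp3 : 3 ≤ p := by
    have := hp.two_le
    omega
  have hpn : 0 < ‖(p : B)‖ := norm_pos_iff.mpr hp0
  -- the operator `N = T - 1`
  obtain ⟨N, hNdef⟩ : ∃ N : Module.End B E, N = T - 1 := ⟨_, rfl⟩
  have hNapp : ∀ f, N f = T f - f := by
    intro f
    rw [hNdef, LinearMap.sub_apply, Module.End.one_apply]
  have hN𝓛 : ∀ f ∈ 𝓛, N f ∈ 𝓛 := fun f hf => by
    rw [hNapp]; exact 𝓛.sub_mem (hT𝓛 f hf) hf
  have hNpow𝓛 : ∀ (j : ℕ) (f : E), f ∈ 𝓛 → (N ^ j) f ∈ 𝓛 := by
    intro j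
    induction j with
    | zero => intro f hf; simpa using hf
    | succ j ih =>
      intro f hf
      rw [pow_succ', Module.End.mul_apply]
      exact hN𝓛 _ (ih f hf)
  have ν_neg : ∀ f, ν (-f) = ν f := by
    intro f
    have := ν_smul (-1) f
    rwa [neg_one_smul, norm_neg, norm_one, one_mul] at this
  have ν_sum : ∀ (s : Finset ℕ) (g : ℕ → E) (c : ℝ), 0 ≤ c → (∀ j ∈ s, ν (g j) ≤ c) →
      ν (∑ j ∈ s, g j) ≤ c := by
    intro s g c hc
    induction s using Finset.induction_on with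
    | empty =>
      intro _
      rw [Finset.sum_empty]
      have h0 : ν (0 : E) = 0 := by
        have := ν_smul 0 (0 : E)
        rwa [zero_smul, norm_zero, zero_mul] at this
      rw [h0]; exact hc
    | insert a s ha ih =>
      intro h
      rw [Finset.sum_insert ha]
      exact (ν_add _ _).trans (max_le (h a (Finset.mem_insert_self a s))
        (ih fun j hj => h j (Finset.mem_insert_of_mem hj)))
  -- the binomial identity
  have hbin : ∀ f ∈ 𝓛, (p : B) • N f
      = -(∑ j ∈ Finset.Ico 2 p, ((p.choose j : ℕ) : B) • (N ^ j) f) - (N ^ p) f := by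
    intro f hf
    have hT : T = N + 1 := by rw [hNdef]; abel
    have h1 : T ^ p = ∑ j ∈ Finset.range (p + 1), N ^ j * 1 ^ (p - j) * (p.choose j : Module.End B E) := by
      rw [hT]
      exact (Commute.one_right N).add_pow p
    have h2 : (T ^ p) f = ∑ j ∈ Finset.range (p + 1), ((p.choose j : ℕ) : B) • (N ^ j) f := by
      rw [h1, LinearMap.sum_apply]
      refine Finset.sum_congr rfl fun j _ => ?_
      rw [one_pow, mul_one, Module.End.mul_apply]
      have h3 : ((p.choose j : ℕ) : Module.End B E) f = ((p.choose j : ℕ) : B) • f := by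
        rw [← nsmul_one (p.choose j), LinearMap.smul_apply, Module.End.one_apply,
          Nat.cast_smul_eq_nsmul]
      rw [h3, map_smul]
    rw [hTp f hf] at h2
    rw [Finset.sum_range_succ, Finset.range_eq_Ico,
      Finset.sum_eq_sum_Ico_succ_bot (by omega : 0 < p),
      Finset.sum_eq_sum_Ico_succ_bot (by omega : 0 + 1 < p)] at h2
    simp only [Nat.choose_zero_right, Nat.cast_one, pow_zero, Module.End.one_apply, one_smul,
      zero_add, Nat.choose_one_right, pow_one, Nat.choose_self] at h2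
    have h4 : (p : B) • N f + ∑ j ∈ Finset.Ico 2 p, ((p.choose j : ℕ) : B) • (N ^ j) f
        + (N ^ p) f = 0 := by
      have h5 : f = f + ((p : B) • N f + ∑ j ∈ Finset.Ico 2 p, ((p.choose j : ℕ) : B) • (N ^ j) f)
          + (N ^ p) f := h2
      have h6 : f + ((p : B) • N f + ∑ j ∈ Finset.Ico 2 p, ((p.choose j : ℕ) : B) • (N ^ j) f)
          + (N ^ p) f = f + ((p : B) • N f + ∑ j ∈ Finset.Ico 2 p,
            ((p.choose j : ℕ) : B) • (N ^ j) f + (N ^ p) f) := by abel
      rw [h6] at h5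
      exact (left_eq_add.mp h5)
    rw [eq_sub_iff_add_eq, eq_neg_iff_add_eq_zero, ← h4]
    abel
  -- the constant of improvement
  obtain ⟨κ, hκdef⟩ : ∃ κ : ℝ, κ = max lam (lam ^ (p - 1) / ‖(p : B)‖) := ⟨_, rfl⟩
  have hκ0 : 0 ≤ κ := by rw [hκdef]; exact le_max_of_le_left hlam0
  have hκ1 : κ < 1 := by
    rw [hκdef]
    exact max_lt hlam1 ((div_lt_one hpn).mpr hlam)
  -- the improvement step
  have hstep : ∀ μ : ℝ, 0 ≤ μ → μ ≤ lam → (∀ f ∈ 𝓛, ν (N f) ≤ μ * ν f) →
      ∀ f ∈ 𝓛, ν (N f) ≤ μ * κ * ν f := by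
    intro μ hμ0 hμlam hμ f hf
    have hμ1 : μ ≤ 1 := hμlam.trans hlam1.le
    have hpow : ∀ j : ℕ, ∀ g ∈ 𝓛, ν ((N ^ j) g) ≤ μ ^ j * ν g := by
      intro j
      induction j with
      | zero => intro g _; simp
      | succ j ih =>
        intro g hg
        rw [pow_succ', Module.End.mul_apply]
        calc ν (N ((N ^ j) g)) ≤ μ * ν ((N ^ j) g) := hμ _ (hNpow𝓛 j g hg)
          _ ≤ μ * (μ ^ j * ν g) := by gcongr; exact ih g hg
          _ = μ ^ (j + 1) * ν g := by ring
    have hbound : ν ((p : B) • N f) ≤ max (‖(p : B)‖ * μ ^ 2) (μ ^ p) * ν f := by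
      rw [hbin f hf, sub_eq_add_neg]
      refine (ν_add _ _).trans (max_le ?_ ?_)
      · rw [ν_neg]
        refine ν_sum _ _ _ (mul_nonneg (le_max_of_le_left (by positivity)) (ν_nonneg f)) ?_
        intro j hj
        rw [Finset.mem_Ico] at hj
        rw [ν_smul]
        have hdvd : p ∣ p.choose j := hp.dvd_choose_self (by omega) hj.2
        obtain ⟨t, ht⟩ := hdvd
        have hnorm : ‖((p.choose j : ℕ) : B)‖ ≤ ‖(p : B)‖ := by
          rw [ht, Nat.cast_mul, norm_mul]
          calc ‖(p : B)‖ * ‖(t : B)‖ ≤ ‖(p : B)‖ * 1 := by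
                gcongr; exact IsUltrametricDist.norm_natCast_le_one B t
            _ = ‖(p : B)‖ := mul_one _
        have hμj : μ ^ j ≤ μ ^ 2 := pow_le_pow_of_le_one hμ0 hμ1 hj.1
        calc ‖((p.choose j : ℕ) : B)‖ * ν ((N ^ j) f)
            ≤ ‖(p : B)‖ * (μ ^ j * ν f) := by
              gcongr
              · exact ν_nonneg _
              · exact hpow j f hf
          _ ≤ ‖(p : B)‖ * (μ ^ 2 * ν f) := by
              gcongr
              exact ν_nonneg f
          _ = ‖(p : B)‖ * μ ^ 2 * ν f := by ring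
          _ ≤ max (‖(p : B)‖ * μ ^ 2) (μ ^ p) * ν f := by
              gcongr
              · exact ν_nonneg f
              · exact le_max_left _ _
      · rw [ν_neg]
        calc ν ((N ^ p) f) ≤ μ ^ p * ν f := hpow p f hf
          _ ≤ max (‖(p : B)‖ * μ ^ 2) (μ ^ p) * ν f := by
              gcongr
              · exact ν_nonneg f
              · exact le_max_right _ _
    rw [ν_smul] at hbound
    -- divide by `‖p‖`
    have h1 : max (‖(p : B)‖ * μ ^ 2) (μ ^ p) ≤ ‖(p : B)‖ * (μ * κ) := by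
      refine max_le ?_ ?_
      · have : μ ≤ κ := hμlam.trans (by rw [hκdef]; exact le_max_left _ _)
        calc ‖(p : B)‖ * μ ^ 2 = ‖(p : B)‖ * (μ * μ) := by ring
          _ ≤ ‖(p : B)‖ * (μ * κ) := by gcongr
      · have h2 : μ ^ (p - 1) ≤ lam ^ (p - 1) := pow_le_pow_left₀ hμ0 hμlam _
        have h3 : lam ^ (p - 1) / ‖(p : B)‖ ≤ κ := by rw [hκdef]; exact le_max_right _ _
        have h4 : lam ^ (p - 1) ≤ κ * ‖(p : B)‖ := (div_le_iff₀ hpn).mp h3
        calc μ ^ p = μ * μ ^ (p - 1) := by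
              rw [← pow_succ']; congr 1; omega
          _ ≤ μ * (κ * ‖(p : B)‖) := by gcongr; exact h2.trans h4
          _ = ‖(p : B)‖ * (μ * κ) := by ring
    have h5 : ‖(p : B)‖ * ν (N f) ≤ ‖(p : B)‖ * (μ * κ * ν f) := by
      calc ‖(p : B)‖ * ν (N f) ≤ max (‖(p : B)‖ * μ ^ 2) (μ ^ p) * ν f := hbound
        _ ≤ ‖(p : B)‖ * (μ * κ) * ν f := by
            gcongr
            exact ν_nonneg f
        _ = ‖(p : B)‖ * (μ * κ * ν f) := by ring
    exact le_of_mul_le_mul_left h5 hpn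
  -- iterate
  have hiter : ∀ n : ℕ, ∀ f ∈ 𝓛, ν (N f) ≤ lam * κ ^ n * ν f := by
    intro n
    induction n with
    | zero =>
      intro f hf
      rw [pow_zero, mul_one, hNapp]
      exact hN f hf
    | succ n ih =>
      intro f hf
      have h1 := hstep (lam * κ ^ n) (mul_nonneg hlam0 (pow_nonneg hκ0 n))
        (by
          calc lam * κ ^ n ≤ lam * 1 := by
                gcongr
                exact pow_le_one₀ hκ0 hκ1.le
            _ = lam := mul_one _) ih f hf
      calc ν (N f) ≤ lam * κ ^ n * κ * ν f := h1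
        _ = lam * κ ^ (n + 1) * ν f := by ring
  intro f hf
  have h0 : ν (N f) ≤ 0 := by
    have hlim : Filter.Tendsto (fun n : ℕ => lam * κ ^ n * ν f) Filter.atTop (nhds 0) := by
      have h1 := tendsto_pow_atTop_nhds_zero_of_lt_one hκ0 hκ1
      have h2 := (h1.const_mul lam).mul_const (ν f)
      simpa using h2
    exact ge_of_tendsto' hlim fun n => hiter n f hf
  have h1 : N f = 0 := ν_zero _ (le_antisymm h0 (ν_nonneg _))
  rw [hNapp] at h1
  exact sub_eq_zero.mp h1

end Rigidity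

namespace FunModel

variable {𝒢 : Type*} [Group 𝒢] {B : Type*} [NormedField B] [IsUltrametricDist B]
  [MulSemiringAction 𝒢 B] {V : Type*} [AddCommGroup V] [DistribMulAction 𝒢 V]
  {ι : Type*} [Fintype ι] (m : FunModel 𝒢 B V ι)

/-- the coefficient norm of a function: the sup norm of its coordinates in the basis. -/
noncomputable def cn (f : V → B) : ℝ := ‖(m.b.equivFun f : ι → B)‖

lemma cn_nonneg (f : V → B) : 0 ≤ m.cn f := norm_nonneg _

lemma cn_add (f g : V → B) : m.cn (f + g) ≤ max (m.cn f) (m.cn g) := by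
  unfold cn
  rw [map_add]
  rw [pi_norm_le_iff_of_nonneg (le_max_of_le_left (norm_nonneg _))]
  intro i
  rw [Pi.add_apply]
  exact (IsUltrametricDist.norm_add_le_max _ _).trans
    (max_le_max (norm_le_pi_norm _ i) (norm_le_pi_norm _ i))

lemma cn_smul (t : B) (f : V → B) : m.cn (t • f) = ‖t‖ * m.cn f := by
  unfold cn
  rw [map_smul, norm_smul]

lemma cn_zero (f : V → B) (hf : m.cn f = 0) : f = 0 := by
  unfold cn at hf
  rw [norm_eq_zero] at hf
  exact m.b.equivFun.injective (by rw [hf, map_zero])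

lemma norm_repr_le_cn (f : V → B) (i : ι) : ‖m.b.repr f i‖ ≤ m.cn f := by
  unfold cn
  have := norm_le_pi_norm (m.b.equivFun f : ι → B) i
  rwa [Module.Basis.equivFun_apply] at this

lemma cn_le_iff (f : V → B) {r : ℝ} (hr : 0 ≤ r) : m.cn f ≤ r ↔ ∀ i, ‖m.b.repr f i‖ ≤ r := by
  unfold cn
  rw [pi_norm_le_iff_of_nonneg hr]
  simp only [Module.Basis.equivFun_apply]

lemma exists_norm_repr_eq_cn [Nonempty ι] (f : V → B) : ∃ i, ‖m.b.repr f i‖ = m.cn f := by
  obtain ⟨i, -, hi⟩ := Finset.exists_max_image Finset.univ (fun i => ‖m.b.repr f i‖)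
    Finset.univ_nonempty
  refine ⟨i, le_antisymm (m.norm_repr_le_cn f i) ?_⟩
  rw [cn_le_iff _ _ (norm_nonneg _)]
  exact fun j => hi j (Finset.mem_univ j)

/-- translation by `x` on functions -/
noncomputable def transl (x : V) : (V → B) →ₗ[B] (V → B) := LinearMap.funLeft B B fun y => y + x

@[simp] lemma transl_apply (x : V) (f : V → B) (y : V) : transl x f y = f (y + x) := rfl

lemma transl_pow_apply (x : V) (n : ℕ) (f : V → B) (y : V) :
    ((transl (B := B) x) ^ n) f y = f (y + n • x) := by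
  induction n generalizing f y with
  | zero => simp
  | succ n ih =>
    rw [pow_succ, Module.End.mul_apply, ih, transl_apply, succ_nsmul]
    congr 1
    abel

/-- the matrix of `translation - 1` in the basis: `(τ_x - 1) h_i = ∑_j (∑_k c_ijk D_k x) h_j`. -/
lemma transl_sub_basis (x : V) (i : ι) :
    transl x (m.b i) - m.b i = ∑ j, (∑ k, m.c i j k * m.D k x) • m.b j := by
  funext y
  rw [Pi.sub_apply, transl_apply, Finset.sum_apply]
  have h1 : m.b i (y + x) = ∑ j, ∑ k, m.c i j k * m.h j y * m.h k x := m.h_add i y x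
  have h2 : m.b i y = ∑ j, ∑ k, m.c i j k * m.h j y * m.h k 0 := by
    have := m.h_add i y 0
    rwa [add_zero] at this
  rw [h1]
  nth_rewrite 1 [h2]
  rw [← Finset.sum_sub_distrib]
  refine Finset.sum_congr rfl fun j _ => ?_
  rw [Pi.smul_apply, smul_eq_mul, Finset.sum_mul, ← Finset.sum_sub_distrib]
  refine Finset.sum_congr rfl fun k _ => ?_
  rw [D_def]
  show _ = m.c i j k * (m.h k x - m.h k 0) * m.h j y
  ring

/-- the coordinates of `(τ_x - 1) f`. -/
lemma repr_transl_sub (x : V) (f : V → B) (j : ι) :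
    m.b.repr (transl x f - f) j = ∑ i, m.b.repr f i * ∑ k, m.c i j k * m.D k x := by
  have hf : f = ∑ i, m.b.repr f i • m.b i := (m.b.sum_repr f).symm
  have h1 : transl x f - f = ∑ i, m.b.repr f i • (transl x (m.b i) - m.b i) := by
    conv_lhs => rw [hf]
    rw [map_sum, ← Finset.sum_sub_distrib]
    refine Finset.sum_congr rfl fun i _ => ?_
    rw [map_smul, smul_sub]
  rw [h1, map_sum, Finsupp.coe_finsetSum, Finset.sum_apply]
  refine Finset.sum_congr rfl fun i _ => ?_
  rw [map_smul, Finsupp.smul_apply, smul_eq_mul, transl_sub_basis, map_sum,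
    Finsupp.coe_finsetSum, Finset.sum_apply]
  congr 1
  rw [Finset.sum_eq_single j]
  · rw [map_smul, Finsupp.smul_apply, Module.Basis.repr_self, Finsupp.single_eq_same, smul_eq_mul,
      mul_one]
  · intro j' _ hj'
    rw [map_smul, Finsupp.smul_apply, Module.Basis.repr_self, Finsupp.single_eq_of_ne hj'.symm,
      smul_zero]
  · intro h; exact absurd (Finset.mem_univ j) h

/-- general bound: `τ_x - 1` is `r`-small in the coefficient norm if `∀ k, ‖D_k x‖ ≤ r`. -/
lemma cn_transl_sub_le (x : V) {r : ℝ} (hr : 0 ≤ r) (hx : ∀ k, ‖m.D k x‖ ≤ r) (f : V → B) :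
    m.cn (transl x f - f) ≤ r * m.cn f := by
  rw [cn_le_iff _ _ (mul_nonneg hr (m.cn_nonneg f))]
  intro j
  rw [repr_transl_sub]
  refine norm_sum_le_of_forall_le' _ _ (mul_nonneg hr (m.cn_nonneg f)) fun i _ => ?_
  rw [norm_mul, mul_comm r]
  refine mul_le_mul (m.norm_repr_le_cn f i) ?_ (norm_nonneg _) (m.cn_nonneg f)
  refine norm_sum_le_of_forall_le' _ _ hr fun k _ => ?_
  rw [norm_mul]
  calc ‖m.c i j k‖ * ‖m.D k x‖ ≤ 1 * r :=
        mul_le_mul (m.c_le i j k) (hx k) (norm_nonneg _) zero_le_one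
    _ = r := one_mul r

/-- **lower bound for the distance of a nonzero point of order `p` to the origin.** -/
theorem pow_le_of_ne_zero {p : ℕ} (hp : p.Prime) (hp2 : p ≠ 2) (hp0 : (p : B) ≠ 0)
    (hpB : ‖(p : B)‖ < 1) {x : V} (hx0 : x ≠ 0) (hpx : p • x = 0) {r : ℝ} (hr : 0 ≤ r)
    (hx : ∀ k, ‖m.D k x‖ ≤ r) : ‖(p : B)‖ ≤ r ^ (p - 1) := by
  classical
  by_contra hcon
  rw [not_le] at hcon
  have hr1 : r < 1 := by
    by_contra h
    rw [not_lt] at h
    have : (1 : ℝ) ≤ r ^ (p - 1) := one_le_pow₀ h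
    linarith
  have key := eq_of_pow_eq_one_of_close (B := B) m.cn m.cn_nonneg m.cn_add m.cn_smul m.cn_zero
    hp hp2 hp0 (transl x) ⊤ (fun _ _ => AddSubgroup.mem_top _)
    (fun f _ => by
      funext y
      rw [transl_pow_apply, hpx, add_zero]) hr hcon hr1
    (fun f _ => m.cn_transl_sub_le x hr hx f)
  have h1 := congrFun (key (fun z => if z = 0 then 1 else 0) (AddSubgroup.mem_top _)) 0
  rw [transl_apply, zero_add] at h1
  simp only [if_neg hx0, if_true] at h1
  exact zero_ne_one h1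

/-- The coordinates of an inertia-equivariant function are inertia-invariant. -/
lemma smul_repr_eq_of_equivariant {I : Subgroup 𝒢} {f : V → B}
    (hf : ∀ σ ∈ I, ∀ y, f (σ • y) = σ • f y) {σ : 𝒢} (hσ : σ ∈ I) (i : ι) :
    σ • m.b.repr f i = m.b.repr f i := by
  have hfr : f = ∑ i, m.b.repr f i • m.b i := (m.b.sum_repr f).symm
  -- the function `∑ (σ • β_i) h_i` equals `f`
  have h1 : ∑ i, (σ • m.b.repr f i) • m.b i = f := by
    funext y
    have hy : y = σ • (σ⁻¹ • y) := by rw [smul_inv_smul]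
    rw [Finset.sum_apply]
    have h2 : f y = σ • f (σ⁻¹ • y) := by
      rw [← hf σ hσ, ← hy]
    rw [h2]
    conv_rhs => rw [hfr]
    rw [Finset.sum_apply, Finset.smul_sum]
    refine Finset.sum_congr rfl fun i _ => ?_
    rw [Pi.smul_apply, Pi.smul_apply, smul_eq_mul, smul_eq_mul, smul_mul']
    congr 1
    have h3 : σ • m.b i (σ⁻¹ • y) = m.b i y := by
      have := m.equiv σ i (σ⁻¹ • y)
      rw [smul_inv_smul] at this
      exact this.symm
    exact h3.symm
  have h4 : m.b.repr (∑ i, (σ • m.b.repr f i) • m.b i) i = σ • m.b.repr f i := by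
    rw [map_sum, Finsupp.coe_finsetSum, Finset.sum_apply]
    rw [Finset.sum_eq_single i]
    · rw [map_smul, Finsupp.smul_apply, Module.Basis.repr_self, Finsupp.single_eq_same,
        smul_eq_mul, mul_one]
    · intro j _ hj
      rw [map_smul, Finsupp.smul_apply, Module.Basis.repr_self, Finsupp.single_eq_of_ne hj.symm,
        smul_zero]
    · intro h; exact absurd (Finset.mem_univ i) h
  rw [← h4, h1]

/-- **(Q'')**: a point `x` of the connected part, killed by `p`, which is inertia-invariant modulo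
an inertia-stable subgroup `K`, lies in `K`. -/
theorem mem_of_smul_sub_mem {I : Subgroup 𝒢} {p : ℕ} (hI : InertiaHyp (𝒢 := 𝒢) B I p)
    (hp : p.Prime) (hp2 : p ≠ 2) (hp0 : (p : B) ≠ 0) (hpB : ‖(p : B)‖ < 1)
    (K : AddSubgroup V) (hK : ∀ σ ∈ I, ∀ y ∈ K, σ • y ∈ K) {x : V} (hpx : p • x = 0)
    (hx : x ∈ m.conn) (hxK : ∀ σ ∈ I, σ • x - x ∈ K) : x ∈ K := by
  classical
  by_cases hne : Nonempty ι
  swap
  · -- degenerate case: no functions at all, so `V` is trivial
    have : x = 0 := m.eq_of_forall_h_eq fun i => (hne ⟨i⟩).elim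
    rw [this]; exact K.zero_mem
  -- a uniform bound `r < 1`
  obtain ⟨k₀, -, hk₀⟩ := Finset.exists_max_image Finset.univ (fun k => ‖m.D k x‖)
    Finset.univ_nonempty
  obtain ⟨r, hrdef⟩ : ∃ r : ℝ, r = ‖m.D k₀ x‖ := ⟨_, rfl⟩
  have hr0 : 0 ≤ r := by rw [hrdef]; exact norm_nonneg _
  have hr1 : r < 1 := by rw [hrdef]; exact hx k₀
  have hxr : ∀ k, ‖m.D k x‖ ≤ r := fun k => by rw [hrdef]; exact hk₀ k (Finset.mem_univ k)
  have hpn : 0 < ‖(p : B)‖ := norm_pos_iff.mpr hp0
  -- the subgroup of `K`-periodic, `I`-equivariant functions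
  let 𝓛 : AddSubgroup (V → B) :=
    { carrier := {f | (∀ y, ∀ κ ∈ K, f (y + κ) = f y) ∧ ∀ σ ∈ I, ∀ y, f (σ • y) = σ • f y}
      zero_mem' := ⟨fun _ _ _ => rfl, fun σ _ y => by simp⟩
      add_mem' := by
        rintro f g ⟨hf1, hf2⟩ ⟨hg1, hg2⟩
        refine ⟨fun y κ hκ => ?_, fun σ hσ y => ?_⟩
        · rw [Pi.add_apply, Pi.add_apply, hf1 y κ hκ, hg1 y κ hκ]
        · rw [Pi.add_apply, Pi.add_apply, hf2 σ hσ, hg2 σ hσ, smul_add]
      neg_mem' := by
        rintro f ⟨hf1, hf2⟩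
        refine ⟨fun y κ hκ => ?_, fun σ hσ y => ?_⟩
        · rw [Pi.neg_apply, Pi.neg_apply, hf1 y κ hκ]
        · rw [Pi.neg_apply, Pi.neg_apply, hf2 σ hσ, smul_neg] }
  have hmem𝓛 : ∀ f : V → B, f ∈ 𝓛 ↔
      (∀ y, ∀ κ ∈ K, f (y + κ) = f y) ∧ ∀ σ ∈ I, ∀ y, f (σ • y) = σ • f y := fun f => Iff.rfl
  -- translation by `x` preserves `𝓛`
  have hT𝓛 : ∀ f ∈ 𝓛, transl x f ∈ 𝓛 := by
    rintro f ⟨hf1, hf2⟩
    refine ⟨fun y κ hκ => ?_, fun σ hσ y => ?_⟩
    · rw [transl_apply, transl_apply, add_right_comm, hf1 _ κ hκ]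
    · rw [transl_apply, transl_apply]
      have h1 : σ • y + x = σ • (y + x) + (x - σ • x) := by rw [smul_add]; abel
      have h2 : x - σ • x ∈ K := by
        have := K.neg_mem (hxK σ hσ)
        rwa [neg_sub] at this
      rw [h1, hf1 _ _ h2, hf2 σ hσ]
  -- on `𝓛`, translation is `‖p‖`-close to the identity
  have hN : ∀ f ∈ 𝓛, m.cn (transl x f - f) ≤ ‖(p : B)‖ * m.cn f := by
    intro f hf
    have hg : transl x f - f ∈ 𝓛 := 𝓛.sub_mem (hT𝓛 f hf) hf
    obtain ⟨i₀, hi₀⟩ := m.exists_norm_repr_eq_cn f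
    by_cases hf0 : m.cn f = 0
    · have hf00 : f = 0 := m.cn_zero f hf0
      have hc0 : m.cn (0 : V → B) = 0 := by unfold cn; rw [map_zero, norm_zero]
      rw [hf00, map_zero, sub_zero, hc0, mul_zero]
    have ht0 : m.b.repr f i₀ ≠ 0 := by
      intro h
      rw [h, norm_zero] at hi₀
      exact hf0 hi₀.symm
    rw [cn_le_iff _ _ (mul_nonneg hpn.le (m.cn_nonneg f))]
    intro j
    have hfix : ∀ σ ∈ I, σ • (m.b.repr (transl x f - f) j / m.b.repr f i₀)
        = m.b.repr (transl x f - f) j / m.b.repr f i₀ := by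
      intro σ hσ
      rw [smul_div₀', m.smul_repr_eq_of_equivariant ((hmem𝓛 _).mp hg).2 hσ,
        m.smul_repr_eq_of_equivariant ((hmem𝓛 _).mp hf).2 hσ]
    have hsmall : ‖m.b.repr (transl x f - f) j / m.b.repr f i₀‖ < 1 := by
      rw [norm_div, hi₀, div_lt_one (lt_of_le_of_ne (m.cn_nonneg f) (Ne.symm hf0))]
      have h1 := m.cn_transl_sub_le x hr0 hxr f
      have h2 : r * m.cn f < m.cn f := by
        have hpos : 0 < m.cn f := lt_of_le_of_ne (m.cn_nonneg f) (Ne.symm hf0)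
        calc r * m.cn f < 1 * m.cn f := by gcongr
          _ = m.cn f := one_mul _
      exact ((m.norm_repr_le_cn _ j).trans h1).trans_lt h2
    have h3 := hI.val _ hfix hsmall
    rw [norm_div, hi₀, div_le_iff₀ (lt_of_le_of_ne (m.cn_nonneg f) (Ne.symm hf0))] at h3
    exact h3
  have hp3 : 3 ≤ p := by
    have := hp.two_le
    omega
  have hlam : ‖(p : B)‖ ^ (p - 1) < ‖(p : B)‖ := by
    calc ‖(p : B)‖ ^ (p - 1) ≤ ‖(p : B)‖ ^ 2 :=
          pow_le_pow_of_le_one hpn.le hpB.le (by omega)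
      _ = ‖(p : B)‖ * ‖(p : B)‖ := by ring
      _ < ‖(p : B)‖ * 1 := by gcongr
      _ = ‖(p : B)‖ := mul_one _
  have key := eq_of_pow_eq_one_of_close (B := B) m.cn m.cn_nonneg m.cn_add m.cn_smul m.cn_zero
    hp hp2 hp0 (transl x) 𝓛 hT𝓛
    (fun f _ => by
      funext y
      rw [transl_pow_apply, hpx, add_zero]) hpn.le hlam hpB hN
  -- apply to the indicator function of `K`
  have h1K : (fun z => if z ∈ K then (1 : B) else 0) ∈ 𝓛 := by
    refine ⟨fun y κ hκ => ?_, fun σ hσ y => ?_⟩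
    · have : y + κ ∈ K ↔ y ∈ K := ⟨fun h => by simpa using K.sub_mem h hκ, fun h => K.add_mem h hκ⟩
      simp only [this]
    · have : σ • y ∈ K ↔ y ∈ K := by
        constructor
        · intro h
          have := hK σ⁻¹ (I.inv_mem hσ) _ h
          rwa [inv_smul_smul] at this
        · exact hK σ hσ y
      simp only [this]
      split_ifs
      · rw [smul_one]
      · rw [smul_zero]
  have h2 := congrFun (key _ h1K) 0
  rw [transl_apply, zero_add] at h2
  simp only [K.zero_mem, if_true] at h2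
  by_contra hxK'
  rw [if_neg hxK'] at h2
  exact zero_ne_one h2

/-- the connected part is exactly the augmentation subgroup, if `V` is killed by `p`. -/
theorem conn_eq_augSub {I : Subgroup 𝒢} {p : ℕ} (hI : InertiaHyp (𝒢 := 𝒢) B I p)
    (hp : p.Prime) (hp2 : p ≠ 2) (hp0 : (p : B) ≠ 0) (hpB : ‖(p : B)‖ < 1)
    (hpV : ∀ x : V, p • x = 0) : m.conn = augSub I V := by
  apply le_antisymm _ (m.augSub_le_conn hI)
  intro x hx
  refine m.mem_of_smul_sub_mem hI hp hp2 hp0 hpB (augSub I V) ?_ (hpV x) hx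
    (fun σ hσ => smul_sub_mem_augSub hσ x)
  -- the augmentation subgroup is `I`-stable
  intro σ hσ y hy
  have h1 : σ • y = (σ • y - y) + y := by abel
  rw [h1]
  exact (augSub I V).add_mem (smul_sub_mem_augSub hσ y) hy

end FunModel

end Fermat.Agent.Ram
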