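/-
F2 (flat local condition at p), reducible case — abstract "function picture", part 3:
**(R')** the inertia character on a line of the connected part which is stable under a Frobenius
element is the mod `p` cyclotomic character.
-/
import Mathlib
import Fermat.Agent.Ram.Model2_helper8
import Fermat.Agent.Ram.Kummer1_helper8

set_option autoImplicit false
set_option linter.unusedSectionVars false

namespace Fermat.Agent.Ram

open Finset

section Aux

variable {B : Type*} [NormedField B] [IsUltrametricDist B]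

lemma norm_pow_sub_pow_le_norm_sub {a b : B} (ha : ‖a‖ ≤ 1) (hb : ‖b‖ ≤ 1) (n : ℕ) :
    ‖a ^ n - b ^ n‖ ≤ ‖a - b‖ := by
  rw [← geom_sum₂_mul, norm_mul]
  have h1 : ‖∑ i ∈ Finset.range n, a ^ i * b ^ (n - 1 - i)‖ ≤ 1 := by
    refine norm_sum_le_of_forall_le' _ _ zero_le_one fun i _ => ?_
    rw [norm_mul, norm_pow, norm_pow]
    exact mul_le_one₀ (pow_le_one₀ (norm_nonneg _) ha) (pow_nonneg (norm_nonneg _) _)
      (pow_le_one₀ (norm_nonneg _) hb)
  calc ‖∑ i ∈ Finset.range n, a ^ i * b ^ (n - 1 - i)‖ * ‖a - b‖ ≤ 1 * ‖a - b‖ := by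
        gcongr
    _ = ‖a - b‖ := one_mul _

lemma dvd_of_norm_intCast_lt_one {p : ℕ} (hp : p.Prime) (hpB : ‖(p : B)‖ < 1) {t : ℤ}
    (ht : ‖(t : B)‖ < 1) : (p : ℤ) ∣ t := by
  by_contra hnd
  have hcop : IsCoprime (p : ℤ) t :=
    (Prime.coprime_iff_not_dvd (Nat.prime_iff_prime_int.mp hp)).mpr hnd
  obtain ⟨a, b, hab⟩ := hcop
  have h1 : (a : B) * (p : B) + (b : B) * (t : B) = 1 := by
    have := congrArg (fun z : ℤ => (z : B)) hab
    simpa using this
  have h2 : ‖(a : B) * (p : B) + (b : B) * (t : B)‖ < 1 := by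
    refine (IsUltrametricDist.norm_add_le_max _ _).trans_lt (max_lt ?_ ?_)
    · rw [norm_mul]
      calc ‖(a : B)‖ * ‖(p : B)‖ ≤ 1 * ‖(p : B)‖ := by
            gcongr; exact IsUltrametricDist.norm_intCast_le_one B a
        _ < 1 := by rw [one_mul]; exact hpB
    · rw [norm_mul]
      calc ‖(b : B)‖ * ‖(t : B)‖ ≤ 1 * ‖(t : B)‖ := by
            gcongr; exact IsUltrametricDist.norm_intCast_le_one B b
        _ < 1 := by rw [one_mul]; exact ht
  rw [h1, norm_one] at h2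
  exact lt_irrefl _ h2

lemma norm_natCast_eq_one_of_not_dvd {p : ℕ} (hp : p.Prime) (hpB : ‖(p : B)‖ < 1) {n : ℕ}
    (hn : ¬ p ∣ n) : ‖(n : B)‖ = 1 := by
  apply le_antisymm (IsUltrametricDist.norm_natCast_le_one B n)
  by_contra hlt
  rw [not_le] at hlt
  have h1 : ‖((n : ℤ) : B)‖ < 1 := by simpa using hlt
  have := dvd_of_norm_intCast_lt_one hp hpB h1
  exact hn (by exact_mod_cast this)

end Aux

section Mult

variable {𝒢 : Type*} [Group 𝒢] {B : Type*} [NormedField B] [IsUltrametricDist B]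
  [MulSemiringAction 𝒢 B] {I : Subgroup 𝒢} {p : ℕ}

/-- **Fact A**: the multiplier `σ w / w` modulo the maximal ideal depends only on `‖w‖`. -/
lemma norm_smul_div_sub_lt (hI : FunModel.InertiaHyp (𝒢 := 𝒢) B I p) {σ : 𝒢} (hσ : σ ∈ I)
    {w w' : B} (hw : w ≠ 0) (hww : ‖w'‖ = ‖w‖) : ‖σ • w' / w' - σ • w / w‖ < 1 := by
  have hw' : w' ≠ 0 := by
    rw [← norm_pos_iff, hww, norm_pos_iff]; exact hw
  obtain ⟨v, hv⟩ : ∃ v, v = w' / w := ⟨_, rfl⟩
  have hvn : ‖v‖ = 1 := by rw [hv, norm_div, hww, div_self (norm_ne_zero_iff.mpr hw)]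
  have hv0 : v ≠ 0 := by rw [← norm_pos_iff, hvn]; exact zero_lt_one
  have hw'v : w' = v * w := by rw [hv, div_mul_cancel₀ _ hw]
  have hσw : σ • w ≠ 0 := by
    rw [← norm_pos_iff, hI.iso σ hσ, norm_pos_iff]; exact hw
  have h1 : σ • w' / w' - σ • w / w = (σ • w / w) * ((σ • v - v) / v) := by
    rw [hw'v, smul_mul']
    field_simp
  rw [h1, norm_mul, norm_div, norm_div, hI.iso σ hσ, div_self (norm_ne_zero_iff.mpr hw), one_mul,
    hvn, div_one]
  exact hI.res σ hσ v hvn.le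

/-- **Fact B**: `σ ^ n w / w ≡ (σ w / w) ^ n`. -/
lemma norm_pow_smul_div_sub_lt (hI : FunModel.InertiaHyp (𝒢 := 𝒢) B I p) {σ : 𝒢} (hσ : σ ∈ I)
    {w : B} (hw : w ≠ 0) (n : ℕ) : ‖(σ ^ n) • w / w - (σ • w / w) ^ n‖ < 1 := by
  have hiso : ∀ (n : ℕ) (z : B), ‖(σ ^ n) • z‖ = ‖z‖ := fun n z => hI.iso _ (I.pow_mem hσ n) z
  have hu : ‖σ • w / w‖ = 1 := by
    rw [norm_div, hI.iso σ hσ, div_self (norm_ne_zero_iff.mpr hw)]
  induction n with
  | zero => simp [div_self hw]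
  | succ n ih =>
    obtain ⟨t, ht⟩ : ∃ t, t = (σ ^ n) • w / w := ⟨_, rfl⟩
    have htn : ‖t‖ = 1 := by
      rw [ht, norm_div, hiso, div_self (norm_ne_zero_iff.mpr hw)]
    have hσw : σ • w ≠ 0 := by
      rw [← norm_pos_iff, hI.iso σ hσ, norm_pos_iff]; exact hw
    have h1 : (σ ^ (n + 1)) • w / w = σ • t * (σ • w / w) := by
      rw [ht, smul_div₀', pow_succ', mul_smul]
      field_simp
    rw [h1, pow_succ']
    have h2 : σ • t * (σ • w / w) - σ • w / w * (σ • w / w) ^ n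
        = ((σ • t - t) + (t - (σ • w / w) ^ n)) * (σ • w / w) := by ring
    rw [h2, norm_mul, hu, mul_one]
    refine (IsUltrametricDist.norm_add_le_max _ _).trans_lt (max_lt ?_ ?_)
    · exact hI.res σ hσ t htn.le
    · rw [ht]; exact ih

end Mult

namespace FunModel

variable {𝒢 : Type*} [Group 𝒢] {B : Type*} [NormedField B] [IsUltrametricDist B]
  [MulSemiringAction 𝒢 B] {V : Type*} [AddCommGroup V] [DistribMulAction 𝒢 V]
  {ι : Type*} [Fintype ι] (m : FunModel 𝒢 B V ι)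

lemma smul_natCast' (g : 𝒢) (n : ℕ) : g • (n : B) = (n : B) := by
  induction n with
  | zero => simp
  | succ n ih => rw [Nat.cast_succ, smul_add, ih, smul_one]

/-- the subtraction operator `y ↦ σ ^ p • y - σ • y` does not increase the distance to the
origin. -/
lemma norm_D_pow_smul_sub_smul_le {I : Subgroup 𝒢} {p : ℕ} (hI : InertiaHyp (𝒢 := 𝒢) B I p)
    {σ : 𝒢} (hσ : σ ∈ I) (n : ℕ) {y : V} {s : ℝ} (hs : 0 ≤ s) (hy : ∀ i, ‖m.D i y‖ ≤ s) (i : ι) :
    ‖m.D i ((σ ^ n) • y - σ • y)‖ ≤ s := by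
  rw [sub_eq_add_neg]
  refine m.norm_D_add_le i _ _ hs (fun j => ?_) (fun k => ?_)
  · rw [D_smul, hI.iso _ (I.pow_mem hσ n)]; exact hy j
  · refine m.norm_D_neg_le k _ hs fun j => ?_
    rw [D_smul, hI.iso σ hσ]; exact hy j

/-- **(R')**.  Let `x ≠ 0` be a point of the connected part, killed by `p`, spanning a line (over
a finite field `k` of characteristic `p` acting on `V`) on which the inertia group `I` acts through
scalars, and let `φ` be a Frobenius element (an isometry inducing `u ↦ u ^ p` on the residue field)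
such that `φ σ φ⁻¹` and `σ` act in the same way on `x` for all `σ ∈ I`.  Then every `σ ∈ I` acts on
`x` by a natural number `n`, and `σ ζ = ζ ^ n` for all `p`-th roots of unity `ζ`. -/
theorem exists_nat_smul_eq_and_zeta {I : Subgroup 𝒢} {p : ℕ} (hI : InertiaHyp (𝒢 := 𝒢) B I p)
    (hp : p.Prime) (hp2 : p ≠ 2) (hp0 : (p : B) ≠ 0) (hpB : ‖(p : B)‖ < 1)
    {k : Type*} [Field k] [Finite k] [CharP k p] [Module k V]
    {x : V} (hx0 : x ≠ 0) (hpx : p • x = 0) (hx : x ∈ m.conn)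
    (hψ : ∀ σ ∈ I, ∃ a : k, σ • x = a • x)
    (hlin : ∀ σ ∈ I, ∀ c : k, σ • (c • x) = c • (σ • x))
    {φ : 𝒢} (hφiso : ∀ z : B, ‖φ • z‖ = ‖z‖)
    (hφfrob : ∀ u : B, ‖u‖ ≤ 1 → ‖φ • u - u ^ p‖ < 1)
    (hφx : ∀ σ ∈ I, (φ * σ * φ⁻¹) • x = σ • x) :
    ∀ σ ∈ I, ∃ n : ℕ, σ • x = n • x ∧ ∀ ζ : B, ζ ^ p = 1 → σ • ζ = ζ ^ n := by
  classical
  have : Fact p.Prime := ⟨hp⟩
  have hne : Nonempty ι := by
    by_contra hne
    exact hx0 (m.eq_of_forall_h_eq fun i => (hne ⟨i⟩).elim)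
  have hp3 : 3 ≤ p := by
    have := hp.two_le
    omega
  have hpn : 0 < ‖(p : B)‖ := norm_pos_iff.mpr hp0
  -- the top value `z`
  obtain ⟨i₀, -, hi₀⟩ := Finset.exists_max_image Finset.univ (fun k => ‖m.D k x‖)
    Finset.univ_nonempty
  obtain ⟨z, hz⟩ : ∃ z, z = m.D i₀ x := ⟨_, rfl⟩
  obtain ⟨r, hr⟩ : ∃ r : ℝ, r = ‖z‖ := ⟨_, rfl⟩
  have hxr : ∀ i, ‖m.D i x‖ ≤ r := fun i => by rw [hr, hz]; exact hi₀ i (Finset.mem_univ i)
  have hr1 : r < 1 := by rw [hr, hz]; exact hx i₀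
  have hz0 : z ≠ 0 := by
    intro h0
    apply hx0
    apply m.eq_zero_of_forall_D_eq_zero
    intro i
    have := hxr i
    rw [hr, h0, norm_zero] at this
    exact norm_le_zero_iff.mp this
  have hr0 : 0 < r := by rw [hr]; exact norm_pos_iff.mpr hz0
  have hrr : r * r < r := by
    calc r * r < r * 1 := by gcongr
      _ = r := mul_one r
  -- `σ • z` is the value at `σ • x`
  have hσz : ∀ g : 𝒢, g • z = m.D i₀ (g • x) := fun g => by rw [hz, D_smul]
  -- the multiplier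
  have hu1 : ∀ σ ∈ I, ‖σ • z / z‖ = 1 := fun σ hσ => by
    rw [norm_div, hI.iso σ hσ, div_self (norm_ne_zero_iff.mpr hz0)]
  -- **S2**: the multiplier is fixed by Frobenius modulo the maximal ideal
  have hS2 : ∀ σ ∈ I, ‖(σ • z / z) ^ p - σ • z / z‖ < 1 := by
    intro σ hσ
    obtain ⟨z', hz'⟩ : ∃ z', z' = φ⁻¹ • z := ⟨_, rfl⟩
    have hφz' : φ • z' = z := by rw [hz', smul_inv_smul]
    have hz'n : ‖z'‖ = ‖z‖ := by rw [← hφz', hφiso]
    have hz'0 : z' ≠ 0 := by rw [← norm_pos_iff, hz'n, norm_pos_iff]; exact hz0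
    obtain ⟨u', hu'⟩ : ∃ u', u' = σ • z' / z' := ⟨_, rfl⟩
    have hu'n : ‖u'‖ = 1 := by
      rw [hu', norm_div, hI.iso σ hσ, div_self (norm_ne_zero_iff.mpr hz'0)]
    have h1 : σ • z = φ • u' * z := by
      have h2 : σ • z = (φ * σ * φ⁻¹) • z := by rw [hσz, hσz, hφx σ hσ]
      rw [h2, mul_smul, mul_smul, ← hz']
      have h3 : σ • z' = u' * z' := by rw [hu', div_mul_cancel₀ _ hz'0]
      rw [h3, smul_mul', hφz']
    have h4 : σ • z / z = φ • u' := by rw [h1, mul_div_cancel_right₀ _ hz0]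
    have h5 : ‖u' - σ • z / z‖ < 1 := by
      rw [hu']; exact norm_smul_div_sub_lt hI hσ hz0 hz'n
    have h6 : ‖u' ^ p - (σ • z / z) ^ p‖ < 1 :=
      (norm_pow_sub_pow_le_norm_sub hu'n.le (hu1 σ hσ).le p).trans_lt h5
    have h7 : (σ • z / z) ^ p - σ • z / z
        = -(u' ^ p - (σ • z / z) ^ p) - (φ • u' - u' ^ p) := by rw [h4]; ring
    rw [h7]
    refine (norm_sub_le_max' _ _).trans_lt (max_lt ?_ (hφfrob u' hu'n.le))
    rw [norm_neg]; exact h6
  -- **S2'**: `σ ^ p - σ` strictly lowers the values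
  have hS2' : ∀ σ ∈ I, ∀ w : B, ‖w‖ ≤ r → ‖(σ ^ p) • w - σ • w‖ < r := by
    intro σ hσ w hw
    rcases lt_or_eq_of_le hw with hlt | heq
    · refine (norm_sub_le_max' _ _).trans_lt (max_lt ?_ ?_)
      · rw [hI.iso _ (I.pow_mem hσ p)]; exact hlt
      · rw [hI.iso σ hσ]; exact hlt
    · have hw0 : w ≠ 0 := by rw [← norm_pos_iff, heq]; exact hr0
      have hwz : ‖w‖ = ‖z‖ := by rw [heq, hr]
      have hA : ‖σ • w / w - σ • z / z‖ < 1 := norm_smul_div_sub_lt hI hσ hz0 hwz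
      have hB : ‖(σ ^ p) • w / w - (σ • w / w) ^ p‖ < 1 := norm_pow_smul_div_sub_lt hI hσ hw0 p
      have huw : ‖σ • w / w‖ = 1 := by
        rw [norm_div, hI.iso σ hσ, div_self (norm_ne_zero_iff.mpr hw0)]
      have hC : ‖(σ • w / w) ^ p - (σ • z / z) ^ p‖ < 1 :=
        (norm_pow_sub_pow_le_norm_sub huw.le (hu1 σ hσ).le p).trans_lt hA
      have h1 : (σ ^ p) • w - σ • w = w * (((σ ^ p) • w / w - (σ • w / w) ^ p)
          + ((σ • w / w) ^ p - (σ • z / z) ^ p) + ((σ • z / z) ^ p - σ • z / z)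
          - (σ • w / w - σ • z / z)) := by
        field_simp
        ring
      rw [h1, norm_mul, heq]
      have h2 : ‖((σ ^ p) • w / w - (σ • w / w) ^ p)
          + ((σ • w / w) ^ p - (σ • z / z) ^ p) + ((σ • z / z) ^ p - σ • z / z)
          - (σ • w / w - σ • z / z)‖ < 1 := by
        refine (norm_sub_le_max' _ _).trans_lt (max_lt ?_ hA)
        refine (IsUltrametricDist.norm_add_le_max _ _).trans_lt (max_lt ?_ (hS2 σ hσ))
        exact (IsUltrametricDist.norm_add_le_max _ _).trans_lt (max_lt hB hC)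
      calc r * ‖_‖ < r * 1 := by gcongr
        _ = r := mul_one r
  -- the operator `β = σ ^ p - σ` strictly lowers the distance of `x` to the origin
  have hβx : ∀ σ ∈ I, ∀ i, ‖m.D i ((σ ^ p) • x - σ • x)‖ < r := by
    intro σ hσ i
    have hσp : σ ^ p ∈ I := I.pow_mem hσ p
    have h1 : ∀ j, ‖m.D j ((σ ^ p) • x)‖ ≤ r := fun j => by
      rw [D_smul, hI.iso _ hσp]; exact hxr j
    have h2 : ∀ j, ‖m.D j (σ • x)‖ ≤ r := fun j => by
      rw [D_smul, hI.iso _ hσ]; exact hxr j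
    have h3 : ∀ j, ‖m.D j (-(σ • x))‖ ≤ r := fun j => m.norm_D_neg_le j _ hr0.le h2
    have h4 := m.norm_D_add_sub_le i ((σ ^ p) • x) (-(σ • x)) hr0.le hr0.le h1 h3
    have h5 := m.norm_D_add_sub_le i (σ • x) (-(σ • x)) hr0.le hr0.le h2 h3
    rw [add_neg_cancel, D_zero, zero_sub] at h5
    have h6 : m.D i ((σ ^ p) • x - σ • x)
        = (m.D i ((σ ^ p) • x + -(σ • x)) - m.D i ((σ ^ p) • x) - m.D i (-(σ • x)))
          - (-m.D i (σ • x) - m.D i (-(σ • x)))
          + ((σ ^ p) • m.D i x - σ • m.D i x) := by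
      rw [← sub_eq_add_neg, D_smul, D_smul]; ring
    rw [h6]
    refine (IsUltrametricDist.norm_add_le_max _ _).trans_lt (max_lt ?_ (hS2' σ hσ _ (hxr i)))
    exact (norm_sub_le_max' _ _).trans_lt (max_lt (h4.trans_lt hrr) (h5.trans_lt hrr))
  -- powers of `σ` act on the line by powers of the scalar
  have hpowx : ∀ σ ∈ I, ∀ a : k, σ • x = a • x → ∀ n : ℕ, (σ ^ n) • x = a ^ n • x := by
    intro σ hσ a ha n
    induction n with
    | zero => simp
    | succ n ih =>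
      rw [pow_succ', mul_smul, ih, hlin σ hσ, ha, smul_smul, ← pow_succ]
  -- **S3**: the scalar lies in the prime field
  have hS3 : ∀ σ ∈ I, ∀ a : k, σ • x = a • x → a ^ p = a := by
    intro σ hσ a ha
    by_contra hne'
    obtain ⟨b, hb⟩ : ∃ b : k, b = a ^ p - a := ⟨_, rfl⟩
    have hb0 : b ≠ 0 := by rw [hb]; exact sub_ne_zero.mpr hne'
    have hσp : σ ^ p ∈ I := I.pow_mem hσ p
    -- the operator `β`
    obtain ⟨β, hβ⟩ : ∃ β : V → V, ∀ y, β y = (σ ^ p) • y - σ • y := ⟨fun y => _, fun y => rfl⟩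
    have hβc : ∀ c : k, β (c • x) = (b * c) • x := by
      intro c
      rw [hβ, hlin _ hσp, hlin σ hσ, hpowx σ hσ a ha p, ha, smul_smul, smul_smul, ← sub_smul, hb]
      congr 1
      ring
    have hβiter : ∀ n : ℕ, β^[n] x = b ^ n • x := by
      intro n
      induction n with
      | zero => simp
      | succ n ih =>
        rw [Function.iterate_succ_apply', ih, hβc, ← pow_succ']
    -- a bound `s < r` for `β x`
    obtain ⟨j₀, -, hj₀⟩ := Finset.exists_max_image Finset.univ (fun j => ‖m.D j (β x)‖)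
      Finset.univ_nonempty
    obtain ⟨s, hs⟩ : ∃ s : ℝ, s = ‖m.D j₀ (β x)‖ := ⟨_, rfl⟩
    have hs0 : 0 ≤ s := by rw [hs]; exact norm_nonneg _
    have hsr : s < r := by
      rw [hs, hβ]; exact hβx σ hσ j₀
    have hβmono : ∀ n : ℕ, ∀ i, ‖m.D i (β^[n + 1] x)‖ ≤ s := by
      intro n
      induction n with
      | zero =>
        intro i
        rw [hs]
        exact hj₀ i (Finset.mem_univ i)
      | succ n ih =>
        intro i
        rw [Function.iterate_succ_apply', hβ]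
        exact m.norm_D_pow_smul_sub_smul_le hI hσ p hs0 ih i
    -- `b` has finite order
    have : Fintype k := Fintype.ofFinite k
    have hbN : b ^ (Fintype.card k - 1) = 1 := FiniteField.pow_card_sub_one_eq_one b hb0
    have hN1 : Fintype.card k - 1 = (Fintype.card k - 2) + 1 := by
      have := Fintype.one_lt_card (α := k)
      omega
    have h1 := hβmono (Fintype.card k - 2) i₀
    rw [← hN1, hβiter, hbN, one_smul, ← hz, ← hr] at h1
    exact absurd h1 (not_le.mpr hsr)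
  -- every `σ ∈ I` acts by a natural number
  have hnat : ∀ σ ∈ I, ∃ n : ℕ, σ • x = n • x := by
    intro σ hσ
    obtain ⟨a, ha⟩ := hψ σ hσ
    have hap := hS3 σ hσ a ha
    have hmem : a ∈ (⊥ : Subfield k) := (Subfield.mem_bot_iff_pow_eq_self k p).mpr hap
    rw [← ZMod.fieldRange_castHom_eq_bot p] at hmem
    obtain ⟨c, hc⟩ := hmem
    refine ⟨c.val, ?_⟩
    rw [ha, ← hc, ← Nat.cast_smul_eq_nsmul k]
    congr 1
    rw [ZMod.castHom_apply, ZMod.natCast_val]
  -- multiples of `x` depend only on the class modulo `p`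
  have hmod' : ∀ a : ℕ, a • x = (a % p) • x := by
    intro a
    conv_lhs => rw [← Nat.div_add_mod a p, add_smul, mul_comm, mul_smul, hpx, smul_zero, zero_add]
  -- **S4**: the multiplier of `σ` is congruent to `n`
  have hS4 : ∀ σ ∈ I, ∀ n : ℕ, σ • x = n • x → ‖σ • z / z - n‖ < 1 := by
    intro σ hσ n hn
    have h1 : ‖σ • z - n * z‖ ≤ r * r := by
      rw [hσz, hn, hz]
      exact (m.norm_D_nsmul_sub_le x hr0.le hxr n i₀).1
    have h2 : σ • z / z - n = (σ • z - n * z) / z := by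
      field_simp
    rw [h2, norm_div, ← hr, div_lt_one hr0]
    exact h1.trans_lt hrr
  -- the values at the multiples of `x`
  have hval : ∀ a : ℕ, ¬ p ∣ a → ‖m.D i₀ (a • x)‖ = r := by
    intro a ha
    have h1 : ‖m.D i₀ (a • x) - a * z‖ ≤ r * r := by
      rw [hz]; exact (m.norm_D_nsmul_sub_le x hr0.le hxr a i₀).1
    have h2 : ‖(a : B) * z‖ = r := by
      rw [norm_mul, norm_natCast_eq_one_of_not_dvd hp hpB ha, one_mul, hr]
    have h3 : m.D i₀ (a • x) = (m.D i₀ (a • x) - a * z) + a * z := by ring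
    rw [h3, norm_add_eq_of_lt (by rw [h2]; exact h1.trans_lt hrr), h2]
  -- **S5**: `r ^ (p - 1) = ‖p‖`
  have hS5 : r ^ (p - 1) = ‖(p : B)‖ := by
    apply le_antisymm _ (m.pow_le_of_ne_zero hp hp2 hp0 hpB hx0 hpx hr0.le hxr)
    obtain ⟨PP, hPP⟩ : ∃ PP : B, PP = ∏ c : (ZMod p)ˣ, m.D i₀ ((c : ZMod p).val • x) := ⟨_, rfl⟩
    have hunit : ∀ c : (ZMod p)ˣ, ¬ p ∣ (c : ZMod p).val := by
      intro c hc
      have h1 : (((c : ZMod p).val : ℕ) : ZMod p) = 0 := (ZMod.natCast_eq_zero_iff _ _).mpr hc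
      rw [ZMod.natCast_val, ZMod.cast_id', id_eq] at h1
      exact c.ne_zero h1
    have hPPn : ‖PP‖ = r ^ (p - 1) := by
      rw [hPP, norm_prod]
      rw [Finset.prod_congr rfl fun c _ => hval _ (hunit c), Finset.prod_const, Finset.card_univ,
        ZMod.card_units_eq_totient, Nat.totient_prime hp]
    have hPPfix : ∀ τ ∈ I, τ • PP = PP := by
      intro τ hτ
      obtain ⟨n, hn⟩ := hnat τ hτ
      have hn0 : (n : ZMod p) ≠ 0 := by
        intro h0
        rw [ZMod.natCast_eq_zero_iff] at h0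
        have h1 : n • x = 0 := by
          rw [hmod' n, Nat.mod_eq_zero_of_dvd h0, zero_smul]
        rw [h1] at hn
        apply hx0
        have := congrArg (fun y => τ⁻¹ • y) hn
        simpa using this
      obtain ⟨un, hun⟩ : ∃ un : (ZMod p)ˣ, (un : ZMod p) = n := ⟨Units.mk0 _ hn0, rfl⟩
      rw [hPP, Finset.smul_prod']
      have h1 : ∀ c : (ZMod p)ˣ, τ • m.D i₀ ((c : ZMod p).val • x)
          = m.D i₀ (((c * un : (ZMod p)ˣ) : ZMod p).val • x) := by
        intro c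
        rw [← D_smul, smul_comm τ, hn, smul_smul, hmod' ((c : ZMod p).val * n),
          hmod' ((c * un : (ZMod p)ˣ) : ZMod p).val]
        congr 2
        rw [← ZMod.val_natCast, ← ZMod.val_natCast]
        congr 1
        push_cast
        rw [ZMod.natCast_val, ZMod.cast_id', id_eq, ZMod.natCast_val, ZMod.cast_id', id_eq, hun]
      rw [Finset.prod_congr rfl fun c _ => h1 c]
      exact Fintype.prod_equiv (Equiv.mulRight un) _ _ fun c => rfl
    have hPP1 : ‖PP‖ < 1 := by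
      rw [hPPn]
      exact pow_lt_one₀ hr0.le hr1 (by omega)
    have := hI.val PP hPPfix hPP1
    rwa [hPPn] at this
  -- **S6**: comparison with `ζ - 1`
  intro σ hσ
  obtain ⟨n, hn⟩ := hnat σ hσ
  refine ⟨n, hn, fun ζ hζp => ?_⟩
  by_cases hζ1 : ζ = 1
  · rw [hζ1, smul_one, one_pow]
  have hζ : IsPrimitiveRoot ζ p := isPrimitiveRoot_of_pow_eq_one hp hζp hζ1
  have hζr : ‖ζ - 1‖ = r := by
    have h1 := norm_sub_one_pow_eq (L := B) hp hζ
    rw [← hS5] at h1
    exact (pow_left_inj₀ (norm_nonneg _) hr0.le (by omega : p - 1 ≠ 0)).mp h1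
  have hζ10 : ζ - 1 ≠ 0 := sub_ne_zero.mpr hζ1
  have hσζp : (σ • ζ) ^ p = 1 := by rw [← smul_pow', hζp, smul_one]
  obtain ⟨j, -, hj⟩ := hζ.eq_pow_of_pow_eq_one hσζp
  have hζn1 : ‖ζ‖ ≤ 1 := (norm_eq_one_of_pow_eq_one hp.ne_zero hζp).le
  -- the multiplier of `ζ - 1`
  have h1 : σ • (ζ - 1) / (ζ - 1) = ∑ i ∈ Finset.range j, ζ ^ i := by
    rw [smul_sub, smul_one, ← hj, ← geom_sum_mul, mul_div_cancel_right₀ _ hζ10]
  have h2 : ‖σ • (ζ - 1) / (ζ - 1) - (j : B)‖ < 1 := by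
    have h3 : (∑ i ∈ Finset.range j, ζ ^ i) - (j : B) = ∑ i ∈ Finset.range j, (ζ ^ i - 1) := by
      rw [Finset.sum_sub_distrib, Finset.sum_const, Finset.card_range, nsmul_eq_mul, mul_one]
    rw [h1, h3]
    refine norm_sum_lt_of_forall_lt _ _ zero_lt_one fun i _ => ?_
    exact (norm_pow_sub_one_le hζn1 i).trans_lt (by rw [hζr]; exact hr1)
  have h4 : ‖σ • (ζ - 1) / (ζ - 1) - σ • z / z‖ < 1 :=
    norm_smul_div_sub_lt hI hσ hz0 (by rw [hζr, hr])
  have h5 := hS4 σ hσ n hn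
  have h6 : ‖((n : ℤ) - (j : ℤ) : ℤ) • (1 : B)‖ < 1 := by
    have h7 : (((n : ℤ) - (j : ℤ) : ℤ) • (1 : B)) = -(σ • z / z - n)
        - (σ • (ζ - 1) / (ζ - 1) - σ • z / z) + (σ • (ζ - 1) / (ζ - 1) - (j : B)) := by
      rw [zsmul_eq_mul, mul_one]; push_cast; ring
    rw [h7]
    refine (IsUltrametricDist.norm_add_le_max _ _).trans_lt (max_lt ?_ h2)
    refine (norm_sub_le_max' _ _).trans_lt (max_lt ?_ h4)
    rw [norm_neg]; exact h5
  rw [zsmul_eq_mul, mul_one] at h6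
  have h8 := dvd_of_norm_intCast_lt_one hp hpB h6
  have h9 : n % p = j % p := by
    have h10 : (j : ℤ) ≡ n [ZMOD p] := (Int.modEq_iff_dvd).mpr h8
    have h11 := (Int.natCast_modEq_iff).mp h10
    exact h11.symm
  have hpow : ∀ a : ℕ, ζ ^ a = ζ ^ (a % p) := by
    intro a
    conv_lhs => rw [← Nat.div_add_mod a p, pow_add, pow_mul, hζp, one_pow, one_mul]
  rw [← hj, hpow j, hpow n, h9]

end FunModel

end Fermat.Agent.Ram
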