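/-
F2 (flat local condition at p), reducible (ordinary) case: the abstract core of the count.

Setting: `L` an ultrametric normed field, `K₁ ≤ K₀` subfields with `K₁` unramified
(`‖x‖ < 1 → ‖x‖ ≤ ‖p‖` on `K₁`), and a finite family `σ i` of isometric ring endomorphisms of `L`
preserving `K₀`, whose product ("norm") maps `K₀` into `K₁`, of cardinality prime to `p`.
For `u ∈ K₀` whose class modulo `p`-th powers is invariant under the `σ i`: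
* `exists_lead_of_invariant` (AC1): if the class of `u` is a unit class, some `u y^p` is
  `≡ 1 + p b` with `b ∈ K₁` integral;
* `lead_unique_mod_pow` (AC2): the residue class of `b` is well defined;
* `exists_pow_eq_of_invariant` (AC3): if `u y^p ≡ 1` modulo `p 𝔪` then `u` is a `p`-th power.
-/
import Mathlib
import Fermat.Agent.Ram.UnitFilt_helper7

set_option autoImplicit false
set_option linter.unusedSectionVars false

namespace Fermat.Agent.Ram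

section OrdCore

variable {L : Type*} [NormedField L] [IsUltrametricDist L]

/-- a product of elements close to `1` is close to `1`. -/
lemma norm_prod_sub_one_lt {ι : Type*} (s : Finset ι) (a : ι → L) {r : ℝ} (hr0 : 0 < r)
    (hr : r ≤ 1) (h : ∀ i ∈ s, ‖a i - 1‖ < r) : ‖∏ i ∈ s, a i - 1‖ < r := by
  classical
  induction s using Finset.induction_on with
  | empty =>
    rw [Finset.prod_empty, sub_self, norm_zero]
    exact hr0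
  | insert j s hj ih =>
    rw [Finset.prod_insert hj]
    have h1 : a j * ∏ i ∈ s, a i - 1 = a j * (∏ i ∈ s, a i - 1) + (a j - 1) := by ring
    rw [h1]
    have haj : ‖a j - 1‖ < r := h j (Finset.mem_insert_self j s)
    have haj1 : ‖a j‖ ≤ 1 := by
      have h2 : a j = (a j - 1) + 1 := by ring
      rw [h2]
      exact norm_add_le_of_le (haj.le.trans hr) norm_one.le
    refine norm_add_lt_of_lt ?_ haj
    rw [norm_mul]
    have h3 := ih fun i hi => h i (Finset.mem_insert_of_mem hi)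
    calc ‖a j‖ * ‖∏ i ∈ s, a i - 1‖ ≤ 1 * ‖∏ i ∈ s, a i - 1‖ :=
          mul_le_mul_of_nonneg_right haj1 (norm_nonneg _)
      _ = ‖∏ i ∈ s, a i - 1‖ := one_mul _
      _ < r := h3

/-- Bezout in the form used below. -/
lemma exists_mul_eq_one_add_mul {p n : ℕ} (hpp : p.Prime) (hn : ¬ p ∣ n) :
    ∃ a t : ℕ, n * a = 1 + p * t := by
  have hcop : Nat.Coprime n p := ((Nat.Prime.coprime_iff_not_dvd hpp).mpr hn).symm
  obtain ⟨a, -, ha⟩ := Nat.exists_mul_mod_eq_one_of_coprime hcop hpp.one_lt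
  refine ⟨a, n * a / p, ?_⟩
  have h1 := Nat.div_add_mod (n * a) p
  omega

variable {p : ℕ} {K₀ K₁ : Subfield L} {ι : Type*} [Fintype ι] (σ : ι → L →+* L)

/-- the "norm" of an element whose class modulo `p`-th powers is invariant. -/
lemma exists_prod_eq_pow_mul (hσK : ∀ i, ∀ a ∈ K₀, σ i a ∈ K₀) {u y : L} (hu0 : u ≠ 0)
    (hy : y ∈ K₀) (hy0 : y ≠ 0)
    (hinv : ∀ i, ∃ y ∈ K₀, y ≠ 0 ∧ σ i u = u * y ^ p) :
    ∃ Y ∈ K₀, Y ≠ 0 ∧ ∏ i, σ i (u * y ^ p) = (u * y ^ p) ^ Fintype.card ι * Y ^ p := by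
  classical
  choose y' hy'K hy'0 hy' using hinv
  refine ⟨∏ i, (y' i * σ i y / y), K₀.prod_mem fun i _ =>
    K₀.div_mem (K₀.mul_mem (hy'K i) (hσK i y hy)) hy, ?_, ?_⟩
  · rw [Finset.prod_ne_zero_iff]
    intro i _
    have h1 : σ i y ≠ 0 := by
      intro h0
      exact hy0 ((map_eq_zero (σ i)).mp h0)
    exact div_ne_zero (mul_ne_zero (hy'0 i) h1) hy0
  · rw [← Finset.prod_pow, Fintype.card, ← Finset.prod_const, ← Finset.prod_mul_distrib]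
    refine Finset.prod_congr rfl fun i _ => ?_
    rw [map_mul, map_pow, hy' i, div_pow, mul_pow]
    have hyp0 : y ^ p ≠ 0 := pow_ne_zero p hy0
    field_simp

variable (hσn : ∀ i a, ‖σ i a‖ = ‖a‖) (hσK : ∀ i, ∀ a ∈ K₀, σ i a ∈ K₀)
  (hN : ∀ a ∈ K₀, ∏ i, σ i a ∈ K₁)

include hσn hσK hN

/-- **(AC1)** an invariant unit class contains an element `≡ 1 + p b` with `b ∈ K₁` integral. -/
theorem exists_lead_of_invariant (hpp : p.Prime) (hp : ‖(p : L)‖ < 1) (hp0 : (p : L) ≠ 0)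
    (hK : K₁ ≤ K₀) (hunr : ∀ x ∈ K₁, ‖x‖ < 1 → ‖x‖ ≤ ‖(p : L)‖)
    (hcard : ¬ p ∣ Fintype.card ι) {m : ℕ}
    (hm : ∀ a ∈ K₁, ‖a‖ ≤ 1 → ‖(a ^ m) ^ p - a‖ < 1) {u : L} (hu : u ∈ K₀) (hu0 : u ≠ 0)
    (hunit : ∃ y ∈ K₀, y ≠ 0 ∧ ‖u * y ^ p‖ = 1)
    (hinv : ∀ i, ∃ y ∈ K₀, y ≠ 0 ∧ σ i u = u * y ^ p) :
    ∃ y ∈ K₀, y ≠ 0 ∧ ∃ b ∈ K₁, ‖b‖ ≤ 1 ∧ Lead (p : L) (u * y ^ p) b := by
  classical
  obtain ⟨y₀, hy₀K, hy₀0, hy₀⟩ := hunit
  obtain ⟨Y, hYK, hY0, hprod⟩ := exists_prod_eq_pow_mul σ hσK hu0 hy₀K hy₀0 hinv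
  obtain ⟨ut, hut⟩ : ∃ ut : L, ut = u * y₀ ^ p := ⟨_, rfl⟩
  rw [← hut] at hy₀ hprod
  have hutK : ut ∈ K₀ := hut ▸ K₀.mul_mem hu (K₀.pow_mem hy₀K p)
  have hut0 : ut ≠ 0 := by
    intro h0
    rw [h0, norm_zero] at hy₀
    exact zero_ne_one hy₀
  obtain ⟨n, hn⟩ : ∃ n : ℕ, n = Fintype.card ι := ⟨_, rfl⟩
  rw [← hn] at hprod hcard
  -- the norm
  obtain ⟨v, hv⟩ : ∃ v : L, v = ∏ i, σ i ut := ⟨_, rfl⟩
  have hvK : v ∈ K₁ := hv ▸ hN ut hutK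
  have hv1 : ‖v‖ = 1 := by
    rw [hv, norm_prod]
    exact Finset.prod_eq_one fun i _ => by rw [hσn, hy₀]
  rw [← hv] at hprod
  -- the inverse Frobenius
  obtain ⟨z, hz⟩ : ∃ z : L, z = v ^ m := ⟨_, rfl⟩
  have hzK : z ∈ K₁ := hz ▸ K₁.pow_mem hvK m
  have hzv : ‖z ^ p - v‖ < 1 := hz ▸ hm v hvK hv1.le
  have hzp1 : ‖z ^ p‖ = 1 := by
    have h1 : z ^ p = v + (z ^ p - v) := by ring
    rw [h1, norm_add_eq_of_lt' (by rwa [hv1]), hv1]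
  have hz0 : z ≠ 0 := by
    intro h0
    rw [h0, zero_pow hpp.ne_zero, norm_zero] at hzp1
    exact zero_ne_one hzp1
  have hzp0 : z ^ p ≠ 0 := pow_ne_zero p hz0
  -- `v₁ = v / z^p ≡ 1`
  obtain ⟨v₁, hv₁⟩ : ∃ v₁ : L, v₁ = v / z ^ p := ⟨_, rfl⟩
  have hv₁K : v₁ ∈ K₁ := hv₁ ▸ K₁.div_mem hvK (K₁.pow_mem hzK p)
  have hv₁1 : ‖v₁ - 1‖ < 1 := by
    have h1 : v₁ - 1 = (v - z ^ p) / z ^ p := by
      rw [hv₁, sub_div, div_self hzp0]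
    rw [h1, norm_div, hzp1, div_one, norm_sub_rev]
    exact hzv
  have hv₁p : ‖v₁ - 1‖ ≤ ‖(p : L)‖ := hunr _ (K₁.sub_mem hv₁K K₁.one_mem) hv₁1
  obtain ⟨b₁, hb₁⟩ : ∃ b₁ : L, b₁ = (v₁ - 1) / (p : L) := ⟨_, rfl⟩
  have hpK : (p : L) ∈ K₁ := natCast_mem K₁ p
  have hb₁K : b₁ ∈ K₁ := hb₁ ▸ K₁.div_mem (K₁.sub_mem hv₁K K₁.one_mem) hpK
  have hppos : 0 < ‖(p : L)‖ := norm_pos_iff.mpr hp0
  have hb₁1 : ‖b₁‖ ≤ 1 := by
    rw [hb₁, norm_div]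
    exact div_le_one_of_le₀ hv₁p hppos.le
  have hlead₁ : Lead (p : L) v₁ b₁ := by
    unfold Lead
    rw [hb₁, div_mul_cancel₀ _ hp0, sub_self, norm_zero]
    exact hppos
  -- Bezout
  obtain ⟨a, t, hat⟩ := exists_mul_eq_one_add_mul hpp hcard
  have hleada := hlead₁.pow hb₁1 hp0 hp a
  -- `ut * (ut^t (Y/z)^a)^p = v₁^a`
  have hkey : ut * (ut ^ t * (Y / z) ^ a) ^ p = v₁ ^ a := by
    have h1 : v₁ = ut ^ n * (Y / z) ^ p := by
      rw [hv₁, hprod, div_pow]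
      field_simp
    have h2 : ut ^ (n * a) = ut * (ut ^ t) ^ p := by
      rw [hat, pow_add, pow_one, ← pow_mul, mul_comm t p]
    symm
    calc v₁ ^ a = (ut ^ n * (Y / z) ^ p) ^ a := by rw [h1]
      _ = ut ^ (n * a) * (Y / z) ^ (p * a) := by rw [mul_pow, ← pow_mul, ← pow_mul]
      _ = ut * (ut ^ t) ^ p * (Y / z) ^ (p * a) := by rw [h2]
      _ = ut * (ut ^ t * (Y / z) ^ a) ^ p := by ring
  refine ⟨y₀ * (ut ^ t * (Y / z) ^ a), K₀.mul_mem hy₀K (K₀.mul_mem (K₀.pow_mem hutK t)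
    (K₀.pow_mem (K₀.div_mem hYK (hK hzK)) a)), ?_, (a : L) * b₁,
    K₁.mul_mem (natCast_mem K₁ a) hb₁K, ?_, ?_⟩
  · exact mul_ne_zero hy₀0 (mul_ne_zero (pow_ne_zero t hut0)
      (pow_ne_zero a (div_ne_zero hY0 hz0)))
  · rw [norm_mul]
    exact mul_le_one₀ (IsUltrametricDist.norm_natCast_le_one L a) (norm_nonneg _) hb₁1
  · have h2 : u * (y₀ * (ut ^ t * (Y / z) ^ a)) ^ p = v₁ ^ a := by
      rw [mul_pow, ← mul_assoc, ← hut, hkey]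
    rw [h2]
    exact hleada

omit hσn hσK hN

/-- **(AC2)** the leading coefficient at the level `‖p‖` is well defined modulo the maximal ideal
(no use of the family `σ`). -/
theorem lead_unique_mod_pow (hpp : p.Prime) (hp : ‖(p : L)‖ < 1) {π : L} (hπ : IsUnif K₀ π)
    {c₀ : ℕ} (hc₀ : (‖π‖ ^ c₀) ^ (p - 1) = ‖(p : L)‖) (hpc : ¬ p ∣ c₀)
    {u y y' b b' : L} (hu0 : u ≠ 0) (hy : y ∈ K₀) (hy0 : y ≠ 0) (hy' : y' ∈ K₀)
    (hb : ‖b‖ ≤ 1) (hb' : ‖b'‖ ≤ 1) (h : Lead (p : L) (u * y ^ p) b)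
    (h' : Lead (p : L) (u * y' ^ p) b') : ‖b - b'‖ < 1 := by
  have hρ0 := hπ.pos
  have hppos : 0 < ‖(p : L)‖ := by
    rw [← hc₀]
    exact pow_pos (pow_pos hρ0 _) _
  have hp0 : (p : L) ≠ 0 := norm_pos_iff.mp hppos
  have hc₀0 : c₀ ≠ 0 := by
    rintro rfl
    exact hpc (dvd_zero p)
  have hp2 := hpp.two_le
  -- the level
  obtain ⟨j, hj⟩ : ∃ j : ℕ, j = c₀ * (p - 1) := ⟨_, rfl⟩
  have hjnorm : ‖π‖ ^ j = ‖(p : L)‖ := by rw [hj, pow_mul]; exact hc₀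
  have hjd : ¬ p ∣ j := by
    rw [hj]
    intro hd
    rcases (Nat.Prime.dvd_mul hpp).mp hd with h1 | h1
    · exact hpc h1
    · have h2 : p ≤ p - 1 := Nat.le_of_dvd (by omega) h1
      omega
  have hjc : j < p * c₀ := by
    rw [hj]
    have h1 : c₀ * (p - 1) + c₀ = p * c₀ := by
      have h3 : p = (p - 1) + 1 := by omega
      calc c₀ * (p - 1) + c₀ = ((p - 1) + 1) * c₀ := by ring
        _ = p * c₀ := by rw [← h3]
    have h2 : 0 < c₀ := Nat.pos_of_ne_zero hc₀0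
    omega
  -- the quotient
  have hup0 : u * y ^ p ≠ 0 := mul_ne_zero hu0 (pow_ne_zero p hy0)
  have hlinv := h.inv hb hp0 hp hup0
  have hl := h'.mul hlinv hb' (by rwa [norm_neg]) hp0 hp
  have hq : u * y' ^ p * (u * y ^ p)⁻¹ = (y' / y) ^ p := by
    rw [div_pow]
    field_simp
  rw [hq] at hl
  have hcoef : ‖b' + -b‖ ≤ 1 := norm_add_le_of_le hb' (by rwa [norm_neg])
  have h1 := hl.norm_sub_one_le hcoef
  rw [← hjnorm] at h1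
  have h2 := norm_pow_sub_one_lt_of_not_dvd hπ hpp hp hc₀ hjd hjc (K₀.div_mem hy' hy) h1
  rw [hjnorm] at h2
  have h3 : (b' + -b) * (p : L)
      = ((y' / y) ^ p - 1) - ((y' / y) ^ p - 1 - (b' + -b) * (p : L)) := by ring
  have h4 : ‖(b' + -b) * (p : L)‖ < ‖(p : L)‖ := by
    rw [h3]
    exact norm_sub_lt_of_lt h2 hl
  rw [norm_mul] at h4
  have h5 : ‖b' + -b‖ < 1 := by
    by_contra hcon
    have h6 : 1 * ‖(p : L)‖ ≤ ‖b' + -b‖ * ‖(p : L)‖ :=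
      mul_le_mul_of_nonneg_right (not_lt.mp hcon) hppos.le
    rw [one_mul] at h6
    exact absurd h6 (not_le.mpr h4)
  rwa [← sub_eq_add_neg, norm_sub_rev] at h5

include hσn hσK hN

/-- **(AC3)** an invariant class containing an element `≡ 1` modulo `p 𝔪` is trivial. -/
theorem exists_pow_eq_of_invariant (hpp : p.Prime) (hp : ‖(p : L)‖ < 1) (hp2 : p ≠ 2)
    (hK : K₁ ≤ K₀) (hunr : ∀ x ∈ K₁, ‖x‖ < 1 → ‖x‖ ≤ ‖(p : L)‖)
    (hcard : ¬ p ∣ Fintype.card ι) {π : L} (hπ : IsUnif K₀ π)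
    {c₀ : ℕ} (hc₀ : (‖π‖ ^ c₀) ^ (p - 1) = ‖(p : L)‖)
    (hNewton : ∀ v ∈ K₀, ‖v - 1‖ < ‖π‖ ^ (p * c₀) → ∃ y ∈ K₀, y ^ p = v)
    {u y : L} (hu : u ∈ K₀) (hu0 : u ≠ 0)
    (hinv : ∀ i, ∃ y ∈ K₀, y ≠ 0 ∧ σ i u = u * y ^ p) (hy : y ∈ K₀) (hy0 : y ≠ 0)
    (hlt : ‖u * y ^ p - 1‖ < ‖(p : L)‖) : ∃ z ∈ K₀, z ^ p = u := by
  classical
  have hρ0 := hπ.pos
  have hρ1 := hπ.lt_one
  have hppos : 0 < ‖(p : L)‖ := by
    rw [← hc₀]
    exact pow_pos (pow_pos hρ0 _) _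
  have hp0 : (p : L) ≠ 0 := norm_pos_iff.mp hppos
  have hc₀0 : c₀ ≠ 0 := by
    rintro rfl
    rw [pow_zero, one_pow] at hc₀
    rw [← hc₀] at hp
    exact lt_irrefl _ hp
  have hp3 : 3 ≤ p := by
    have := hpp.two_le
    omega
  obtain ⟨Y, hYK, hY0, hprod⟩ := exists_prod_eq_pow_mul σ hσK hu0 hy hy0 hinv
  obtain ⟨ut, hut⟩ : ∃ ut : L, ut = u * y ^ p := ⟨_, rfl⟩
  rw [← hut] at hlt hprod
  have hutK : ut ∈ K₀ := hut ▸ K₀.mul_mem hu (K₀.pow_mem hy p)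
  have hut0 : ut ≠ 0 := hut ▸ mul_ne_zero hu0 (pow_ne_zero p hy0)
  obtain ⟨n, hn⟩ : ∃ n : ℕ, n = Fintype.card ι := ⟨_, rfl⟩
  rw [← hn] at hprod hcard
  obtain ⟨v, hv⟩ : ∃ v : L, v = ∏ i, σ i ut := ⟨_, rfl⟩
  have hvK : v ∈ K₁ := hv ▸ hN ut hutK
  rw [← hv] at hprod
  have hv1 : ‖v - 1‖ < ‖(p : L)‖ := by
    rw [hv]
    refine norm_prod_sub_one_lt Finset.univ (fun i => σ i ut) hppos hp.le fun i _ => ?_
    have h1 : σ i ut - 1 = σ i (ut - 1) := by rw [map_sub, map_one]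
    rw [h1, hσn]
    exact hlt
  -- `‖v - 1‖ ≤ ‖p‖²`
  have hpK : (p : L) ∈ K₁ := natCast_mem K₁ p
  have hq1 : ‖(v - 1) / (p : L)‖ < 1 := by
    rw [norm_div, div_lt_one hppos]
    exact hv1
  have hq2 := hunr _ (K₁.div_mem (K₁.sub_mem hvK K₁.one_mem) hpK) hq1
  rw [norm_div, div_le_iff₀ hppos] at hq2
  have hlevel : ‖(p : L)‖ * ‖(p : L)‖ < ‖π‖ ^ (p * c₀) := by
    rw [← hc₀, ← pow_mul, ← pow_add]
    refine pow_lt_pow_right_of_lt_one₀ hρ0 hρ1 ?_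
    have h1 : c₀ * (p - 1) + c₀ = p * c₀ := by
      have h3 : p = (p - 1) + 1 := by omega
      calc c₀ * (p - 1) + c₀ = ((p - 1) + 1) * c₀ := by ring
        _ = p * c₀ := by rw [← h3]
    have h4 : 2 * c₀ ≤ c₀ * (p - 1) := by
      have h5 : 2 ≤ p - 1 := by omega
      calc 2 * c₀ = c₀ * 2 := by ring
        _ ≤ c₀ * (p - 1) := Nat.mul_le_mul_left c₀ h5
    have h6 : 0 < c₀ := Nat.pos_of_ne_zero hc₀0
    omega
  obtain ⟨z₁, hz₁K, hz₁⟩ := hNewton v (hK hvK) (hq2.trans_lt hlevel)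
  obtain ⟨a, t, hat⟩ := exists_mul_eq_one_add_mul hpp hcard
  have h2 : ut ^ (n * a) = ut * (ut ^ t) ^ p := by
    rw [hat, pow_add, pow_one, ← pow_mul, mul_comm t p]
  have hden0 : ut ^ t * Y ^ a * y ≠ 0 :=
    mul_ne_zero (mul_ne_zero (pow_ne_zero t hut0) (pow_ne_zero a hY0)) hy0
  refine ⟨z₁ ^ a / (ut ^ t * Y ^ a * y), K₀.div_mem (K₀.pow_mem hz₁K a)
    (K₀.mul_mem (K₀.mul_mem (K₀.pow_mem hutK t) (K₀.pow_mem hYK a)) hy), ?_⟩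
  have h3 : (z₁ ^ a) ^ p = u * (ut ^ t * Y ^ a * y) ^ p := by
    calc (z₁ ^ a) ^ p = (z₁ ^ p) ^ a := by rw [← pow_mul, ← pow_mul, mul_comm]
      _ = (ut ^ n * Y ^ p) ^ a := by rw [hz₁, hprod]
      _ = ut ^ (n * a) * Y ^ (p * a) := by rw [mul_pow, ← pow_mul, ← pow_mul]
      _ = ut * (ut ^ t) ^ p * Y ^ (p * a) := by rw [h2]
      _ = u * (ut ^ t * Y ^ a * y) ^ p := by rw [hut]; ring
  rw [div_pow, h3, mul_div_assoc, div_self (pow_ne_zero p hden0), mul_one]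

end OrdCore

end Fermat.Agent.Ram
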