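/-
Bridge between the two forms of Fontaine's property `(P_m)`:
`PropertyPm p L m` (ring homomorphisms `𝓞_L → 𝓞_E ⧸ 𝔞_E^m`, `Ram/Defs_helper7`) implies
`FontaineP L (p ^ (-m))` (approximate homomorphisms, `Ram/Sharp_helper8`).
Consequence: Fontaine's bound `r < Ufun L σ` for the field of values of a finite flat
cocommutative `ℤ_(p)`-bialgebra killed by `p` (`lt_Ufun_valueField`).
-/
import Mathlib
import Fermat.Agent.Ram.Defs_helper7
import Fermat.Agent.Ram.Sharp_helper8
import Fermat.Agent.TW.Flat_helper7_Pm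

set_option autoImplicit false
set_option linter.unusedSectionVars false

namespace Fermat.Agent.Ram

variable {p : ℕ} [Fact p.Prime]

/-- the quotient-ring form of `(P_m)` implies the approximate-homomorphism form. -/
theorem FontaineP.of_propertyPm {L : IntermediateField ℚ_[p] (PadicAlgCl p)} {m : ℝ}
    (hP : PropertyPm p L m) : FontaineP L ((p : ℝ) ^ (-m)) := by
  intro E hE η h1 hone hadd hmul
  have hmemE : ∀ x : integerRing p L, η (x : L) ∈ E := fun x => (h1 (x : L) x.2).1
  have hnorm : ∀ x : integerRing p L, ‖η (x : L)‖ ≤ 1 := fun x => (h1 (x : L) x.2).2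
  let g : integerRing p L → integerRing p E := fun x => ⟨⟨η (x : L), hmemE x⟩, hnorm x⟩
  have hg : ∀ x : integerRing p L, (((g x : integerRing p E) : E) : PadicAlgCl p) = η (x : L) :=
    fun _ => rfl
  have hzero : ‖η (0 : L)‖ ≤ (p : ℝ) ^ (-m) := by
    have := hadd 0 0 (by simp) (by simp)
    rw [add_zero] at this
    have h2 : η (0 : L) - (η 0 + η 0) = -η 0 := by ring
    rwa [h2, norm_neg] at this
  let f : integerRing p L →+* integerRing p E ⧸ idealA p E m :=
    { toFun := fun x => Ideal.Quotient.mk _ (g x)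
      map_one' := by
        rw [← map_one (Ideal.Quotient.mk (idealA p E m)), Ideal.Quotient.eq, mem_idealA]
        exact hone
      map_mul' := fun x y => by
        rw [← map_mul (Ideal.Quotient.mk (idealA p E m)), Ideal.Quotient.eq, mem_idealA]
        exact hmul (x : L) (y : L) x.2 y.2
      map_zero' := by
        rw [Ideal.Quotient.eq_zero_iff_mem, mem_idealA]
        exact hzero
      map_add' := fun x y => by
        rw [← map_add (Ideal.Quotient.mk (idealA p E m)), Ideal.Quotient.eq, mem_idealA]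
        exact hadd (x : L) (y : L) x.2 y.2 }
  exact hP E hE ⟨f⟩

/-- `FontaineBdd` gives `FontaineP L r` for every `r = p^(-m)`, `m > p/(p-1)`. -/
theorem FontaineBdd.fontaineP {L : IntermediateField ℚ_[p] (PadicAlgCl p)}
    (hL : FontaineBdd p L) {m : ℝ} (hm : (p : ℝ) / ((p : ℝ) - 1) < m) :
    FontaineP L ((p : ℝ) ^ (-m)) :=
  FontaineP.of_propertyPm (hL m hm)

/-- for `p` odd, `FontaineBdd` gives `FontaineP L (p^(-2)) = FontaineP L ‖p‖²`. -/
theorem FontaineBdd.fontaineP_two {L : IntermediateField ℚ_[p] (PadicAlgCl p)}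
    (hL : FontaineBdd p L) (hp2 : p ≠ 2) : FontaineP L ((p : ℝ) ^ (-(2 : ℝ))) := by
  refine hL.fontaineP ?_
  have hp3 : (3 : ℝ) ≤ p := by
    have h2 : 2 ≤ p := (Fact.out : p.Prime).two_le
    have : 3 ≤ p := by omega
    exact_mod_cast this
  rw [div_lt_iff₀ (by linarith)]
  linarith

end Fermat.Agent.Ram

namespace Fermat.Agent.TW.Flat

open GaloisRep Fermat.Agent.Ram WithConv

variable (p : ℕ) [Fact p.Prime]
variable {H : Type*} [CommRing H] [Bialgebra (ratLocalizedAt p) H]
  [Coalgebra.IsCocomm (ratLocalizedAt p) H] [Module.Finite (ratLocalizedAt p) H]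
  [Module.Projective (ratLocalizedAt p) H]

/-- **Fontaine's property (P) for finite flat group schemes killed by `p`**, in helper8's form. -/
theorem fontaineP_valueField [Finite (H →ₐ[ratLocalizedAt p] PadicAlgCl p)]
    (hkill : ∀ x : H →ₐ[ratLocalizedAt p] PadicAlgCl p,
      (toConv x.toLinearMap : WithConv (H →ₗ[ratLocalizedAt p] PadicAlgCl p)) ^ p = 1)
    {m : ℝ} (hm : (p : ℝ) / ((p : ℝ) - 1) < m) :
    FontaineP (valueField p H) ((p : ℝ) ^ (-m)) :=
  (fontaineBdd_valueField p hkill).fontaineP hm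

/-- **Fontaine's ramification bound**: `u_{L/ℚ_p} ≤ p/(p-1)` for the field of values `L`
(assumed finite Galois over `ℚ_p`), in the form `p^(-m) < Ufun L σ` for all `m > p/(p-1)`. -/
theorem lt_Ufun_valueField [Finite (H →ₐ[ratLocalizedAt p] PadicAlgCl p)]
    (hkill : ∀ x : H →ₐ[ratLocalizedAt p] PadicAlgCl p,
      (toConv x.toLinearMap : WithConv (H →ₗ[ratLocalizedAt p] PadicAlgCl p)) ^ p = 1)
    [FiniteDimensional ℚ_[p] (valueField p H)] [IsGalois ℚ_[p] (valueField p H)]
    {m : ℝ} (hm : (p : ℝ) / ((p : ℝ) - 1) < m)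
    (σ : valueField p H ≃ₐ[ℚ_[p]] valueField p H) (hσ : σ ≠ 1) :
    (p : ℝ) ^ (-m) < Ufun (valueField p H) σ := by
  refine lt_Ufun_of_fontaineP (valueField p H) ?_ (fontaineP_valueField p hkill hm) σ hσ
  have hp1 : (1 : ℝ) < p := one_lt_p_real p
  have hm0 : 0 < m := by
    have : (0 : ℝ) < (p : ℝ) / ((p : ℝ) - 1) := div_pos (by linarith) (by linarith)
    linarith
  exact Real.rpow_lt_one_of_one_lt_of_neg hp1 (by linarith)

end Fermat.Agent.TW.Flat
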