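/-
Ramification package (S56, leaf (4b)), part 2: ring of integers, residue field, and
Teichmueller representatives, for a complete ultrametric normed field with finite residue field.

Main result: `exists_fixed_approx` — if a group `J` acts by isometric ring automorphisms which are
trivial on the residue field, then every integer is congruent to a `J`-fixed element
(residue degree one over the fixed field).
-/
import Fermat.Agent.Ram.Basic_helper8

set_option autoImplicit false
set_option linter.unusedSectionVars false

namespace Fermat.Agent.Ram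

open Filter Topology

section Defs

variable (L : Type*) [NormedField L] [IsUltrametricDist L]

/-- The ring of integers `{x | ‖x‖ ≤ 1}`. -/
def intRing : Subring L where
  carrier := {x | ‖x‖ ≤ 1}
  mul_mem' := fun {a b} ha hb => by
    simp only [Set.mem_ofPred_eq] at *
    rw [norm_mul]; exact mul_le_one₀ ha (norm_nonneg _) hb
  one_mem' := by simp
  add_mem' := fun {a b} ha hb => norm_add_le_of_le ha hb
  zero_mem' := by simp
  neg_mem' := fun {a} ha => by simpa using ha

variable {L}

lemma mem_intRing {x : L} : x ∈ intRing L ↔ ‖x‖ ≤ 1 := Iff.rfl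

lemma norm_intRing_le (x : intRing L) : ‖(x : L)‖ ≤ 1 := x.2

variable (L)

/-- The maximal ideal `{x | ‖x‖ < 1}` of the ring of integers. -/
def maxId : Ideal (intRing L) where
  carrier := {x | ‖(x : L)‖ < 1}
  add_mem' := fun {a b} ha hb => by
    simp only [Set.mem_ofPred_eq, Subring.coe_add] at *
    exact norm_add_lt_of_lt ha hb
  zero_mem' := by simp
  smul_mem' := fun c x hx => by
    simp only [Set.mem_ofPred_eq, smul_eq_mul, Subring.coe_mul, norm_mul] at *
    calc ‖(c : L)‖ * ‖(x : L)‖ ≤ 1 * ‖(x : L)‖ := by gcongr; exact c.2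
      _ < 1 := by rw [one_mul]; exact hx

variable {L}

lemma mem_maxId {x : intRing L} : x ∈ maxId L ↔ ‖(x : L)‖ < 1 := Iff.rfl

instance maxId_isMaximal : (maxId L).IsMaximal := by
  rw [Ideal.isMaximal_iff]
  refine ⟨by simp [mem_maxId], fun J x _ hx hxJ => ?_⟩
  have hx1 : ‖(x : L)‖ = 1 := le_antisymm x.2 (not_lt.mp hx)
  have hx0 : (x : L) ≠ 0 := by
    intro h; rw [h, norm_zero] at hx1; exact zero_ne_one hx1
  have hinv : (x : L)⁻¹ ∈ intRing L := by
    rw [mem_intRing, norm_inv, hx1, inv_one]
  have : (1 : intRing L) = ⟨(x : L)⁻¹, hinv⟩ * x := by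
    ext; simp [inv_mul_cancel₀ hx0]
  rw [this]
  exact J.mul_mem_left _ hxJ

variable (L)

/-- The residue field. -/
abbrev Res : Type _ := intRing L ⧸ maxId L

noncomputable instance : Field (Res L) := Ideal.Quotient.field _

/-- The residue map. -/
def res : intRing L →+* Res L := Ideal.Quotient.mk _

variable {L}

lemma res_surjective : Function.Surjective (res L) := Ideal.Quotient.mk_surjective

lemma res_eq_iff {a b : intRing L} : res L a = res L b ↔ ‖(a : L) - b‖ < 1 := by
  rw [res, Ideal.Quotient.eq, mem_maxId]; rfl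

lemma res_eq_zero_iff {a : intRing L} : res L a = 0 ↔ ‖(a : L)‖ < 1 := by
  rw [res, Ideal.Quotient.eq_zero_iff_mem, mem_maxId]

lemma res_ne_zero_iff {a : intRing L} : res L a ≠ 0 ↔ ‖(a : L)‖ = 1 := by
  rw [Ne, res_eq_zero_iff, not_lt]
  exact ⟨fun h => le_antisymm a.2 h, fun h => h.ge⟩

end Defs

/-! ### Isometric actions -/

section Action

variable {L : Type*} [NormedField L] [IsUltrametricDist L]
variable {G : Type*} [Group G] [MulSemiringAction G L] [IsIsometricSMul G L]

lemma norm_smul_eq (g : G) (x : L) : ‖g • x‖ = ‖x‖ := by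
  have := dist_smul g x 0
  rwa [smul_zero, dist_zero_right, dist_zero_right] at this

/-- The action on the ring of integers. -/
def smulInt (g : G) (a : intRing L) : intRing L :=
  ⟨g • (a : L), by rw [mem_intRing, norm_smul_eq]; exact a.2⟩

@[simp] lemma coe_smulInt (g : G) (a : intRing L) : ((smulInt g a : intRing L) : L) = g • (a : L) :=
  rfl

/-- The ring endomorphism of the ring of integers given by `g`. -/
def smulIntHom (g : G) : intRing L →+* intRing L where
  toFun := smulInt g
  map_one' := by ext; simp
  map_mul' := fun a b => by ext; simp [smul_mul']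
  map_zero' := by ext; simp
  map_add' := fun a b => by ext; simp [smul_add]

@[simp] lemma coe_smulIntHom (g : G) (a : intRing L) :
    ((smulIntHom g a : intRing L) : L) = g • (a : L) := rfl

/-- The induced endomorphism of the residue field. -/
noncomputable def resHom (g : G) : Res L →+* Res L :=
  Ideal.quotientMap (maxId L) (smulIntHom g) (by
    intro a ha
    rw [Ideal.mem_comap, mem_maxId, coe_smulIntHom, norm_smul_eq]
    exact ha)

@[simp] lemma resHom_res (g : G) (a : intRing L) : resHom g (res L a) = res L (smulInt g a) := by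
  simp [resHom, res, smulIntHom]

lemma resHom_eq_id_iff (g : G) :
    resHom (L := L) g = RingHom.id _ ↔ ∀ a : L, ‖a‖ ≤ 1 → ‖g • a - a‖ < 1 := by
  constructor
  · intro h a ha
    have := RingHom.congr_fun h (res L ⟨a, ha⟩)
    rw [resHom_res, RingHom.id_apply, res_eq_iff] at this
    exact this
  · intro h
    refine RingHom.ext fun x => ?_
    obtain ⟨a, rfl⟩ := res_surjective x
    rw [resHom_res, RingHom.id_apply, res_eq_iff]
    exact h a a.2

lemma resHom_mul (g h : G) : resHom (L := L) (g * h) = (resHom g).comp (resHom h) := by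
  refine RingHom.ext fun x => ?_
  obtain ⟨a, rfl⟩ := res_surjective x
  simp only [resHom_res, RingHom.comp_apply]
  congr 1
  ext
  simp [mul_smul]

lemma resHom_one : resHom (L := L) (1 : G) = RingHom.id _ := by
  refine RingHom.ext fun x => ?_
  obtain ⟨a, rfl⟩ := res_surjective x
  simp only [resHom_res, RingHom.id_apply]
  congr 1
  ext
  simp

/-- The fixed field of an isometric action is closed. -/
lemma isClosed_fixedPoints : IsClosed ((FixedPoints.subfield G L : Subfield L) : Set L) := by
  have : ((FixedPoints.subfield G L : Subfield L) : Set L) = ⋂ g : G, {x : L | g • x = x} := by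
    ext x
    simp only [SetLike.mem_coe, Set.mem_iInter, Set.mem_ofPred_eq]
    exact Iff.rfl
  rw [this]
  exact isClosed_iInter fun g => isClosed_eq (continuous_const_smul g) continuous_id

end Action

/-! ### Teichmueller representatives -/

section Teich

variable {L : Type*} [NormedField L] [IsUltrametricDist L]

/-- The key congruence: if `x ≡ y` and `n ≡ 0` in the residue field then
`‖x ^ n - y ^ n‖ ≤ ρ * ‖x - y‖`, where `ρ < 1` bounds the norms of the maximal ideal. -/
lemma norm_pow_sub_pow_le {ρ : ℝ} (hρ : ∀ x : L, ‖x‖ < 1 → ‖x‖ ≤ ρ) (x y : intRing L)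
    (h : res L x = res L y) (n : ℕ) (hn : (n : Res L) = 0) :
    ‖(x : L) ^ n - (y : L) ^ n‖ ≤ ρ * ‖(x : L) - y‖ := by
  have hgeom : (∑ i ∈ Finset.range n, (x : L) ^ i * (y : L) ^ (n - 1 - i)) * ((x : L) - y)
      = (x : L) ^ n - (y : L) ^ n := geom_sum₂_mul _ _ n
  rw [← hgeom, norm_mul]
  gcongr
  -- the geometric sum is in the maximal ideal
  set s : intRing L := ∑ i ∈ Finset.range n, x ^ i * y ^ (n - 1 - i) with hs
  have hs' : (s : L) = ∑ i ∈ Finset.range n, (x : L) ^ i * (y : L) ^ (n - 1 - i) := by
    simp [hs]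
  rw [← hs']
  apply hρ
  rw [← res_eq_zero_iff, hs, map_sum]
  have : ∀ i ∈ Finset.range n, res L (x ^ i * y ^ (n - 1 - i)) = res L y ^ (n - 1) := by
    intro i hi
    rw [map_mul, map_pow, map_pow, h, ← pow_add]
    congr 1
    have := Finset.mem_range.mp hi
    omega
  rw [Finset.sum_congr rfl this, Finset.sum_const, Finset.card_range, nsmul_eq_mul, hn, zero_mul]

variable [CompleteSpace L] [Finite (Res L)]
variable {J : Type*} [Group J] [MulSemiringAction J L] [IsIsometricSMul J L]

/-- **Residue degree one over the fixed field.**  If `J` acts trivially on the residue field then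
every integer is congruent to a `J`-fixed element. -/
theorem exists_fixed_approx {ρ : ℝ} (hρ1 : ρ < 1) (hρ : ∀ x : L, ‖x‖ < 1 → ‖x‖ ≤ ρ)
    (htriv : ∀ (σ : J) (a : L), ‖a‖ ≤ 1 → ‖σ • a - a‖ < 1) {a : L} (ha : ‖a‖ ≤ 1) :
    ∃ b ∈ FixedPoints.subfield J L, ‖a - b‖ < 1 := by
  classical
  have : Fintype (Res L) := Fintype.ofFinite _
  set q := Fintype.card (Res L) with hq
  have hρ0 : 0 ≤ ρ := (norm_nonneg (0 : L)).trans (hρ 0 (by simp))
  have hq0 : ((q : ℕ) : Res L) = 0 := by rw [hq]; exact Nat.cast_card_eq_zero (Res L)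
  set a' : intRing L := ⟨a, ha⟩ with ha'
  -- the Teichmueller sequence
  set t : ℕ → intRing L := fun k => a' ^ (q ^ k) with ht
  have ht_succ : ∀ k, t (k + 1) = t k ^ q := fun k => by
    simp only [ht, pow_succ, pow_mul]
  have hres_t : ∀ k, res L (t k) = res L a' := by
    intro k
    induction k with
    | zero => simp [ht]
    | succ k ih => rw [ht_succ, map_pow, ih, hq, FiniteField.pow_card]
  have hstep : ∀ k, ‖((t (k + 1) : intRing L) : L) - t k‖ ≤ ρ ^ (k + 1) := by
    intro k
    induction k with
    | zero =>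
      rw [zero_add, pow_one]
      apply hρ
      rw [← res_eq_iff, hres_t, hres_t]
    | succ k ih =>
      have e1 : ((t (k + 1 + 1) : intRing L) : L) = ((t (k + 1) : intRing L) : L) ^ q := by
        rw [ht_succ (k + 1), Subring.coe_pow]
      have e2 : ((t (k + 1) : intRing L) : L) = ((t k : intRing L) : L) ^ q := by
        rw [ht_succ k, Subring.coe_pow]
      have := norm_pow_sub_pow_le hρ (t (k + 1)) (t k) (by rw [hres_t, hres_t]) q hq0
      have e3 : ((t (k + 1 + 1) : intRing L) : L) - t (k + 1)
          = ((t (k + 1) : intRing L) : L) ^ q - ((t k : intRing L) : L) ^ q := by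
        rw [e1, ← e2]
      rw [e3]
      refine this.trans ?_
      rw [pow_succ' ρ (k + 1)]
      gcongr
  have hpow0 : Tendsto (fun k : ℕ => ρ ^ (k + 1)) atTop (𝓝 0) :=
    (tendsto_pow_atTop_nhds_zero_of_lt_one hρ0 hρ1).comp (tendsto_add_atTop_nat 1)
  have hcauchy : CauchySeq (fun k => ((t k : intRing L) : L)) := by
    apply NonarchimedeanAddGroup.cauchySeq_of_tendsto_sub_nhds_zero
    exact squeeze_zero_norm hstep hpow0
  obtain ⟨ω, hω⟩ := cauchySeq_tendsto_of_complete hcauchy
  -- `ω ≡ a`
  have hclose : ∀ k, ‖((t k : intRing L) : L) - a‖ ≤ ρ := by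
    intro k
    induction k with
    | zero => simp [ht, ha', hρ0]
    | succ k ih =>
      have : ((t (k + 1) : intRing L) : L) - a = (((t (k + 1) : intRing L) : L) - t k)
          + (((t k : intRing L) : L) - a) := by ring
      rw [this]
      refine norm_add_le_of_le ((hstep k).trans ?_) ih
      exact pow_le_of_le_one hρ0 hρ1.le (Nat.succ_ne_zero k)
  have hωa : ‖ω - a‖ ≤ ρ := by
    have h1 : Tendsto (fun k => ((t k : intRing L) : L) - a) atTop (𝓝 (ω - a)) :=
      hω.sub tendsto_const_nhds
    have h2 := (continuous_norm.tendsto _).comp h1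
    exact le_of_tendsto h2 (Filter.Eventually.of_forall hclose)
  refine ⟨ω, ?_, ?_⟩
  · -- `ω` is fixed
    intro σ
    have hσres : res L (smulInt σ a') = res L a' := by
      rw [res_eq_iff]; exact htriv σ a ha
    have hdiff : ∀ k, ‖σ • ((t k : intRing L) : L) - t k‖ ≤ ρ ^ k := by
      intro k
      induction k with
      | zero =>
        simp only [pow_zero]
        exact (htriv σ _ (t 0).2).le
      | succ k ih =>
        have e2 : ((t (k + 1) : intRing L) : L) = ((t k : intRing L) : L) ^ q := by
          rw [ht_succ k, Subring.coe_pow]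
        rw [e2, smul_pow']
        have hres : res L (smulInt σ (t k)) = res L (t k) := by
          rw [res_eq_iff]; exact htriv σ _ (t k).2
        have := norm_pow_sub_pow_le hρ (smulInt σ (t k)) (t k) hres q hq0
        simp only [coe_smulInt] at this
        refine this.trans ?_
        rw [pow_succ' ρ k]
        gcongr
    have h1 : Tendsto (fun k => σ • ((t k : intRing L) : L) - t k) atTop (𝓝 (σ • ω - ω)) :=
      ((continuous_const_smul σ).tendsto ω |>.comp hω).sub hω
    have h2 : Tendsto (fun k => σ • ((t k : intRing L) : L) - t k) atTop (𝓝 0) :=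
      squeeze_zero_norm hdiff (tendsto_pow_atTop_nhds_zero_of_lt_one hρ0 hρ1)
    have := tendsto_nhds_unique h1 h2
    exact sub_eq_zero.mp this
  · rw [← norm_neg, neg_sub]
    exact hωa.trans_lt hρ1

end Teich

end Fermat.Agent.Ram
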