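/-
Ramification package (S56, leaf (4b)), part 3: the totally ramified setting.

A finite group `J` acts on a complete discretely valued ultrametric normed field `L` (finite
residue field) by isometries which are trivial on the residue field.  Then, with
`K₀ = L ^ J`, every integer of an intermediate field `M` is a polynomial in a uniformizer of `M`
with coefficients in `𝒪_{K₀}`, and consequently `‖σ a - a‖ ≤ ‖σ π - π‖` for all integers `a`.
-/
import Fermat.Agent.Ram.Residue_helper8

set_option autoImplicit false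
set_option linter.unusedSectionVars false

namespace Fermat.Agent.Ram

open Filter Topology Polynomial

instance isIsometricSMul_subgroup {L : Type*} [NormedField L] {G : Type*} [Group G]
    [MulSemiringAction G L] [IsIsometricSMul G L] (H : Subgroup G) : IsIsometricSMul H L :=
  ⟨fun h => isometry_smul L (h : G)⟩

section NormElt

variable {L : Type*} [NormedField L] [IsUltrametricDist L]
variable {J : Type*} [Group J] [Fintype J] [MulSemiringAction J L] [IsIsometricSMul J L]

/-- The norm element `∏ σ, σ • x`. -/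
noncomputable def normElt (J : Type*) [Group J] [Fintype J] [MulSemiringAction J L] (x : L) : L :=
  ∏ σ : J, σ • x

lemma normElt_mem (x : L) : normElt J x ∈ FixedPoints.subfield J L := by
  intro τ
  rw [normElt, Finset.smul_prod']
  simp only [smul_smul]
  exact Fintype.prod_equiv (Equiv.mulLeft τ) _ _ (fun σ => rfl)

lemma norm_normElt (x : L) : ‖normElt J x‖ = ‖x‖ ^ Fintype.card J := by
  rw [normElt, norm_prod]
  simp only [norm_smul_eq]
  rw [Finset.prod_const, Finset.card_univ]

end NormElt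

section TR

variable {L : Type*} [NormedField L] [IsUltrametricDist L] [CompleteSpace L] [Finite (Res L)]
variable {J : Type*} [Group J] [Fintype J] [MulSemiringAction J L] [IsIsometricSMul J L]

/-- **Structure theorem in the totally ramified setting**: integers of an intermediate field
`M ⊇ L ^ J` are `𝒪_{K₀}`-combinations of powers of a uniformizer of `M`. -/
theorem TR.exists_repr {α : L} (hα : IsUnif (⊤ : Subfield L) α)
    (htriv : ∀ (σ : J) (a : L), ‖a‖ ≤ 1 → ‖σ • a - a‖ < 1)
    (M : Subfield L) (hM : FixedPoints.subfield J L ≤ M) {π : L} (hπ : IsUnif M π)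
    {a : L} (ha : a ∈ M) (ha1 : ‖a‖ ≤ 1) :
    ∃ b : ℕ → L, (∀ i, b i ∈ FixedPoints.subfield J L ∧ ‖b i‖ ≤ 1) ∧
      a = ∑ i ∈ Finset.range (Fintype.card J), b i * π ^ i := by
  have hρ : ∀ x : L, ‖x‖ < 1 → ‖x‖ ≤ ‖α‖ := fun x hx => hα.le x (Subfield.mem_top x) hx
  have hcard : 0 < Fintype.card J := Fintype.card_pos
  refine Fermat.Agent.Ram.exists_repr (FixedPoints.subfield J L) M hM isClosed_fixedPoints hπ
    (normElt_mem (J := J) π) ?_ (norm_normElt π) ?_ ha ha1
  · rw [norm_normElt]
    exact pow_lt_one₀ (norm_nonneg _) hπ.lt_one hcard.ne'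
  · intro a _ ha1
    exact exists_fixed_approx hα.lt_one hρ htriv ha1

/-- Polynomial form of the structure theorem. -/
theorem TR.exists_poly {α : L} (hα : IsUnif (⊤ : Subfield L) α)
    (htriv : ∀ (σ : J) (a : L), ‖a‖ ≤ 1 → ‖σ • a - a‖ < 1)
    (M : Subfield L) (hM : FixedPoints.subfield J L ≤ M) {π : L} (hπ : IsUnif M π)
    {a : L} (ha : a ∈ M) (ha1 : ‖a‖ ≤ 1) :
    ∃ g : L[X], (∀ n, g.coeff n ∈ FixedPoints.subfield J L ∧ ‖g.coeff n‖ ≤ 1) ∧
      g.natDegree < Fintype.card J ∧ g.eval π = a := by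
  obtain ⟨b, hb, hrep⟩ := TR.exists_repr hα htriv M hM hπ ha ha1
  refine ⟨∑ i ∈ Finset.range (Fintype.card J), C (b i) * X ^ i, fun n => ?_, ?_, ?_⟩
  · rw [finsetSum_coeff]
    simp only [coeff_C_mul, coeff_X_pow]
    by_cases hn : n ∈ Finset.range (Fintype.card J)
    · rw [Finset.sum_eq_single n]
      · simpa using hb n
      · intro i _ hi
        simp [Ne.symm hi]
      · intro h; exact absurd hn h
    · rw [Finset.sum_eq_zero]
      · exact ⟨Subfield.zero_mem _, by simp⟩
      · intro i hi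
        have : n ≠ i := fun h => hn (h ▸ hi)
        simp [this]
  · have hcard : 0 < Fintype.card J := Fintype.card_pos
    rw [Nat.lt_iff_le_pred hcard]
    apply natDegree_sum_le_of_forall_le
    intro i hi
    refine (natDegree_C_mul_X_pow_le _ _).trans ?_
    have := Finset.mem_range.mp hi
    omega
  · rw [eval_finsetSum, hrep]
    simp

/-- In the totally ramified setting, `σ` moves every integer of `M` at most as much as it moves a
uniformizer of `M`. -/
theorem TR.norm_smul_sub_le {α : L} (hα : IsUnif (⊤ : Subfield L) α)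
    (htriv : ∀ (σ : J) (a : L), ‖a‖ ≤ 1 → ‖σ • a - a‖ < 1)
    (M : Subfield L) (hM : FixedPoints.subfield J L ≤ M) {π : L} (hπ : IsUnif M π)
    (σ : J) {a : L} (ha : a ∈ M) (ha1 : ‖a‖ ≤ 1) :
    ‖σ • a - a‖ ≤ ‖σ • π - π‖ := by
  obtain ⟨b, hb, hrep⟩ := TR.exists_repr hα htriv M hM hπ ha ha1
  have hπ1 : ‖π‖ ≤ 1 := hπ.lt_one.le
  have hσπ1 : ‖σ • π‖ ≤ 1 := by rw [norm_smul_eq]; exact hπ1
  have key : σ • a - a = ∑ i ∈ Finset.range (Fintype.card J),
      b i * ((σ • π - π) * ∑ j ∈ Finset.range i, (σ • π) ^ j * π ^ (i - 1 - j)) := by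
    rw [hrep, Finset.smul_sum, ← Finset.sum_sub_distrib]
    apply Finset.sum_congr rfl
    intro i _
    rw [smul_mul', smul_pow', (hb i).1 σ, mul_comm (σ • π - π), geom_sum₂_mul]
    ring
  rw [key]
  apply IsUltrametricDist.norm_sum_le_of_forall_le_of_nonneg (norm_nonneg _)
  intro i _
  rw [norm_mul, norm_mul]
  have h1 : ‖∑ j ∈ Finset.range i, (σ • π) ^ j * π ^ (i - 1 - j)‖ ≤ 1 := by
    apply IsUltrametricDist.norm_sum_le_of_forall_le_of_nonneg zero_le_one
    intro j _
    rw [norm_mul, norm_pow, norm_pow]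
    exact mul_le_one₀ (pow_le_one₀ (norm_nonneg _) hσπ1) (pow_nonneg (norm_nonneg _) _)
      (pow_le_one₀ (norm_nonneg _) hπ1)
  calc ‖b i‖ * (‖σ • π - π‖ * ‖∑ j ∈ Finset.range i, (σ • π) ^ j * π ^ (i - 1 - j)‖)
      ≤ 1 * (‖σ • π - π‖ * 1) := by
        gcongr
        exact (hb i).2
    _ = ‖σ • π - π‖ := by ring

/-- A `J`-element fixing a uniformizer of `L` fixes everything. -/
theorem TR.smul_eq_of_smul_unif {α : L} (hα : IsUnif (⊤ : Subfield L) α)
    (htriv : ∀ (σ : J) (a : L), ‖a‖ ≤ 1 → ‖σ • a - a‖ < 1) (σ : J) (hσ : σ • α = α) (x : L) :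
    σ • x = x := by
  have hint : ∀ a : L, ‖a‖ ≤ 1 → σ • a = a := by
    intro a ha
    have := TR.norm_smul_sub_le hα htriv ⊤ le_top hα σ (Subfield.mem_top a) ha
    rw [hσ, sub_self, norm_zero] at this
    exact sub_eq_zero.mp (norm_le_zero_iff.mp this)
  by_cases hx : ‖x‖ ≤ 1
  · exact hint x hx
  · push Not at hx
    have hx0 : x ≠ 0 := by
      intro h; rw [h, norm_zero] at hx; linarith
    have hinv : ‖x⁻¹‖ ≤ 1 := by
      rw [norm_inv]; exact inv_le_one_of_one_le₀ hx.le
    have := hint x⁻¹ hinv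
    rw [smul_inv'' ] at this
    exact inv_injective this

theorem TR.eq_one_of_smul_unif [FaithfulSMul J L] {α : L} (hα : IsUnif (⊤ : Subfield L) α)
    (htriv : ∀ (σ : J) (a : L), ‖a‖ ≤ 1 → ‖σ • a - a‖ < 1) (σ : J) (hσ : σ • α = α) : σ = 1 := by
  apply FaithfulSMul.eq_of_smul_eq_smul (α := L)
  intro x
  rw [one_smul]
  exact TR.smul_eq_of_smul_unif hα htriv σ hσ x

end TR

end Fermat.Agent.Ram
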