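/-
Ramification package (S56, leaf (4b)), part 4: the bad constant.

`H` acts on `L` (totally ramified setting) and all nontrivial elements of `H` move the
uniformizer `α` by the same amount `ρ₀` (`H` = last ramification group).  Then there is a constant
`c ∈ L ^ H` of norm `ρ₀ ^ |H|` such that `∏ τ : H, (X - τ α) - c` has no root in `L`.
The proof: the leading coefficient map `ξ ↦ ∏ τ, (ξ - d τ)` on the finite residue field has at
least two zeros, hence is not injective, hence not surjective.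
-/
import Fermat.Agent.Ram.TotRam_helper8

set_option autoImplicit false
set_option linter.unusedSectionVars false

namespace Fermat.Agent.Ram

open Filter Topology Polynomial

section BadConst

variable {L : Type*} [NormedField L] [IsUltrametricDist L] [CompleteSpace L] [Finite (Res L)]
variable {H : Type*} [Group H] [Fintype H] [MulSemiringAction H L] [IsIsometricSMul H L]

theorem exists_bad_const {α : L} (hα : IsUnif (⊤ : Subfield L) α)
    (htriv : ∀ (σ : H) (a : L), ‖a‖ ≤ 1 → ‖σ • a - a‖ < 1) {ρ₀ : ℝ} (hρ₀ : 0 < ρ₀)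
    (hH : ∀ τ : H, τ ≠ 1 → ‖τ • α - α‖ = ρ₀) (hnt : ∃ τ : H, τ ≠ 1) :
    ∃ c ∈ FixedPoints.subfield H L, ‖c‖ = ρ₀ ^ Fintype.card H ∧
      ∀ β : L, ∏ τ : H, (β - τ • α) ≠ c := by
  classical
  obtain ⟨τ₀, hτ₀⟩ := hnt
  have hα0 : α ≠ 0 := hα.ne_zero
  have hα1 : ‖α‖ ≤ 1 := hα.lt_one.le
  have hρ : ∀ x : L, ‖x‖ < 1 → ‖x‖ ≤ ‖α‖ := fun x hx => hα.le x (Subfield.mem_top x) hx
  -- ρ₀ = ‖α‖ ^ n₀
  have hx₀ : ‖τ₀ • α - α‖ = ρ₀ := hH τ₀ hτ₀
  have hx₀0 : τ₀ • α - α ≠ 0 := by
    rw [← norm_pos_iff, hx₀]; exact hρ₀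
  obtain ⟨n₀, hn₀⟩ := hα.exists_pow (Subfield.mem_top _) hx₀0 (htriv τ₀ α hα1).le
  rw [hx₀] at hn₀
  have hαn0 : α ^ n₀ ≠ 0 := pow_ne_zero _ hα0
  have hnormαn : ‖α ^ n₀‖ = ρ₀ := by rw [norm_pow, hn₀]
  -- the elements d τ
  set d : H → L := fun τ => (τ • α - α) / α ^ n₀ with hd
  have hd1 : d 1 = 0 := by simp [hd]
  have hdnorm : ∀ τ : H, τ ≠ 1 → ‖d τ‖ = 1 := by
    intro τ hτ
    rw [hd]
    simp only
    rw [norm_div, hH τ hτ, hnormαn, div_self hρ₀.ne']
  have hdle : ∀ τ : H, ‖d τ‖ ≤ 1 := by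
    intro τ
    by_cases hτ : τ = 1
    · rw [hτ, hd1, norm_zero]; exact zero_le_one
    · exact (hdnorm τ hτ).le
  set d' : H → intRing L := fun τ => ⟨d τ, hdle τ⟩ with hd'
  -- the residue polynomial function
  set ell : Res L → Res L := fun ξ => ∏ τ : H, (ξ - res L (d' τ)) with hell
  have hell0 : ell 0 = 0 := by
    rw [hell]
    apply Finset.prod_eq_zero (Finset.mem_univ (1 : H))
    have : d' 1 = 0 := by ext; simp [hd', hd1]
    rw [this, map_zero, sub_zero]
  have hell1 : ell (res L (d' τ₀)) = 0 := by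
    rw [hell]
    exact Finset.prod_eq_zero (Finset.mem_univ τ₀) (sub_self _)
  have hne : res L (d' τ₀) ≠ 0 := by
    rw [res_ne_zero_iff]; exact hdnorm τ₀ hτ₀
  have hninj : ¬ Function.Injective ell := by
    intro hinj
    exact hne (hinj (hell1.trans hell0.symm))
  have hnsurj : ¬ Function.Surjective ell := fun hs => hninj (Finite.injective_iff_surjective.mpr hs)
  obtain ⟨cb, hcb⟩ : ∃ cb, ∀ ξ, ell ξ ≠ cb := by
    by_contra hcon
    push Not at hcon
    exact hnsurj hcon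
  have hcb0 : cb ≠ 0 := fun h => hcb 0 (hell0.trans h.symm)
  -- the unit w
  set N : L := normElt H α with hN
  have hNmem : N ∈ FixedPoints.subfield H L := normElt_mem α
  have hNnorm : ‖N‖ = ‖α‖ ^ Fintype.card H := norm_normElt α
  set w : L := N / α ^ Fintype.card H with hw
  have hwnorm : ‖w‖ = 1 := by
    rw [hw, norm_div, hNnorm, norm_pow, div_self]
    exact pow_ne_zero _ (norm_ne_zero_iff.mpr hα0)
  set w' : intRing L := ⟨w, hwnorm.le⟩ with hw'
  have hw'res : res L w' ≠ 0 := by rw [res_ne_zero_iff]; exact hwnorm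
  -- the element t
  obtain ⟨a₁, ha₁⟩ := res_surjective (L := L) (cb / (res L w') ^ n₀)
  obtain ⟨t, htmem, hta⟩ := exists_fixed_approx (J := H) hα.lt_one hρ htriv a₁.2
  have ht1 : ‖t‖ ≤ 1 := by
    have : t = (a₁ : L) - ((a₁ : L) - t) := by ring
    rw [this]
    exact norm_sub_le_of_le a₁.2 hta.le
  set t' : intRing L := ⟨t, ht1⟩ with ht'
  have ht'res : res L t' = cb / (res L w') ^ n₀ := by
    rw [← ha₁, eq_comm, res_eq_iff]
    exact hta
  have ht'ne : res L t' ≠ 0 := by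
    rw [ht'res]
    exact div_ne_zero hcb0 (pow_ne_zero _ hw'res)
  have htnorm : ‖t‖ = 1 := res_ne_zero_iff.mp ht'ne
  have hprodres : res L (t' * w' ^ n₀) = cb := by
    rw [map_mul, map_pow, ht'res, div_mul_cancel₀ _ (pow_ne_zero _ hw'res)]
  -- the constant
  refine ⟨t * N ^ n₀, Subfield.mul_mem _ htmem (Subfield.pow_mem _ hNmem _), ?_, ?_⟩
  · rw [norm_mul, htnorm, one_mul, norm_pow, hNnorm, ← pow_mul, mul_comm, pow_mul, ← hn₀]
  · intro β hβ
    -- first: ‖β - α‖ ≤ ρ₀
    have hcnorm : ‖t * N ^ n₀‖ = ρ₀ ^ Fintype.card H := by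
      rw [norm_mul, htnorm, one_mul, norm_pow, hNnorm, ← pow_mul, mul_comm, pow_mul, ← hn₀]
    have hmove : ∀ τ : H, ‖α - τ • α‖ ≤ ρ₀ := by
      intro τ
      by_cases hτ : τ = 1
      · rw [hτ, one_smul, sub_self, norm_zero]; exact hρ₀.le
      · rw [← norm_neg, neg_sub, hH τ hτ]
    have hβα : ‖β - α‖ ≤ ρ₀ := by
      by_contra hcon
      rw [not_le] at hcon
      have hall : ∀ τ : H, ‖β - τ • α‖ = ‖β - α‖ := by
        intro τ
        have : β - τ • α = (β - α) + (α - τ • α) := by ring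
        rw [this]
        exact norm_add_eq_of_lt' ((hmove τ).trans_lt hcon)
      have h1 : ‖∏ τ : H, (β - τ • α)‖ = ‖β - α‖ ^ Fintype.card H := by
        rw [norm_prod]
        simp only [hall]
        rw [Finset.prod_const, Finset.card_univ]
      rw [hβ, hcnorm] at h1
      have hcard : Fintype.card H ≠ 0 := Fintype.card_ne_zero
      have := pow_lt_pow_left₀ hcon hρ₀.le hcard
      linarith
    -- ξ
    set ξ : L := (β - α) / α ^ n₀ with hξ
    have hξ1 : ‖ξ‖ ≤ 1 := by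
      rw [hξ, norm_div, hnormαn, div_le_one hρ₀]
      exact hβα
    set ξ' : intRing L := ⟨ξ, hξ1⟩ with hξ'
    have hfac : ∀ τ : H, β - τ • α = α ^ n₀ * (ξ - d τ) := by
      intro τ
      rw [hξ, hd]
      simp only
      field_simp
      ring
    have hprod : ∏ τ : H, (β - τ • α) = (α ^ n₀) ^ Fintype.card H * ∏ τ : H, (ξ - d τ) := by
      simp only [hfac]
      rw [Finset.prod_mul_distrib, Finset.prod_const, Finset.card_univ]
    have hc : t * N ^ n₀ = (α ^ n₀) ^ Fintype.card H * (t * w ^ n₀) := by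
      rw [hw, div_pow]
      have : (α ^ Fintype.card H) ^ n₀ ≠ 0 := pow_ne_zero _ (pow_ne_zero _ hα0)
      field_simp
      ring
    have hcancel : ∏ τ : H, (ξ - d τ) = t * w ^ n₀ := by
      have h0 : (α ^ n₀) ^ Fintype.card H ≠ 0 := pow_ne_zero _ hαn0
      apply mul_left_cancel₀ h0
      rw [← hprod, ← hc, hβ]
    have hcancel' : ∏ τ : H, (ξ' - d' τ) = t' * w' ^ n₀ := by
      ext
      simp [hξ', hd', ht', hw', hcancel]
    have : ell (res L ξ') = cb := by
      rw [hell]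
      simp only
      rw [← hprodres, ← hcancel', map_prod]
      simp
    exact hcb _ this

end BadConst

end Fermat.Agent.Ram
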