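/-
Tame structure (S56 leaf F2, work package WP-C), part 5: eigen-structure of the tame generator.

Setting: `G` finite, acting faithfully by isometries on the complete ultrametric field `L`, with
a faithful representation `r : G →* M₂(k)` (`k` finite of characteristic `p`) without stable line
and with split characteristic polynomials; `σ₀` a generator of the inertia group, `F` a Frobenius
element.

* `exists_eigen_structure` **(4)** : `r σ₀` has eigenvalues `α ≠ β` in `k` with `α ^ p = β`,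
  `β ^ p = α`, eigenvectors `v`, `w`, and `r F` swaps the eigenlines.
* `exists_map_frobenius_sq` : `r (F * F)` is a nonzero scalar.
* `frobenius_pow_eq_one` : `F ^ (2 (|k| - 1)) = 1`.
* `not_dvd_card_of_tame` : `p ∤ |G|` for `p` odd.
* linear algebra in `k²`: `exists_eigenvector_of_charpoly`, `eigenvalue_eq_of_charpoly`,
  `eq_smul_one_of_mulVec_eq`, `exists_smul_eq_of_ne_smul_one`, `ne_smul_of_eigen`,
  `pow_mulVec_of_eigen`, `trace_det_of_charpoly`.
-/
import Fermat.Agent.Ram.TameStr_helper2_Frob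

set_option autoImplicit false
set_option linter.unusedSectionVars false
namespace Fermat.Agent.Ram
open Filter Topology Matrix Polynomial
section LinAlgE
variable {k : Type*} [Field k]

lemma scalar_mulVec' (a : k) (v : Fin 2 → k) : Matrix.scalar (Fin 2) a *ᵥ v = a • v := by
  ext i
  simp [Matrix.scalar_apply, Matrix.mulVec_diagonal]

/-- a root of the characteristic polynomial has an eigenvector. -/
lemma exists_eigenvector_of_charpoly {M : Matrix (Fin 2) (Fin 2) k} {a b : k}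
    (h : M.charpoly = (X - C a) * (X - C b)) : ∃ v : Fin 2 → k, v ≠ 0 ∧ M *ᵥ v = a • v := by
  have h1 : (Matrix.scalar (Fin 2) a - M).det = 0 := by
    rw [← Matrix.eval_charpoly, h]; simp
  obtain ⟨v, hv, hv0⟩ := Matrix.exists_mulVec_eq_zero_iff.mpr h1
  refine ⟨v, hv, ?_⟩
  rw [Matrix.sub_mulVec, sub_eq_zero, scalar_mulVec'] at hv0
  exact hv0.symm

/-- an eigenvalue is a root of the characteristic polynomial. -/
lemma eigenvalue_eq_of_charpoly {M : Matrix (Fin 2) (Fin 2) k} {a b c : k}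
    (h : M.charpoly = (X - C a) * (X - C b)) {u : Fin 2 → k} (hu : u ≠ 0)
    (hM : M *ᵥ u = c • u) : c = a ∨ c = b := by
  have h1 : (Matrix.scalar (Fin 2) c - M).det = 0 :=
    Matrix.exists_mulVec_eq_zero_iff.mp
      ⟨u, hu, by rw [Matrix.sub_mulVec, hM, scalar_mulVec', sub_self]⟩
  rw [← Matrix.eval_charpoly, h] at h1
  simp only [eval_mul, eval_sub, eval_X, eval_C, mul_eq_zero] at h1
  rcases h1 with h1 | h1
  · left; exact sub_eq_zero.mp h1
  · right; exact sub_eq_zero.mp h1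

/-- a matrix acting as the scalar `a` on two non-proportional vectors is `a • 1`. -/
lemma eq_smul_one_of_mulVec_eq {M : Matrix (Fin 2) (Fin 2) k} {v w : Fin 2 → k} {a : k}
    (hv : v ≠ 0) (hw : ∀ c : k, w ≠ c • v) (h1 : M *ᵥ v = a • v) (h2 : M *ᵥ w = a • w) :
    M = a • (1 : Matrix (Fin 2) (Fin 2) k) := by
  have key : M - a • (1 : Matrix (Fin 2) (Fin 2) k) + 1 = 1 := by
    apply eq_one_of_mulVec_eq hv hw
    · rw [Matrix.add_mulVec, Matrix.sub_mulVec, h1, Matrix.smul_mulVec, Matrix.one_mulVec,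
        sub_self, zero_add]
    · rw [Matrix.add_mulVec, Matrix.sub_mulVec, h2, Matrix.smul_mulVec, Matrix.one_mulVec,
        sub_self, zero_add]
  have h3 : M - a • (1 : Matrix (Fin 2) (Fin 2) k) = 0 := by
    have := congrArg (fun A => A - 1) key
    simpa using this
  exact sub_eq_zero.mp h3

/-- if `M` is not the scalar `a`, its `a`-eigenspace is at most a line. -/
lemma exists_smul_eq_of_ne_smul_one {M : Matrix (Fin 2) (Fin 2) k} {v u : Fin 2 → k} {a : k}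
    (hM : M ≠ a • (1 : Matrix (Fin 2) (Fin 2) k)) (hv : v ≠ 0) (h1 : M *ᵥ v = a • v)
    (h2 : M *ᵥ u = a • u) : ∃ c : k, u = c • v := by
  by_contra hcon
  simp only [not_exists] at hcon
  exact hM (eq_smul_one_of_mulVec_eq hv hcon h1 h2)

/-- eigenvectors for distinct eigenvalues are not proportional. -/
lemma ne_smul_of_eigen {M : Matrix (Fin 2) (Fin 2) k} {v w : Fin 2 → k} {a b : k} (hab : a ≠ b)
    (hw : w ≠ 0) (h1 : M *ᵥ v = a • v) (h2 : M *ᵥ w = b • w) : ∀ c : k, w ≠ c • v := by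
  intro c hc
  have h3 : a • w = b • w := by rw [← h2, hc, Matrix.mulVec_smul, h1, smul_comm]
  have h4 : (a - b) • w = 0 := by rw [sub_smul, h3, sub_self]
  rcases smul_eq_zero.mp h4 with h | h
  · exact hab (sub_eq_zero.mp h)
  · exact hw h

lemma pow_mulVec_of_eigen {M : Matrix (Fin 2) (Fin 2) k} {v : Fin 2 → k} {a : k}
    (h : M *ᵥ v = a • v) (n : ℕ) : (M ^ n) *ᵥ v = a ^ n • v := by
  induction n with
  | zero => rw [pow_zero, pow_zero, Matrix.one_mulVec, one_smul]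
  | succ n ih =>
    rw [pow_succ, ← Matrix.mulVec_mulVec, h, Matrix.mulVec_smul, ih, smul_smul, pow_succ, mul_comm]

/-- trace and determinant from a split characteristic polynomial. -/
lemma trace_det_of_charpoly {M : Matrix (Fin 2) (Fin 2) k} {a b : k}
    (h : M.charpoly = (X - C a) * (X - C b)) : M.trace = a + b ∧ M.det = a * b := by
  rw [Matrix.charpoly_fin_two] at h
  have h0 := congrArg (Polynomial.eval 0) h
  have h1 := congrArg (Polynomial.eval 1) h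
  simp only [eval_add, eval_sub, eval_mul, eval_pow, eval_X, eval_C] at h0 h1
  have hd : M.det = a * b := by linear_combination h0
  refine ⟨?_, hd⟩
  linear_combination h0 - h1

end LinAlgE

section Eigen

variable {L : Type*} [NormedField L] [IsUltrametricDist L] [CompleteSpace L] [Finite (Res L)]
variable {G : Type*} [Group G] [Fintype G] [MulSemiringAction G L] [IsIsometricSMul G L]
  [FaithfulSMul G L]
variable {k : Type*} [Field k] [Finite k] {p : ℕ} [Fact p.Prime] [CharP k p]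

omit [FaithfulSMul G L] [Finite k] [CharP k p] in
/-- a line stable under `σ₀` and `F` contradicts the absence of stable lines. -/
lemma not_stable_line (hp : ‖(p : L)‖ < 1) (r : G →* Matrix (Fin 2) (Fin 2) k)
    (hline : ∀ v : Fin 2 → k, v ≠ 0 → ∃ g : G, ∀ c : k, r g *ᵥ v ≠ c • v)
    {F σ₀ : G} (hF : ∀ x : Res L, resHom F x = x ^ p)
    (hgen : ∀ τ ∈ inertia G L, ∃ m : ℕ, τ = σ₀ ^ m) {v : Fin 2 → k} (hv : v ≠ 0) {a b : k}
    (h1 : r σ₀ *ᵥ v = a • v) (h2 : r F *ᵥ v = b • v) : False := by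
  obtain ⟨g, hg⟩ := hline v hv
  obtain ⟨n, m, rfl⟩ := exists_eq_pow_mul_pow hp hF hgen g
  apply hg (a ^ m * b ^ n)
  rw [map_mul, map_pow, map_pow, ← Matrix.mulVec_mulVec, pow_mulVec_of_eigen h1,
    Matrix.mulVec_smul, pow_mulVec_of_eigen h2, smul_smul]

omit [NormedField L] [IsUltrametricDist L] [CompleteSpace L] [Finite (Res L)] [Fintype G]
  [MulSemiringAction G L] [IsIsometricSMul G L] [FaithfulSMul G L] [Finite k] [Fact p.Prime]
  [CharP k p] in
/-- `r F⁻¹ u = c • u'` with `u ≠ 0` gives `c ≠ 0` and `r F u' = c⁻¹ • u`. -/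
lemma mulVec_of_inv_mulVec (r : G →* Matrix (Fin 2) (Fin 2) k) {F : G} {u u' : Fin 2 → k}
    (hu : u ≠ 0) {c : k} (h : r F⁻¹ *ᵥ u = c • u') : c ≠ 0 ∧ r F *ᵥ u' = c⁻¹ • u := by
  have h1 : r F *ᵥ (r F⁻¹ *ᵥ u) = u := by
    rw [Matrix.mulVec_mulVec, ← map_mul, mul_inv_cancel, map_one, Matrix.one_mulVec]
  rw [h, Matrix.mulVec_smul] at h1
  have hc : c ≠ 0 := by
    rintro rfl
    rw [zero_smul] at h1
    exact hu h1.symm
  refine ⟨hc, ?_⟩
  rw [← h1, smul_smul, inv_mul_cancel₀ hc, one_smul]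

omit [NormedField L] [IsUltrametricDist L] [CompleteSpace L] [Finite (Res L)] [Fintype G]
  [MulSemiringAction G L] [IsIsometricSMul G L] [FaithfulSMul G L] [Finite k] [Fact p.Prime]
  [CharP k p] in
/-- eigenvalues of `r g` are nonzero. -/
lemma eigenvalue_ne_zero (r : G →* Matrix (Fin 2) (Fin 2) k) {g : G} {u : Fin 2 → k}
    (hu : u ≠ 0) {c : k} (h : r g *ᵥ u = c • u) : c ≠ 0 := by
  rintro rfl
  rw [zero_smul] at h
  have h1 : r g⁻¹ *ᵥ (r g *ᵥ u) = u := by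
    rw [Matrix.mulVec_mulVec, ← map_mul, inv_mul_cancel, map_one, Matrix.one_mulVec]
  rw [h, Matrix.mulVec_zero] at h1
  exact hu h1.symm

/-- one half of the eigen-structure: `α ^ p = β ≠ α` and `r F` maps the `β`-eigenline to the
`α`-eigenline. -/
lemma eigen_half {π : L} (hπ : IsUnif (⊤ : Subfield L) π)
    (hp : ‖(p : L)‖ < 1) (r : G →* Matrix (Fin 2) (Fin 2) k) (hr : Function.Injective r)
    (hline : ∀ v : Fin 2 → k, v ≠ 0 → ∃ g : G, ∀ c : k, r g *ᵥ v ≠ c • v)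
    (hsplit : ∀ g : G, ∃ a b : k, (r g).charpoly = (X - C a) * (X - C b))
    {F σ₀ : G} (hF : ∀ x : Res L, resHom F x = x ^ p) (hσ₀ : σ₀ ∈ inertia G L)
    (hgen : ∀ τ ∈ inertia G L, ∃ m : ℕ, τ = σ₀ ^ m) {α β : k}
    (hαβ : (r σ₀).charpoly = (X - C α) * (X - C β)) {v w : Fin 2 → k} (hv : v ≠ 0) (hw : w ≠ 0)
    (hαv : r σ₀ *ᵥ v = α • v) (hβw : r σ₀ *ᵥ w = β • w) :
    α ^ p ≠ α ∧ α ^ p = β ∧ ∃ c : k, c ≠ 0 ∧ r F *ᵥ w = c • v := by
  -- `r σ₀` is not a scalar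
  have hns : ∀ c : k, r σ₀ ≠ c • (1 : Matrix (Fin 2) (Fin 2) k) := by
    intro c h
    obtain ⟨a, b, hab⟩ := hsplit F
    obtain ⟨u, hu, hFu⟩ := exists_eigenvector_of_charpoly hab
    refine not_stable_line hp r hline hF hgen hu (a := c) ?_ hFu
    rw [h, Matrix.smul_mulVec, Matrix.one_mulVec]
  -- the conjugation relation
  have hconj : r σ₀ * r F⁻¹ = r F⁻¹ * (r σ₀) ^ p := by
    rw [← map_pow, ← map_mul, ← map_mul, ← frobenius_conj hπ hp r hr hline hF hσ₀]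
    congr 1
    group
  have hK : ∀ (u : Fin 2 → k) (c : k), r σ₀ *ᵥ u = c • u →
      r σ₀ *ᵥ (r F⁻¹ *ᵥ u) = c ^ p • (r F⁻¹ *ᵥ u) := by
    intro u c hu
    rw [Matrix.mulVec_mulVec, hconj, ← Matrix.mulVec_mulVec, pow_mulVec_of_eigen hu,
      Matrix.mulVec_smul]
  have hne : r F⁻¹ *ᵥ v ≠ 0 := by
    intro h0
    have := mulVec_of_inv_mulVec r hv (c := 0) (u' := 0) (by rw [h0, zero_smul])
    exact this.1 rfl
  have h1 := hK v α hαv
  have hne1 : α ^ p ≠ α := by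
    intro h
    rw [h] at h1
    obtain ⟨c, hc⟩ := exists_smul_eq_of_ne_smul_one (hns α) hv hαv h1
    obtain ⟨-, hFv⟩ := mulVec_of_inv_mulVec r hv hc
    exact not_stable_line hp r hline hF hgen hv hαv hFv
  have h2 : α ^ p = β := (eigenvalue_eq_of_charpoly hαβ hne h1).resolve_left hne1
  refine ⟨hne1, h2, ?_⟩
  rw [h2] at h1
  obtain ⟨c, hc⟩ := exists_smul_eq_of_ne_smul_one (hns β) hw hβw h1
  obtain ⟨hc0, hFw⟩ := mulVec_of_inv_mulVec r hv hc
  exact ⟨c⁻¹, inv_ne_zero hc0, hFw⟩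

/-- **(4) eigen-structure**: `r σ₀` has two distinct eigenvalues `α`, `β` in `k`, exchanged by
`x ↦ x ^ p`, and `r F` swaps the two eigenlines. -/
theorem exists_eigen_structure {π : L} (hπ : IsUnif (⊤ : Subfield L) π)
    (hp : ‖(p : L)‖ < 1) (r : G →* Matrix (Fin 2) (Fin 2) k) (hr : Function.Injective r)
    (hline : ∀ v : Fin 2 → k, v ≠ 0 → ∃ g : G, ∀ c : k, r g *ᵥ v ≠ c • v)
    (hsplit : ∀ g : G, ∃ a b : k, (r g).charpoly = (X - C a) * (X - C b))
    {F σ₀ : G} (hF : ∀ x : Res L, resHom F x = x ^ p) (hσ₀ : σ₀ ∈ inertia G L)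
    (hgen : ∀ τ ∈ inertia G L, ∃ m : ℕ, τ = σ₀ ^ m) :
    ∃ (α β : k) (v w : Fin 2 → k), v ≠ 0 ∧ w ≠ 0 ∧ α ≠ β ∧ α ^ p = β ∧ β ^ p = α ∧
      (r σ₀).charpoly = (X - C α) * (X - C β) ∧
      r σ₀ *ᵥ v = α • v ∧ r σ₀ *ᵥ w = β • w ∧
      (∃ b : k, b ≠ 0 ∧ r F *ᵥ v = b • w) ∧ (∃ a : k, a ≠ 0 ∧ r F *ᵥ w = a • v) := by
  obtain ⟨α, β, hαβ⟩ := hsplit σ₀
  have hβα : (r σ₀).charpoly = (X - C β) * (X - C α) := by rw [hαβ, mul_comm]
  obtain ⟨v, hv, hαv⟩ := exists_eigenvector_of_charpoly hαβ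
  obtain ⟨w, hw, hβw⟩ := exists_eigenvector_of_charpoly hβα
  obtain ⟨h1, h2, h3⟩ := eigen_half hπ hp r hr hline hsplit hF hσ₀ hgen hαβ hv hw hαv hβw
  obtain ⟨-, h5, h6⟩ := eigen_half hπ hp r hr hline hsplit hF hσ₀ hgen hβα hw hv hβw hαv
  refine ⟨α, β, v, w, hv, hw, ?_, h2, h5, hαβ, hαv, hβw, h6, h3⟩
  intro h
  rw [← h] at h2
  exact h1 h2

/-- `r (F * F)` is a nonzero scalar. -/
theorem exists_map_frobenius_sq {π : L} (hπ : IsUnif (⊤ : Subfield L) π)
    (hp : ‖(p : L)‖ < 1) (r : G →* Matrix (Fin 2) (Fin 2) k) (hr : Function.Injective r)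
    (hline : ∀ v : Fin 2 → k, v ≠ 0 → ∃ g : G, ∀ c : k, r g *ᵥ v ≠ c • v)
    (hsplit : ∀ g : G, ∃ a b : k, (r g).charpoly = (X - C a) * (X - C b))
    {F σ₀ : G} (hF : ∀ x : Res L, resHom F x = x ^ p) (hσ₀ : σ₀ ∈ inertia G L)
    (hgen : ∀ τ ∈ inertia G L, ∃ m : ℕ, τ = σ₀ ^ m) :
    ∃ c : k, c ≠ 0 ∧ r (F * F) = c • (1 : Matrix (Fin 2) (Fin 2) k) := by
  obtain ⟨α, β, v, w, hv, hw, hαβ, -, -, -, hαv, hβw, ⟨b, hb, hFv⟩, ⟨a, ha, hFw⟩⟩ :=
    exists_eigen_structure hπ hp r hr hline hsplit hF hσ₀ hgen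
  refine ⟨a * b, mul_ne_zero ha hb, ?_⟩
  apply eq_smul_one_of_mulVec_eq hv (ne_smul_of_eigen hαβ hw hαv hβw)
  · rw [map_mul, ← Matrix.mulVec_mulVec, hFv, Matrix.mulVec_smul, hFw, smul_smul, mul_comm]
  · rw [map_mul, ← Matrix.mulVec_mulVec, hFw, Matrix.mulVec_smul, hFv, smul_smul]

/-- the Frobenius element has order dividing `2 (|k| - 1)`. -/
theorem frobenius_pow_eq_one {π : L} (hπ : IsUnif (⊤ : Subfield L) π)
    (hp : ‖(p : L)‖ < 1) (r : G →* Matrix (Fin 2) (Fin 2) k) (hr : Function.Injective r)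
    (hline : ∀ v : Fin 2 → k, v ≠ 0 → ∃ g : G, ∀ c : k, r g *ᵥ v ≠ c • v)
    (hsplit : ∀ g : G, ∃ a b : k, (r g).charpoly = (X - C a) * (X - C b))
    {F σ₀ : G} (hF : ∀ x : Res L, resHom F x = x ^ p) (hσ₀ : σ₀ ∈ inertia G L)
    (hgen : ∀ τ ∈ inertia G L, ∃ m : ℕ, τ = σ₀ ^ m) :
    F ^ (2 * (Nat.card k - 1)) = 1 := by
  haveI := Fintype.ofFinite k
  obtain ⟨c, hc, hFF⟩ := exists_map_frobenius_sq hπ hp r hr hline hsplit hF hσ₀ hgen
  apply hr
  rw [pow_mul, pow_two, map_pow, hFF, map_one, _root_.smul_pow, one_pow, Nat.card_eq_fintype_card,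
    FiniteField.pow_card_sub_one_eq_one c hc, one_smul]

/-- **(4, end)** the order of `G` is prime to `p` (for `p` odd). -/
theorem not_dvd_card_of_tame {π : L} (hπ : IsUnif (⊤ : Subfield L) π)
    (hp : ‖(p : L)‖ < 1) (r : G →* Matrix (Fin 2) (Fin 2) k) (hr : Function.Injective r)
    (hline : ∀ v : Fin 2 → k, v ≠ 0 → ∃ g : G, ∀ c : k, r g *ᵥ v ≠ c • v)
    (hsplit : ∀ g : G, ∃ a b : k, (r g).charpoly = (X - C a) * (X - C b))
    (hfix : ∀ a ∈ FixedPoints.subfield G L, ‖a‖ ≤ 1 → ∃ n : ℕ, ‖a - n‖ < 1)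
    (hp2 : p ≠ 2) : ¬ p ∣ Nat.card G := by
  classical
  haveI := Fintype.ofFinite k
  intro hdvd
  obtain ⟨F, hF⟩ := exists_frobenius (G := G) hp hfix
  obtain ⟨σ₀, hσ₀, hgen, -, -⟩ := exists_generator_inertia hπ hp r hr hline
  have hFN := frobenius_pow_eq_one hπ hp r hr hline hsplit hF hσ₀ hgen
  set N := 2 * (Nat.card k - 1) with hN
  set e := Nat.card ↥(inertia G L) with he
  rw [Nat.card_eq_fintype_card] at hdvd
  obtain ⟨g, hg⟩ := exists_prime_orderOf_dvd_card p hdvd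
  -- `g ^ N` lies in the inertia group
  have h1 : g ^ N ∈ inertia G L := by
    obtain ⟨n, m, rfl⟩ := exists_eq_pow_mul_pow hp hF hgen g
    rw [← QuotientGroup.eq_one_iff, QuotientGroup.mk_pow, QuotientGroup.mk_mul]
    have h2 : ((σ₀ ^ m : G) : G ⧸ inertia G L) = 1 :=
      (QuotientGroup.eq_one_iff _).mpr (Subgroup.pow_mem _ hσ₀ m)
    rw [h2, mul_one, ← QuotientGroup.mk_pow, ← pow_mul, mul_comm, pow_mul, hFN, one_pow,
      QuotientGroup.mk_one]
  have h3 : (g ^ N) ^ e = 1 := by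
    have := pow_card_eq_one' (G := ↥(inertia G L)) (x := ⟨g ^ N, h1⟩)
    exact congrArg Subtype.val this
  rw [← pow_mul] at h3
  have h4 : p ∣ N * e := by
    rw [← hg]
    exact orderOf_dvd_of_pow_eq_one h3
  have hpp : p.Prime := Fact.out
  rcases (Nat.Prime.dvd_mul hpp).mp h4 with h5 | h5
  · -- `p ∣ 2 (q - 1)`
    rcases (Nat.Prime.dvd_mul hpp).mp h5 with h6 | h6
    · exact hp2 ((Nat.prime_dvd_prime_iff_eq hpp Nat.prime_two).mp h6)
    · obtain ⟨f, hf⟩ := FiniteField.card k p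
      have h7 : p ∣ Nat.card k := by
        rw [Nat.card_eq_fintype_card, hf.2]
        exact dvd_pow_self p f.ne_zero
      have h8 : 1 ≤ Nat.card k := Nat.card_pos
      have h9 : p ∣ 1 := by
        have := Nat.dvd_sub h7 h6
        rwa [Nat.sub_sub_self h8] at this
      exact hpp.one_lt.ne' (Nat.dvd_one.mp h9)
  · have h6 := coprime_card_inertia hπ hp r hr hline
    have h7 : p ∣ 1 := by
      have := Nat.dvd_gcd h5 (dvd_refl p)
      rwa [Nat.Coprime.gcd_eq_one h6] at this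
    exact hpp.one_lt.ne' (Nat.dvd_one.mp h7)

end Eigen
end Fermat.Agent.Ram
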