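/-
Tame structure (S56 leaf F2, work package WP-C), part 6: the concrete instantiation for a finite
Galois extension `L / ℚ_p` inside `PadicAlgCl p`, with `G = L ≃ₐ[ℚ_[p]] L`.

* `mem_fixedPoints_subfield_iff` : the fixed field of `G` is `ℚ_p`.
* `norm_natCast_lt_one` : `‖(p : L)‖ < 1`.
* `isUnif_fixedPoints_p` : `p` is a uniformizer of the fixed field.
* `exists_nat_norm_sub_lt_one` : the residue field of the fixed field is the prime field.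
* `tame_structure_padic` : all conclusions of WP-C in one statement.
* `not_dvd_card_padic` : `p ∤ [L : ℚ_p]`-order of the Galois group, for `p` odd.
-/
import Fermat.Agent.Ram.TameStr_helper2_Eigen
import Fermat.Agent.Ram.Padic_helper8
set_option autoImplicit false
set_option linter.unusedSectionVars false
namespace Fermat.Agent.Ram
open Filter Topology Matrix Polynomial

section Concrete

variable {p : ℕ} [Fact p.Prime]
variable (L : IntermediateField ℚ_[p] (PadicAlgCl p))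

lemma norm_algebraMap_padic (x : ℚ_[p]) : ‖algebraMap ℚ_[p] L x‖ = ‖x‖ := by
  have h : ‖algebraMap ℚ_[p] L x‖ = ‖((algebraMap ℚ_[p] L x : L) : PadicAlgCl p)‖ := rfl
  rw [h]
  have h2 : ((algebraMap ℚ_[p] L x : L) : PadicAlgCl p) = algebraMap ℚ_[p] (PadicAlgCl p) x := rfl
  rw [h2, PadicAlgCl.norm_extends]

variable [FiniteDimensional ℚ_[p] L] [IsGalois ℚ_[p] L]

lemma mem_fixedPoints_subfield_iff (a : L) :
    a ∈ FixedPoints.subfield (L ≃ₐ[ℚ_[p]] L) L ↔ a ∈ Set.range (algebraMap ℚ_[p] L) := by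
  rw [IsGalois.mem_range_algebraMap_iff_fixed]
  rfl

lemma norm_natCast_lt_one : ‖(p : L)‖ < 1 := by
  rw [norm_p_intermediateField]
  have hp1 : 1 < (p : ℝ) := by exact_mod_cast (Fact.out : p.Prime).one_lt
  exact inv_lt_one_of_one_lt₀ hp1

theorem isUnif_fixedPoints_p : IsUnif (FixedPoints.subfield (L ≃ₐ[ℚ_[p]] L) L) (p : L) := by
  have hp1 : 1 < (p : ℝ) := by exact_mod_cast (Fact.out : p.Prime).one_lt
  refine ⟨?_, ?_, norm_natCast_lt_one L, ?_⟩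
  · rw [mem_fixedPoints_subfield_iff]
    exact ⟨(p : ℚ_[p]), map_natCast _ _⟩
  · rw [norm_p_intermediateField]
    exact inv_pos.mpr (by linarith)
  · intro x hx hx1
    rw [mem_fixedPoints_subfield_iff] at hx
    obtain ⟨y, rfl⟩ := hx
    rw [norm_algebraMap_padic] at hx1 ⊢
    rw [norm_p_intermediateField]
    have := (Padic.norm_lt_pow_iff_norm_le_pow_sub_one y 0).mp (by simpa using hx1)
    simpa using this

theorem exists_nat_norm_sub_lt_one : ∀ a ∈ FixedPoints.subfield (L ≃ₐ[ℚ_[p]] L) L, ‖a‖ ≤ 1 →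
    ∃ n : ℕ, ‖a - n‖ < 1 := by
  intro a ha ha1
  rw [mem_fixedPoints_subfield_iff] at ha
  obtain ⟨y, rfl⟩ := ha
  rw [norm_algebraMap_padic] at ha1
  set z : ℤ_[p] := ⟨y, ha1⟩ with hz
  obtain ⟨n, -, hn⟩ := PadicInt.exists_mem_range z
  refine ⟨n, ?_⟩
  have h1 : ‖z - (n : ℤ_[p])‖ < 1 := by
    rw [← PadicInt.mem_nonunits]
    rwa [IsLocalRing.mem_maximalIdeal] at hn
  have h2 : algebraMap ℚ_[p] L y - (n : L) = algebraMap ℚ_[p] L (y - n) := by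
    rw [map_sub, map_natCast]
  rw [h2, norm_algebraMap_padic]
  have h3 : ‖z - (n : ℤ_[p])‖ = ‖y - n‖ := by
    rw [PadicInt.norm_def, PadicInt.coe_sub, PadicInt.coe_natCast]
  rwa [h3] at h1

end Concrete

section Concrete2
variable {p : ℕ} [Fact p.Prime]
variable (L : IntermediateField ℚ_[p] (PadicAlgCl p)) [FiniteDimensional ℚ_[p] L] [IsGalois ℚ_[p] L]
variable {k : Type*} [Field k] [Finite k] [CharP k p]


/-- **WP-C, concrete form**: the tame structure of a finite Galois extension `L / ℚ_p` whose Galois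
group has a faithful representation on `k²` without stable line and with split characteristic
polynomials. -/
theorem tame_structure_padic (r : (L ≃ₐ[ℚ_[p]] L) →* Matrix (Fin 2) (Fin 2) k)
    (hr : Function.Injective r)
    (hline : ∀ v : Fin 2 → k, v ≠ 0 → ∃ g : L ≃ₐ[ℚ_[p]] L, ∀ c : k, r g *ᵥ v ≠ c • v)
    (hsplit : ∀ g : L ≃ₐ[ℚ_[p]] L, ∃ a b : k, (r g).charpoly = (X - C a) * (X - C b)) :
    ∃ (π : L) (hπ : IsUnif (⊤ : Subfield L) π) (σ₀ F : L ≃ₐ[ℚ_[p]] L)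
      (hσ₀ : σ₀ ∈ inertia (L ≃ₐ[ℚ_[p]] L) L),
      (∀ τ ∈ inertia (L ≃ₐ[ℚ_[p]] L) L, ∃ m : ℕ, τ = σ₀ ^ m) ∧
      orderOf σ₀ = Nat.card ↥(inertia (L ≃ₐ[ℚ_[p]] L) L) ∧
      orderOf (theta (G := L ≃ₐ[ℚ_[p]] L) hπ.ne_zero ⟨σ₀, hσ₀⟩) =
        Nat.card ↥(inertia (L ≃ₐ[ℚ_[p]] L) L) ∧
      ‖π‖ ^ Nat.card ↥(inertia (L ≃ₐ[ℚ_[p]] L) L) = ‖(p : L)‖ ∧
      (Nat.card ↥(inertia (L ≃ₐ[ℚ_[p]] L) L)).Coprime p ∧
      (∀ x : Res L, resHom F x = x ^ p) ∧ F * σ₀ * F⁻¹ = σ₀ ^ p ∧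
      (∀ g : L ≃ₐ[ℚ_[p]] L, ∃ n m : ℕ, g = F ^ n * σ₀ ^ m) ∧
      ∃ (α β : k) (v w : Fin 2 → k), v ≠ 0 ∧ w ≠ 0 ∧ α ≠ β ∧ α ^ p = β ∧ β ^ p = α ∧
        (r σ₀).charpoly = (X - C α) * (X - C β) ∧
        r σ₀ *ᵥ v = α • v ∧ r σ₀ *ᵥ w = β • w ∧
        (∃ b : k, b ≠ 0 ∧ r F *ᵥ v = b • w) ∧ (∃ a : k, a ≠ 0 ∧ r F *ᵥ w = a • v) := by
  obtain ⟨π, hπ⟩ := exists_isUnif_top L
  have hp := norm_natCast_lt_one L
  have hpU := isUnif_fixedPoints_p L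
  have hfix := exists_nat_norm_sub_lt_one L
  obtain ⟨F, hF⟩ := exists_frobenius (G := L ≃ₐ[ℚ_[p]] L) hp hfix
  obtain ⟨σ₀, hσ₀, hgen, hord, hordθ⟩ := exists_generator_inertia hπ hp r hr hline
  exact ⟨π, hπ, σ₀, F, hσ₀, hgen, hord, hordθ, norm_pow_card_inertia hπ hpU,
    coprime_card_inertia hπ hp r hr hline, hF, frobenius_conj hπ hp r hr hline hF hσ₀,
    exists_eq_pow_mul_pow hp hF hgen,
    exists_eigen_structure hπ hp r hr hline hsplit hF hσ₀ hgen⟩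

theorem not_dvd_card_padic (r : (L ≃ₐ[ℚ_[p]] L) →* Matrix (Fin 2) (Fin 2) k)
    (hr : Function.Injective r)
    (hline : ∀ v : Fin 2 → k, v ≠ 0 → ∃ g : L ≃ₐ[ℚ_[p]] L, ∀ c : k, r g *ᵥ v ≠ c • v)
    (hsplit : ∀ g : L ≃ₐ[ℚ_[p]] L, ∃ a b : k, (r g).charpoly = (X - C a) * (X - C b))
    (hp2 : p ≠ 2) : ¬ p ∣ Nat.card (L ≃ₐ[ℚ_[p]] L) := by
  obtain ⟨π, hπ⟩ := exists_isUnif_top L
  exact not_dvd_card_of_tame hπ (norm_natCast_lt_one L) r hr hline hsplit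
    (exists_nat_norm_sub_lt_one L) hp2

end Concrete2
end Fermat.Agent.Ram
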