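/-
S56, leaf F2, work package WP-C (tame structure), part 1: the tame character
`θ : inertia → (Res L)ˣ`, `σ ↦ res (σ π / π)`.
-/
import Fermat.Agent.Ram.Unram_helper8
import Fermat.Agent.Ram.Tame_helper8

set_option autoImplicit false
set_option linter.unusedSectionVars false

namespace Fermat.Agent.Ram

open Filter Topology

section Theta

variable {L : Type*} [NormedField L] [IsUltrametricDist L]
variable {G : Type*} [Group G] [MulSemiringAction G L] [IsIsometricSMul G L]

/-- `σ π / π` as an integer. -/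
def quotInt (π : L) (σ : G) : intRing L :=
  ⟨σ • π / π, by
    rw [mem_intRing, norm_div, norm_smul_eq]
    exact div_self_le_one _⟩

@[simp] lemma coe_quotInt (π : L) (σ : G) : ((quotInt π σ : intRing L) : L) = σ • π / π := rfl

lemma norm_quotInt {π : L} (hπ0 : π ≠ 0) (σ : G) : ‖((quotInt π σ : intRing L) : L)‖ = 1 := by
  rw [coe_quotInt, norm_div, norm_smul_eq, div_self (norm_ne_zero_iff.mpr hπ0)]

/-- elements of the inertia group act trivially on the residue field. -/
lemma res_smulInt_of_mem_inertia {σ : G} (hσ : σ ∈ inertia G L) (a : intRing L) :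
    res L (smulInt σ a) = res L a := by
  rw [res_eq_iff, coe_smulInt]
  exact hσ _ a.2

lemma quotInt_mul {π : L} (hπ0 : π ≠ 0) (σ τ : G) :
    quotInt π (σ * τ) = smulInt σ (quotInt π τ) * quotInt π σ := by
  apply Subtype.ext
  rw [Subring.coe_mul, coe_smulInt, coe_quotInt, coe_quotInt, coe_quotInt, mul_smul, smul_div₀']
  have h : σ • π ≠ 0 := by
    rw [Ne, ← norm_eq_zero, norm_smul_eq, norm_eq_zero]; exact hπ0
  field_simp

/-- the tame character as a monoid hom to the residue field. -/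
noncomputable def thetaHom {π : L} (hπ0 : π ≠ 0) : ↥(inertia G L) →* Res L where
  toFun σ := res L (quotInt π (σ : G))
  map_one' := by
    have : quotInt π (1 : G) = 1 := by
      apply Subtype.ext
      rw [coe_quotInt, one_smul, div_self hπ0]
      rfl
    show res L (quotInt π ((1 : ↥(inertia G L)) : G)) = 1
    rw [Subgroup.coe_one, this, map_one]
  map_mul' σ τ := by
    show res L (quotInt π ((σ * τ : ↥(inertia G L)) : G)) = _
    rw [Subgroup.coe_mul, quotInt_mul hπ0, map_mul, res_smulInt_of_mem_inertia σ.2, mul_comm]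

/-- **the tame character** `θ : inertia → (Res L)ˣ`. -/
noncomputable def theta {π : L} (hπ0 : π ≠ 0) : ↥(inertia G L) →* (Res L)ˣ :=
  (thetaHom (G := G) hπ0).toHomUnits

lemma coe_theta {π : L} (hπ0 : π ≠ 0) (σ : ↥(inertia G L)) :
    ((theta hπ0 σ : (Res L)ˣ) : Res L) = res L (quotInt π (σ : G)) := rfl

lemma theta_eq_one_iff {π : L} (hπ0 : π ≠ 0) (σ : ↥(inertia G L)) :
    theta hπ0 σ = 1 ↔ ‖(σ : G) • π - π‖ < ‖π‖ := by
  rw [Units.ext_iff, coe_theta, Units.val_one, ← map_one (res L), res_eq_iff, coe_quotInt]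
  have hn : 0 < ‖π‖ := norm_pos_iff.mpr hπ0
  have : (σ : G) • π / π - ((1 : intRing L) : L) = ((σ : G) • π - π) / π := by
    rw [Subring.coe_one, sub_div, div_self hπ0]
  rw [this, norm_div, div_lt_one hn]

/-- `θ` does not depend on the uniformizer (more generally: on the element up to units). -/
lemma theta_indep {π π' : L} (hπ0 : π ≠ 0) (hπ'0 : π' ≠ 0) (h : ‖π'‖ = ‖π‖) :
    theta (G := G) hπ'0 = theta hπ0 := by
  ext σ
  rw [coe_theta, coe_theta]
  -- `π' = u π` with `u` a unit
  set u : intRing L := ⟨π' / π, by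
    rw [mem_intRing, norm_div, h, div_self (norm_ne_zero_iff.mpr hπ0)]⟩ with hu
  have hu1 : ‖(u : L)‖ = 1 := by
    rw [hu]
    show ‖π' / π‖ = 1
    rw [norm_div, h, div_self (norm_ne_zero_iff.mpr hπ0)]
  have hsu : ((smulInt (σ : G) u : intRing L) : L) ≠ 0 := by
    rw [coe_smulInt, Ne, ← norm_eq_zero, norm_smul_eq, hu1]; exact one_ne_zero
  have key : quotInt π' (σ : G) * u = smulInt (σ : G) u * quotInt π (σ : G) := by
    apply Subtype.ext
    rw [Subring.coe_mul, Subring.coe_mul, coe_quotInt, coe_quotInt, coe_smulInt]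
    show (σ : G) • π' / π' * (π' / π) = (σ : G) • (π' / π) * ((σ : G) • π / π)
    rw [smul_div₀']
    have h1 : (σ : G) • π ≠ 0 := by
      rw [Ne, ← norm_eq_zero, norm_smul_eq, norm_eq_zero]; exact hπ0
    field_simp
  have h2 := congrArg (res L) key
  rw [map_mul, map_mul, res_smulInt_of_mem_inertia σ.2] at h2
  have hru : res L u ≠ 0 := res_ne_zero_iff.mpr hu1
  rw [mul_comm (res L u)] at h2
  exact mul_right_cancel₀ hru h2

/-- conjugation: `θ (g σ g⁻¹) = ḡ (θ σ)`. -/
lemma theta_conj {π : L} (hπ0 : π ≠ 0) (g : G) (σ : ↥(inertia G L)) :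
    ((theta hπ0 ⟨g * (σ : G) * g⁻¹, (inertia_normal (G := G) (L := L)).conj_mem _ σ.2 g⟩ :
      (Res L)ˣ) : Res L) = resHom g ((theta hπ0 σ : (Res L)ˣ) : Res L) := by
  -- use the element `g⁻¹ π` for `θ σ`
  have hπ' : g⁻¹ • π ≠ 0 := by
    rw [Ne, ← norm_eq_zero, norm_smul_eq, norm_eq_zero]; exact hπ0
  have h1 : theta (G := G) hπ' = theta hπ0 := theta_indep hπ0 hπ' (norm_smul_eq _ _)
  conv_rhs => rw [← h1]
  rw [coe_theta, coe_theta, resHom_res]
  congr 1
  apply Subtype.ext
  rw [coe_smulInt, coe_quotInt, coe_quotInt, smul_div₀', smul_smul, smul_smul, smul_smul,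
    mul_inv_cancel, one_smul]

end Theta

end Fermat.Agent.Ram
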