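/-
S56, leaf F2, work package WP-C (tame structure), part 2: wild inertia is trivial in the presence
of a faithful two-dimensional representation in characteristic `p` without stable line; the inertia
group is cyclic of order prime to `p`.
-/
import Fermat.Agent.Ram.TameStr_helper2_Theta

set_option autoImplicit false
set_option linter.unusedSectionVars false

namespace Fermat.Agent.Ram

open Filter Topology Matrix

/-! ### linear algebra in `k²` -/

section LinAlg2

variable {k : Type*} [Field k]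

lemma mulVec_fin_two (M : Matrix (Fin 2) (Fin 2) k) (v : Fin 2 → k) (i : Fin 2) :
    (M *ᵥ v) i = M i 0 * v 0 + M i 1 * v 1 := by
  rw [Matrix.mulVec, dotProduct, Fin.sum_univ_two]

/-- two vectors with vanishing determinant are proportional. -/
lemma exists_smul_eq_of_det_eq_zero {v w : Fin 2 → k} (hv : v ≠ 0)
    (h : v 0 * w 1 - v 1 * w 0 = 0) : ∃ c : k, w = c • v := by
  by_cases h0 : v 0 = 0
  · have h1 : v 1 ≠ 0 := by
      intro h1
      apply hv
      ext i
      fin_cases i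
      · exact h0
      · exact h1
    refine ⟨w 1 / v 1, ?_⟩
    ext i
    fin_cases i
    · show w 0 = w 1 / v 1 * v 0
      rw [h0, mul_zero]
      rw [h0, zero_mul, zero_sub, neg_eq_zero] at h
      exact (mul_eq_zero.mp h).resolve_left h1
    · show w 1 = w 1 / v 1 * v 1
      rw [div_mul_cancel₀ _ h1]
  · refine ⟨w 0 / v 0, ?_⟩
    ext i
    fin_cases i
    · show w 0 = w 0 / v 0 * v 0
      rw [div_mul_cancel₀ _ h0]
    · show w 1 = w 0 / v 0 * v 1
      field_simp
      linear_combination h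

/-- a matrix fixing two non-proportional vectors is the identity. -/
lemma eq_one_of_mulVec_eq {M : Matrix (Fin 2) (Fin 2) k} {v w : Fin 2 → k} (hv : v ≠ 0)
    (hw : ∀ c : k, w ≠ c • v) (h1 : M *ᵥ v = v) (h2 : M *ᵥ w = w) : M = 1 := by
  have hd : v 0 * w 1 - v 1 * w 0 ≠ 0 := by
    intro h
    obtain ⟨c, hc⟩ := exists_smul_eq_of_det_eq_zero hv h
    exact hw c hc
  have e1 : ∀ i, M i 0 * v 0 + M i 1 * v 1 = v i := fun i => by
    rw [← mulVec_fin_two, h1]
  have e2 : ∀ i, M i 0 * w 0 + M i 1 * w 1 = w i := fun i => by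
    rw [← mulVec_fin_two, h2]
  ext i j
  fin_cases i <;> fin_cases j
  · show M 0 0 = 1
    have : (M 0 0 - 1) * (v 0 * w 1 - v 1 * w 0) = 0 := by
      linear_combination w 1 * e1 0 - v 1 * e2 0
    rcases mul_eq_zero.mp this with h | h
    · exact sub_eq_zero.mp h
    · exact absurd h hd
  · show M 0 1 = 0
    have : M 0 1 * (v 0 * w 1 - v 1 * w 0) = 0 := by
      linear_combination v 0 * e2 0 - w 0 * e1 0
    rcases mul_eq_zero.mp this with h | h
    · exact h
    · exact absurd h hd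
  · show M 1 0 = 0
    have : M 1 0 * (v 0 * w 1 - v 1 * w 0) = 0 := by
      linear_combination w 1 * e1 1 - v 1 * e2 1
    rcases mul_eq_zero.mp this with h | h
    · exact h
    · exact absurd h hd
  · show M 1 1 = 1
    have : (M 1 1 - 1) * (v 0 * w 1 - v 1 * w 0) = 0 := by
      linear_combination v 0 * e2 1 - w 0 * e1 1
    rcases mul_eq_zero.mp this with h | h
    · exact sub_eq_zero.mp h
    · exact absurd h hd

/-- the action of a group on `k²` through a matrix representation. -/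
def vecAction {H : Type*} [Group H] (r : H →* Matrix (Fin 2) (Fin 2) k) :
    MulAction H (Fin 2 → k) where
  smul g v := r g *ᵥ v
  one_smul v := by
    show r 1 *ᵥ v = v
    rw [map_one, Matrix.one_mulVec]
  mul_smul g h v := by
    show r (g * h) *ᵥ v = r g *ᵥ (r h *ᵥ v)
    rw [map_mul, Matrix.mulVec_mulVec]

end LinAlg2

/-! ### wild inertia -/

section Wild

variable {L : Type*} [NormedField L] [IsUltrametricDist L] [CompleteSpace L] [Finite (Res L)]
variable {G : Type*} [Group G] [Fintype G] [MulSemiringAction G L] [IsIsometricSMul G L]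
  [FaithfulSMul G L]

/-- the wild inertia subgroup (kernel of the tame character). -/
noncomputable def wildInertia (G : Type*) [Group G] [MulSemiringAction G L] [IsIsometricSMul G L]
    {π : L} (hπ0 : π ≠ 0) : Subgroup G :=
  (theta (G := G) hπ0).ker.map (inertia G L).subtype

lemma mem_wildInertia {π : L} (hπ0 : π ≠ 0) {σ : G} :
    σ ∈ wildInertia G hπ0 ↔ σ ∈ inertia G L ∧ ‖σ • π - π‖ < ‖π‖ := by
  rw [wildInertia, Subgroup.mem_map]
  constructor
  · rintro ⟨τ, hτ, rfl⟩
    refine ⟨τ.2, ?_⟩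
    rw [MonoidHom.mem_ker, theta_eq_one_iff] at hτ
    exact hτ
  · rintro ⟨h1, h2⟩
    refine ⟨⟨σ, h1⟩, ?_, rfl⟩
    rw [MonoidHom.mem_ker, theta_eq_one_iff]
    exact h2

instance wildInertia_normal {π : L} (hπ0 : π ≠ 0) : (wildInertia G hπ0).Normal := by
  refine ⟨fun σ hσ g => ?_⟩
  rw [wildInertia, Subgroup.mem_map] at hσ ⊢
  obtain ⟨τ, hτ, rfl⟩ := hσ
  refine ⟨⟨g * (τ : G) * g⁻¹, (inertia_normal (G := G) (L := L)).conj_mem _ τ.2 g⟩, ?_, rfl⟩
  rw [MonoidHom.mem_ker] at hτ ⊢
  apply Units.ext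
  rw [theta_conj, hτ, Units.val_one, map_one]

variable {k : Type*} [Field k] [Finite k] {p : ℕ} [Fact p.Prime] [CharP k p]

omit [Fact p.Prime] in
lemma isPGroup_wildInertia [Fact p.Prime] {π : L} (hπ : IsUnif (⊤ : Subfield L) π)
    (hp : ‖(p : L)‖ < 1) : IsPGroup p (wildInertia G hπ.ne_zero) := by
  intro w
  obtain ⟨h1, h2⟩ := (mem_wildInertia hπ.ne_zero).mp w.2
  obtain ⟨n, hn⟩ := exists_pow_pow_eq_one hπ hp h1 h2
  exact ⟨n, Subtype.ext hn⟩

omit [Fintype G] [FaithfulSMul G L] [CompleteSpace L] [Finite (Res L)] in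
lemma prime_dvd_card_vec : p ∣ Nat.card (Fin 2 → k) := by
  have := Fintype.ofFinite k
  obtain ⟨n, -, hn⟩ := FiniteField.card k p
  rw [Nat.card_eq_fintype_card, Fintype.card_fun, Fintype.card_fin, hn]
  exact dvd_pow (dvd_pow_self p n.ne_zero) two_ne_zero

/-- **(1) Wild inertia is trivial** as soon as `G` has a faithful representation on `k²`
(`char k = p`) without stable line. -/
theorem eq_one_of_mem_wildInertia {π : L} (hπ : IsUnif (⊤ : Subfield L) π)
    (hp : ‖(p : L)‖ < 1) (r : G →* Matrix (Fin 2) (Fin 2) k) (hr : Function.Injective r)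
    (hline : ∀ v : Fin 2 → k, v ≠ 0 → ∃ g : G, ∀ c : k, r g *ᵥ v ≠ c • v)
    {σ : G} (hσ : σ ∈ wildInertia G hπ.ne_zero) : σ = 1 := by
  classical
  set W := wildInertia G hπ.ne_zero with hW
  letI act : MulAction W (Fin 2 → k) := vecAction (r.comp W.subtype)
  have hfix0 : (0 : Fin 2 → k) ∈ MulAction.fixedPoints W (Fin 2 → k) := by
    intro w
    show r (w : G) *ᵥ 0 = 0
    exact Matrix.mulVec_zero _
  obtain ⟨b, hb, hb0⟩ := (isPGroup_wildInertia (G := G) hπ hp).exists_fixed_point_of_prime_dvd_card_of_fixed_point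
    (Fin 2 → k) prime_dvd_card_vec hfix0
  have hbfix : ∀ w ∈ W, r w *ᵥ b = b := fun w hw => hb ⟨w, hw⟩
  obtain ⟨g, hg⟩ := hline b (Ne.symm hb0)
  have hb'fix : ∀ w ∈ W, r w *ᵥ (r g *ᵥ b) = r g *ᵥ b := by
    intro w hw
    have hconj : g⁻¹ * w * g ∈ W := by
      have := (wildInertia_normal (G := G) hπ.ne_zero).conj_mem w hw g⁻¹
      rwa [inv_inv] at this
    have h1 := hbfix _ hconj
    rw [map_mul, map_mul, ← Matrix.mulVec_mulVec, ← Matrix.mulVec_mulVec] at h1
    have h2 : r g *ᵥ (r g⁻¹ *ᵥ (r w *ᵥ (r g *ᵥ b))) = r g *ᵥ b := congrArg (fun x => r g *ᵥ x) h1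
    rw [Matrix.mulVec_mulVec, ← map_mul, mul_inv_cancel, map_one, Matrix.one_mulVec] at h2
    exact h2
  apply hr
  rw [map_one]
  exact eq_one_of_mulVec_eq (Ne.symm hb0) hg (hbfix σ hσ) (hb'fix σ hσ)

/-- **(2a)** the tame character is injective. -/
theorem theta_injective {π : L} (hπ : IsUnif (⊤ : Subfield L) π)
    (hp : ‖(p : L)‖ < 1) (r : G →* Matrix (Fin 2) (Fin 2) k) (hr : Function.Injective r)
    (hline : ∀ v : Fin 2 → k, v ≠ 0 → ∃ g : G, ∀ c : k, r g *ᵥ v ≠ c • v) :
    Function.Injective (theta (G := G) hπ.ne_zero) := by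
  rw [injective_iff_map_eq_one]
  intro σ hσ
  have : (σ : G) ∈ wildInertia G hπ.ne_zero := by
    rw [mem_wildInertia]
    exact ⟨σ.2, (theta_eq_one_iff hπ.ne_zero σ).mp hσ⟩
  exact Subtype.ext (eq_one_of_mem_wildInertia hπ hp r hr hline this)

end Wild

end Fermat.Agent.Ram
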