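/-
S56, leaf F2, work package WP-C (tame structure), part 3: the inertia group is cyclic of order
`e₀` prime to `p`, `‖π‖ ^ e₀ = ‖p‖`, and there is a Frobenius element.
-/
import Fermat.Agent.Ram.TameStr_helper2_Wild

set_option autoImplicit false
set_option linter.unusedSectionVars false

namespace Fermat.Agent.Ram

open Filter Topology Matrix Polynomial

section ResChar

variable {L : Type*} [NormedField L] [IsUltrametricDist L]

lemma natCast_mem_intRing (n : ℕ) : (n : L) ∈ intRing L := by
  rw [mem_intRing]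
  exact IsUltrametricDist.norm_natCast_le_one L n

lemma res_natCast (n : ℕ) : res L ⟨(n : L), natCast_mem_intRing n⟩ = (n : Res L) := by
  have : (⟨(n : L), natCast_mem_intRing n⟩ : intRing L) = (n : intRing L) := by
    apply Subtype.ext
    simp
  rw [this, map_natCast]

/-- the residue field has characteristic `p` as soon as `‖p‖ < 1`. -/
lemma charP_res {p : ℕ} (hpp : p.Prime) (hp : ‖(p : L)‖ < 1) : CharP (Res L) p := by
  rw [CharP.charP_iff_prime_eq_zero hpp, ← res_natCast, res_eq_zero_iff]
  exact hp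

end ResChar

section Cyclic

variable {L : Type*} [NormedField L] [IsUltrametricDist L] [CompleteSpace L] [Finite (Res L)]
variable {G : Type*} [Group G] [Fintype G] [MulSemiringAction G L] [IsIsometricSMul G L]
  [FaithfulSMul G L]
variable {k : Type*} [Field k] [Finite k] {p : ℕ} [Fact p.Prime] [CharP k p]

/-- **(2b)** the inertia group is cyclic. -/
theorem isCyclic_inertia {π : L} (hπ : IsUnif (⊤ : Subfield L) π)
    (hp : ‖(p : L)‖ < 1) (r : G →* Matrix (Fin 2) (Fin 2) k) (hr : Function.Injective r)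
    (hline : ∀ v : Fin 2 → k, v ≠ 0 → ∃ g : G, ∀ c : k, r g *ᵥ v ≠ c • v) :
    IsCyclic ↥(inertia G L) :=
  isCyclic_of_injective (theta (G := G) hπ.ne_zero) (theta_injective hπ hp r hr hline)

omit [CompleteSpace L] [Fintype G] [FaithfulSMul G L] in
/-- the order of a group embedding into `(Res L)ˣ` is prime to `p`. -/
lemma coprime_card_of_injective_units {H : Type*} [Group H] (hp : ‖(p : L)‖ < 1)
    (f : H →* (Res L)ˣ) (hf : Function.Injective f) : (Nat.card H).Coprime p := by
  have := Fintype.ofFinite (Res L)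
  haveI := charP_res (L := L) (Fact.out : p.Prime) hp
  obtain ⟨n, -, hn⟩ := FiniteField.card (Res L) p
  have h1 : Nat.card H ∣ Nat.card (Res L)ˣ := Subgroup.card_dvd_of_injective f hf
  have h2 : Nat.card (Res L)ˣ = p ^ (n : ℕ) - 1 := by
    rw [Nat.card_units, Nat.card_eq_fintype_card, hn]
  rw [h2] at h1
  apply Nat.Coprime.coprime_dvd_left h1
  rw [Nat.coprime_comm, (Fact.out : p.Prime).coprime_iff_not_dvd]
  intro h3
  have h4 : p ∣ p ^ (n : ℕ) := dvd_pow_self p n.ne_zero
  have h5 : 1 ≤ p ^ (n : ℕ) := Nat.one_le_pow _ _ (Fact.out : p.Prime).pos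
  have h6 : p ∣ 1 := by
    have := (Nat.dvd_sub h4 h3)
    rwa [Nat.sub_sub_self h5] at this
  exact (Fact.out : p.Prime).one_lt.ne' (Nat.dvd_one.mp h6)

/-- **(2c)** the order of the inertia group is prime to `p`. -/
theorem coprime_card_inertia {π : L} (hπ : IsUnif (⊤ : Subfield L) π)
    (hp : ‖(p : L)‖ < 1) (r : G →* Matrix (Fin 2) (Fin 2) k) (hr : Function.Injective r)
    (hline : ∀ v : Fin 2 → k, v ≠ 0 → ∃ g : G, ∀ c : k, r g *ᵥ v ≠ c • v) :
    (Nat.card ↥(inertia G L)).Coprime p :=
  coprime_card_of_injective_units hp (theta (G := G) hπ.ne_zero)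
    (theta_injective hπ hp r hr hline)

omit [Finite k] [CharP k p] in
/-- **(2d)** `‖π‖ ^ e₀ = ‖p‖`, `e₀` the order of the inertia group, when `p` is a uniformizer of the
fixed field. -/
theorem norm_pow_card_inertia {π : L} (hπ : IsUnif (⊤ : Subfield L) π)
    (hpU : IsUnif (FixedPoints.subfield G L) (p : L)) :
    ‖π‖ ^ Nat.card ↥(inertia G L) = ‖(p : L)‖ := by
  classical
  haveI : Fintype ↥(inertia G L) := Fintype.ofFinite _
  rw [Nat.card_eq_fintype_card]
  set e := Fintype.card ↥(inertia G L) with he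
  have he0 : 0 < e := Fintype.card_pos
  obtain ⟨y, hyG, hy⟩ := exists_fixed_norm_eq_pow (G := G) hπ
  have hy0 : y ≠ 0 := by
    rw [← norm_pos_iff, hy]; exact pow_pos hπ.pos _
  have hy1 : ‖y‖ < 1 := by
    rw [hy]; exact pow_lt_one₀ (norm_nonneg _) hπ.lt_one he0.ne'
  obtain ⟨a, ha⟩ := hpU.exists_pow hyG hy0 hy1.le
  obtain ⟨m, hm⟩ := hπ.exists_pow (Subfield.mem_top _) hpU.ne_zero hpU.lt_one.le
  have hm0 : 0 < m := by
    rcases Nat.eq_zero_or_pos m with h | h
    · rw [h, pow_zero] at hm
      exact absurd hm hpU.lt_one.ne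
    · exact h
  -- `e ≤ m`
  have hpI : (p : L) ∈ FixedPoints.subfield ↥(inertia G L) L := fun σ => hpU.mem (σ : G)
  have hem : e ≤ m :=
    card_le_of_norm_eq_pow (J := ↥(inertia G L)) hπ inertia_triv hpI hm0 hm
  -- `e = m * a`
  have hpow : ‖π‖ ^ e = ‖π‖ ^ (m * a) := by
    rw [← hy, ha, hm, pow_mul]
  have hinj : e = m * a := by
    rcases lt_trichotomy e (m * a) with h | h | h
    · exact absurd hpow (pow_lt_pow_right_of_lt_one₀ hπ.pos hπ.lt_one h).ne'
    · exact h
    · exact absurd hpow (pow_lt_pow_right_of_lt_one₀ hπ.pos hπ.lt_one h).ne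
  have ha1 : a = 1 := by
    rcases Nat.eq_zero_or_pos a with h | h
    · rw [h, mul_zero] at hinj
      omega
    · by_contra hne
      have h2 : 2 ≤ a := by omega
      have : m * 2 ≤ m * a := Nat.mul_le_mul_left m h2
      omega
  rw [ha1, mul_one] at hinj
  rw [hinj, hm]

end Cyclic

/-! ### the Frobenius element -/

section Frobenius

variable {L : Type*} [NormedField L] [IsUltrametricDist L] [CompleteSpace L] [Finite (Res L)]
variable {G : Type*} [Group G] [Fintype G] [MulSemiringAction G L] [IsIsometricSMul G L]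
variable {p : ℕ} [Fact p.Prime]

/-- in characteristic `p`, a polynomial with coefficients fixed by Frobenius commutes with
Frobenius. -/
lemma eval_pow_char_of_coeff {K : Type*} [CommRing K] [CharP K p] (Q : K[X])
    (hQ : ∀ i, Q.coeff i ^ p = Q.coeff i) (x : K) : Q.eval (x ^ p) = Q.eval x ^ p := by
  have h1 : Q.map (frobenius K p) = Q := by
    ext i
    rw [coeff_map, frobenius_def, hQ]
  have h2 := Polynomial.hom_eval₂ Q (RingHom.id K) (frobenius K p) x
  rw [RingHom.comp_id, ← Polynomial.eval_map (frobenius K p), h1, frobenius_def, frobenius_def,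
    Polynomial.eval₂_id] at h2
  exact h2.symm

omit [CompleteSpace L] [Finite (Res L)] in
/-- the polynomial `∏ g, (X - g • a)` has `G`-fixed coefficients. -/
lemma coeff_prod_X_sub_smul_mem (a : L) (i : ℕ) :
    (∏ g : G, (X - C (g • a))).coeff i ∈ FixedPoints.subfield G L := by
  intro h
  have h1 : h • (∏ g : G, (X - C (g • a))) = ∏ g : G, (X - C (g • a)) := by
    rw [Finset.smul_prod']
    simp only [smul_sub, Polynomial.smul_X, Polynomial.smul_C, smul_smul]
    exact Fintype.prod_equiv (Equiv.mulLeft h) _ _ (fun g => rfl)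
  have h2 := congrArg (fun P : L[X] => P.coeff i) h1
  simp only [Polynomial.coeff_smul] at h2
  exact h2

/-- **(3a) existence of a Frobenius element**: if the residue field of the fixed field is the prime
field, some `F ∈ G` induces `x ↦ x ^ p` on the residue field. -/
theorem exists_frobenius (hp : ‖(p : L)‖ < 1)
    (hfix : ∀ a ∈ FixedPoints.subfield G L, ‖a‖ ≤ 1 → ∃ n : ℕ, ‖a - n‖ < 1) :
    ∃ F : G, ∀ x : Res L, resHom F x = x ^ p := by
  classical
  haveI := charP_res (L := L) (Fact.out : p.Prime) hp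
  haveI := Fintype.ofFinite (Res L)
  -- a generator of the multiplicative group of the residue field
  obtain ⟨x₀, hx₀⟩ := IsCyclic.exists_generator (α := (Res L)ˣ)
  obtain ⟨a₀, ha₀⟩ := res_surjective (x₀ : Res L)
  -- the polynomial `P = ∏ (X - g a₀)` over the ring of integers
  set P : (intRing L)[X] := ∏ g : G, (X - C (smulInt g a₀)) with hP
  have hPL : P.map (intRing L).subtype = ∏ g : G, (X - C (g • (a₀ : L))) := by
    rw [hP, Polynomial.map_prod]
    refine Finset.prod_congr rfl fun g _ => ?_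
    rw [Polynomial.map_sub, Polynomial.map_X, Polynomial.map_C]
    rfl
  set Pbar : (Res L)[X] := P.map (res L) with hPbar
  have hPbar' : Pbar = ∏ g : G, (X - C (resHom g (x₀ : Res L))) := by
    rw [hPbar, hP, Polynomial.map_prod]
    refine Finset.prod_congr rfl fun g _ => ?_
    rw [Polynomial.map_sub, Polynomial.map_X, Polynomial.map_C, ← ha₀, resHom_res]
  -- the coefficients of `Pbar` are in the prime field
  have hcoeff : ∀ i, Pbar.coeff i ^ p = Pbar.coeff i := by
    intro i
    rw [hPbar, coeff_map]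
    have hmem : ((P.coeff i : intRing L) : L) ∈ FixedPoints.subfield G L := by
      have := coeff_prod_X_sub_smul_mem (G := G) (a₀ : L) i
      rw [← hPL, coeff_map] at this
      exact this
    obtain ⟨n, hn⟩ := hfix _ hmem (P.coeff i).2
    have : res L (P.coeff i) = (n : Res L) := by
      rw [← res_natCast, res_eq_iff]
      exact hn
    rw [this, ← frobenius_def]
    exact map_natCast (frobenius (Res L) p) n
  -- `x₀` is a root, hence so is `x₀ ^ p`
  have hroot : Pbar.eval (x₀ : Res L) = 0 := by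
    rw [hPbar', eval_prod]
    apply Finset.prod_eq_zero (Finset.mem_univ (1 : G))
    rw [eval_sub, eval_X, eval_C, resHom_one, RingHom.id_apply, sub_self]
  have hroot' : Pbar.eval ((x₀ : Res L) ^ p) = 0 := by
    rw [eval_pow_char_of_coeff Pbar hcoeff, hroot, zero_pow (Fact.out : p.Prime).ne_zero]
  rw [hPbar', eval_prod, Finset.prod_eq_zero_iff] at hroot'
  obtain ⟨F, -, hF⟩ := hroot'
  rw [eval_sub, eval_X, eval_C, sub_eq_zero] at hF
  refine ⟨F, fun x => ?_⟩
  by_cases hx : x = 0
  · rw [hx, map_zero, zero_pow (Fact.out : p.Prime).ne_zero]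
  · obtain ⟨n, hn⟩ : ∃ n : ℕ, x₀ ^ n = Units.mk0 x hx := by
      have := hx₀ (Units.mk0 x hx)
      rw [Subgroup.mem_zpowers_iff] at this
      obtain ⟨z, hz⟩ := this
      have hfin : IsOfFinOrder x₀ := isOfFinOrder_of_finite x₀
      obtain ⟨n, hn⟩ := hfin.mem_powers_iff_mem_zpowers.mpr ⟨z, hz⟩
      exact ⟨n, hn⟩
    have hxn : x = (x₀ : Res L) ^ n := by
      have := congrArg (fun u : (Res L)ˣ => (u : Res L)) hn
      simp only [Units.val_pow_eq_pow_val, Units.val_mk0] at this
      exact this.symm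
    rw [hxn, map_pow, ← hF, ← pow_mul, ← pow_mul, mul_comm]

end Frobenius

end Fermat.Agent.Ram
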