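/-
Tame structure (S56 leaf F2, work package WP-C), part 4: the Frobenius element acts on the inertia
group by `σ ↦ σ ^ p`, and `G` is generated by the inertia group and a Frobenius element.

* `resHom_pow_of_frobenius` : `resHom (F ^ n) x = x ^ p ^ n`.
* `frobenius_conj` **(3b)** : `F * σ * F⁻¹ = σ ^ p` for `σ` in the inertia group.
* `exists_pow_inv_mul_mem_inertia` **(3c)** : every `g : G` is `F ^ n * τ` with `τ` in the
  inertia group.
* `exists_generator_inertia`, `exists_eq_pow_mul_pow` : `G = ⟨σ₀, F⟩`.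
* `orderOf_theta_generator` : `orderOf (θ σ₀) = e₀`.
-/
import Fermat.Agent.Ram.TameStr_helper2_Cyclic

set_option autoImplicit false
set_option linter.unusedSectionVars false

namespace Fermat.Agent.Ram

open Filter Topology Matrix Polynomial

section Frob

variable {L : Type*} [NormedField L] [IsUltrametricDist L] [CompleteSpace L] [Finite (Res L)]
variable {G : Type*} [Group G] [Fintype G] [MulSemiringAction G L] [IsIsometricSMul G L]
  [FaithfulSMul G L]
variable {k : Type*} [Field k] [Finite k] {p : ℕ} [Fact p.Prime] [CharP k p]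

omit [CompleteSpace L] [Finite (Res L)] [Fintype G] [FaithfulSMul G L] [Fact p.Prime] in
/-- powers of a Frobenius element act by `x ↦ x ^ p ^ n` on the residue field. -/
lemma resHom_pow_of_frobenius {F : G} (hF : ∀ x : Res L, resHom F x = x ^ p) (n : ℕ)
    (x : Res L) : resHom (F ^ n) x = x ^ p ^ n := by
  induction n generalizing x with
  | zero => rw [pow_zero, resHom_one, RingHom.id_apply, pow_zero, pow_one]
  | succ n ih =>
    rw [pow_succ, resHom_mul, RingHom.comp_apply, hF, ih, ← pow_mul, pow_succ, mul_comm]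

/-- **(3b)** a Frobenius element conjugates the inertia group by `σ ↦ σ ^ p`. -/
theorem frobenius_conj {π : L} (hπ : IsUnif (⊤ : Subfield L) π)
    (hp : ‖(p : L)‖ < 1) (r : G →* Matrix (Fin 2) (Fin 2) k) (hr : Function.Injective r)
    (hline : ∀ v : Fin 2 → k, v ≠ 0 → ∃ g : G, ∀ c : k, r g *ᵥ v ≠ c • v)
    {F : G} (hF : ∀ x : Res L, resHom F x = x ^ p) {σ : G} (hσ : σ ∈ inertia G L) :
    F * σ * F⁻¹ = σ ^ p := by
  have h1 : theta (G := G) hπ.ne_zero
      ⟨F * σ * F⁻¹, (inertia_normal (G := G) (L := L)).conj_mem _ hσ F⟩ =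
      theta hπ.ne_zero ((⟨σ, hσ⟩ : ↥(inertia G L)) ^ p) := by
    apply Units.ext
    rw [theta_conj hπ.ne_zero F ⟨σ, hσ⟩, hF, map_pow, Units.val_pow_eq_pow_val]
  have h2 := theta_injective hπ hp r hr hline h1
  exact congrArg Subtype.val h2

omit [FaithfulSMul G L] in
/-- **(3c)** every element of `G` is a power of the Frobenius element times an element of the
inertia group. -/
theorem exists_pow_inv_mul_mem_inertia (hp : ‖(p : L)‖ < 1)
    {F : G} (hF : ∀ x : Res L, resHom F x = x ^ p) (g : G) :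
    ∃ n : ℕ, (F ^ n)⁻¹ * g ∈ inertia G L := by
  classical
  haveI := charP_res (L := L) (Fact.out : p.Prime) hp
  haveI := Fintype.ofFinite (Res L)
  letI : Algebra (ZMod p) (Res L) := ZMod.algebra (Res L) p
  let f : Res L →ₐ[ZMod p] Res L :=
    { resHom (L := L) g with
      commutes' := fun c => by
        have : (resHom (L := L) g).comp (algebraMap (ZMod p) (Res L)) =
            algebraMap (ZMod p) (Res L) := Subsingleton.elim _ _
        exact RingHom.congr_fun this c }
  obtain ⟨n, hn⟩ := (FiniteField.bijective_frobeniusAlgHom_pow (ZMod p) (Res L)).2 f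
  refine ⟨n, ?_⟩
  rw [← resHom_eq_iff]
  refine RingHom.ext fun x => ?_
  rw [resHom_pow_of_frobenius hF]
  have h1 := DFunLike.congr_fun hn x
  simp only [AlgHom.coe_pow, FiniteField.coe_frobeniusAlgHom, pow_iterate, ZMod.card] at h1
  rw [h1]
  rfl

/-- a generator `σ₀` of the inertia group; its order, and the order of `θ σ₀`, is the order `e₀`
of the inertia group. -/
theorem exists_generator_inertia {π : L} (hπ : IsUnif (⊤ : Subfield L) π)
    (hp : ‖(p : L)‖ < 1) (r : G →* Matrix (Fin 2) (Fin 2) k) (hr : Function.Injective r)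
    (hline : ∀ v : Fin 2 → k, v ≠ 0 → ∃ g : G, ∀ c : k, r g *ᵥ v ≠ c • v) :
    ∃ (σ₀ : G) (hσ₀ : σ₀ ∈ inertia G L), (∀ τ ∈ inertia G L, ∃ m : ℕ, τ = σ₀ ^ m) ∧
      orderOf σ₀ = Nat.card ↥(inertia G L) ∧
      orderOf (theta (G := G) hπ.ne_zero ⟨σ₀, hσ₀⟩) = Nat.card ↥(inertia G L) := by
  haveI := isCyclic_inertia hπ hp r hr hline
  obtain ⟨s, hs⟩ := IsCyclic.exists_generator (α := ↥(inertia G L))
  have hord : orderOf s = Nat.card ↥(inertia G L) := orderOf_eq_card_of_forall_mem_zpowers hs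
  refine ⟨(s : G), s.2, ?_, ?_, ?_⟩
  · intro τ hτ
    have h1 := hs ⟨τ, hτ⟩
    rw [← mem_powers_iff_mem_zpowers, Submonoid.mem_powers_iff] at h1
    obtain ⟨m, hm⟩ := h1
    refine ⟨m, ?_⟩
    have := congrArg Subtype.val hm
    rw [Subgroup.coe_pow] at this
    exact this.symm
  · rw [Subgroup.orderOf_coe, hord]
  · rw [orderOf_injective _ (theta_injective hπ hp r hr hline), hord]

omit [FaithfulSMul G L] in
/-- `G = ⟨σ₀, F⟩`: every element is `F ^ n * σ₀ ^ m`. -/
theorem exists_eq_pow_mul_pow (hp : ‖(p : L)‖ < 1)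
    {F : G} (hF : ∀ x : Res L, resHom F x = x ^ p) {σ₀ : G}
    (hgen : ∀ τ ∈ inertia G L, ∃ m : ℕ, τ = σ₀ ^ m) (g : G) :
    ∃ n m : ℕ, g = F ^ n * σ₀ ^ m := by
  obtain ⟨n, hn⟩ := exists_pow_inv_mul_mem_inertia hp hF g
  obtain ⟨m, hm⟩ := hgen _ hn
  refine ⟨n, m, ?_⟩
  rw [← hm, mul_inv_cancel_left]

omit [FaithfulSMul G L] in
/-- `G = ⟨σ₀, F⟩`, closure form. -/
theorem closure_pair_eq_top (hp : ‖(p : L)‖ < 1)
    {F : G} (hF : ∀ x : Res L, resHom F x = x ^ p) {σ₀ : G}
    (hgen : ∀ τ ∈ inertia G L, ∃ m : ℕ, τ = σ₀ ^ m) :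
    Subgroup.closure ({σ₀, F} : Set G) = ⊤ := by
  rw [eq_top_iff]
  intro g _
  obtain ⟨n, m, rfl⟩ := exists_eq_pow_mul_pow hp hF hgen g
  refine Subgroup.mul_mem _ (Subgroup.pow_mem _ (Subgroup.subset_closure ?_) _)
    (Subgroup.pow_mem _ (Subgroup.subset_closure ?_) _)
  · exact Set.mem_insert_of_mem _ rfl
  · exact Set.mem_insert _ _

end Frob

end Fermat.Agent.Ram
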